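import Fermat.Agent.BadRed.KLat6
import Fermat.Agent.FunField.AlgClosed

/-!
# Gluing (abstract part, over the residue field)

`T m ≤ ∏ L(m • Eb i + J i)` a family of spaces of tuples of functions on several copies of a curve,
containing the conductor.  Saturation, simultaneous local generators and the gluing lemma for
`n`-th roots.
-/

set_option autoImplicit false
set_option linter.unusedSectionVars false

noncomputable section

open AlgebraicCurve Module

namespace Fermat.Agent.Car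

open Fermat.Agent.FunField Fermat.Agent.FunField.PlaceLemmas Fermat.Agent.Deuring
  Fermat.Agent.BadRed

section Lin

variable {k V : Type*} [Field k] [AddCommGroup V] [Module k V]

/-- stabilisation modulo a subspace of finite codimension -/
theorem exists_stable_sup {T : ℕ → Submodule k V} (hT : Monotone T) (C W : Submodule k V)
    [FiniteDimensional k W] (h : ∀ m, T m ≤ W ⊔ C) : ∃ m₀, ∀ m, T m ≤ T m₀ ⊔ C := by
  have hN : IsNoetherian k W := inferInstance
  let R : ℕ →o Submodule k W :=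
    ⟨fun m => (T m ⊔ C).comap W.subtype, fun a b hab => by
      refine Submodule.comap_mono ?_
      exact sup_le_sup_right (hT hab) _⟩
  obtain ⟨m₀, hm₀⟩ := monotone_stabilizes_iff_noetherian.mpr hN R
  refine ⟨m₀, fun m x hx => ?_⟩
  rcases le_total m m₀ with hle | hle
  · exact Submodule.mem_sup_left (hT hle hx)
  obtain ⟨w, hw, c, hc, rfl⟩ := Submodule.mem_sup.mp (h m hx)
  have h1 : (⟨w, hw⟩ : W) ∈ R m := by
    show w ∈ T m ⊔ C
    have h2 : w = (w + c) - c := by abel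
    rw [h2]
    exact Submodule.sub_mem _ (Submodule.mem_sup_left hx) (Submodule.mem_sup_right hc)
  rw [← hm₀ m hle] at h1
  exact Submodule.add_mem _ h1 (Submodule.mem_sup_right hc)

end Lin

variable {k F₁ : Type*} [Field k] [Field F₁] [Algebra k F₁]

section Local

variable {v : Place k F₁}

theorem inv_sub_mem_geSub {n : ℕ} (hn : (n : k) ≠ 0) {u : F₁} {γ : k} (hγ : γ ≠ 0)
    (hu : u - algebraMap k F₁ γ ∈ geSub v 1) :
    algebraMap k F₁ γ⁻¹ * (1 + algebraMap k F₁ (n : k)⁻¹ * (1 - algebraMap k F₁ (γ⁻¹ ^ n) * u ^ n))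
      - u⁻¹ ∈ geSub v 2 := by
  have hγ1 : algebraMap k F₁ γ ≠ 0 := by simpa using hγ
  have hn1 : (n : F₁) ≠ 0 := by
    have : algebraMap k F₁ (n : k) ≠ 0 := (map_ne_zero _).mpr hn
    rwa [map_natCast] at this
  -- `u = γ (1 + η)`
  set η : F₁ := algebraMap k F₁ γ⁻¹ * (u - algebraMap k F₁ γ) with hη
  have hη1 : η ∈ geSub v 1 := by
    have := mul_mem_geSub (algebraMap_mem_geSub_zero v γ⁻¹) hu
    rwa [zero_add] at this
  have hu1 : u = algebraMap k F₁ γ * (1 + η) := by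
    rw [hη, map_inv₀]; field_simp; ring
  have hη0 : η ∈ geSub v 0 := geSub_anti v (by norm_num) hη1
  -- powers
  have hpow : ∀ m : ℕ, ∃ r ∈ geSub v 0, (1 + η) ^ m = 1 + m * η + η ^ 2 * r := by
    intro m
    induction m with
    | zero => exact ⟨0, Submodule.zero_mem _, by simp⟩
    | succ m ih =>
      obtain ⟨r, hr, h⟩ := ih
      refine ⟨m + r + η * r, ?_, ?_⟩
      · refine Submodule.add_mem _ (Submodule.add_mem _ ?_ hr) ?_
        · have := algebraMap_mem_geSub_zero v (m : k)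
          rwa [map_natCast] at this
        · have := mul_mem_geSub hη0 hr
          rwa [zero_add] at this
      · rw [pow_succ, h]; push_cast; ring
  obtain ⟨r, hr, hr1⟩ := hpow n
  -- `1 + η` is a unit
  have h1η : (1 + η) ∉ geSub v 1 := by
    intro h
    have h2 : (1 : F₁) ∈ geSub v 1 := by
      have := Submodule.sub_mem _ h hη1
      rwa [add_sub_cancel_right] at this
    have h3 := eq_zero_of_algebraMap_mem v (a := (1 : k)) (by rwa [map_one])
    exact one_ne_zero h3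
  have h1η0 : (1 + η) ≠ 0 := fun h => h1η (by rw [h]; exact Submodule.zero_mem _)
  have hord : v.ord (1 + η) = 0 := by
    have h2 : (1 + η) ∈ geSub v 0 := Submodule.add_mem _ (one_mem_geSub_zero v) hη0
    rw [mem_geSub_of_ne h1η0] at h2 h1η
    omega
  have hinv : (1 + η)⁻¹ ∈ geSub v 0 := by
    rw [mem_geSub_of_ne (inv_ne_zero h1η0), v.ord_inv, hord, neg_zero]
  have hη2 : η ^ 2 ∈ geSub v 2 := by
    have := mul_mem_geSub hη1 hη1
    rw [pow_two]
    exact this
  have key : algebraMap k F₁ γ⁻¹ * (1 + algebraMap k F₁ (n : k)⁻¹ *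
      (1 - algebraMap k F₁ (γ⁻¹ ^ n) * u ^ n)) - u⁻¹
      = algebraMap k F₁ γ⁻¹ * (η ^ 2 * (-(algebraMap k F₁ (n : k)⁻¹ * r) - (1 + η)⁻¹)) := by
    have h3 : algebraMap k F₁ (γ⁻¹ ^ n) * u ^ n = (1 + η) ^ n := by
      rw [hu1, mul_pow, ← mul_assoc, map_pow, ← mul_pow, ← map_mul, inv_mul_cancel₀ hγ, map_one,
        one_pow, one_mul]
    rw [h3, hr1]
    have h4 : u⁻¹ = algebraMap k F₁ γ⁻¹ * (1 + η)⁻¹ := by
      rw [hu1, mul_inv, map_inv₀]
    rw [h4, map_inv₀, map_inv₀, map_natCast]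
    field_simp
    ring
  rw [key]
  have h5 : -(algebraMap k F₁ (n : k)⁻¹ * r) - (1 + η)⁻¹ ∈ geSub v 0 := by
    refine Submodule.sub_mem _ (Submodule.neg_mem _ ?_) hinv
    have := mul_mem_geSub (algebraMap_mem_geSub_zero v (n : k)⁻¹) hr
    rwa [zero_add] at this
  have h6 := mul_mem_geSub (algebraMap_mem_geSub_zero v γ⁻¹) (mul_mem_geSub hη2 h5)
  simpa using h6

theorem idem_one {s : F₁} (hs : s - 1 ∈ geSub v 1) : 3 * s ^ 2 - 2 * s ^ 3 - 1 ∈ geSub v 2 := by
  set η := s - 1 with hη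
  have h0 : η ∈ geSub v 0 := geSub_anti v (by norm_num) hs
  have h2 : η * η ∈ geSub v 2 := mul_mem_geSub hs hs
  have h3 : 3 * s ^ 2 - 2 * s ^ 3 - 1 = (η * η) * (-(3 + 2 * η)) := by
    have : s = 1 + η := by rw [hη]; ring
    rw [this]; ring
  rw [h3]
  have h4 : -(3 + 2 * η) ∈ geSub v 0 := by
    refine Submodule.neg_mem _ (Submodule.add_mem _ ?_ ?_)
    · have := algebraMap_mem_geSub_zero v (3 : k)
      rwa [map_ofNat] at this
    · have := mul_mem_geSub (algebraMap_mem_geSub_zero v (2 : k)) h0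
      rwa [map_ofNat, zero_add] at this
  have := mul_mem_geSub h2 h4
  simpa using this

theorem idem_zero {s : F₁} (hs : s ∈ geSub v 1) : 3 * s ^ 2 - 2 * s ^ 3 ∈ geSub v 2 := by
  have h0 : s ∈ geSub v 0 := geSub_anti v (by norm_num) hs
  have h2 : s * s ∈ geSub v 2 := mul_mem_geSub hs hs
  have h3 : 3 * s ^ 2 - 2 * s ^ 3 = (s * s) * (3 - 2 * s) := by ring
  rw [h3]
  have h4 : 3 - 2 * s ∈ geSub v 0 := by
    refine Submodule.sub_mem _ ?_ ?_
    · have := algebraMap_mem_geSub_zero v (3 : k)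
      rwa [map_ofNat] at this
    · have := mul_mem_geSub (algebraMap_mem_geSub_zero v (2 : k)) h0
      rwa [map_ofNat, zero_add] at this
  have := mul_mem_geSub h2 h4
  simpa using this

end Local

section RR

variable [IsFF k F₁] [HasPrincipalDivisors k F₁] [IsAlgClosed k]

/-- functions with prescribed exact order at one place -/
theorem exists_exact {g₁ : ℤ} (hRR₁ : RRLarge k F₁ g₁) {E : Divisor k F₁}
    (hE : 0 < Divisor.degree E) (B : Divisor k F₁) (v : Place k F₁) :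
    ∃ m₀ : ℕ, ∀ m, m₀ ≤ m → ∃ x ∈ riemannRochSpace (m • E + B), x ≠ 0 ∧
      v.ord x = -((m • E + B) v) := by
  classical
  obtain ⟨c, hc⟩ := hRR₁
  refine ⟨(c + 1 - Divisor.degree B).toNat, fun m hm => ?_⟩
  have hm' : c + 1 - Divisor.degree B ≤ m := by
    have := Int.self_le_toNat (c + 1 - Divisor.degree B)
    omega
  have hdeg : Divisor.degree (m • E + B) = m * Divisor.degree E + Divisor.degree B := by
    rw [map_add, map_nsmul, nsmul_eq_mul]
  have h1 : c + 1 ≤ Divisor.degree (m • E + B) := by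
    rw [hdeg]
    nlinarith [Int.natCast_nonneg m]
  have hdv : Divisor.degree (m • E + B - Finsupp.single v 1)
      = Divisor.degree (m • E + B) - 1 := by
    rw [map_sub, Divisor.degree_single, Deuring.deg_eq_one]; norm_num
  obtain ⟨hf1, hd1⟩ := hc _ (show c ≤ Divisor.degree (m • E + B) by omega)
  obtain ⟨hf2, hd2⟩ := hc _ (show c ≤ Divisor.degree (m • E + B - Finsupp.single v 1) by omega)
  have hex : ∃ x ∈ riemannRochSpace (m • E + B),
      x ∉ riemannRochSpace (m • E + B - Finsupp.single v 1) := by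
    by_contra hcon
    push Not at hcon
    have := Submodule.finrank_mono (show riemannRochSpace (m • E + B) ≤
      riemannRochSpace (m • E + B - Finsupp.single v 1) from hcon)
    omega
  obtain ⟨x, hx, hx'⟩ := hex
  have hx0 : x ≠ 0 := fun h => hx' (by rw [h]; exact Submodule.zero_mem _)
  refine ⟨x, hx, hx0, ?_⟩
  rw [mem_rr_of_ne hx0] at hx
  rw [mem_rr_of_ne hx0] at hx'
  push Not at hx'
  obtain ⟨w, hw⟩ := hx'
  have hwv : w = v := by
    by_contra hne
    rw [Finsupp.sub_apply, Finsupp.single_apply, if_neg (Ne.symm hne)] at hw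
    have := hx w
    omega
  subst hwv
  rw [Finsupp.sub_apply, Finsupp.single_eq_same] at hw
  have := hx w
  omega

/-- `L(m E + B) = L(m₀ E + B) + L(m E + B - Z)` -/
theorem exists_sup {g₁ : ℤ} (hRR₁ : RRLarge k F₁ g₁) {E : Divisor k F₁} (hE0 : 0 ≤ E)
    (hE : 0 < Divisor.degree E) (B Z : Divisor k F₁) (hZ0 : 0 ≤ Z) (hEZ : ∀ v, Z v ≠ 0 → E v = 0) :
    ∃ m₀ : ℕ, ∀ m, m₀ ≤ m → riemannRochSpace (m • E + B) ≤
      riemannRochSpace (m₀ • E + B) ⊔ riemannRochSpace (m • E + B - Z) := by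
  have hRR := hRR₁
  obtain ⟨c, hc⟩ := hRR₁
  set m₀ := (c + Divisor.degree Z - Divisor.degree B).toNat with hm₀
  refine ⟨m₀, fun m hm => ?_⟩
  have hm' : c + Divisor.degree Z - Divisor.degree B ≤ m₀ :=
    Int.self_le_toNat (c + Divisor.degree Z - Divisor.degree B)
  have hZd := Deuring.degree_nonneg hZ0
  have hdeg : ∀ m : ℕ, Divisor.degree (m • E + B) = m * Divisor.degree E + Divisor.degree B :=
    fun m => by rw [map_add, map_nsmul, nsmul_eq_mul]
  have hge : ∀ m : ℕ, m₀ ≤ m → c + Divisor.degree Z ≤ Divisor.degree (m • E + B) := by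
    intro m hm
    rw [hdeg]
    have : (m₀ : ℤ) ≤ m := by exact_mod_cast hm
    nlinarith [Int.natCast_nonneg m]
  obtain ⟨hf1, hd1⟩ := hc (m • E + B) (by have := hge m hm; omega)
  obtain ⟨hf2, hd2⟩ := hc (m₀ • E + B) (by have := hge m₀ le_rfl; omega)
  obtain ⟨hf3, hd3⟩ := hc (m • E + B - Z) (by
    rw [map_sub]; have := hge m hm; omega)
  obtain ⟨hf4, hd4⟩ := hc (m₀ • E + B - Z) (by
    rw [map_sub]; have := hge m₀ le_rfl; omega)
  rw [map_sub] at hd3 hd4
  -- intersection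
  have hmono : m₀ • E + B ≤ m • E + B := by
    rw [Finsupp.le_def]
    intro v
    rw [Finsupp.add_apply, Finsupp.add_apply, Finsupp.smul_apply, Finsupp.smul_apply, nsmul_eq_mul,
      nsmul_eq_mul]
    have h1 := Finsupp.le_def.mp hE0 v
    rw [Finsupp.zero_apply] at h1
    have : (m₀ : ℤ) ≤ m := by exact_mod_cast hm
    nlinarith
  have hinf : riemannRochSpace (m₀ • E + B) ⊓ riemannRochSpace (m • E + B - Z)
      ≤ riemannRochSpace (m₀ • E + B - Z) := by
    rintro x ⟨h1, h2⟩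
    rcases eq_or_ne x 0 with rfl | hx0
    · exact Submodule.zero_mem _
    have h1' := (mem_rr_of_ne hx0).mp h1
    have h2' := (mem_rr_of_ne hx0).mp h2
    rw [mem_rr_of_ne hx0]
    intro v
    by_cases hv : Z v = 0
    · rw [Finsupp.sub_apply, hv, sub_zero]; exact h1' v
    · have h3 := h2' v
      rw [Finsupp.sub_apply, Finsupp.add_apply, Finsupp.smul_apply, hEZ v hv, smul_zero] at h3 ⊢
      exact h3
  have hsup : riemannRochSpace (m₀ • E + B) ⊔ riemannRochSpace (m • E + B - Z)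
      ≤ riemannRochSpace (m • E + B) := by
    refine sup_le (Deuring.rr_mono hmono) (Deuring.rr_mono ?_)
    exact sub_le_self _ hZ0
  have h5 := Submodule.finrank_sup_add_finrank_inf_eq (riemannRochSpace (m₀ • E + B))
    (riemannRochSpace (m • E + B - Z))
  have h6 := Submodule.finrank_mono hinf
  have h7 : finrank k ↥(riemannRochSpace (m • E + B)) ≤
      finrank k ↥(riemannRochSpace (m₀ • E + B) ⊔ riemannRochSpace (m • E + B - Z)) := by
    omega
  have h8 := Submodule.eq_of_le_of_finrank_le hsup h7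
  exact h8.ge

end RR

section Fam

variable {ι : Type*} [Fintype ι] [DecidableEq ι]

/-- the reduced divisor of the nodes -/
def nodeDiv (Z : Finset (Place k F₁)) : Divisor k F₁ := ∑ z ∈ Z, Finsupp.single z 1

theorem nodeDiv_apply (Z : Finset (Place k F₁)) (v : Place k F₁) [Decidable (v ∈ Z)] :
    nodeDiv Z v = if v ∈ Z then 1 else 0 := by
  classical
  rw [nodeDiv, Finsupp.coe_finsetSum, Finset.sum_apply]
  simp only [Finsupp.single_apply]
  rw [Finset.sum_ite_eq' Z v]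
  congr

theorem nodeDiv_mem {Z : Finset (Place k F₁)} {z : Place k F₁} (hz : z ∈ Z) : nodeDiv Z z = 1 := by
  classical
  rw [nodeDiv_apply, if_pos hz]

theorem nodeDiv_not_mem {Z : Finset (Place k F₁)} {z : Place k F₁} (hz : z ∉ Z) :
    nodeDiv Z z = 0 := by
  classical
  rw [nodeDiv_apply, if_neg hz]

theorem nodeDiv_nonneg (Z : Finset (Place k F₁)) : 0 ≤ nodeDiv Z := by
  rw [Finsupp.le_def]
  intro v
  by_cases h : v ∈ Z
  · rw [nodeDiv_mem h]; simp
  · rw [nodeDiv_not_mem h]; simp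

variable (Eb : ι → Divisor k F₁) (Z : Finset (Place k F₁)) (J : ι → Divisor k F₁)
  (S T : ℕ → Submodule k (ι → F₁))

/-- a family of spaces of tuples containing the conductor -/
structure Fam : Prop where
  mono : Monotone T
  le : ∀ m, ∀ a ∈ T m, ∀ i, a i ∈ riemannRochSpace (m • Eb i + J i)
  full : ∀ i, ∃ m₀ : ℕ, ∀ m, m₀ ≤ m → ∀ x ∈ riemannRochSpace (m • Eb i + J i), ∃ a ∈ T m, a i = x
  cond : ∀ i, ∃ m₀ : ℕ, ∀ m, m₀ ≤ m → ∀ x ∈ riemannRochSpace (m • Eb i + J i - 2 • nodeDiv Z),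
    Pi.single i x ∈ T m

variable {Eb Z J S T}

theorem exists_ge_all {P : ι → ℕ → Prop} (h : ∀ i, ∃ m₀ : ℕ, ∀ m, m₀ ≤ m → P i m) :
    ∃ m₀ : ℕ, ∀ m, m₀ ≤ m → ∀ i, P i m := by
  choose m₀ hm₀ using h
  exact ⟨∑ i, m₀ i, fun m hm i => hm₀ i m
    ((Finset.single_le_sum (fun _ _ => Nat.zero_le _) (Finset.mem_univ i)).trans hm)⟩

/-- elements which are small at all nodes -/
theorem Fam.exists_cond (H : Fam Eb Z J T) : ∃ m₀ : ℕ, ∀ m, m₀ ≤ m → ∀ a : ι → F₁,
    (∀ i, a i ∈ riemannRochSpace (m • Eb i + J i - 2 • nodeDiv Z)) → a ∈ T m := by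
  obtain ⟨m₀, hm₀⟩ := exists_ge_all H.cond
  refine ⟨m₀, fun m hm a ha => ?_⟩
  rw [← Finset.univ_sum_single a]
  exact Submodule.sum_mem _ fun i _ => hm₀ m hm i _ (ha i)

variable [IsFF k F₁] [HasPrincipalDivisors k F₁] [IsAlgClosed k] {g₁ : ℤ}

/-- **Saturation.** -/
theorem Fam.saturate (hRR₁ : RRLarge k F₁ g₁) (hE0 : ∀ i, 0 ≤ Eb i)
    (hE : ∀ i, 0 < Divisor.degree (Eb i)) (hZ : ∀ z ∈ Z, ∀ i, Eb i z = 0) (H : Fam Eb Z J T) :
    ∃ m₀ : ℕ, ∀ m, m₀ ≤ m → ∀ a : ι → F₁, (∃ m', a ∈ T m') →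
      (∀ i, a i ∈ riemannRochSpace (m • Eb i + J i)) → a ∈ T m := by
  classical
  obtain ⟨m₁, hm₁⟩ := H.exists_cond
  have hsup : ∀ i, ∃ m₀ : ℕ, ∀ m, m₀ ≤ m → riemannRochSpace (m • Eb i + J i) ≤
      riemannRochSpace (m₀ • Eb i + J i) ⊔ riemannRochSpace (m • Eb i + J i - 2 • nodeDiv Z) := by
    intro i
    refine exists_sup hRR₁ (hE0 i) (hE i) (J i) (2 • nodeDiv Z)
      (nsmul_nonneg (nodeDiv_nonneg Z) 2) fun v hv => ?_
    apply hZ v _ i
    by_contra hn
    apply hv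
    rw [Finsupp.smul_apply, nodeDiv_not_mem hn, smul_zero]
  choose m₂ hm₂ using hsup
  -- the ambient spaces
  let C : Submodule k (ι → F₁) :=
    { carrier := {a | ∃ m, ∀ i, a i ∈ riemannRochSpace (m • Eb i + J i - 2 • nodeDiv Z)}
      zero_mem' := ⟨0, fun i => Submodule.zero_mem _⟩
      add_mem' := by
        rintro a b ⟨m, hm⟩ ⟨m', hm'⟩
        refine ⟨m + m', fun i => Submodule.add_mem _ (Deuring.rr_mono ?_ (hm i))
          (Deuring.rr_mono ?_ (hm' i))⟩
        · refine sub_le_sub_right (add_le_add_left ?_ _) _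
          rw [add_nsmul]
          exact le_add_of_nonneg_right (nsmul_nonneg (hE0 i) _)
        · refine sub_le_sub_right (add_le_add_left ?_ _) _
          rw [add_nsmul]
          exact le_add_of_nonneg_left (nsmul_nonneg (hE0 i) _)
      smul_mem' := by
        rintro c a ⟨m, hm⟩
        exact ⟨m, fun i => Submodule.smul_mem _ _ (hm i)⟩ }
  let W : Submodule k (ι → F₁) :=
    Submodule.pi Set.univ fun i => riemannRochSpace (m₂ i • Eb i + J i)
  have hWf : FiniteDimensional k W := by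
    have h1 : ∀ i, FiniteDimensional k (riemannRochSpace (m₂ i • Eb i + J i)) :=
      fun i => finiteDimensional_rr hRR₁ _
    let φ : W →ₗ[k] (∀ i, riemannRochSpace (m₂ i • Eb i + J i)) :=
      { toFun := fun w i => ⟨w.1 i, w.2 i (Set.mem_univ i)⟩
        map_add' := fun _ _ => rfl
        map_smul' := fun _ _ => rfl }
    refine FiniteDimensional.of_injective φ fun a b hab => ?_
    apply Subtype.ext
    funext i
    exact congrArg Subtype.val (congrFun hab i)
  have hTle : ∀ m, T m ≤ W ⊔ C := by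
    intro m a ha
    set M := m + ∑ i, m₂ i with hM
    have h1 : ∀ i, a i ∈ riemannRochSpace (M • Eb i + J i) := fun i =>
      H.le M a (H.mono (by omega) ha) i
    have h2 : ∀ i, ∃ x ∈ riemannRochSpace (m₂ i • Eb i + J i),
        ∃ y ∈ riemannRochSpace (M • Eb i + J i - 2 • nodeDiv Z), x + y = a i := by
      intro i
      have hle : m₂ i ≤ M := by
        have := Finset.single_le_sum (f := m₂) (fun _ _ => Nat.zero_le _) (Finset.mem_univ i)
        omega
      exact Submodule.mem_sup.mp (hm₂ i M hle (h1 i))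
    choose x hx y hy hxy using h2
    have h3 : a = x + y := funext fun i => (hxy i).symm
    rw [h3]
    exact Submodule.add_mem_sup (fun i _ => hx i) ⟨M, hy⟩
  obtain ⟨m₃, hm₃⟩ := exists_stable_sup H.mono C W hTle
  refine ⟨m₁ + m₃, fun m hm a ⟨m', ha⟩ hle => ?_⟩
  obtain ⟨t, ht, c, ⟨mc, hc⟩, hsum⟩ := Submodule.mem_sup.mp (hm₃ m' ha)
  have htm : t ∈ T m := H.mono (by omega) ht
  have hcm : c ∈ T m := by
    apply hm₁ m (by omega)
    intro i
    have h1 : c i ∈ riemannRochSpace (m • Eb i + J i) := by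
      have : c i = a i - t i := by rw [← hsum]; simp
      rw [this]
      exact Submodule.sub_mem _ (hle i) (H.le m t htm i)
    have h2 := hc i
    rw [mem_rr] at h1 h2 ⊢
    intro v
    by_cases hv : v ∈ Z
    · have h3 := h2 v
      rw [Finsupp.sub_apply, Finsupp.add_apply, Finsupp.smul_apply, hZ v hv i, smul_zero] at h3 ⊢
      exact h3
    · have h3 := h1 v
      rw [Finsupp.sub_apply, Finsupp.smul_apply, nodeDiv_not_mem hv, smul_zero, sub_zero]
      exact h3
  rw [← hsum]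
  exact Submodule.add_mem _ htm hcm

/-- **Simultaneous local generators.** -/
theorem Fam.exists_gen (hRR₁ : RRLarge k F₁ g₁) 
    (hE : ∀ i, 0 < Divisor.degree (Eb i)) (hZ : ∀ z ∈ Z, ∀ i, Eb i z = 0) (H : Fam Eb Z J T)
    {z : Place k F₁} (hz : z ∈ Z) : ∃ m₀ : ℕ, ∀ m, m₀ ≤ m → ∃ e ∈ T m, ∀ i, e i ≠ 0 ∧
      z.ord (e i) = -(J i z) := by
  classical
  obtain ⟨m₁, hm₁⟩ := exists_ge_all H.full
  obtain ⟨m₂, hm₂⟩ := exists_ge_all fun i => exists_exact hRR₁ (hE i) (J i) z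
  refine ⟨m₁ + m₂, fun m hm => ?_⟩
  -- bad subspaces
  let B : ι → Submodule k (T m) := fun i =>
    ((geSub z (-(J i z) + 1)).comap (LinearMap.proj i)).comap (T m).subtype
  have hB : ∀ i ∈ (Finset.univ : Finset ι), B i ≠ ⊤ := by
    intro i _ htop
    obtain ⟨x, hx, hx0, hxo⟩ := hm₂ m (by omega) i
    obtain ⟨a, ha, hax⟩ := hm₁ m (by omega) i x hx
    have h1 : (⟨a, ha⟩ : T m) ∈ B i := by rw [htop]; trivial
    have h2 : a i ∈ geSub z (-(J i z) + 1) := h1
    rw [hax, mem_geSub_of_ne hx0, hxo, Finsupp.add_apply, Finsupp.smul_apply, hZ z hz i,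
      smul_zero] at h2
    omega
  have hinf : Infinite k := IsAlgClosed.instInfinite
  obtain ⟨e, he⟩ : ∃ e : T m, ∀ i, e ∉ B i := by
    by_contra hcon
    push Not at hcon
    have h1 : (⋃ p ∈ (Finset.univ.image B : Finset (Subspace k (T m))), (p : Set (T m))) = Set.univ := by
      rw [Set.eq_univ_iff_forall]
      intro e
      obtain ⟨i, hi⟩ := hcon e
      simp only [Set.mem_iUnion]
      exact ⟨B i, Finset.mem_image_of_mem B (Finset.mem_univ i), hi⟩
    have h2 := Subspace.top_mem_of_biUnion_eq_univ h1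
    obtain ⟨i, hi, htop⟩ := Finset.mem_image.mp h2
    exact hB i hi htop
  refine ⟨e.1, e.2, fun i => ?_⟩
  have h1 : e.1 i ∉ geSub z (-(J i z) + 1) := he i
  have h0 : e.1 i ≠ 0 := fun h => h1 (by rw [h]; exact Submodule.zero_mem _)
  refine ⟨h0, ?_⟩
  have h2 := mem_rr.mp (H.le m e.1 e.2 i) z
  rw [Finsupp.add_apply, Finsupp.smul_apply, hZ z hz i, smul_zero, zero_add,
    mem_geSub_of_ne h0] at h2
  rw [mem_geSub_of_ne h0] at h1
  omega

/-- elements of `S` with prescribed values at the nodes -/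
theorem Fam.exists_sep (hRR₁ : RRLarge k F₁ g₁)
    (hE : ∀ i, 0 < Divisor.degree (Eb i)) (hZ : ∀ z ∈ Z, ∀ i, Eb i z = 0) (i₀ : ι)
    (H : Fam Eb Z 0 S) (hval : ∀ m, ∀ a ∈ S m, ∀ z ∈ Z, ∀ i j, a i - a j ∈ geSub z 1)
    {z : Place k F₁} (hz : z ∈ Z) :
    ∃ m, ∃ s ∈ S m, (∀ i, s i - 1 ∈ geSub z 1) ∧ ∀ z' ∈ Z, z' ≠ z → ∀ i, s i ∈ geSub z' 1 := by
  classical
  obtain ⟨m₁, hm₁⟩ := H.full i₀
  obtain ⟨m₂, hm₂⟩ := exists_exact hRR₁ (hE i₀) (-(nodeDiv (Z.erase z))) z
  obtain ⟨x, hx, hx0, hxo⟩ := hm₂ (m₁ + m₂) (by omega)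
  have hnz : nodeDiv (Z.erase z) z = 0 := nodeDiv_not_mem (by simp)
  have hxo' : z.ord x = 0 := by
    rw [hxo, Finsupp.add_apply, Finsupp.neg_apply, hnz, Finsupp.smul_apply, hZ z hz]; simp
  -- normalise
  obtain ⟨c, hc⟩ := exists_sub_mem z (f := x) (by rw [mem_geSub_of_ne hx0, hxo'])
  have hc0 : c ≠ 0 := by
    rintro rfl
    rw [map_zero, sub_zero, mem_geSub_of_ne hx0, hxo'] at hc
    omega
  have hx1 : x ∈ riemannRochSpace ((m₁ + m₂) • Eb i₀ + (0 : ι → Divisor k F₁) i₀) := by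
    refine Deuring.rr_mono ?_ hx
    refine add_le_add_right ?_ _
    rw [Pi.zero_apply]
    exact neg_nonpos.mpr (nodeDiv_nonneg _)
  obtain ⟨a, ha, hax⟩ := hm₁ (m₁ + m₂) (by omega) x hx1
  have hval' : ∀ z' ∈ Z, ∀ i, a i - x ∈ geSub z' 1 := fun z' hz' i => by
    rw [← hax]; exact hval _ a ha z' hz' i i₀
  refine ⟨_, c⁻¹ • a, Submodule.smul_mem _ _ ha, fun i => ?_, fun z' hz' hne i => ?_⟩
  · have h1 : (c⁻¹ • a) i - 1 = c⁻¹ • ((a i - x) + (x - algebraMap k F₁ c)) := by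
      rw [Pi.smul_apply, sub_add_sub_cancel, smul_sub]
      congr 1
      rw [Algebra.smul_def, ← map_mul, inv_mul_cancel₀ hc0, map_one]
    rw [h1]
    exact Submodule.smul_mem _ _ (Submodule.add_mem _ (hval' z hz i) hc)
  · have h2 : x ∈ geSub z' 1 := by
      have h3 := mem_rr.mp hx z'
      rw [Finsupp.add_apply, Finsupp.neg_apply, nodeDiv_mem (Finset.mem_erase.mpr ⟨hne, hz'⟩),
        Finsupp.smul_apply, hZ z' hz'] at h3
      simpa using h3
    have h4 : a i = (a i - x) + x := by ring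
    rw [Pi.smul_apply, h4]
    exact Submodule.smul_mem _ _ (Submodule.add_mem _ (hval' z' hz' i) h2)

/-- **The gluing lemma.** -/
theorem Fam.inv_mem (hRR₁ : RRLarge k F₁ g₁) (hE0 : ∀ i, 0 ≤ Eb i)
    (hE : ∀ i, 0 < Divisor.degree (Eb i)) (hZ : ∀ z ∈ Z, ∀ i, Eb i z = 0) (i₀ : ι)
    (HS : Fam Eb Z 0 S) (hval : ∀ m, ∀ a ∈ S m, ∀ z ∈ Z, ∀ i j, a i - a j ∈ geSub z 1)
    (hmul : ∀ m m' a b, a ∈ S m → b ∈ S m' → a * b ∈ S (m + m')) (hone : (1 : ι → F₁) ∈ S 0)
    (HT : Fam Eb Z J T) (hST : ∀ m m' a b, a ∈ S m → b ∈ T m' → a * b ∈ T (m + m'))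
    {n : ℕ} (hn : (n : k) ≠ 0) {g : ι → F₁} (hg : ∀ i, g i ≠ 0) (hJ : ∀ i v, J i v = v.ord (g i))
    (hgF : ∀ m, ∀ e ∈ T m, ∃ m', (fun i => (g i * e i) ^ n) ∈ S m')
    (hglue : ∀ z ∈ Z, ∀ m, ∀ e ∈ T m, (∀ i, e i ≠ 0 ∧ z.ord (e i) = -(J i z)) →
      ∀ i j, g i * e i - g j * e j ∈ geSub z 1) :
    ∃ m, g⁻¹ ∈ T m := by
  classical
  -- local generators and local approximations
  have hloc : ∀ z : Z, ∃ m, ∃ e ∈ T m, ∃ m', ∃ b ∈ S m', (∀ i, e i ≠ 0 ∧ z.1.ord (e i) = -(J i z.1)) ∧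
      (∀ i, b i - (g i * e i)⁻¹ ∈ geSub z.1 2) ∧ ∀ z' ∈ Z, z' ≠ z.1 → ∀ i, b i ∈ geSub z' 2 := by
    rintro ⟨z, hz⟩
    obtain ⟨m₁, hm₁⟩ := HT.exists_gen hRR₁ hE hZ hz
    obtain ⟨e, heT, he⟩ := hm₁ m₁ le_rfl
    obtain ⟨m₂, s, hs, hs1, hs0⟩ := HS.exists_sep hRR₁ hE hZ i₀ hval hz
    obtain ⟨m₃, hp⟩ := hgF m₁ e heT
    -- the common value
    have hge : ∀ i, g i * e i ≠ 0 := fun i => mul_ne_zero (hg i) (he i).1
    have hord : ∀ i, z.ord (g i * e i) = 0 := fun i => by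
      rw [z.ord_mul (hg i) (he i).1, (he i).2, hJ]; ring
    obtain ⟨γ, hγ⟩ := exists_sub_mem z (f := g i₀ * e i₀) (by
      rw [mem_geSub_of_ne (hge i₀), hord])
    have hγ0 : γ ≠ 0 := by
      rintro rfl
      rw [map_zero, sub_zero, mem_geSub_of_ne (hge i₀), hord] at hγ
      omega
    have hγ' : ∀ i, g i * e i - algebraMap k F₁ γ ∈ geSub z 1 := fun i => by
      have := Submodule.add_mem _ (hglue z hz m₁ e heT he i i₀) hγ
      rwa [sub_add_sub_cancel] at this
    -- the approximation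
    set p : ι → F₁ := fun i => (g i * e i) ^ n with hpdef
    have hone' : ∀ m, (1 : ι → F₁) ∈ S m := fun m => HS.mono (Nat.zero_le m) hone
    let w : ι → F₁ := γ⁻¹ • (1 + (n : k)⁻¹ • (1 - γ⁻¹ ^ n • p))
    have hw : w ∈ S m₃ := by
      refine Submodule.smul_mem _ _ (Submodule.add_mem _ (hone' _) (Submodule.smul_mem _ _
        (Submodule.sub_mem _ (hone' _) (Submodule.smul_mem _ _ hp))))
    have hwi : ∀ i, w i - (g i * e i)⁻¹ ∈ geSub z 2 := by
      intro i
      have := inv_sub_mem_geSub hn hγ0 (hγ' i)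
      convert this using 2
      show γ⁻¹ • (1 + (n : k)⁻¹ • (1 - γ⁻¹ ^ n • (g i * e i) ^ n)) = _
      simp only [Algebra.smul_def]
    let ε : ι → F₁ := (3 : k) • (s * s) - (2 : k) • (s * (s * s))
    have hss := hmul _ _ _ _ hs hs
    have hsss := hmul _ _ _ _ hs hss
    have hε : ε ∈ S (m₂ + (m₂ + m₂)) :=
      Submodule.sub_mem _ (Submodule.smul_mem _ _ (HS.mono (by omega) hss))
        (Submodule.smul_mem _ _ hsss)
    have hεi : ∀ i, ε i = 3 * s i ^ 2 - 2 * s i ^ 3 := by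
      intro i
      show (3 : k) • (s i * s i) - (2 : k) • (s i * (s i * s i)) = _
      simp only [Algebra.smul_def, map_ofNat]
      ring
    refine ⟨m₁, e, heT, _, ε * w, hmul _ _ _ _ hε hw, he, fun i => ?_, fun z' hz' hne i => ?_⟩
    · have h1 : (ε * w) i - (g i * e i)⁻¹ = (ε i - 1) * w i + (w i - (g i * e i)⁻¹) := by
        rw [Pi.mul_apply]; ring
      rw [h1]
      refine Submodule.add_mem _ ?_ (hwi i)
      have h2 : w i ∈ geSub z 0 := by
        have h3 := mem_rr.mp (HS.le _ w hw i) z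
        rw [Finsupp.add_apply, Finsupp.smul_apply, hZ z hz] at h3
        simpa using h3
      have h4 : ε i - 1 ∈ geSub z 2 := by rw [hεi]; exact idem_one (hs1 i)
      have := mul_mem_geSub h4 h2
      simpa using this
    · have h2 : w i ∈ geSub z' 0 := by
        have h3 := mem_rr.mp (HS.le _ w hw i) z'
        rw [Finsupp.add_apply, Finsupp.smul_apply, hZ z' hz'] at h3
        simpa using h3
      have h4 : ε i ∈ geSub z' 2 := by rw [hεi]; exact idem_zero (hs0 z' hz' hne i)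
      have := mul_mem_geSub h4 h2
      rw [Pi.mul_apply]
      simpa using this
  choose m e heT m' b hbS he hb1 hb0 using hloc
  obtain ⟨m₀, hm₀⟩ := HT.exists_cond
  let M : ℕ := m₀ + ∑ z : Z, (m' z + m z)
  have hM : ∀ z : Z, m' z + m z ≤ M := fun z => by
    have := Finset.single_le_sum (f := fun z : Z => m' z + m z) (fun _ _ => Nat.zero_le _)
      (Finset.mem_univ z)
    show _ ≤ m₀ + _
    omega
  have hsum : ∑ z : Z, b z * e z ∈ T M :=
    Submodule.sum_mem _ fun z _ => HT.mono (hM z) (hST _ _ _ _ (hbS z) (heT z))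
  refine ⟨M, ?_⟩
  have hw : g⁻¹ - ∑ z : Z, b z * e z ∈ T M := by
    apply hm₀ M (by show m₀ ≤ m₀ + _; omega)
    intro i
    rw [mem_rr]
    intro v
    have hsumi : (g⁻¹ - ∑ z : Z, b z * e z) i = (g i)⁻¹ - ∑ z : Z, b z i * e z i := by
      rw [Pi.sub_apply, Finset.sum_apply]; rfl
    rw [hsumi]
    by_cases hv : v ∈ Z
    · rw [Finsupp.sub_apply, Finsupp.add_apply, Finsupp.smul_apply, Finsupp.smul_apply, hZ v hv,
        nodeDiv_mem hv, smul_zero, zero_add]
      have hev : ∀ z : Z, e z i ∈ geSub v (-(J i v)) := fun z => by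
        have := mem_rr.mp (HT.le _ _ (heT z) i) v
        rwa [Finsupp.add_apply, Finsupp.smul_apply, hZ v hv, smul_zero, zero_add] at this
      rw [← Finset.add_sum_erase Finset.univ _ (Finset.mem_univ (⟨v, hv⟩ : Z)), ← sub_sub]
      refine Submodule.sub_mem _ ?_ (Submodule.sum_mem _ fun z hz => ?_)
      · have h1 : (g i)⁻¹ - b ⟨v, hv⟩ i * e ⟨v, hv⟩ i
            = -((b ⟨v, hv⟩ i - (g i * e ⟨v, hv⟩ i)⁻¹) * e ⟨v, hv⟩ i) := by
          have h2 := (he ⟨v, hv⟩ i).1
          have h3 := hg i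
          field_simp
          ring
        rw [h1]
        have h4 := mul_mem_geSub (hb1 ⟨v, hv⟩ i) (hev ⟨v, hv⟩)
        refine Submodule.neg_mem _ (geSub_anti v ?_ h4)
        simp only [nsmul_eq_mul]; push_cast; omega
      · have hne : v ≠ z.1 := fun h => by
          rw [Finset.mem_erase] at hz
          exact hz.1 (Subtype.ext h.symm)
        have h4 := mul_mem_geSub (hb0 z v hv hne i) (hev z)
        refine geSub_anti v ?_ h4
        simp only [nsmul_eq_mul]; push_cast; omega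
    · have h2 : ((2 : ℕ) • nodeDiv Z) v = 0 := by
        rw [Finsupp.smul_apply, nodeDiv_not_mem hv, smul_zero]
      rw [Finsupp.sub_apply, h2, sub_zero]
      refine Submodule.sub_mem _ ?_ ?_
      · rw [mem_geSub_of_ne (inv_ne_zero (hg i)), v.ord_inv, ← hJ, Finsupp.add_apply,
          Finsupp.smul_apply]
        have := Finsupp.le_def.mp (hE0 i) v
        rw [Finsupp.zero_apply] at this
        have h5 : 0 ≤ M • (Eb i) v := nsmul_nonneg this M
        omega
      · have := mem_rr.mp (HT.le _ _ hsum i) v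
        rwa [Finset.sum_apply] at this
  have := Submodule.add_mem _ hw hsum
  rwa [sub_add_cancel] at this

end Fam

end Fermat.Agent.Car
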