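import Fermat.Agent.Car.Full
import Fermat.Agent.Car.GlueA

/-!
# Project CAR: approximate trivialisations

From an integral element of `L(m E + D)` with residues `≡ 1` at the supersingular points, to
elements of `L(M E + q D)` with residues `1` and `t ^ M`.
-/

set_option autoImplicit false
set_option linter.unusedSectionVars false

noncomputable section

open AlgebraicCurve Module

namespace Fermat.Agent.Car

open Fermat.Agent.FunField Fermat.Agent.FunField.PlaceLemmas Fermat.Agent.Deuring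
  Fermat.Agent.BadRed

variable {L k F F₁ : Type*} [Field L] [Field k] [Field F] [Field F₁] [Algebra L F] [Algebra k F₁]
variable {S : Sys L k F F₁} {p : Pen S} {q : ℕ} (U : Units p q)

section Low

variable [HasPrincipalDivisors k F₁]

theorem Units.low_zero (i : Fin 3) : U.low 0 i = 0 := by
  ext v
  rw [U.low_apply, U.numD_apply]
  have h : U.coef 0 i = 0 := by
    fin_cases i <;> simp [Units.coef]
  rw [h]
  simp

include U in
/-- residues of integral elements of `L(m E + D)` -/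
theorem Units.res_mem (hgr : p.Growth) {n : ℕ} (hn : n ≠ 0) (τ : NTors S n) {m : ℕ} {h : F}
    (hh : h ∈ riemannRochSpace (m • p.E + τ.D)) {b : Fin 3 → F₁} (hb : ∀ i, (S.V i).LR 0 h (b i))
    (i : Fin 3) : b i ∈ riemannRochSpace (m • p.Eb i) := by
  have h1 := U.P_le hgr hn τ m (s := 0) (i := i) ⟨fun j => le_rfl, Or.inl rfl⟩
  rw [U.low_zero, sub_zero] at h1
  exact h1 ⟨h, hh, fun j => (hb j).ge, hb i⟩

theorem stdσ_swap (i j : Fin 3) : stdσ (Equiv.swap 2 i) 2 j = if j = i then 0 else 1 := by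
  fin_cases i <;> fin_cases j <;> simp [stdσ, Equiv.swap_apply_def]

theorem stdi_swap (i : Fin 3) : stdi (Equiv.swap 2 i) 2 = i := by
  rw [stdi_lt _ (by norm_num : 2 < 3)]
  exact Equiv.swap_apply_left 2 i

theorem Units.low_two (hF : FullRes U) (hSS : ∀ z, 0 < U.o z → U.o z = 12) (i : Fin 3)
    (v : Place k F₁) : (0 < U.o v ∧ U.low (stdσ (Equiv.swap 2 i) 2) i v = 2) ∨
      (U.o v = 0 ∧ U.low (stdσ (Equiv.swap 2 i) 2) i v = 0) := by
  have h2 := U.two_le
  have h1 := hF.exact (Equiv.swap 2 i) 2 (by omega) v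
  rw [U.numD_apply, U.coef_lt _ (by norm_num : 2 < 3), stdi_swap, stdσ_swap, if_pos rfl, U.Q_eq]
    at h1
  have h3 : (0 : ℤ) < (q : ℤ) - 1 := by
    have : (2 : ℤ) ≤ q := by exact_mod_cast h2
    linarith
  have h4 : 6 * U.low (stdσ (Equiv.swap 2 i) 2) i v = U.o v := by
    have : ((q : ℤ) - 1) * (2 * (6 * U.low (stdσ (Equiv.swap 2 i) 2) i v)) =
        ((q : ℤ) - 1) * (2 * U.o v) := by
      push_cast at h1
      linarith
    have := mul_left_cancel₀ h3.ne' this
    linarith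
  have h5 : 0 ≤ U.o v := by
    have := Finsupp.le_def.mp U.o_nonneg v
    rwa [Finsupp.zero_apply] at this
  rcases h5.lt_or_eq with h6 | h6
  · left
    refine ⟨h6, ?_⟩
    rw [hSS v h6] at h4
    linarith
  · right
    refine ⟨h6.symm, ?_⟩
    rw [← h6] at h4
    linarith

/-- elements with small residues at the supersingular points -/
theorem exists_small (hF : FullRes U) (hSS : ∀ z, 0 < U.o z → U.o z = 12) :
    ∃ m₀ : ℕ, ∀ m, m₀ ≤ m → ∀ n : ℕ, n ≠ 0 → ∀ τ : NTors S n, ∀ x : Fin 3 → F₁,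
      (∀ i, x i ∈ riemannRochSpace (m • p.Eb i)) → (∀ i z, 0 < U.o z → x i ∈ geSub z 2) →
      ∃ u ∈ riemannRochSpace (m • p.E + τ.D), ∀ i, (S.V i).LR 0 u (x i) := by
  classical
  obtain ⟨m₀, hm₀⟩ := hF.full
  have h2 := U.two_le
  refine ⟨m₀, fun m hm n hn τ x hx hx2 => ?_⟩
  have h1 : ∀ i, ∃ u ∈ riemannRochSpace (m • p.E + τ.D), (S.V i).LR 0 u (x i) ∧
      ∀ j, j ≠ i → (S.V j).LR 0 u 0 := by
    intro i
    have h3 := hm₀ m hm n hn τ (Equiv.swap 2 i) 2 (by omega)
    rw [stdi_swap] at h3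
    have h4 : x i ∈ riemannRochSpace (m • p.Eb i - U.low (stdσ (Equiv.swap 2 i) 2) i) := by
      rw [mem_rr]
      intro v
      rcases U.low_two hF hSS i v with ⟨h5, h6⟩ | ⟨h5, h6⟩
      · have h7 : p.Eb 0 v = 0 := by
          by_contra h
          rw [U.o_cusp v h] at h5
          omega
        rw [Finsupp.sub_apply, h6, Finsupp.smul_apply, p.supp 0 i v h7, smul_zero]
        exact hx2 i v h5
      · rw [Finsupp.sub_apply, h6, sub_zero]
        exact mem_rr.mp (hx i) v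
    rw [← h3] at h4
    obtain ⟨u, hu, hge, hlr⟩ := h4
    rw [stdσ_swap, if_pos rfl] at hlr
    refine ⟨u, hu, hlr, fun j hj => ?_⟩
    have h8 := hge j
    rw [stdσ_swap, if_neg hj] at h8
    exact h8.lr_zero (by norm_num)
  choose u hu hu1 hu0 using h1
  refine ⟨∑ i, u i, Submodule.sum_mem _ fun i _ => hu i, fun i => ?_⟩
  have h3 : (S.V i).LR 0 (∑ j, u j) (∑ j, if j = i then x i else 0) := by
    refine RV.LR.sum _ fun j _ => ?_
    by_cases hj : j = i
    · subst hj
      rw [if_pos rfl]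
      exact hu1 j
    · rw [if_neg hj]
      exact hu0 j i (Ne.symm hj)
  rw [Finset.sum_ite_eq' Finset.univ i, if_pos (Finset.mem_univ i)] at h3
  exact h3

end Low

/-- `q`-th powers improve congruences -/
theorem pow_sub_pow_mem_geSub {v : Place k F₁} (hq : (q : k) = 0) (hq0 : q ≠ 0) {x y : F₁}
    (hy : y ∈ geSub v 0) (hxy : x - y ∈ geSub v 1) : x ^ q - y ^ q ∈ geSub v 2 := by
  set η := x - y with hη
  have hη0 : η ∈ geSub v 0 := geSub_anti v (by norm_num) hxy
  have hx : x = y + η := by rw [hη]; ring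
  have hmul : ∀ {a b : F₁}, a ∈ geSub v 0 → b ∈ geSub v 0 → a * b ∈ geSub v 0 := fun ha hb => by
    have := mul_mem_geSub ha hb
    rwa [zero_add] at this
  have key : ∀ m : ℕ, ∃ r ∈ geSub v 0,
      (y + η) ^ (m + 1) = y ^ (m + 1) + ((m + 1 : ℕ) : F₁) * y ^ m * η + η * η * r := by
    intro m
    induction m with
    | zero => exact ⟨0, Submodule.zero_mem _, by simp⟩
    | succ m ih =>
      obtain ⟨r, hr, h⟩ := ih
      refine ⟨r * y + ((m + 1 : ℕ) : F₁) * y ^ m + η * r, ?_, ?_⟩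
      · refine Submodule.add_mem _ (Submodule.add_mem _ (hmul hr hy) (hmul ?_ ?_)) (hmul hη0 hr)
        · have := algebraMap_mem_geSub_zero v ((m + 1 : ℕ) : k)
          rwa [map_natCast] at this
        · exact pow_mem_geSub_zero hy m
      · rw [pow_succ, h]; push_cast; ring
  obtain ⟨m, hm⟩ := Nat.exists_eq_succ_of_ne_zero hq0
  obtain ⟨r, hr, h⟩ := key m
  have hq1 : ((m + 1 : ℕ) : F₁) = 0 := by
    have h1 : algebraMap k F₁ ((m + 1 : ℕ) : k) = ((m + 1 : ℕ) : F₁) := map_natCast _ _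
    rw [← h1, ← Nat.succ_eq_add_one, ← hm, hq, map_zero]
  rw [hq1, zero_mul, zero_mul, add_zero, ← Nat.succ_eq_add_one, ← hm] at h
  have h2 : x ^ q - y ^ q = η * η * r := by rw [hx, h]; ring
  rw [h2]
  have := mul_mem_geSub (mul_mem_geSub hxy hxy) hr
  simpa using this

theorem pow_sub_pow_mem_geSub_one {v : Place k F₁} {x y : F₁} (hy : y ∈ geSub v 0)
    (hxy : x - y ∈ geSub v 1) (d : ℕ) : x ^ d - y ^ d ∈ geSub v 1 := by
  have hx : x ∈ geSub v 0 := by
    have := Submodule.add_mem _ (geSub_anti v (by norm_num : (0 : ℤ) ≤ 1) hxy) hy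
    rwa [sub_add_cancel] at this
  induction d with
  | zero => simp
  | succ d ih =>
    have h1 : x ^ (d + 1) - y ^ (d + 1) = (x ^ d - y ^ d) * x + (x - y) * y ^ d := by ring
    rw [h1]
    refine Submodule.add_mem _ ?_ ?_
    · have := mul_mem_geSub ih hx
      rwa [add_zero] at this
    · have := mul_mem_geSub hxy (pow_mem_geSub_zero hy d)
      rwa [add_zero] at this

section Main

variable [IsFF k F₁] [HasPrincipalDivisors k F₁] [IsAlgClosed k] {g₁ : ℤ}

/-- the supersingular points -/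
def ssZ : Finset (Place k F₁) := U.o.support

theorem mem_ssZ {z : Place k F₁} : z ∈ ssZ U ↔ 0 < U.o z := by
  rw [ssZ, Finsupp.mem_support_iff]
  have := Finsupp.le_def.mp U.o_nonneg z
  rw [Finsupp.zero_apply] at this
  omega

theorem Eb_ss {z : Place k F₁} (hz : 0 < U.o z) (i : Fin 3) : p.Eb i z = 0 := by
  apply p.supp 0 i z
  by_contra h
  rw [U.o_cusp z h] at hz
  omega

include U in
/-- separating functions at the supersingular points -/
theorem exists_sepfun (hRR₁ : RRLarge k F₁ g₁) (z : Place k F₁) (hz : 0 < U.o z) :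
    ∃ (m : ℕ) (x : F₁), x ∈ riemannRochSpace (m • p.Eb 0) ∧ x - 1 ∈ geSub z 1 ∧
      ∀ z', 0 < U.o z' → z' ≠ z → x ∈ geSub z' 1 := by
  classical
  obtain ⟨m, hm⟩ := exists_exact hRR₁ (p.deg_pos 0) (-(nodeDiv ((ssZ U).erase z))) z
  obtain ⟨x, hx, hx0, hxo⟩ := hm m le_rfl
  have hnz : nodeDiv ((ssZ U).erase z) z = 0 := nodeDiv_not_mem (by simp)
  have hxo' : z.ord x = 0 := by
    rw [hxo, Finsupp.add_apply, Finsupp.neg_apply, hnz, Finsupp.smul_apply, Eb_ss U hz]; simp
  obtain ⟨c, hc⟩ := exists_sub_mem z (f := x) (by rw [mem_geSub_of_ne hx0, hxo'])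
  have hc0 : c ≠ 0 := by
    rintro rfl
    rw [map_zero, sub_zero, mem_geSub_of_ne hx0, hxo'] at hc
    omega
  refine ⟨m, c⁻¹ • x, Submodule.smul_mem _ _ (Deuring.rr_mono ?_ hx), ?_, fun z' hz' hne => ?_⟩
  · exact add_le_of_nonpos_right (neg_nonpos.mpr (nodeDiv_nonneg _))
  · have h1 : c⁻¹ • x - 1 = c⁻¹ • (x - algebraMap k F₁ c) := by
      rw [smul_sub]
      congr 1
      rw [Algebra.smul_def, ← map_mul, inv_mul_cancel₀ hc0, map_one]
    rw [h1]
    exact Submodule.smul_mem _ _ hc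
  · refine Submodule.smul_mem _ _ ?_
    have h3 := mem_rr.mp hx z'
    rw [Finsupp.add_apply, Finsupp.neg_apply,
      nodeDiv_mem (Finset.mem_erase.mpr ⟨hne, (mem_ssZ U).mpr hz'⟩), Finsupp.smul_apply,
      Eb_ss U hz'] at h3
    simpa using h3

theorem exists_approx (Fb : Frob p q) (hRR₁ : RRLarge k F₁ g₁) (hF : FullRes U) (hgr : p.Growth)
    (hq : (q : k) = 0) (hSS : ∀ z, 0 < U.o z → U.o z = 12)
    (hfr : ∀ z, 0 < U.o z → ∀ (m : ℕ), ∀ x ∈ riemannRochSpace (m • p.Eb 0), ∀ c : k,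
      x - algebraMap k F₁ c ∈ geSub z 1 → Fb.Fr (Fb.Fr x) - algebraMap k F₁ c ∈ geSub z 1)
    (htb : ∀ i z, 0 < U.o z → p.tb i - p.tb 0 ∈ geSub z 1)
    {n : ℕ} (hn : n ≠ 0) (τ : NTors S n) {m₁ : ℕ} {h₀ : F}
    (hh₀ : h₀ ∈ riemannRochSpace (m₁ • p.E + τ.D)) (b : Fin 3 → F₁)
    (hb : ∀ i, (S.V i).LR 0 h₀ (b i)) (hglue : ∀ i z, 0 < U.o z → b i - 1 ∈ geSub z 1) :
    ∃ M₀ : ℕ, ∀ M, M₀ ≤ M → q ∣ M →
      (∃ u ∈ riemannRochSpace (M • p.E + (τ.nsmul q).D), ∀ i, (S.V i).LR 0 u 1) ∧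
      (∃ u ∈ riemannRochSpace (M • p.E + (τ.nsmul q).D), ∀ i, (S.V i).LR 0 u (p.tb i ^ M)) := by
  classical
  have hq0 : q ≠ 0 := by have := U.two_le; omega
  obtain ⟨m₀, hm₀⟩ := exists_small U hF hSS
  have hbm : ∀ i, b i ∈ riemannRochSpace (m₁ • p.Eb i) := fun i => U.res_mem hgr hn τ hh₀ hb i
  -- the power
  have hpow : ∀ {m : ℕ} {h : F} {b : Fin 3 → F₁}, h ∈ riemannRochSpace (m • p.E + τ.D) →
      (∀ i, (S.V i).LR 0 h (b i)) →
      h ^ q ∈ riemannRochSpace ((q * m) • p.E + (τ.nsmul q).D) ∧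
      ∀ i, (S.V i).LR 0 (h ^ q) (b i ^ q) := by
    intro m h b hh hb
    refine ⟨?_, fun i => ?_⟩
    · have := pow_mem_rr hh q
      rwa [smul_add, smul_smul, ← NTors.nsmul_D] at this
    · have := (hb i).pow q
      rwa [mul_zero] at this
  -- membership
  have hEmono : ∀ {m m' : ℕ} (D : Divisor L F), m ≤ m' →
      riemannRochSpace (m • p.E + D) ≤ riemannRochSpace (m' • p.E + D) := fun D h =>
    Deuring.rr_mono (add_le_add_left (p.E_mono h) D)
  have hEbmono : ∀ (i : Fin 3) {m m' : ℕ}, m ≤ m' →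
      riemannRochSpace (m • p.Eb i) ≤ riemannRochSpace (m' • p.Eb i) := fun i _ _ h =>
    Deuring.rr_mono (p.Eb_mono i h)
  have hnq : (τ.nsmul q).D = q • τ.D := NTors.nsmul_D τ q
  -- separating functions
  have hsep : ∀ z : ssZ U, ∃ (m : ℕ) (x : F₁), x ∈ riemannRochSpace (m • p.Eb 0) ∧
      x - 1 ∈ geSub z.1 1 ∧ ∀ z', 0 < U.o z' → z' ≠ z.1 → x ∈ geSub z' 1 :=
    fun z => exists_sepfun U hRR₁ z.1 ((mem_ssZ U).mp z.2)
  choose ms x hx hx1 hx0 using hsep
  have hlift : ∀ z : ssZ U, ∃ (m' : ℕ) (e : F), e ∈ riemannRochSpace (m' • p.E) ∧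
      (S.V 0).LR 0 e (x z) ∧ (S.V 1).LR 0 e (x z) ∧ (S.V 2).LR 0 e (Fb.Fr (Fb.Fr (x z))) :=
    fun z => Fb.lvl (ms z) (x z) (hx z)
  choose me e he he0 he1 he2 using hlift
  let y : ssZ U → Fin 3 → F₁ := fun z => ![x z, x z, Fb.Fr (Fb.Fr (x z))]
  have hye : ∀ z i, (S.V i).LR 0 (e z) (y z i) := by
    intro z i
    fin_cases i
    · exact he0 z
    · exact he1 z
    · exact he2 z
  have hy1 : ∀ z i, y z i - 1 ∈ geSub z.1 1 := by
    intro z i
    have h1 := hfr z.1 ((mem_ssZ U).mp z.2) (ms z) (x z) (hx z) 1 (by rw [map_one]; exact hx1 z)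
    rw [map_one] at h1
    fin_cases i
    · exact hx1 z
    · exact hx1 z
    · exact h1
  have hy0 : ∀ z i z', 0 < U.o z' → z' ≠ z.1 → y z i ∈ geSub z' 1 := by
    intro z i z' hz' hne
    have h1 := hfr z' hz' (ms z) (x z) (hx z) 0 (by rw [map_zero, sub_zero]; exact hx0 z z' hz' hne)
    rw [map_zero, sub_zero] at h1
    fin_cases i
    · exact hx0 z z' hz' hne
    · exact hx0 z z' hz' hne
    · exact h1
  -- the products
  have hprod : ∀ z : ssZ U, h₀ * e z ∈ riemannRochSpace ((m₁ + me z) • p.E + τ.D) := by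
    intro z
    have := Deuring.mul_mem_rr hh₀ (he z)
    have e1 : m₁ • p.E + τ.D + me z • p.E = (m₁ + me z) • p.E + τ.D := by
      rw [add_smul]; abel
    rwa [e1] at this
  have hprodLR : ∀ z i, (S.V i).LR 0 (h₀ * e z) (b i * y z i) := by
    intro z i
    have := (hb i).mul (hye z i)
    rwa [add_zero] at this
  -- values of `tb` at the supersingular points
  have hb0 : ∀ i z, 0 < U.o z → b i ∈ geSub z 0 := by
    intro i z hz
    have := mem_rr.mp (hbm i) z
    rwa [Finsupp.smul_apply, Eb_ss U hz, smul_zero, neg_zero] at this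
  have htb0 : ∀ i z, 0 < U.o z → p.tb i ∈ geSub z 0 := by
    intro i z hz
    rw [mem_geSub_of_ne (p.tb_ne i)]
    have h1 := p.hEb i z
    rw [Eb_ss U hz] at h1
    have := le_max_right 0 (-(z.ord (p.tb i)))
    omega
  have hval : ∀ z : ssZ U, ∃ c : k, p.tb 0 - algebraMap k F₁ c ∈ geSub z.1 1 := fun z =>
    exists_sub_mem z.1 (htb0 0 z.1 ((mem_ssZ U).mp z.2))
  choose c hc using hval
  have hc' : ∀ z : ssZ U, ∀ i, p.tb i - algebraMap k F₁ (c z) ∈ geSub z.1 1 := fun z i => by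
    have := Submodule.add_mem _ (htb i z.1 ((mem_ssZ U).mp z.2)) (hc z)
    rwa [sub_add_sub_cancel] at this
  choose ρ hρ hρ' using fun z : ssZ U => S.lift (c z)
  let M₀ : ℕ := m₀ + q * m₁ + ∑ z : ssZ U, q * (m₁ + me z)
  have hM₀ : ∀ z : ssZ U, q * (m₁ + me z) ≤ M₀ := fun z => by
    have := Finset.single_le_sum (f := fun z : ssZ U => q * (m₁ + me z))
      (fun _ _ => Nat.zero_le _) (Finset.mem_univ z)
    show _ ≤ m₀ + q * m₁ + _
    omega
  refine ⟨M₀, fun M hM hqM => ⟨?_, ?_⟩⟩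
  · -- residue `1`
    obtain ⟨h1, h2⟩ := hpow hh₀ hb
    obtain ⟨w, hw, hw'⟩ := hm₀ M (le_trans (by show m₀ ≤ m₀ + _ + _; omega) hM) n hn (τ.nsmul q)
      (fun i => 1 - b i ^ q) (fun i => by
        refine Submodule.sub_mem _ (one_mem_rr (nsmul_nonneg (p.Eb_nonneg i) M)) ?_
        have := pow_mem_rr (hbm i) q
        rw [smul_smul] at this
        exact hEbmono i (le_trans (by show q * m₁ ≤ m₀ + q * m₁ + _; omega) hM) this)
      (fun i z hz => by
        have h3 := pow_sub_pow_mem_geSub hq hq0 (one_mem_geSub_zero z) (hglue i z hz)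
        rw [one_pow] at h3
        have h4 := Submodule.neg_mem _ h3
        rwa [neg_sub] at h4)
    refine ⟨h₀ ^ q + w, Submodule.add_mem _ (hEmono _ (le_trans (by
      show q * m₁ ≤ m₀ + q * m₁ + _; omega) hM) h1) hw, fun i => ?_⟩
    refine ((h2 i).add (hw' i)).congr rfl (by ring)
  · -- residue `tb ^ M`
    obtain ⟨d, rfl⟩ := hqM
    let v : F := ∑ z : ssZ U, ((ρ z : L) ^ (q * d)) • (h₀ * e z) ^ q
    have hv : v ∈ riemannRochSpace ((q * d) • p.E + (τ.nsmul q).D) :=
      Submodule.sum_mem _ fun z _ => Submodule.smul_mem _ _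
        (hEmono _ ((hM₀ z).trans hM) (hpow (hprod z) (hprodLR z)).1)
    have hρfix : ∀ z, ((ρ z ^ (q * d) : S.A) : L) ∈ fixL S.Γ := fun z => by
      push_cast
      exact (fixL S.Γ).pow_mem (hρ z) _
    have hvLR : ∀ i, (S.V i).LR 0 v (∑ z : ssZ U, c z ^ (q * d) • (b i * y z i) ^ q) := by
      intro i
      refine RV.LR.sum _ fun z _ => ?_
      have := S.cst_smul ((hpow (hprod z) (hprodLR z)).2 i) (hρfix z)
      rw [map_pow, hρ'] at this
      refine this.congr ?_ rfl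
      push_cast
      rfl
    have hsmall : ∀ i z, 0 < U.o z →
        p.tb i ^ (q * d) - ∑ z : ssZ U, c z ^ (q * d) • (b i * y z i) ^ q ∈ geSub z 2 := by
      intro i z hz
      have hzZ : z ∈ ssZ U := (mem_ssZ U).mpr hz
      rw [← Finset.add_sum_erase Finset.univ _ (Finset.mem_univ (⟨z, hzZ⟩ : ssZ U)), ← sub_sub]
      refine Submodule.sub_mem _ ?_ (Submodule.sum_mem _ fun z' hz' => ?_)
      · -- the main term
        set Y := y ⟨z, hzZ⟩ i with hY
        set C := algebraMap k F₁ (c ⟨z, hzZ⟩) with hC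
        have hC0 : C ∈ geSub z 0 := algebraMap_mem_geSub_zero z _
        have hY1 : Y - 1 ∈ geSub z 1 := hy1 ⟨z, hzZ⟩ i
        have hY0 : Y ∈ geSub z 0 := by
          have := Submodule.add_mem _ (geSub_anti z (by norm_num : (0 : ℤ) ≤ 1) hY1)
            (one_mem_geSub_zero z)
          rwa [sub_add_cancel] at this
        have hCd : C ^ d ∈ geSub z 0 := pow_mem_geSub_zero hC0 d
        have h2 : p.tb i ^ d - C ^ d ∈ geSub z 1 :=
          pow_sub_pow_mem_geSub_one hC0 (hc' ⟨z, hzZ⟩ i) d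
        have h3 : b i * Y - 1 ∈ geSub z 1 := by
          have e1 : b i * Y - 1 = (b i - 1) * Y + (Y - 1) := by ring
          rw [e1]
          refine Submodule.add_mem _ ?_ hY1
          have := mul_mem_geSub (hglue i z hz) hY0
          rwa [add_zero] at this
        have h1 : p.tb i ^ d - C ^ d * (b i * Y) ∈ geSub z 1 := by
          have e1 : p.tb i ^ d - C ^ d * (b i * Y) =
              (p.tb i ^ d - C ^ d) - C ^ d * (b i * Y - 1) := by ring
          rw [e1]
          refine Submodule.sub_mem _ h2 ?_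
          have := mul_mem_geSub hCd h3
          rwa [zero_add] at this
        have hCbY : C ^ d * (b i * Y) ∈ geSub z 0 := by
          have := mul_mem_geSub hCd (mul_mem_geSub (hb0 i z hz) hY0)
          simpa using this
        have h4 := pow_sub_pow_mem_geSub hq hq0 hCbY h1
        have e2 : p.tb i ^ (q * d) - c ⟨z, hzZ⟩ ^ (q * d) • (b i * Y) ^ q =
            (p.tb i ^ d) ^ q - (C ^ d * (b i * Y)) ^ q := by
          rw [Algebra.smul_def, map_pow, mul_comm q d, pow_mul, pow_mul, mul_pow (C ^ d)]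
        rw [e2]
        exact h4
      · refine Submodule.smul_mem _ _ ?_
        have hne : z ≠ z'.1 := fun h => by
          rw [Finset.mem_erase] at hz'
          exact hz'.1 (Subtype.ext h.symm)
        have h1 : b i * y z' i - 0 ∈ geSub z 1 := by
          rw [sub_zero]
          have := mul_mem_geSub (hb0 i z hz) (hy0 z' i z hz hne)
          rwa [zero_add] at this
        have h2 := pow_sub_pow_mem_geSub hq hq0 (Submodule.zero_mem _) h1
        rwa [zero_pow hq0, sub_zero] at h2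
    clear_value v
    have hmem : ∀ i, p.tb i ^ (q * d) - ∑ z : ssZ U, c z ^ (q * d) • (b i * y z i) ^ q ∈
        riemannRochSpace ((q * d) • p.Eb i) := by
      intro i
      refine Submodule.sub_mem _ ?_ (U.res_mem hgr hn (τ.nsmul q) hv hvLR i)
      have h1 : p.tb i ∈ riemannRochSpace (p.Eb i) := by
        rw [mem_rr_of_ne (p.tb_ne i)]
        intro v
        have h1 := p.hEb i v
        have := le_max_right 0 (-(v.ord (p.tb i)))
        omega
      exact Deuring.pow_mem_rr h1 _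
    have hm₀M : m₀ ≤ q * d := le_trans (by show m₀ ≤ m₀ + _ + _; omega) hM
    obtain ⟨w, hw, hw'⟩ := hm₀ (q * d) hm₀M n hn (τ.nsmul q) _ hmem hsmall
    refine ⟨v + w, Submodule.add_mem _ hv hw, fun i => ?_⟩
    exact ((hvLR i).add (hw' i)).congr rfl (by ring)

end Main

end Fermat.Agent.Car
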