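import Fermat.Agent.Car.Defs
import Fermat.Agent.BadRed.Pencil

/-!
# Project CAR: the slope inequality
-/

set_option autoImplicit false
set_option linter.unusedSectionVars false
set_option linter.unusedSimpArgs false

noncomputable section

open AlgebraicCurve Module

namespace Fermat.Agent.Car

open Fermat.Agent.FunField Fermat.Agent.FunField.PlaceLemmas Fermat.Agent.Deuring
  Fermat.Agent.BadRed

variable {L k F F₁ : Type*} [Field L] [Field k] [Field F] [Field F₁] [Algebra L F] [Algebra k F₁]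
variable {S : Sys L k F F₁}

namespace NTors

variable {n : ℕ} (τ : NTors S n)

theorem f_ne : τ.f ≠ 0 := (τ.LR_f 0).ne_zero one_ne_zero

theorem degree_eq_zero [HasPrincipalDivisors L F] (hn : n ≠ 0) : Divisor.degree τ.D = 0 := by
  have h1 : n • τ.D = dv (K := L) (τ.f : F) τ.f_ne := by
    ext v
    rw [Finsupp.smul_apply, nsmul_eq_mul, τ.hD, dv_apply]
  have h2 : Divisor.degree (n • τ.D) = 0 := by rw [h1, degree_dv]
  rw [map_nsmul, nsmul_eq_mul] at h2
  have hn' : (n : ℤ) ≠ 0 := by exact_mod_cast hn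
  exact (mul_eq_zero.mp h2).resolve_left hn'

theorem f_mem_rr : τ.f ∈ riemannRochSpace (-(n • τ.D)) := by
  rw [mem_rr_of_ne τ.f_ne]
  intro v
  rw [← τ.hD v, Finsupp.neg_apply, neg_neg, Finsupp.smul_apply, nsmul_eq_mul]

theorem pow_mul_mem {u : F} {G : Divisor L F} (hu : u ∈ riemannRochSpace (G + τ.D)) :
    u ^ n * τ.f ∈ riemannRochSpace (n • G) := by
  have h1 := pow_mem_rr hu n
  have h3 := mul_mem_rr h1 τ.f_mem_rr
  have h4 : n • (G + τ.D) + -(n • τ.D) = n • G := by rw [smul_add]; abel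
  rwa [h4] at h3

variable (S) in
/-- the zero torsion data -/
def zero (n : ℕ) : NTors S n where
  D := 0
  D_mem := (fixD S.Γ).zero_mem
  f := 1
  f_mem := S.FK.one_mem
  hD := fun v => by simp
  LR_f := fun i => RV.LR.one _

@[simp] theorem zero_D (n : ℕ) : (zero S n).D = 0 := rfl

/-- negative of torsion data -/
def neg : NTors S n where
  D := -τ.D
  D_mem := (fixD S.Γ).neg_mem τ.D_mem
  f := τ.f⁻¹
  f_mem := S.FK.inv_mem τ.f_mem
  hD := fun v => by rw [Finsupp.neg_apply, mul_neg, τ.hD, v.ord_inv]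
  LR_f := fun i => by
    have := (τ.LR_f i).inv one_ne_zero
    rwa [neg_zero, inv_one] at this

@[simp] theorem neg_D : τ.neg.D = -τ.D := rfl

/-- multiples of torsion data -/
def nsmul (c : ℕ) : NTors S n where
  D := c • τ.D
  D_mem := (fixD S.Γ).nsmul_mem τ.D_mem c
  f := τ.f ^ c
  f_mem := S.FK.pow_mem τ.f_mem c
  hD := fun v => by
    rw [Finsupp.smul_apply, nsmul_eq_mul, ord_pow, ← τ.hD]
    ring
  LR_f := fun i => by
    have := (τ.LR_f i).pow c
    rwa [mul_zero, one_pow] at this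

@[simp] theorem nsmul_D (c : ℕ) : (τ.nsmul c).D = c • τ.D := rfl

end NTors

namespace Pen

variable (p : Pen S)

theorem E_nonneg : 0 ≤ p.E := by
  rw [Finsupp.le_def]
  intro v
  rw [p.hE v]
  exact le_max_left _ _

theorem Eb_nonneg (i : Fin 3) : 0 ≤ p.Eb i := by
  rw [Finsupp.le_def]
  intro v
  rw [p.hEb i v]
  exact le_max_left _ _

theorem Eb_apply_nonneg (i : Fin 3) (v : Place k F₁) : 0 ≤ p.Eb i v := by
  rw [p.hEb i v]
  exact le_max_left _ _

theorem t_ne : p.t ≠ 0 := (p.LR_t 0).ne_zero (p.tb_ne 0)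

theorem t_mem_rr : p.t ∈ riemannRochSpace p.E := by
  rw [mem_rr_of_ne p.t_ne]
  intro v
  rw [p.hE v]
  have := le_max_right 0 (-(v.ord p.t))
  omega

theorem E_mono {m m' : ℕ} (h : m ≤ m') : m • p.E ≤ m' • p.E :=
  nsmul_le_nsmul_left p.E_nonneg h

theorem Eb_mono (i : Fin 3) {m m' : ℕ} (h : m ≤ m') : m • p.Eb i ≤ m' • p.Eb i :=
  nsmul_le_nsmul_left (p.Eb_nonneg i) h

theorem E_mem : p.E ∈ fixD S.Γ := by
  intro g hg
  ext v
  rw [SemilinearAut.divisor_smul_apply, p.hE, p.hE, ← ord_semi, p.t_mem g hg]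

/-- growth hypothesis (theorem `P_zero_le` of `Growth.lean`) -/
def Growth : Prop :=
  ∀ (m : ℕ) (i : Fin 3), S.P (riemannRochSpace (m • p.E)) 0 i ≤ riemannRochSpace (m • p.Eb i)

end Pen

/-- the space `L(D)` of a rational divisor is stable -/
theorem stable_rr {Γ : Set (SemilinearAut L F)} {D : Divisor L F} (hD : D ∈ fixD Γ) :
    ∀ g ∈ Γ, ∀ f ∈ riemannRochSpace D, g • f ∈ riemannRochSpace D := by
  intro g hg f hf
  rcases eq_or_ne f 0 with rfl | hf0
  · rw [smul_zero]; exact Submodule.zero_mem _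
  have hgf : g • f ≠ 0 := by
    intro h
    exact hf0 ((smul_eq_zero_iff_eq g).mp h)
  rw [mem_rr_of_ne hf0] at hf
  rw [mem_rr_of_ne hgf]
  intro v
  have h1 := hf (g⁻¹ • v)
  rw [← ord_semi] at h1
  have h2 := DFunLike.congr_fun (hD g hg) v
  rw [SemilinearAut.divisor_smul_apply] at h2
  rwa [h2] at h1

namespace Units

variable {p : Pen S} {q : ℕ} (U : Units p q)

include U in
theorem e0 : S.e 0 = 1 := by rw [U.e_eq]; rfl

include U in
theorem e1 : S.e 1 = q - 1 := by rw [U.e_eq]; rfl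

include U in
theorem e2 : S.e 2 = 1 := by rw [U.e_eq]; rfl

include U in
theorem cast_q1 : ((q - 1 : ℕ) : ℤ) = (q : ℤ) - 1 := by
  have := U.two_le
  rw [Nat.cast_sub (by omega), Nat.cast_one]

/-- `Q = 12 (q - 1)` -/
def Q (_ : Units p q) : ℕ := 12 * (q - 1)

theorem Q_eq : (U.Q : ℤ) = 12 * ((q : ℤ) - 1) := by
  rw [Q, Nat.cast_mul, U.cast_q1]
  norm_num

theorem Q_pos : (0 : ℤ) < U.Q := by
  have : (2 : ℤ) ≤ q := by exact_mod_cast U.two_le
  rw [U.Q_eq]
  linarith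

theorem Q_pos' : 0 < U.Q := by exact_mod_cast U.Q_pos

theorem U_ne (j : Fin 3) : U.U j ≠ 0 := (U.LR_U j 0).ne_zero (U.rU_ne j 0)

theorem zpow_mem (j : Fin 3) (m : ℤ) : U.U j ^ m ∈ riemannRochSpace ((m.natAbs * U.c) • p.E) := by
  obtain ⟨d, rfl | rfl⟩ := m.eq_nat_or_neg
  · rw [zpow_natCast, Int.natAbs_natCast, mul_smul]
    exact pow_mem_rr (U.U_mem j) d
  · rw [zpow_neg, zpow_natCast, Int.natAbs_neg, Int.natAbs_natCast, mul_smul, ← inv_pow]
    exact pow_mem_rr (U.U_inv_mem j) d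

/-- product of powers of the units -/
def up (κ : Fin 3 → ℤ) : F := U.U 0 ^ κ 0 * U.U 1 ^ κ 1 * U.U 2 ^ κ 2

/-- its residues -/
def rp (κ : Fin 3 → ℤ) (i : Fin 3) : F₁ := U.rU 0 i ^ κ 0 * U.rU 1 i ^ κ 1 * U.rU 2 i ^ κ 2

theorem rp_ne (κ : Fin 3 → ℤ) (i : Fin 3) : U.rp κ i ≠ 0 :=
  mul_ne_zero (mul_ne_zero (zpow_ne_zero _ (U.rU_ne 0 i)) (zpow_ne_zero _ (U.rU_ne 1 i)))
    (zpow_ne_zero _ (U.rU_ne 2 i))

/-- pole bound -/
def cu (κ : Fin 3 → ℤ) : ℕ := ((κ 0).natAbs + (κ 1).natAbs + (κ 2).natAbs) * U.c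

theorem up_mem (κ : Fin 3 → ℤ) : U.up κ ∈ riemannRochSpace (U.cu κ • p.E) := by
  have := mul_mem_rr (mul_mem_rr (U.zpow_mem 0 (κ 0)) (U.zpow_mem 1 (κ 1))) (U.zpow_mem 2 (κ 2))
  rw [← add_smul, ← add_smul, ← add_mul, ← add_mul] at this
  exact this

theorem LR_up (κ : Fin 3 → ℤ) (i : Fin 3) :
    (S.V i).LR (12 * (S.e i : ℤ) * κ i) (U.up κ) (U.rp κ i) := by
  have h := ((((U.LR_U 0 i).zpow (U.rU_ne 0 i) (κ 0)).mul
    ((U.LR_U 1 i).zpow (U.rU_ne 1 i) (κ 1)))).mul ((U.LR_U 2 i).zpow (U.rU_ne 2 i) (κ 2))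
  refine h.congr' ?_ rfl rfl
  fin_cases i <;> simp <;> ring

theorem ord_rp (κ : Fin 3 → ℤ) (i : Fin 3) (v : Place k F₁) :
    v.ord (U.rp κ i) = κ 0 * v.ord (U.rU 0 i) + κ 1 * v.ord (U.rU 1 i) +
      κ 2 * v.ord (U.rU 2 i) := by
  rw [rp, v.ord_mul (mul_ne_zero (zpow_ne_zero _ (U.rU_ne 0 i)) (zpow_ne_zero _ (U.rU_ne 1 i)))
    (zpow_ne_zero _ (U.rU_ne 2 i)), v.ord_mul (zpow_ne_zero _ (U.rU_ne 0 i))
    (zpow_ne_zero _ (U.rU_ne 1 i)), v.ord_zpow, v.ord_zpow, v.ord_zpow]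

/-- exponents attached to a level -/
def kap (_ : Units p q) (s : Fin 3 → ℤ) : Fin 3 → ℤ :=
  ![((q : ℤ) - 1) * s 0, s 1, ((q : ℤ) - 1) * s 2]

theorem kap_eq (s : Fin 3 → ℤ) (i : Fin 3) : (U.Q : ℤ) * s i = 12 * (S.e i : ℤ) * U.kap s i := by
  have h1 : ((q - 1 : ℕ) : ℤ) = (q : ℤ) - 1 := U.cast_q1
  rw [U.Q_eq]
  fin_cases i
  · simp [kap, U.e0] <;> ring
  · simp [kap, U.e1, h1] <;> ring
  · simp [kap, U.e2] <;> ring

/-- coefficient of `o` in the slope bound -/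
def coef (_ : Units p q) (s : Fin 3 → ℤ) : Fin 3 → ℤ :=
  ![((q : ℤ) - 1) * (-(q * s 0) + s 1 + s 2), ((q : ℤ) - 1) * (s 0 + s 2) - 2 * s 1,
    ((q : ℤ) - 1) * (s 0 + s 1 - q * s 2)]

theorem ord_rp_kap (s : Fin 3 → ℤ) (i : Fin 3) {v : Place k F₁} (hv : p.Eb 0 v = 0) :
    v.ord (U.rp (U.kap s) i) = U.coef s i * U.o v + 12 * s i * v.ord (S.η i) := by
  have h1 : ((q - 1 : ℕ) : ℤ) = (q : ℤ) - 1 := U.cast_q1
  rw [U.ord_rp]
  have hoff := fun i j => U.ord_off i j v hv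
  have h0 := U.ord_0 v hv
  have h1' := U.ord_1 v hv
  have h2 := U.ord_2 v hv
  fin_cases i
  · have e1 := hoff 1 0 (by decide)
    have e2 := hoff 2 0 (by decide)
    simp only [U.e1, U.e2, h1] at e1 e2
    simp only [Fin.zero_eta, Fin.mk_one, Fin.reduceFinMk, h0, e1, e2, kap, coef, U.η0, v.ord_one,
      Matrix.cons_val_zero, Matrix.cons_val_one, Matrix.cons_val]
    push_cast
    ring
  · have e1 := hoff 0 1 (by decide)
    have e2 := hoff 2 1 (by decide)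
    simp only [U.e0, U.e2] at e1 e2
    simp only [Fin.zero_eta, Fin.mk_one, Fin.reduceFinMk, h1', e1, e2, kap, coef,
      Matrix.cons_val_zero, Matrix.cons_val_one, Matrix.cons_val]
    push_cast
    ring
  · have e1 := hoff 0 2 (by decide)
    have e2 := hoff 1 2 (by decide)
    simp only [U.e0, U.e1, h1] at e1 e2
    simp only [Fin.zero_eta, Fin.mk_one, Fin.reduceFinMk, h2, e1, e2, kap, coef, U.η2, v.ord_one,
      Matrix.cons_val_zero, Matrix.cons_val_one, Matrix.cons_val]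
    push_cast
    ring

end Units

section Key

variable {p : Pen S} {q : ℕ} (U : Units p q) (hgr : p.Growth)

include hgr in
/-- the growth bound for a residue whose power appears -/
theorem Pen.Growth.ord_nonneg {m : ℕ} {y : F} (hy : y ∈ riemannRochSpace (m • p.E))
    (hge : S.Ge 0 y) {i : Fin 3} {b : F₁} (hb : (S.V i).LR 0 y b) (hb0 : b ≠ 0)
    (v : Place k F₁) : -(m * p.Eb i v) ≤ v.ord b := by
  have h1 := hgr m i ⟨y, hy, hge, hb⟩
  have h2 := (mem_rr_of_ne hb0).mp h1 v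
  rwa [Finsupp.smul_apply, nsmul_eq_mul] at h2

include hgr in
/-- **the slope inequality** away from the cusps -/
theorem slope_key {n : ℕ} (hn : n ≠ 0) (τ : NTors S n) {m : ℕ} {h : F}
    (hh : h ∈ riemannRochSpace (m • p.E + τ.D)) {s : Fin 3 → ℤ} (hs : S.Ge s h) {i : Fin 3}
    {a : F₁} (ha : (S.V i).LR (s i) h a) (ha0 : a ≠ 0) {v : Place k F₁} (hv : p.Eb 0 v = 0) :
    U.coef s i * U.o v + 12 * s i * v.ord (S.η i) ≤ U.Q * v.ord a := by
  have hvi : p.Eb i v = 0 := p.supp 0 i v hv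
  set K : ℕ := U.Q with hK
  set κ : Fin 3 → ℤ := fun j => -(U.kap s j) with hκ
  set y₀ : F := h ^ K * U.up κ with hy₀
  set y : F := y₀ ^ n * τ.f ^ K with hy
  set M : ℕ := K * m + U.cu κ with hM
  have h1 : y₀ ∈ riemannRochSpace (M • p.E + K • τ.D) := by
    have := mul_mem_rr (pow_mem_rr hh K) (U.up_mem κ)
    have e : K • (m • p.E + τ.D) + U.cu κ • p.E = M • p.E + K • τ.D := by
      rw [hM, smul_add, add_smul, mul_smul]; abel
    rwa [e] at this
  have h2 : y ∈ riemannRochSpace ((n * M) • p.E) := by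
    have := mul_mem_rr (pow_mem_rr h1 n) (pow_mem_rr τ.f_mem_rr K)
    have e : n • (M • p.E + K • τ.D) + K • (-(n • τ.D)) = (n * M) • p.E := by
      rw [smul_add, smul_neg, smul_smul, smul_smul, smul_smul, mul_comm n K]; abel
    rwa [e] at this
  -- levels
  have hlev : ∀ (j : Fin 3) (b : F₁), (S.V j).LR (s j) h b →
      (S.V j).LR 0 y ((b ^ K * U.rp κ j) ^ n) := by
    intro j b hb
    have e1 := (((hb.pow K).mul (U.LR_up κ j)).pow n).mul ((τ.LR_f j).pow K)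
    refine e1.congr' ?_ rfl ?_
    · have := U.kap_eq s j
      rw [hκ]
      simp only
      rw [mul_zero, add_zero, ← hK] at *
      rw [this]
      ring
    · rw [one_pow, mul_one]
  have hge : S.Ge 0 y := by
    intro j
    obtain ⟨b, hb⟩ := (hs j).exists_LR
    exact (hlev j b hb).ge
  have hb0 : a ^ K * U.rp κ i ≠ 0 := mul_ne_zero (pow_ne_zero _ ha0) (U.rp_ne κ i)
  have h3 := hgr.ord_nonneg h2 hge (hlev i a ha) (pow_ne_zero n hb0) v
  rw [hvi, mul_zero, neg_zero, ord_pow, v.ord_mul (pow_ne_zero _ ha0) (U.rp_ne κ i), ord_pow] at h3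
  have hn' : (0 : ℤ) < n := by exact_mod_cast Nat.pos_of_ne_zero hn
  have h4 := nonneg_of_mul_nonneg_right h3 hn'
  have h5 : v.ord (U.rp κ i) = -(v.ord (U.rp (U.kap s) i)) := by
    rw [U.ord_rp, U.ord_rp, hκ]
    ring
  rw [h5, U.ord_rp_kap s i hv] at h4
  linarith

/-- a step to which the cusp estimate applies -/
def GoodStep (q : ℕ) (s : Fin 3 → ℤ) (i : Fin 3) : Prop :=
  (∀ j, 0 ≤ s j) ∧ (s i = 0 ∨ (i = 1 ∧ s 1 ≤ ((q : ℤ) - 1) * s 0 ∧ s 1 ≤ ((q : ℤ) - 1) * s 2))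

include U hgr in
/-- the estimate at all places -/
theorem slope_cusp {n : ℕ} (hn : n ≠ 0) (τ : NTors S n) {m : ℕ} {h : F}
    (hh : h ∈ riemannRochSpace (m • p.E + τ.D)) {s : Fin 3 → ℤ} (hs : S.Ge s h) {i : Fin 3}
    (hg : GoodStep q s i) {a : F₁} (ha : (S.V i).LR (s i) h a) (ha0 : a ≠ 0)
    (v : Place k F₁) :
    12 * s i * v.ord (S.η i) ≤ U.Q * (v.ord a + m * p.Eb i v) := by
  have hn' : (0 : ℤ) < n := by exact_mod_cast Nat.pos_of_ne_zero hn
  rcases hg.2 with h0 | ⟨hi, hs0, hs2⟩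
  · -- integral case
    have h1 := τ.pow_mul_mem hh
    rw [smul_smul] at h1
    have hge : S.Ge 0 (h ^ n * τ.f) := by
      have e1 : S.Ge 0 h := hs.lower (fun j => hg.1 j)
      intro j
      have := (e1.pow n j).mul (τ.LR_f j).ge
      simpa using this
    have h2 : (S.V i).LR 0 (h ^ n * τ.f) (a ^ n) := by
      have := (ha.pow n).mul (τ.LR_f i)
      rw [h0] at this
      simpa using this
    have h3 := hgr.ord_nonneg h1 hge h2 (pow_ne_zero n ha0) v
    rw [ord_pow] at h3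
    push_cast at h3
    have h4 : 0 ≤ (n : ℤ) * (v.ord a + m * p.Eb i v) := by linarith
    have h5 := nonneg_of_mul_nonneg_right h4 hn'
    rw [h0]
    have := mul_nonneg U.Q_pos.le h5
    linarith
  · subst hi
    have hq1 : ((q - 1 : ℕ) : ℤ) = (q : ℤ) - 1 := U.cast_q1
    set y : F := (S.ϖ ^ (-(s 1)) • h ^ (q - 1)) ^ n * τ.f ^ (q - 1) with hy
    have h1 : S.ϖ ^ (-(s 1)) • h ^ (q - 1) ∈
        riemannRochSpace (((q - 1) * m) • p.E + (q - 1) • τ.D) := by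
      apply Submodule.smul_mem
      have := pow_mem_rr hh (q - 1)
      rwa [smul_add, smul_smul] at this
    have h2 : y ∈ riemannRochSpace ((n * ((q - 1) * m)) • p.E) := by
      have := mul_mem_rr (pow_mem_rr h1 n) (pow_mem_rr τ.f_mem_rr (q - 1))
      have e : n • (((q - 1) * m) • p.E + (q - 1) • τ.D) + (q - 1) • (-(n • τ.D)) =
          (n * ((q - 1) * m)) • p.E := by
        rw [smul_add, smul_neg, smul_smul, smul_smul, smul_smul, mul_comm n (q - 1)]; abel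
      rwa [e] at this
    have hlev : ∀ (j : Fin 3) (b : F₁), (S.V j).LR (s j) h b →
        (S.V j).LR (n * ((q - 1 : ℕ) * s j + -(s 1) * S.e j)) y
          ((b ^ (q - 1) * S.η j ^ (-(s 1))) ^ n) := by
      intro j b hb
      have e1 := ((S.ϖ_smul (hb.pow (q - 1)) (-(s 1))).pow n).mul ((τ.LR_f j).pow (q - 1))
      refine e1.congr' ?_ rfl ?_
      · rw [mul_zero, add_zero]
      · rw [one_pow, mul_one]
    have hnn : ∀ j, 0 ≤ (n : ℤ) * (((q - 1 : ℕ) : ℤ) * s j + -(s 1) * S.e j) := by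
      intro j
      apply mul_nonneg hn'.le
      fin_cases j
      · simp only [Fin.zero_eta, U.e0, hq1]; push_cast; linarith
      · simp only [Fin.mk_one, U.e1, hq1]; linarith
      · simp only [Fin.reduceFinMk, U.e2, hq1]; push_cast; linarith
    have hge : S.Ge 0 y := by
      intro j
      obtain ⟨b, hb⟩ := (hs j).exists_LR
      exact (hlev j b hb).ge.lower (hnn j)
    have h3 : (S.V 1).LR 0 y ((a ^ (q - 1) * S.η 1 ^ (-(s 1))) ^ n) := by
      refine (hlev 1 a ha).congr' ?_ rfl rfl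
      rw [U.e1]
      ring
    have hne : a ^ (q - 1) * S.η 1 ^ (-(s 1)) ≠ 0 :=
      mul_ne_zero (pow_ne_zero _ ha0) (zpow_ne_zero _ (S.η_ne 1))
    have h4 := hgr.ord_nonneg h2 hge h3 (pow_ne_zero n hne) v
    rw [ord_pow, v.ord_mul (pow_ne_zero _ ha0) (zpow_ne_zero _ (S.η_ne 1)), ord_pow,
      v.ord_zpow] at h4
    push_cast at h4
    rw [hq1] at h4
    have h5 : 0 ≤ (n : ℤ) * (((q : ℤ) - 1) * v.ord a + -(s 1) * v.ord (S.η 1) +
        ((q : ℤ) - 1) * m * p.Eb 1 v) := by linarith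
    have h6 := nonneg_of_mul_nonneg_right h5 hn'
    rw [U.Q_eq]
    linarith

end Key

end Fermat.Agent.Car
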