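import Fermat.Agent.Car.Lin
import Fermat.Agent.Car.Slope

/-!
# Project CAR: the growth of the pieces
-/

set_option autoImplicit false
set_option linter.unusedSectionVars false

noncomputable section

open AlgebraicCurve Module

namespace Fermat.Agent.Car

open Fermat.Agent.FunField Fermat.Agent.FunField.PlaceLemmas Fermat.Agent.Deuring
  Fermat.Agent.BadRed

section Paths

variable {e : Fin 3 → ℕ}

/-- an explicit path: raise the coordinates one after the other -/
def blockPath (e : Fin 3 → ℕ) : Path e where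
  T := e 0 + e 1 + e 2
  σ t j := ((![min t (e 0), min (t - e 0) (e 1), min (t - e 0 - e 1) (e 2)] j : ℕ) : ℤ)
  i t := if t < e 0 then 0 else if t < e 0 + e 1 then 1 else 2
  zero := by
    funext j
    fin_cases j <;> simp
  succ t ht := by
    funext j
    rw [Pi.add_apply]
    rcases lt_or_ge t (e 0) with h0 | h0
    · rw [if_pos h0]
      fin_cases j
      · simp only [Fin.zero_eta, Matrix.cons_val_zero, Pi.single_eq_same]
        omega
      · simp only [Fin.mk_one, Matrix.cons_val_one, Matrix.cons_val_zero]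
        rw [Pi.single_eq_of_ne (by decide)]
        omega
      · simp only [Fin.reduceFinMk, Matrix.cons_val]
        rw [Pi.single_eq_of_ne (by decide)]
        omega
    · rw [if_neg (by omega)]
      rcases lt_or_ge t (e 0 + e 1) with h1 | h1
      · rw [if_pos h1]
        fin_cases j
        · simp only [Fin.zero_eta, Matrix.cons_val_zero]
          rw [Pi.single_eq_of_ne (by decide)]
          omega
        · simp only [Fin.mk_one, Matrix.cons_val_one, Matrix.cons_val_zero, Pi.single_eq_same]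
          omega
        · simp only [Fin.reduceFinMk, Matrix.cons_val]
          rw [Pi.single_eq_of_ne (by decide)]
          omega
      · rw [if_neg (by omega)]
        fin_cases j
        · simp only [Fin.zero_eta, Matrix.cons_val_zero]
          rw [Pi.single_eq_of_ne (by decide)]
          omega
        · simp only [Fin.mk_one, Matrix.cons_val_one, Matrix.cons_val_zero]
          rw [Pi.single_eq_of_ne (by decide)]
          omega
        · simp only [Fin.reduceFinMk, Matrix.cons_val, Pi.single_eq_same]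
          omega
  last j := by
    fin_cases j
    · simp only [Fin.zero_eta, Matrix.cons_val_zero]
      omega
    · simp only [Fin.mk_one, Matrix.cons_val_one, Matrix.cons_val_zero]
      omega
    · simp only [Fin.reduceFinMk, Matrix.cons_val]
      omega

/-- transport of a path along a permutation -/
def Path.perm (π : Equiv.Perm (Fin 3)) (Q : Path (e ∘ π)) : Path e where
  T := Q.T
  σ t j := Q.σ t (π.symm j)
  i t := π (Q.i t)
  zero := by rw [Q.zero]; rfl
  succ t ht := by
    funext j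
    rw [Q.succ t ht, Pi.add_apply, Pi.add_apply]
    congr 1
    by_cases h : j = π (Q.i t)
    · subst h
      rw [Equiv.symm_apply_apply, Pi.single_eq_same, Pi.single_eq_same]
    · rw [Pi.single_eq_of_ne h, Pi.single_eq_of_ne]
      intro h'
      apply h
      rw [← h', Equiv.apply_symm_apply]
  last j := by
    rw [Q.last, Function.comp_apply, Equiv.apply_symm_apply]

theorem exists_path (he : ∀ i, 0 < e i) (i : Fin 3) : ∃ Q : Path e, 0 < Q.T ∧ Q.i 0 = i := by
  refine ⟨(blockPath (e ∘ Equiv.swap 0 i)).perm (Equiv.swap 0 i), ?_, ?_⟩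
  · change 0 < (e ∘ Equiv.swap 0 i) 0 + (e ∘ Equiv.swap 0 i) 1 + (e ∘ Equiv.swap 0 i) 2
    have := he (Equiv.swap 0 i 0)
    rw [Function.comp_apply]
    omega
  · have h1 : 0 < (e ∘ Equiv.swap 0 i) 0 := he _
    change Equiv.swap 0 i (if 0 < (e ∘ Equiv.swap 0 i) 0 then 0 else _) = i
    rw [if_pos h1, Equiv.swap_apply_left]

theorem Path.sum_comp (Q : Path e) (f : Fin 3 → ℤ) :
    ∑ t ∈ Finset.range Q.T, f (Q.i t) = ∑ j, (e j : ℤ) * f j := by
  have h0 : ∀ (j : Fin 3) (t : ℕ), t ≤ Q.T →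
      ∑ u ∈ Finset.range t, (Pi.single (Q.i u) (1 : ℤ) : Fin 3 → ℤ) j = Q.σ t j := by
    intro j t ht
    induction t with
    | zero => simp [Q.zero]
    | succ t ih =>
      rw [Finset.sum_range_succ, ih (by omega), Q.succ t (by omega), Pi.add_apply]
  have h1 : ∀ t, f (Q.i t) = ∑ j, (Pi.single (Q.i t) (1 : ℤ) : Fin 3 → ℤ) j * f j := by
    intro t
    rw [Finset.sum_eq_single (Q.i t)]
    · simp
    · intro j _ hj
      rw [Pi.single_eq_of_ne hj, zero_mul]
    · intro h
      exact absurd (Finset.mem_univ _) h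
  simp only [h1]
  rw [Finset.sum_comm]
  refine Finset.sum_congr rfl fun j _ => ?_
  rw [← Finset.sum_mul, h0 j Q.T le_rfl, Q.last j]

end Paths

variable {L k F F₁ : Type*} [Field L] [Field k] [Field F] [Field F₁] [Algebra L F] [Algebra k F₁]
variable {S : Sys L k F F₁}

/-- simultaneous generic element -/
theorem exists_generic₃ [Infinite k] {Λ : Submodule k (Fin 3 → F₁)} {D : Fin 3 → Divisor k F₁}
    (h : ∀ i, IsPoleDiv (Λ.map (LinearMap.proj i)) (D i)) (T : Fin 3 → Finset (Place k F₁)) :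
    ∃ a ∈ Λ, ∀ i, ∀ v ∈ T i, a i ≠ 0 ∧ v.ord (a i) = -D i v := by
  classical
  let p : (Σ i, T i) → Submodule k Λ := fun y =>
    (riemannRochSpace (D y.1 - Finsupp.single y.2.1 1)).comap
      ((LinearMap.proj y.1).comp Λ.subtype)
  have hp : ∀ v, p v ≠ ⊤ := by
    rintro ⟨i, v⟩ htop
    obtain ⟨f, ⟨q, hq, rfl⟩, hf0, hv⟩ := (h i).attained v.1
    have hmem : (⟨q, hq⟩ : Λ) ∈ p ⟨i, v⟩ := by rw [htop]; trivial
    have h1 : q i ∈ riemannRochSpace (D i - Finsupp.single v.1 1) := hmem
    have hf0' : q i ≠ 0 := hf0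
    have h2 := (mem_rr_of_ne hf0').mp h1 v.1
    rw [Finsupp.sub_apply, Finsupp.single_eq_same] at h2
    have hv' : v.1.ord (q i) = -D i v.1 := hv
    omega
  have hex : ∃ x : Λ, ∀ v, x ∉ p v := by
    by_contra hcon
    push Not at hcon
    have hcov : ⋃ v, (p v : Set Λ) = Set.univ := by
      rw [Set.eq_univ_iff_forall]
      intro x
      obtain ⟨v, hv⟩ := hcon x
      exact Set.mem_iUnion.mpr ⟨v, hv⟩
    obtain ⟨v, hv⟩ := Subspace.exists_eq_top_of_iUnion_eq_univ hcov
    exact hp v hv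
  obtain ⟨x, hx⟩ := hex
  have key : ∀ (D : Divisor k F₁) (v : Place k F₁) (f : F₁), f ∈ riemannRochSpace D →
      ¬ f ∈ riemannRochSpace (D - Finsupp.single v 1) → f ≠ 0 ∧ v.ord f = -D v := by
    intro D v f hf hnf
    have hf0 : f ≠ 0 := by
      rintro rfl
      exact hnf (Submodule.zero_mem _)
    refine ⟨hf0, ?_⟩
    rw [mem_rr_of_ne hf0] at hnf
    push Not at hnf
    obtain ⟨w, hw⟩ := hnf
    rw [Finsupp.sub_apply] at hw
    have h3 := (mem_rr_of_ne hf0).mp hf w
    by_cases hwv : w = v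
    · subst hwv
      rw [Finsupp.single_eq_same] at hw
      omega
    · rw [Finsupp.single_eq_of_ne hwv] at hw
      omega
  exact ⟨x, x.2, fun i v hv => key (D i) v _ ((h i).le ⟨x, x.2, rfl⟩) (hx ⟨i, ⟨v, hv⟩⟩)⟩

theorem map_Res (W : Submodule L F) (i : Fin 3) :
    (S.Res W).map (LinearMap.proj i) = S.P W 0 i := by
  ext a
  constructor
  · rintro ⟨b, ⟨f, hf, hb⟩, rfl⟩
    exact ⟨f, hf, fun j => (hb j).ge, hb i⟩
  · rintro ⟨f, hf, hge, ha⟩
    choose b hb using fun j => (hge j).exists_LR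
    exact ⟨b, ⟨f, hf, hb⟩, (hb i).unique ha⟩

/-- **Key inequality** for three components with multiplicities. -/
theorem degree_le₃ [IsFF L F] [IsFF k F₁] [HasPrincipalDivisors L F] [Infinite k] {g : ℤ}
    (hRR : RRLarge L F g) {E : Divisor L F} (hE : 0 ≤ E) {D : Fin 3 → Divisor k F₁}
    (hD : ∀ i, IsPoleDiv (S.P (riemannRochSpace E) 0 i) (D i)) (Q : Path S.e) :
    ∑ i, (S.e i : ℤ) * Divisor.degree (D i) ≤ Divisor.degree E := by
  classical
  have hone : ∀ i, (1 : F₁) ∈ S.P (riemannRochSpace E) 0 i := fun i =>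
    ⟨1, one_mem_rr hE, fun _ => (RV.LR.one _).ge, RV.LR.one _⟩
  have hD0 : ∀ i, 0 ≤ D i := fun i => (hD i).zero_le_of_one_mem (hone i)
  obtain ⟨a, ⟨f, hfE, hf⟩, ha⟩ := exists_generic₃ (Λ := S.Res (riemannRochSpace E))
    (fun i => by rw [map_Res]; exact hD i) (fun i => (D i).support)
  choose N ε hN hli using fun i => exists_family (hD0 i) (ha i)
  -- lifts
  choose X hX using fun (i : Fin 3) (c : ℤ) (j : Fin (N i)) =>
    S.surj (Function.update (fun j => (S.e j : ℤ)) i c) (Pi.single i (ε i j))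
  have hXi : ∀ i c j, (S.V i).LR c (X i c j) (ε i j) := by
    intro i c j
    have := hX i c j i
    rwa [Function.update_self, Pi.single_eq_same] at this
  have hXn : ∀ i c j i', i' ≠ i → (S.V i').Ge (S.e i') (X i c j) := by
    intro i c j i' hi'
    have := (hX i c j i').ge
    rwa [Function.update_of_ne hi'] at this
  let x : (t : ℕ) → ℕ × Fin (N (Q.i t)) → F := fun t y =>
    f ^ y.1 * X (Q.i t) (Q.σ t (Q.i t)) y.2
  have hlin := linIndep_lifts Q (J := fun t => ℕ × Fin (N (Q.i t))) x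
    (fun t y => a (Q.i t) ^ y.1 * ε (Q.i t) y.2)
    (fun t y ht => by
      intro i'
      have h1 : (S.V i').Ge 0 (f ^ y.1) := by
        have := ((hf i').pow y.1).ge
        rwa [mul_zero] at this
      by_cases hi : i' = Q.i t
      · subst hi
        have := h1.mul (hXi (Q.i t) (Q.σ t (Q.i t)) y.2).ge
        rwa [zero_add] at this
      · have := h1.mul (hXn (Q.i t) (Q.σ t (Q.i t)) y.2 i' hi)
        rw [zero_add] at this
        exact this.lower (Q.le_e (by omega) i'))
    (fun t y ht => by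
      have h1 := ((hf (Q.i t)).pow y.1).mul (hXi (Q.i t) (Q.σ t (Q.i t)) y.2)
      rwa [mul_zero, zero_add] at h1)
    (fun t ht => hli (Q.i t))
  obtain ⟨c, hc⟩ := hRR
  obtain ⟨E', hE'0, hE'c, hE'⟩ := exists_bound (K := L)
    (fun y : Σ t : Fin Q.T, Fin (N (Q.i t)) => X (Q.i y.1) (Q.σ y.1 (Q.i y.1)) y.2) (max c 0)
  let NN : ℤ := ∑ i, (S.e i : ℤ) * N i
  have hNN : ((∑ t : Fin Q.T, N (Q.i t) : ℕ) : ℤ) = NN := by
    push_cast
    rw [Fin.sum_univ_eq_sum_range (fun t => (N (Q.i t) : ℤ)) Q.T]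
    exact Q.sum_comp (fun i => (N i : ℤ))
  have hcount : ∀ m : ℕ, ((m : ℤ) + 1) * NN ≤
      Divisor.degree E' + m * Divisor.degree E + 1 - g := by
    intro m
    have hdegE := degree_nonneg hE
    have h2 : c ≤ Divisor.degree (E' + m • E) := by
      rw [map_add, map_nsmul, nsmul_eq_mul]
      have : max c 0 ≤ Divisor.degree E' := hE'c
      nlinarith [le_max_left c 0, Int.natCast_nonneg m]
    obtain ⟨hfd, hrk⟩ := hc _ h2
    let w : (Σ t : Fin Q.T, Fin (m + 1) × Fin (N (Q.i t))) → riemannRochSpace (E' + m • E) :=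
      fun y => ⟨x y.1 ((y.2.1 : ℕ), y.2.2), by
        rw [add_comm E']
        refine mul_mem_rr ?_ (hE' ⟨y.1, y.2.2⟩)
        refine rr_mono ?_ (pow_mem_rr hfE y.2.1)
        exact nsmul_le_nsmul_left hE (by have := y.2.1.2; omega)⟩
    have hw : LinearIndependent L w := by
      apply LinearIndependent.of_comp (riemannRochSpace (E' + m • E)).subtype
      refine hlin.comp (fun y : Σ t : Fin Q.T, Fin (m + 1) × Fin (N (Q.i t)) =>
        (⟨y.1, ((y.2.1 : ℕ), y.2.2)⟩ : Σ t : Fin Q.T, ℕ × Fin (N (Q.i t)))) ?_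
      rintro ⟨t, a, b⟩ ⟨t', a', b'⟩ h
      simp only [Sigma.mk.injEq] at h
      obtain ⟨rfl, h⟩ := h
      simp only [heq_eq_eq, Prod.mk.injEq] at h
      obtain ⟨h1, rfl⟩ := h
      rw [Fin.ext h1]
    have h3 := hw.fintype_card_le_finrank
    rw [Fintype.card_sigma] at h3
    simp only [Fintype.card_prod, Fintype.card_fin] at h3
    rw [← Finset.mul_sum] at h3
    have h4 : (((m + 1) * (∑ t : Fin Q.T, N (Q.i t)) : ℕ) : ℤ) ≤
        finrank L (riemannRochSpace (E' + m • E)) := by
      exact_mod_cast h3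
    rw [hrk, map_add, map_nsmul, nsmul_eq_mul, Nat.cast_mul, hNN] at h4
    push_cast at h4
    linarith
  have hle : ∑ i, (S.e i : ℤ) * Divisor.degree (D i) ≤ NN :=
    Finset.sum_le_sum fun i _ => mul_le_mul_of_nonneg_left (hN i) (Int.natCast_nonneg _)
  suffices h : NN ≤ Divisor.degree E by linarith
  by_contra hlt
  push Not at hlt
  set m : ℕ := (Divisor.degree E' + 1 - g).toNat with hm
  have h5 := hcount m
  have h6 : Divisor.degree E' + 1 - g ≤ m := Int.self_le_toNat _
  have h7 := degree_nonneg hE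
  nlinarith [Int.natCast_nonneg m]

namespace Pen

variable (p : Pen S)

theorem tb_pow_mem_P (m : ℕ) (i : Fin 3) :
    p.tb i ^ m ∈ S.P (riemannRochSpace (m • p.E)) 0 i := by
  have h1 : ∀ j, (S.V j).LR 0 (p.t ^ m) (p.tb j ^ m) := fun j => by
    have := (p.LR_t j).pow m
    rwa [mul_zero] at this
  exact ⟨p.t ^ m, pow_mem_rr p.t_mem_rr m, fun j => (h1 j).ge, h1 i⟩

theorem one_mem_P (m : ℕ) (i : Fin 3) :
    (1 : F₁) ∈ S.P (riemannRochSpace (m • p.E)) 0 i :=
  ⟨1, one_mem_rr (nsmul_nonneg p.E_nonneg m), fun _ => (RV.LR.one _).ge, RV.LR.one _⟩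

variable [IsFF L F] [IsFF k F₁] [HasPrincipalDivisors L F] [HasPrincipalDivisors k F₁]
  [IsAlgClosed k] {g : ℤ}

/-- **growth of the pieces** -/
theorem P_zero_le (hRR : RRLarge L F g) (m : ℕ) (i : Fin 3) :
    S.P (riemannRochSpace (m • p.E)) 0 i ≤ riemannRochSpace (m • p.Eb i) := by
  have hfd := finiteDimensional_rr hRR (m • p.E)
  have hE0 : 0 ≤ m • p.E := nsmul_nonneg p.E_nonneg m
  have hfin : ∀ i, FiniteDimensional k (S.P (riemannRochSpace (m • p.E)) 0 i) := by
    intro i
    obtain ⟨Q, hT, hi⟩ := exists_path S.e_pos i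
    have := finiteDimensional_P (riemannRochSpace (m • p.E)) Q 0 hT
    rwa [Q.zero, hi] at this
  have hne : ∀ i, S.P (riemannRochSpace (m • p.E)) 0 i ≠ ⊥ := by
    intro i h
    have h1 := p.one_mem_P m i
    rw [h] at h1
    exact one_ne_zero ((Submodule.mem_bot k).mp h1)
  have hpd : ∀ i, ∃ D, IsPoleDiv (S.P (riemannRochSpace (m • p.E)) 0 i) D := by
    intro i
    have := hfin i
    exact IsPoleDiv.exists_isPoleDiv _ (hne i)
  choose D hD using hpd
  obtain ⟨Q, -, -⟩ := exists_path S.e_pos 0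
  have hle := degree_le₃ hRR hE0 hD Q
  have hlow : ∀ i, m • p.Eb i ≤ D i := by
    intro i
    have hD0 := (hD i).zero_le_of_one_mem (p.one_mem_P m i)
    rw [Finsupp.le_def]
    intro v
    have h2 := (mem_rr_of_ne (pow_ne_zero m (p.tb_ne i))).mp ((hD i).le (p.tb_pow_mem_P m i)) v
    have h3 := Finsupp.le_def.mp hD0 v
    rw [Finsupp.zero_apply] at h3
    rw [Finsupp.smul_apply, nsmul_eq_mul, p.hEb i v]
    rw [ord_pow] at h2
    rcases le_total 0 (-(v.ord (p.tb i))) with h4 | h4
    · rw [max_eq_right h4]; linarith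
    · rw [max_eq_left h4, mul_zero]; exact h3
  have hdE : Divisor.degree (m • p.E) = ∑ i, (S.e i : ℤ) * Divisor.degree (m • p.Eb i) := by
    rw [map_nsmul, p.deg_eq, nsmul_eq_mul, Finset.mul_sum]
    refine Finset.sum_congr rfl fun i _ => ?_
    rw [map_nsmul, nsmul_eq_mul]
    ring
  have hmono : ∀ i ∈ Finset.univ, (S.e i : ℤ) * Divisor.degree (m • p.Eb i) ≤
      (S.e i : ℤ) * Divisor.degree (D i) := fun i _ =>
    mul_le_mul_of_nonneg_left (degree_mono (hlow i)) (Int.natCast_nonneg _)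
  rw [hdE] at hle
  have heq := (Finset.sum_eq_sum_iff_of_le hmono).mp (le_antisymm (Finset.sum_le_sum hmono) hle) i
    (Finset.mem_univ i)
  have hei : (0 : ℤ) < S.e i := by exact_mod_cast S.e_pos i
  have heq' : Divisor.degree (m • p.Eb i) = Divisor.degree (D i) :=
    mul_left_cancel₀ hei.ne' heq
  have e1 := eq_of_le_of_degree_le (hlow i) heq'.ge
  rw [e1]
  exact (hD i).le

/-- **growth hypothesis** -/
theorem growth (hRR : RRLarge L F g) : p.Growth := fun m i => p.P_zero_le hRR m i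

end Pen

end Fermat.Agent.Car
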