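import Fermat.Agent.Car.Slope

/-!
# Project CAR: the pieces are full Riemann–Roch spaces
-/

set_option autoImplicit false
set_option linter.unusedSectionVars false
set_option linter.unusedSimpArgs false

noncomputable section

open AlgebraicCurve Module

namespace Fermat.Agent.Car

open Fermat.Agent.FunField Fermat.Agent.FunField.PlaceLemmas Fermat.Agent.Deuring
  Fermat.Agent.BadRed

section PathLemmas

variable {e : Fin 3 → ℕ} (P : Path e)

theorem Path.sum_single (j : Fin 3) (t : ℕ) (ht : t ≤ P.T) :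
    ∑ u ∈ Finset.range t, (Pi.single (P.i u) (1 : ℤ) : Fin 3 → ℤ) j = P.σ t j := by
  induction t with
  | zero => simp [P.zero]
  | succ t ih =>
    rw [Finset.sum_range_succ, ih (by omega), P.succ t (by omega), Pi.add_apply]

theorem Path.sum_apply (f : Fin 3 → ℤ) :
    ∑ t ∈ Finset.range P.T, f (P.i t) = ∑ j, (e j : ℤ) * f j := by
  have h1 : ∀ t, f (P.i t) = ∑ j, (Pi.single (P.i t) (1 : ℤ) : Fin 3 → ℤ) j * f j := by
    intro t
    rw [Finset.sum_eq_single (P.i t)]
    · simp
    · intro j _ hj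
      rw [Pi.single_eq_of_ne hj, zero_mul]
    · intro h
      exact absurd (Finset.mem_univ _) h
  simp only [h1]
  rw [Finset.sum_comm]
  refine Finset.sum_congr rfl fun j _ => ?_
  rw [← Finset.sum_mul, P.sum_single j P.T le_rfl, P.last j]

end PathLemmas

section StdPath

/-- the standard path with initial permutation `π` -/
def stdσ (π : Equiv.Perm (Fin 3)) (t : ℕ) : Fin 3 → ℤ := fun j =>
  (if ((π.symm j : Fin 3) : ℕ) < t then 1 else 0) + (if j = 1 then ((t - 3 : ℕ) : ℤ) else 0)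

/-- the raised coordinate -/
def stdi (π : Equiv.Perm (Fin 3)) (t : ℕ) : Fin 3 := if h : t < 3 then π ⟨t, h⟩ else 1

theorem stdi_lt (π : Equiv.Perm (Fin 3)) {t : ℕ} (h : t < 3) : stdi π t = π ⟨t, h⟩ := dif_pos h

theorem stdi_ge (π : Equiv.Perm (Fin 3)) {t : ℕ} (h : 3 ≤ t) : stdi π t = 1 :=
  dif_neg (by omega)

theorem stdσ_ge (π : Equiv.Perm (Fin 3)) {t : ℕ} (h : 3 ≤ t) (j : Fin 3) :
    stdσ π t j = if j = 1 then (t : ℤ) - 2 else 1 := by
  rw [stdσ, if_pos (by omega)]
  split_ifs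
  · rw [Nat.cast_sub h]; push_cast; ring
  · ring

theorem stdσ_succ (π : Equiv.Perm (Fin 3)) (t : ℕ) :
    stdσ π (t + 1) = stdσ π t + Pi.single (stdi π t) 1 := by
  ext j
  rw [Pi.add_apply]
  by_cases ht : t < 3
  · rw [stdi_lt π ht, stdσ, stdσ]
    have h1 : t + 1 - 3 = 0 := by omega
    have h2 : t - 3 = 0 := by omega
    rw [h1, h2]
    by_cases hj : j = π ⟨t, ht⟩
    · subst hj
      rw [Pi.single_eq_same, Equiv.symm_apply_apply]
      simp
    · rw [Pi.single_eq_of_ne hj]
      have h3 : ((π.symm j : Fin 3) : ℕ) ≠ t := by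
        intro h
        apply hj
        have h4 : π.symm j = ⟨t, ht⟩ := Fin.ext h
        rw [← h4, Equiv.apply_symm_apply]
      have h5 : ((π.symm j : Fin 3) : ℕ) < t + 1 ↔ ((π.symm j : Fin 3) : ℕ) < t := by omega
      simp only [h5, Nat.cast_zero, ite_self, add_zero]
  · push Not at ht
    rw [stdi_ge π ht, stdσ_ge π (by omega), stdσ_ge π ht]
    by_cases hj : j = 1
    · subst hj
      rw [Pi.single_eq_same, if_pos rfl, if_pos rfl]
      push_cast; ring
    · rw [Pi.single_eq_of_ne hj, if_neg hj, if_neg hj, add_zero]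

/-- **the standard paths** -/
def stdPath {e : Fin 3 → ℕ} {q : ℕ} (hq : 2 ≤ q) (he : e = ![1, q - 1, 1])
    (π : Equiv.Perm (Fin 3)) : Path e where
  T := q + 1
  σ := stdσ π
  i := stdi π
  zero := by
    ext j
    simp [stdσ]
  succ t _ := stdσ_succ π t
  last j := by
    rw [stdσ_ge π (by omega), he]
    fin_cases j
    · simp
    · simp only [Fin.mk_one, if_true, Matrix.cons_val_one, Matrix.cons_val_zero]
      rw [Nat.cast_sub (by omega)]
      push_cast; ring
    · simp

theorem stdσ_nonneg (π : Equiv.Perm (Fin 3)) (t : ℕ) (j : Fin 3) : 0 ≤ stdσ π t j := by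
  rw [stdσ]
  split_ifs <;> positivity

theorem stdPath_good {q : ℕ} (π : Equiv.Perm (Fin 3)) {t : ℕ} (ht : t < q + 1) :
    GoodStep q (stdσ π t) (stdi π t) := by
  refine ⟨stdσ_nonneg π t, ?_⟩
  by_cases h3 : t < 3
  · left
    rw [stdi_lt π h3, stdσ, Equiv.symm_apply_apply]
    have : t - 3 = 0 := by omega
    simp [this]
  · push Not at h3
    right
    refine ⟨stdi_ge π h3, ?_, ?_⟩
    · rw [stdσ_ge π h3, stdσ_ge π h3, if_pos rfl, if_neg (by decide)]
      have : (t : ℤ) < q + 1 := by exact_mod_cast ht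
      linarith
    · rw [stdσ_ge π h3, stdσ_ge π h3, if_pos rfl, if_neg (by decide)]
      have : (t : ℤ) < q + 1 := by exact_mod_cast ht
      linarith

end StdPath

variable {L k F F₁ : Type*} [Field L] [Field k] [Field F] [Field F₁] [Algebra L F] [Algebra k F₁]
variable {S : Sys L k F F₁} {p : Pen S} {q : ℕ} (U : Units p q)

namespace Units

theorem coef_lt (π : Equiv.Perm (Fin 3)) {t : ℕ} (ht : t < 3) :
    U.coef (stdσ π t) (stdi π t) = ((q : ℤ) - 1) * t := by
  have h0 : stdσ π t (π ⟨t, ht⟩) = 0 := by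
    rw [stdσ, Equiv.symm_apply_apply]
    have : t - 3 = 0 := by omega
    simp [this]
  have hsum : stdσ π t 0 + stdσ π t 1 + stdσ π t 2 = t := by
    have h1 : ∑ j, stdσ π t j = ∑ j : Fin 3, if ((j : Fin 3) : ℕ) < t then (1 : ℤ) else 0 := by
      rw [← Equiv.sum_comp π (fun j => stdσ π t j)]
      refine Finset.sum_congr rfl fun j _ => ?_
      rw [stdσ, Equiv.symm_apply_apply]
      have : t - 3 = 0 := by omega
      simp [this]
    rw [Fin.sum_univ_three, Fin.sum_univ_three] at h1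
    rw [h1]
    interval_cases t <;> simp
  rw [stdi_lt π ht]
  have key : ∀ i : Fin 3, stdσ π t i = 0 → U.coef (stdσ π t) i = ((q : ℤ) - 1) *
      (stdσ π t 0 + stdσ π t 1 + stdσ π t 2) := by
    intro i hi
    fin_cases i
    · simp only [Fin.zero_eta] at hi
      simp only [coef, Fin.zero_eta, Matrix.cons_val_zero, hi]
      ring
    · simp only [Fin.mk_one] at hi
      simp only [coef, Fin.mk_one, Matrix.cons_val_one, Matrix.cons_val_zero, hi]
      ring
    · simp only [Fin.reduceFinMk] at hi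
      simp only [coef, Fin.reduceFinMk, Matrix.cons_val, hi]
      ring
  rw [key _ h0, hsum]

theorem coef_ge (π : Equiv.Perm (Fin 3)) {t : ℕ} (ht : 3 ≤ t) :
    U.coef (stdσ π t) (stdi π t) = ((q : ℤ) - 1) * 2 - 2 * ((t : ℤ) - 2) := by
  rw [stdi_ge π ht]
  simp only [coef, Matrix.cons_val_one, Matrix.cons_val_zero]
  rw [stdσ_ge π ht, stdσ_ge π ht, stdσ_ge π ht]
  simp only [if_true, show (0 : Fin 3) ≠ 1 by decide, show (2 : Fin 3) ≠ 1 by decide, if_false]
  ring

theorem sum_coef (π : Equiv.Perm (Fin 3)) :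
    ∑ t ∈ Finset.range (q + 1), U.coef (stdσ π t) (stdi π t) = ((q : ℤ) - 1) * (q + 1) := by
  obtain ⟨r, hr⟩ : ∃ r, q = r + 2 := ⟨q - 2, by have := U.two_le; omega⟩
  have h1 : q + 1 = 3 + r := by omega
  rw [h1, Finset.sum_range_add]
  have h2 : ∑ t ∈ Finset.range 3, U.coef (stdσ π t) (stdi π t) = ((q : ℤ) - 1) * 3 := by
    rw [Finset.sum_range_succ, Finset.sum_range_succ, Finset.sum_range_succ,
      Finset.sum_range_zero, U.coef_lt π (by omega), U.coef_lt π (by omega),
      U.coef_lt π (by omega)]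
    push_cast; ring
  have h3 : ∀ l : ℕ, ∑ u ∈ Finset.range l, U.coef (stdσ π (3 + u)) (stdi π (3 + u)) =
      (l : ℤ) * (2 * ((q : ℤ) - 1)) - l * (l + 1) := by
    intro l
    induction l with
    | zero => simp
    | succ l ih =>
      rw [Finset.sum_range_succ, ih, U.coef_ge π (by omega)]
      push_cast; ring
  rw [h2, h3, hr]
  push_cast; ring

variable [HasPrincipalDivisors k F₁]

/-- numerators of the slope bounds -/
def numD (s : Fin 3 → ℤ) (i : Fin 3) : Divisor k F₁ :=
  U.coef s i • U.o + (12 * s i) • dv (K := k) (S.η i) (S.η_ne i)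

theorem numD_apply (s : Fin 3 → ℤ) (i : Fin 3) (v : Place k F₁) :
    U.numD s i v = U.coef s i * U.o v + 12 * s i * v.ord (S.η i) := by
  rw [numD, Finsupp.add_apply, Finsupp.smul_apply, Finsupp.smul_apply, dv_apply, smul_eq_mul,
    smul_eq_mul]

theorem degree_numD (s : Fin 3 → ℤ) (i : Fin 3) :
    Divisor.degree (U.numD s i) = U.coef s i * Divisor.degree U.o := by
  rw [numD, map_add, map_zsmul, map_zsmul, degree_dv, smul_zero, add_zero, smul_eq_mul]

/-- the lower bounds for orders of leading coefficients -/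
def low (s : Fin 3 → ℤ) (i : Fin 3) : Divisor k F₁ :=
  (U.numD s i).mapRange (fun x => -((-x) / (U.Q : ℤ))) (by simp)

theorem low_apply (s : Fin 3 → ℤ) (i : Fin 3) (v : Place k F₁) :
    U.low s i v = -((-(U.numD s i v)) / (U.Q : ℤ)) := rfl

theorem numD_le (s : Fin 3 → ℤ) (i : Fin 3) (v : Place k F₁) :
    U.numD s i v ≤ U.Q * U.low s i v := by
  rw [low_apply]
  have h1 := Int.mul_ediv_self_le (x := -(U.numD s i v)) (k := (U.Q : ℤ)) U.Q_pos.ne'
  linarith

theorem low_le {s : Fin 3 → ℤ} {i : Fin 3} {v : Place k F₁} {x : ℤ}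
    (h : U.numD s i v ≤ U.Q * x) : U.low s i v ≤ x := by
  rw [low_apply]
  have h1 : -x ≤ (-(U.numD s i v)) / (U.Q : ℤ) := by
    apply Int.le_ediv_of_mul_le U.Q_pos
    linarith
  linarith

theorem degree_numD_le (s : Fin 3 → ℤ) (i : Fin 3) :
    U.coef s i * Divisor.degree U.o ≤ U.Q * Divisor.degree (U.low s i) := by
  rw [← degree_numD]
  have h1 : U.numD s i ≤ (U.Q : ℕ) • U.low s i := by
    rw [Finsupp.le_def]
    intro v
    rw [Finsupp.smul_apply, nsmul_eq_mul]
    exact U.numD_le s i v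
  have h2 := degree_mono h1
  rwa [map_nsmul, nsmul_eq_mul] at h2

/-- **the slope inequality** as an inclusion -/
theorem P_le (hgr : p.Growth) {n : ℕ} (hn : n ≠ 0) (τ : NTors S n) (m : ℕ)
    {s : Fin 3 → ℤ} {i : Fin 3} (hg : GoodStep q s i) :
    S.P (riemannRochSpace (m • p.E + τ.D)) s i ≤ riemannRochSpace (m • p.Eb i - U.low s i) := by
  rintro a ⟨h, hh, hs, ha⟩
  rcases eq_or_ne a 0 with rfl | ha0
  · exact Submodule.zero_mem _
  rw [mem_rr_of_ne ha0]
  intro v
  rw [Finsupp.sub_apply, Finsupp.smul_apply, nsmul_eq_mul]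
  have key : U.low s i v ≤ v.ord a + m * p.Eb i v := by
    apply U.low_le
    rw [U.numD_apply]
    by_cases hv : p.Eb 0 v = 0
    · have h1 := slope_key U hgr hn τ hh hs ha ha0 hv
      rw [p.supp 0 i v hv, mul_zero, add_zero]
      exact h1
    · rw [U.o_cusp v hv, mul_zero, zero_add]
      exact slope_cusp U hgr hn τ hh hs hg ha ha0 v
  linarith

end Units

/-- counting hypothesis (theorem `le_sum_P` of `Count.lean`) -/
def Sys.CountGe (S : Sys L k F F₁) : Prop :=
  ∀ (W : Submodule L F) [FiniteDimensional L W], (∀ g ∈ S.Γ, ∀ f ∈ W, g • f ∈ W) →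
    ∀ P : Path S.e, finrank L W ≤ ∑ t ∈ Finset.range P.T, finrank k (S.P W (P.σ t) (P.i t))

section Full

variable [IsFF L F] [IsFF k F₁] [HasPrincipalDivisors L F] [HasPrincipalDivisors k F₁]
  [IsAlgClosed k] {g g₁ : ℤ} (hRR : RRLarge L F g) (hRR₁ : RRLarge k F₁ g₁)
  (hgr : p.Growth) (hcount : S.CountGe)
  (hgen : 12 * (1 - g) = ((q : ℤ) + 1) * (12 * (1 - g₁) - Divisor.degree U.o))

/-- the numerical consequences of the counting -/
structure FullRes : Prop where
  exact : ∀ (π : Equiv.Perm (Fin 3)) (t : ℕ), t < q + 1 → ∀ v : Place k F₁,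
    (U.Q : ℤ) * U.low (stdσ π t) (stdi π t) v = U.numD (stdσ π t) (stdi π t) v
  full : ∃ m₀ : ℕ, ∀ m, m₀ ≤ m → ∀ n : ℕ, n ≠ 0 → ∀ τ : NTors S n,
    ∀ (π : Equiv.Perm (Fin 3)) (t : ℕ), t < q + 1 →
      S.P (riemannRochSpace (m • p.E + τ.D)) (stdσ π t) (stdi π t) =
        riemannRochSpace (m • p.Eb (stdi π t) - U.low (stdσ π t) (stdi π t))

include hRR hRR₁ hgr hcount hgen in
theorem fullRes : FullRes U := by
  classical
  obtain ⟨c, hc⟩ := hRR
  obtain ⟨c₁, hc₁⟩ := hRR₁
  have hRR₁' : RRLarge k F₁ g₁ := ⟨c₁, hc₁⟩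
  -- a bound for the degrees of the lower bounds
  let bd : Equiv.Perm (Fin 3) → ℕ → ℤ := fun π t => Divisor.degree (U.low (stdσ π t) (stdi π t))
  obtain ⟨m₀, hm₀c, hm₀⟩ : ∃ m₀ : ℕ, c ≤ m₀ ∧ ∀ (π : Equiv.Perm (Fin 3)) (t : ℕ), t < q + 1 →
      c₁ + bd π t ≤ m₀ := by
    have hfin : ∃ M : ℕ, ∀ x : Equiv.Perm (Fin 3) × Fin (q + 1), c₁ + bd x.1 x.2 ≤ M := by
      refine ⟨∑ x : Equiv.Perm (Fin 3) × Fin (q + 1), (c₁ + bd x.1 x.2).toNat, fun x => ?_⟩
      have h1 : (c₁ + bd x.1 x.2).toNat ≤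
          ∑ x : Equiv.Perm (Fin 3) × Fin (q + 1), (c₁ + bd x.1 x.2).toNat :=
        Finset.single_le_sum (f := fun x : Equiv.Perm (Fin 3) × Fin (q + 1) =>
          (c₁ + bd x.1 x.2).toNat) (fun _ _ => Nat.zero_le _) (Finset.mem_univ x)
      have h2 := Int.self_le_toNat (c₁ + bd x.1 x.2)
      exact h2.trans (by exact_mod_cast h1)
    obtain ⟨M, hM⟩ := hfin
    refine ⟨max c.toNat M, ?_, fun π t ht => ?_⟩
    · exact (Int.self_le_toNat c).trans (by exact_mod_cast le_max_left _ _)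
    · exact (hM (π, ⟨t, ht⟩)).trans (by exact_mod_cast le_max_right _ _)
  -- the main estimate
  have main : ∀ m, m₀ ≤ m → ∀ n : ℕ, n ≠ 0 → ∀ τ : NTors S n, ∀ π : Equiv.Perm (Fin 3),
      (∑ t ∈ Finset.range (q + 1), U.Q * Divisor.degree (U.low (stdσ π t) (stdi π t)) =
        ∑ t ∈ Finset.range (q + 1), U.coef (stdσ π t) (stdi π t) * Divisor.degree U.o) ∧
      ∀ t, t < q + 1 → S.P (riemannRochSpace (m • p.E + τ.D)) (stdσ π t) (stdi π t) =
        riemannRochSpace (m • p.Eb (stdi π t) - U.low (stdσ π t) (stdi π t)) := by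
    intro m hm n hn τ π
    have hmZ : (m₀ : ℤ) ≤ m := by exact_mod_cast hm
    have hdegE : 0 < Divisor.degree p.E := by
      rw [p.deg_eq]
      refine Finset.sum_pos (fun i _ => ?_) Finset.univ_nonempty
      exact mul_pos (by exact_mod_cast S.e_pos i) (p.deg_pos i)
    have hdeg : c ≤ Divisor.degree (m • p.E + τ.D) := by
      rw [map_add, τ.degree_eq_zero hn, add_zero, map_nsmul, nsmul_eq_mul]
      nlinarith [Int.natCast_nonneg m]
    obtain ⟨hfd, hrk⟩ := hc _ hdeg
    rw [map_add, τ.degree_eq_zero hn, add_zero, map_nsmul, nsmul_eq_mul] at hrk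
    have hstab := stable_rr (Γ := S.Γ) (D := m • p.E + τ.D)
      ((fixD S.Γ).add_mem ((fixD S.Γ).nsmul_mem p.E_mem m) τ.D_mem)
    have hle1 := hcount (riemannRochSpace (m • p.E + τ.D)) hstab
      (stdPath U.two_le U.e_eq π)
    change finrank L _ ≤ ∑ t ∈ Finset.range (q + 1), finrank k (S.P _ (stdσ π t) (stdi π t)) at hle1
    have hPle : ∀ t ∈ Finset.range (q + 1),
        finrank k (S.P (riemannRochSpace (m • p.E + τ.D)) (stdσ π t) (stdi π t)) ≤
          finrank k (riemannRochSpace (m • p.Eb (stdi π t) - U.low (stdσ π t) (stdi π t))) := by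
      intro t ht
      have := finiteDimensional_rr hRR₁' (m • p.Eb (stdi π t) - U.low (stdσ π t) (stdi π t))
      exact Submodule.finrank_mono (U.P_le hgr hn τ m (stdPath_good π (Finset.mem_range.mp ht)))
    have hrk₁ : ∀ t ∈ Finset.range (q + 1),
        (finrank k (riemannRochSpace (m • p.Eb (stdi π t) - U.low (stdσ π t) (stdi π t))) : ℤ) =
          m * Divisor.degree (p.Eb (stdi π t)) - Divisor.degree (U.low (stdσ π t) (stdi π t)) +
            1 - g₁ := by
      intro t ht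
      have h1 := hm₀ π t (Finset.mem_range.mp ht)
      have h2 := p.deg_pos (stdi π t)
      have h3 : c₁ ≤ Divisor.degree (m • p.Eb (stdi π t) - U.low (stdσ π t) (stdi π t)) := by
        rw [map_sub, map_nsmul, nsmul_eq_mul]
        have : (m : ℤ) ≤ m * Divisor.degree (p.Eb (stdi π t)) := by
          nlinarith [Int.natCast_nonneg m]
        change c₁ + Divisor.degree (U.low (stdσ π t) (stdi π t)) ≤ m₀ at h1
        linarith
      rw [(hc₁ _ h3).2, map_sub, map_nsmul, nsmul_eq_mul]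
    have hsumEb : ∑ t ∈ Finset.range (q + 1), Divisor.degree (p.Eb (stdi π t)) =
        Divisor.degree p.E := by
      rw [p.deg_eq]
      exact (stdPath U.two_le U.e_eq π).sum_apply (fun i => Divisor.degree (p.Eb i))
    have hsum : (∑ t ∈ Finset.range (q + 1),
        (finrank k (riemannRochSpace (m • p.Eb (stdi π t) - U.low (stdσ π t) (stdi π t))) : ℤ)) =
        m * Divisor.degree p.E - ∑ t ∈ Finset.range (q + 1),
          Divisor.degree (U.low (stdσ π t) (stdi π t)) + ((q : ℤ) + 1) * (1 - g₁) := by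
      rw [Finset.sum_congr rfl hrk₁, ← hsumEb, Finset.mul_sum, ← Finset.sum_sub_distrib]
      have h4 : ((q : ℤ) + 1) * (1 - g₁) = ∑ t ∈ Finset.range (q + 1), (1 - g₁) := by
        rw [Finset.sum_const, Finset.card_range, nsmul_eq_mul]; push_cast; ring
      rw [h4, ← Finset.sum_add_distrib]
      exact Finset.sum_congr rfl fun t _ => by ring
    have hQlow : ∑ t ∈ Finset.range (q + 1), U.coef (stdσ π t) (stdi π t) * Divisor.degree U.o ≤
        ∑ t ∈ Finset.range (q + 1), U.Q * Divisor.degree (U.low (stdσ π t) (stdi π t)) :=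
      Finset.sum_le_sum fun t _ => U.degree_numD_le _ _
    have hcf : ∑ t ∈ Finset.range (q + 1), U.coef (stdσ π t) (stdi π t) * Divisor.degree U.o =
        ((q : ℤ) - 1) * (q + 1) * Divisor.degree U.o := by
      rw [← Finset.sum_mul, U.sum_coef]
    -- total inequality
    have hS1 : (finrank L (riemannRochSpace (m • p.E + τ.D)) : ℤ) ≤ ∑ t ∈ Finset.range (q + 1),
        (finrank k (S.P (riemannRochSpace (m • p.E + τ.D)) (stdσ π t) (stdi π t)) : ℤ) := by
      exact_mod_cast hle1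
    have hS2 : ∑ t ∈ Finset.range (q + 1),
        (finrank k (S.P (riemannRochSpace (m • p.E + τ.D)) (stdσ π t) (stdi π t)) : ℤ) ≤
        ∑ t ∈ Finset.range (q + 1), (finrank k (riemannRochSpace
          (m • p.Eb (stdi π t) - U.low (stdσ π t) (stdi π t))) : ℤ) :=
      Finset.sum_le_sum fun t ht => by exact_mod_cast hPle t ht
    rw [← Finset.mul_sum] at hQlow ⊢
    set Λ := ∑ t ∈ Finset.range (q + 1), Divisor.degree (U.low (stdσ π t) (stdi π t)) with hΛ
    have hQ := U.Q_eq
    have hQp := U.Q_pos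
    have hge2 : (2 : ℤ) ≤ q := by exact_mod_cast U.two_le
    -- `Λ ≤ ...`
    have e1 : Λ ≤ ((q : ℤ) + 1) * (1 - g₁) - (1 - g) := by
      have := hS1.trans hS2
      rw [hrk, hsum] at this
      linarith
    have e2 : 12 * Λ ≤ ((q : ℤ) + 1) * Divisor.degree U.o := by linarith
    have e3 : ((q : ℤ) - 1) * ((q + 1) * Divisor.degree U.o) ≤ ((q : ℤ) - 1) * (12 * Λ) := by
      rw [hcf, hQ] at hQlow
      linarith
    have e4 : ((q : ℤ) + 1) * Divisor.degree U.o ≤ 12 * Λ :=
      le_of_mul_le_mul_left e3 (by linarith)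
    have e5 : 12 * Λ = ((q : ℤ) + 1) * Divisor.degree U.o := le_antisymm e2 e4
    refine ⟨?_, ?_⟩
    · rw [hcf, hQ]
      linear_combination ((q : ℤ) - 1) * e5
    · intro t ht
      have e6 : ∑ t ∈ Finset.range (q + 1), (finrank k (riemannRochSpace
          (m • p.Eb (stdi π t) - U.low (stdσ π t) (stdi π t))) : ℤ) ≤
          ∑ t ∈ Finset.range (q + 1),
            (finrank k (S.P (riemannRochSpace (m • p.E + τ.D)) (stdσ π t) (stdi π t)) : ℤ) := by
        refine le_trans ?_ hS1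
        rw [hsum, hrk]
        linarith
      have e7 := (Finset.sum_eq_sum_iff_of_le (fun t ht => by exact_mod_cast hPle t ht)).mp
        (le_antisymm hS2 e6) t (Finset.mem_range.mpr ht)
      have := finiteDimensional_rr hRR₁' (m • p.Eb (stdi π t) - U.low (stdσ π t) (stdi π t))
      exact Submodule.eq_of_le_of_finrank_eq (U.P_le hgr hn τ m (stdPath_good π ht))
        (by exact_mod_cast e7)
  refine ⟨?_, m₀, fun m hm n hn τ π t ht => (main m hm n hn τ π).2 t ht⟩
  intro π t ht v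
  have h1 := (main m₀ le_rfl 1 one_ne_zero (NTors.zero S 1) π).1
  have h2 := (Finset.sum_eq_sum_iff_of_le (fun t _ => U.degree_numD_le (stdσ π t)
    (stdi π t))).mp h1.symm t (Finset.mem_range.mpr ht)
  have h3 : U.numD (stdσ π t) (stdi π t) = (U.Q : ℕ) • U.low (stdσ π t) (stdi π t) := by
    apply eq_of_le_of_degree_le
    · rw [Finsupp.le_def]
      intro v
      rw [Finsupp.smul_apply, nsmul_eq_mul]
      exact U.numD_le _ _ v
    · rw [map_nsmul, nsmul_eq_mul, U.degree_numD, h2]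
  rw [h3, Finsupp.smul_apply, nsmul_eq_mul]

end Full

end Fermat.Agent.Car
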