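import Fermat.Agent.BadRed.KLat1

/-!
# Sums of Riemann–Roch spaces of large degree
-/

set_option autoImplicit false

noncomputable section

open AlgebraicCurve Module

namespace Fermat.Agent.Car

open Fermat.Agent.FunField Fermat.Agent.FunField.PlaceLemmas Fermat.Agent.Deuring
  Fermat.Agent.BadRed

variable {k F₁ : Type*} [Field k] [Field F₁] [Algebra k F₁]

theorem rr_inf (A B : Divisor k F₁) :
    riemannRochSpace A ⊓ riemannRochSpace B = riemannRochSpace (A ⊓ B) :=
  le_antisymm (fun _ h => inf_mem_rr h.1 h.2) (le_inf (rr_mono inf_le_left) (rr_mono inf_le_right))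

/-- sums of Riemann–Roch spaces of large degree -/
theorem rr_sup [IsFF k F₁] {g₁ : ℤ} {c : ℤ}
    (hc : ∀ D : Divisor k F₁, c ≤ Divisor.degree D →
      FiniteDimensional k (riemannRochSpace D) ∧
        (finrank k (riemannRochSpace D) : ℤ) = Divisor.degree D + 1 - g₁) {A B : Divisor k F₁}
    (h : c ≤ Divisor.degree (A ⊓ B)) :
    riemannRochSpace A ⊔ riemannRochSpace B = riemannRochSpace (A ⊔ B) := by
  have hA : Divisor.degree (A ⊓ B) ≤ Divisor.degree A := degree_mono inf_le_left
  have hB : Divisor.degree (A ⊓ B) ≤ Divisor.degree B := degree_mono inf_le_right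
  have hAB : Divisor.degree A ≤ Divisor.degree (A ⊔ B) := degree_mono le_sup_left
  obtain ⟨f1, r1⟩ := hc A (h.trans hA)
  obtain ⟨f2, r2⟩ := hc B (h.trans hB)
  obtain ⟨f3, r3⟩ := hc (A ⊓ B) h
  obtain ⟨f4, r4⟩ := hc (A ⊔ B) ((h.trans hA).trans hAB)
  have hle : riemannRochSpace A ⊔ riemannRochSpace B ≤ riemannRochSpace (A ⊔ B) :=
    sup_le (rr_mono le_sup_left) (rr_mono le_sup_right)
  refine Submodule.eq_of_le_of_finrank_eq hle ?_
  have h1 := Submodule.finrank_sup_add_finrank_inf_eq (riemannRochSpace A) (riemannRochSpace B)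
  rw [rr_inf] at h1
  have h2 : Divisor.degree (A ⊔ B) + Divisor.degree (A ⊓ B) =
      Divisor.degree A + Divisor.degree B := by
    rw [← map_add, ← map_add, add_comm, inf_add_sup]
  zify at h1 ⊢
  rw [r1, r2, r3] at h1
  rw [r4]
  linarith

end Fermat.Agent.Car
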