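import Fermat.Agent.Car.TK
import Fermat.Agent.Car.RR
import Fermat.Agent.Car.Full

/-!
# Integral splitting at all the levels of the iteration
-/

set_option autoImplicit false
set_option linter.unusedSectionVars false
set_option linter.unnecessarySeqFocus false

noncomputable section

open AlgebraicCurve Module

namespace Fermat.Agent.Car

open Fermat.Agent.FunField Fermat.Agent.FunField.PlaceLemmas Fermat.Agent.Deuring
  Fermat.Agent.BadRed

section Lev

/-- the levels of the iteration -/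
def lev (q : ℕ) (e : Fin 3 → ℕ) (r : ℕ) : Fin 3 → ℤ :=
  if r + 2 ≤ q then ![1, (r : ℤ) + 1, 1] else fun j => ((r + 3 - q : ℕ) : ℤ) * e j

variable {q : ℕ} {e : Fin 3 → ℕ}

theorem lev_zero (hq : 2 ≤ q) : lev q e 0 = 1 := by
  rw [lev, if_pos (by omega)]
  ext j
  fin_cases j <;> simp

theorem lev_apply_of_le {r : ℕ} (h : r + 2 ≤ q) (j : Fin 3) :
    lev q e r j = if j = 1 then (r : ℤ) + 1 else 1 := by
  rw [lev, if_pos h]
  fin_cases j <;> simp

theorem lev_apply_of_lt {r : ℕ} (h : q < r + 2) (j : Fin 3) :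
    lev q e r j = ((r + 3 - q : ℕ) : ℤ) * e j := by
  rw [lev, if_neg (by omega)]

theorem e_apply (hq : 2 ≤ q) (he : e = ![1, q - 1, 1]) (j : Fin 3) :
    ((e j : ℕ) : ℤ) = if j = 1 then (q : ℤ) - 1 else 1 := by
  subst he
  fin_cases j
  · simp
  · simp only [Fin.mk_one, Matrix.cons_val_one, Matrix.cons_val_zero, if_true]
    omega
  · simp

theorem lev_mono (hq : 2 ≤ q) (he : e = ![1, q - 1, 1]) (r : ℕ) :
    lev q e r ≤ lev q e (r + 1) := by
  intro j
  rcases lt_trichotomy (r + 2) q with h | h | h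
  · rw [lev_apply_of_le (by omega), lev_apply_of_le (by omega)]
    split_ifs
    · push_cast; omega
    · exact le_rfl
  · rw [lev_apply_of_le (by omega), lev_apply_of_lt (by omega), e_apply hq he]
    have h1 : r + 1 + 3 - q = 2 := by omega
    rw [h1]
    split_ifs <;> push_cast <;> omega
  · rw [lev_apply_of_lt (by omega), lev_apply_of_lt (by omega)]
    apply mul_le_mul_of_nonneg_right _ (Int.natCast_nonneg _)
    omega

theorem lev_dbl (hq : 2 ≤ q) (he : e = ![1, q - 1, 1]) (r : ℕ) :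
    lev q e (r + 1) ≤ lev q e r + lev q e r := by
  intro j
  rw [Pi.add_apply]
  rcases lt_trichotomy (r + 2) q with h | h | h
  · rw [lev_apply_of_le (by omega), lev_apply_of_le (by omega)]
    split_ifs
    · push_cast; omega
    · norm_num
  · rw [lev_apply_of_lt (r := r + 1) (by omega), lev_apply_of_le (r := r) (by omega),
      e_apply hq he]
    have h1 : r + 1 + 3 - q = 2 := by omega
    rw [h1]
    split_ifs <;> push_cast <;> omega
  · rw [lev_apply_of_lt (by omega), lev_apply_of_lt (by omega), ← add_mul]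
    apply mul_le_mul_of_nonneg_right _ (Int.natCast_nonneg _)
    omega

theorem lev_cof (m : ℕ) : ∃ r, ∀ j, (m : ℤ) * e j ≤ lev q e r j := by
  refine ⟨m + q, fun j => ?_⟩
  rw [lev_apply_of_lt (by omega)]
  apply mul_le_mul_of_nonneg_right _ (Int.natCast_nonneg _)
  omega

/-- the levels are on the standard paths -/
theorem lev_eq_std (π : Equiv.Perm (Fin 3)) (r : ℕ) :
    ∃ t ≤ q + 1, ∃ c : ℤ, lev q e r = fun j => stdσ π t j + c * e j := by
  by_cases h : r + 2 ≤ q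
  · refine ⟨r + 3, by omega, 0, ?_⟩
    ext j
    rw [lev_apply_of_le h, stdσ_ge π (by omega), zero_mul, add_zero]
    split_ifs
    · push_cast; ring
    · rfl
  · refine ⟨0, by omega, ((r + 3 - q : ℕ) : ℤ), ?_⟩
    ext j
    rw [lev_apply_of_lt (by omega)]
    simp [stdσ]

end Lev

variable {L k F F₁ : Type*} [Field L] [Field k] [Field F] [Field F₁] [Algebra L F] [Algebra k F₁]
variable {S : Sys L k F F₁}

/-- integral splitting along paths (theorem `exists_add` of `Lin.lean`) -/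
def Sys.AddSplit (S : Sys L k F F₁) : Prop :=
  ∀ (W W' : Submodule L F) [FiniteDimensional L W] [FiniteDimensional L W'],
    (∀ g ∈ S.Γ, ∀ f ∈ W, g • f ∈ W) → (∀ g ∈ S.Γ, ∀ f ∈ W', g • f ∈ W') →
    ∀ Q : Path S.e,
    (∀ t < Q.T, S.P (W ⊔ W') (Q.σ t) (Q.i t) ≤ S.P W (Q.σ t) (Q.i t) ⊔ S.P W' (Q.σ t) (Q.i t)) →
    ∀ t ≤ Q.T, ∀ c : ℤ, ∀ x ∈ W ⊔ W', S.Ge (fun j => Q.σ t j + c * S.e j) x →
      ∃ y ∈ W, S.Ge (fun j => Q.σ t j + c * S.e j) y ∧
        ∃ z ∈ W', S.Ge (fun j => Q.σ t j + c * S.e j) z ∧ x = y + z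

namespace Pen

variable (p : Pen S)

section Up

variable [HasPrincipalDivisors L F]

theorem Es_mem : p.Es ∈ fixD S.Γ := by
  intro g hg
  ext v
  rw [SemilinearAut.divisor_smul_apply, p.Es_apply, p.Es_apply, ← ord_semi, p.t_mem g hg]

theorem G_mem (a b : ℕ) : p.G a b ∈ fixD S.Γ :=
  (fixD S.Γ).add_mem ((fixD S.Γ).nsmul_mem p.E_mem a) ((fixD S.Γ).nsmul_mem p.Es_mem b)

/-- the pieces of `L(aE + bE*+D)` -/
theorem P_G_iff (a b : ℕ) (D : Divisor L F) (s : Fin 3 → ℤ) (i : Fin 3) (x : F₁) :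
    x ∈ S.P (riemannRochSpace (p.G a b + D)) s i ↔
      p.tb i ^ b * x ∈ S.P (riemannRochSpace ((a + b) • p.E + D)) s i := by
  constructor
  · rintro ⟨f, hf, h1, h2⟩
    refine ⟨p.t ^ b * f, (p.mem_G_iff a b D f).mp hf, fun j => ?_, ?_⟩
    · have := ((p.LR_t j).pow b).ge.mul (h1 j)
      simpa using this
    · have := ((p.LR_t i).pow b).mul h2
      simpa using this
  · rintro ⟨f, hf, h1, h2⟩
    have e1 : p.t ^ b * (p.t⁻¹ ^ b * f) = f := by
      rw [← mul_assoc, ← mul_pow, mul_inv_cancel₀ p.t_ne, one_pow, one_mul]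
    refine ⟨p.t⁻¹ ^ b * f, (p.mem_G_iff a b D _).mpr (by rwa [e1]), fun j => ?_, ?_⟩
    · have := (((p.LR_t j).inv (p.tb_ne j)).pow b).ge.mul (h1 j)
      simpa using this
    · have h3 := (((p.LR_t i).inv (p.tb_ne i)).pow b).mul h2
      have e2 : (p.tb i)⁻¹ ^ b * (p.tb i ^ b * x) = x := by
        rw [← mul_assoc, ← mul_pow, inv_mul_cancel₀ (p.tb_ne i), one_pow, one_mul]
      rw [e2] at h3
      simpa using h3

end Up

section Down

variable [HasPrincipalDivisors k F₁]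

/-- the divisor of `tb i` -/
def dtb (i : Fin 3) : Divisor k F₁ := dv (K := k) (p.tb i) (p.tb_ne i)

theorem dtb_apply (i : Fin 3) (v : Place k F₁) : p.dtb i v = v.ord (p.tb i) := dv_apply _ v

theorem degree_dtb (i : Fin 3) : Divisor.degree (p.dtb i) = 0 := degree_dv _

/-- `a (tb)_∞ + b (tb)_0` -/
def Gb (a b : ℕ) (i : Fin 3) : Divisor k F₁ := a • p.Eb i + b • (p.Eb i + p.dtb i)

theorem Gb_eq (a b : ℕ) (i : Fin 3) : p.Gb a b i = (a + b) • p.Eb i + b • p.dtb i := by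
  simp only [Gb, smul_add, add_smul]; abel

theorem degree_Gb (a b : ℕ) (i : Fin 3) :
    Divisor.degree (p.Gb a b i) = ((a + b : ℕ) : ℤ) * Divisor.degree (p.Eb i) := by
  rw [p.Gb_eq, map_add, map_nsmul, map_nsmul, p.degree_dtb, smul_zero, add_zero, nsmul_eq_mul]

theorem Gb_apply (a b : ℕ) (i : Fin 3) (v : Place k F₁) :
    p.Gb a b i v = (a : ℤ) * max 0 (-(v.ord (p.tb i))) + (b : ℤ) * max 0 (v.ord (p.tb i)) := by
  simp only [Gb, Finsupp.add_apply, Finsupp.smul_apply, nsmul_eq_mul, p.hEb, p.dtb_apply]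
  congr 2
  omega

theorem Gb_inf_sup {a b a' b' : ℕ} (ha : a' ≤ a) (hb : b ≤ b') (i : Fin 3) (D : Divisor k F₁) :
    (p.Gb a b i - D) ⊓ (p.Gb a' b' i - D) = p.Gb a' b i - D ∧
      (p.Gb a b i - D) ⊔ (p.Gb a' b' i - D) = p.Gb a b' i - D := by
  have key : ∀ v : Place k F₁, (a' : ℤ) * max 0 (-(v.ord (p.tb i))) ≤ (a : ℤ) * max 0 (-(v.ord (p.tb i))) :=
    fun v => mul_le_mul_of_nonneg_right (by exact_mod_cast ha) (le_max_left _ _)
  have key' : ∀ v : Place k F₁, (b : ℤ) * max 0 (v.ord (p.tb i)) ≤ (b' : ℤ) * max 0 (v.ord (p.tb i)) :=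
    fun v => mul_le_mul_of_nonneg_right (by exact_mod_cast hb) (le_max_left _ _)
  have hz : ∀ v : Place k F₁, max 0 (-(v.ord (p.tb i))) = 0 ∨ max 0 (v.ord (p.tb i)) = 0 := by
    intro v
    rcases le_total 0 (v.ord (p.tb i)) with h | h
    · left; exact max_eq_left (by omega)
    · right; exact max_eq_left h
  constructor
  · ext v
    simp only [Finsupp.inf_apply, Finsupp.sub_apply, p.Gb_apply]
    have h1 := key v
    have h2 := key' v
    rcases hz v with h | h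
    · rw [h] at h1 ⊢
      rw [inf_eq_left.mpr (by linarith)]
      ring
    · rw [h] at h2 ⊢
      rw [inf_eq_right.mpr (by linarith)]
      ring
  · ext v
    simp only [Finsupp.sup_apply, Finsupp.sub_apply, p.Gb_apply]
    have h1 := key v
    have h2 := key' v
    rcases hz v with h | h
    · rw [h] at h1 ⊢
      rw [sup_eq_right.mpr (by linarith)]
      ring
    · rw [h] at h2 ⊢
      rw [sup_eq_left.mpr (by linarith)]
      ring

/-- translation to the first chart -/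
theorem mem_Gb_iff (a b : ℕ) (i : Fin 3) (D : Divisor k F₁) (x : F₁) :
    x ∈ riemannRochSpace (p.Gb a b i - D) ↔
      p.tb i ^ b * x ∈ riemannRochSpace ((a + b) • p.Eb i - D) := by
  rw [mul_mem_rr_iff (pow_ne_zero b (p.tb_ne i)) (G := b • p.dtb i) (fun v => by
    rw [Finsupp.smul_apply, nsmul_eq_mul, p.dtb_apply, ord_pow])]
  have : p.Gb a b i - D = (a + b) • p.Eb i - D + b • p.dtb i := by
    rw [p.Gb_eq]; abel
  rw [this]

end Down

end Pen

variable {p : Pen S} {q : ℕ} (U : Units p q)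
variable [HasPrincipalDivisors L F] [HasPrincipalDivisors k F₁]

/-- the pieces of `L(aE + bE* + D)` -/
theorem Units.P_G {U : Units p q} {m₀ : ℕ} {n : ℕ} {τ : NTors S n} {s : Fin 3 → ℤ} {i : Fin 3}
    (h : ∀ m, m₀ ≤ m → S.P (riemannRochSpace (m • p.E + τ.D)) s i =
        riemannRochSpace (m • p.Eb i - U.low s i)) {a b : ℕ} (hab : m₀ ≤ a + b) :
    S.P (riemannRochSpace (p.G a b + τ.D)) s i = riemannRochSpace (p.Gb a b i - U.low s i) := by
  ext x
  rw [p.P_G_iff, h _ hab, ← p.mem_Gb_iff]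

variable [IsFF L F] [IsFF k F₁] [IsAlgClosed k] {g g₁ : ℤ}

/-- **Integral splitting.** -/
theorem exists_ip (hRR : RRLarge L F g) (hRR₁ : RRLarge k F₁ g₁) (hF : FullRes U)
    (hadd : S.AddSplit) : ∃ M₀ : ℕ, ∀ M, M₀ ≤ M → ∀ n : ℕ, n ≠ 0 → ∀ τ : NTors S n,
      ∀ r a b a' b' : ℕ, b ≤ b' → a' ≤ a → M ≤ a' + b →
      ∀ x ∈ riemannRochSpace (p.G a b + τ.D) ⊔ riemannRochSpace (p.G a' b' + τ.D),
      S.Ge (lev q S.e (r + 1)) x →
        ∃ y ∈ riemannRochSpace (p.G a b + τ.D), S.Ge (lev q S.e (r + 1)) y ∧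
        ∃ z ∈ riemannRochSpace (p.G a' b' + τ.D), S.Ge (lev q S.e (r + 1)) z ∧ x = y + z := by
  classical
  obtain ⟨c₁, hc₁⟩ := hRR₁
  obtain ⟨m₀, hm₀⟩ := hF.full
  let π : Equiv.Perm (Fin 3) := 1
  let bd : ℕ → ℕ := fun t => (c₁ + Divisor.degree (U.low (stdσ π t) (stdi π t))).toNat
  refine ⟨m₀ + ∑ t ∈ Finset.range (q + 1), bd t, ?_⟩
  intro M hM n hn τ r a b a' b' hb ha hab x hx hge
  have hbd : ∀ t, t < q + 1 → c₁ + Divisor.degree (U.low (stdσ π t) (stdi π t)) ≤ (a' + b : ℕ) := by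
    intro t ht
    have h1 : bd t ≤ ∑ t ∈ Finset.range (q + 1), bd t :=
      Finset.single_le_sum (f := bd) (fun _ _ => Nat.zero_le _) (Finset.mem_range.mpr ht)
    have h2 := Int.self_le_toNat (c₁ + Divisor.degree (U.low (stdσ π t) (stdi π t)))
    change _ ≤ ((bd t : ℕ) : ℤ) at h2
    have h3 : bd t ≤ a' + b := by omega
    exact h2.trans (by exact_mod_cast h3)
  have hfd := finiteDimensional_rr hRR (p.G a b + τ.D)
  have hfd' := finiteDimensional_rr hRR (p.G a' b' + τ.D)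
  have hst := stable_rr (Γ := S.Γ) ((fixD S.Γ).add_mem (p.G_mem a b) τ.D_mem)
  have hst' := stable_rr (Γ := S.Γ) ((fixD S.Γ).add_mem (p.G_mem a' b') τ.D_mem)
  obtain ⟨t, ht, c, hlev⟩ := lev_eq_std (q := q) (e := S.e) π (r + 1)
  rw [hlev] at hge ⊢
  refine hadd _ _ hst hst' (stdPath U.two_le U.e_eq π) ?_ t ht c x hx hge
  intro t ht
  change S.P _ (stdσ π t) (stdi π t) ≤ S.P _ (stdσ π t) (stdi π t) ⊔ S.P _ (stdσ π t) (stdi π t)
  have hfull : ∀ m, m₀ ≤ m → S.P (riemannRochSpace (m • p.E + τ.D)) (stdσ π t) (stdi π t) =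
      riemannRochSpace (m • p.Eb (stdi π t) - U.low (stdσ π t) (stdi π t)) :=
    fun m hm => hm₀ m hm n hn τ π t ht
  have hle : riemannRochSpace (p.G a b + τ.D) ⊔ riemannRochSpace (p.G a' b' + τ.D) ≤
      riemannRochSpace (p.G a b' + τ.D) :=
    sup_le (rr_mono (add_le_add_left (p.G_mono le_rfl hb) _))
      (rr_mono (add_le_add_left (p.G_mono ha le_rfl) _))
  refine (S.P_mono hle _ _).trans ?_
  rw [Units.P_G hfull (by omega), Units.P_G hfull (by omega), Units.P_G hfull (by omega)]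
  obtain ⟨h1, h2⟩ := p.Gb_inf_sup ha hb (stdi π t) (U.low (stdσ π t) (stdi π t))
  rw [rr_sup hc₁, h2]
  rw [h1, map_sub, p.degree_Gb]
  have h3 := hbd t ht
  have h4 := p.deg_pos (stdi π t)
  have h5 : (((a' + b : ℕ) : ℤ)) ≤ ((a' + b : ℕ) : ℤ) * Divisor.degree (p.Eb (stdi π t)) :=
    le_mul_of_one_le_right (Int.natCast_nonneg _) h4
  linarith

/-- **Torsion classes with trivialisations modulo the radical are principal** -/
theorem principal_of_lifts [IsAlgClosed L] (hRR : RRLarge L F g) (hRR₁ : RRLarge k F₁ g₁)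
    (hF : FullRes U) (hadd : S.AddSplit) : ∃ M₀ : ℕ, ∀ M, M₀ ≤ M → ∀ n : ℕ, n ≠ 0 → (n : k) ≠ 0 →
      ∀ τ : NTors S n,
      (∃ u ∈ riemannRochSpace (M • p.E + τ.D), ∀ i, (S.V i).LR 0 u 1) →
      (∃ u ∈ riemannRochSpace (M • p.E + τ.D), ∀ i, (S.V i).LR 0 u (p.tb i ^ M)) →
      ∃ w : F, w ≠ 0 ∧ ∀ v : Place L F, τ.D v = v.ord w := by
  obtain ⟨M₀, hM₀⟩ := exists_ip U hRR hRR₁ hF hadd
  refine ⟨M₀, fun M hM n hn hnk τ => ?_⟩
  rintro ⟨u, hu, hu1⟩ ⟨u', hu', hu1'⟩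
  have hG : ∀ m : ℕ, p.G m 0 = m • p.E := fun m => by simp [Pen.G]
  refine principal_of_approx p hRR hn hnk τ (M := M) (lev q S.e) (lev_zero U.two_le)
    (lev_mono U.two_le U.e_eq) (lev_dbl U.two_le U.e_eq) lev_cof ?_ (u := u)
    (u' := p.t⁻¹ ^ M * u') (by rwa [hG]) hu1 ?_ ?_
  · intro D hD r a b a' b' hb ha hab x hx hge
    rcases hD with rfl | hD
    · exact hM₀ M hM n hn τ r a b a' b' hb ha hab x hx hge
    · rw [Set.mem_singleton_iff] at hD
      subst hD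
      exact hM₀ M hM n hn (NTors.zero S n) r a b a' b' hb ha hab x hx hge
  · rw [p.mem_G_iff]
    have e1 : p.t ^ M * (p.t⁻¹ ^ M * u') = u' := by
      rw [← mul_assoc, ← mul_pow, mul_inv_cancel₀ p.t_ne, one_pow, one_mul]
    rwa [e1, zero_add]
  · intro i
    have h3 := (((p.LR_t i).inv (p.tb_ne i)).pow M).mul (hu1' i)
    rw [← mul_pow, inv_mul_cancel₀ (p.tb_ne i), one_pow] at h3
    simpa using h3

end Fermat.Agent.Car
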