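import Fermat.Agent.Car.Core2
import Fermat.Agent.Car.Growth
import Fermat.Agent.Car.Approx
import Fermat.Agent.Car.IP

/-!
# Project CAR: the endgame, part 3: the main theorem
-/

set_option autoImplicit false
set_option linter.unusedSectionVars false
set_option linter.unusedSimpArgs false

noncomputable section

open AlgebraicCurve Module

namespace Fermat.Agent.Car

open Fermat.Agent.FunField hiding rr_mono mul_mem_rr pow_mem_rr deg_eq_one degree_nonneg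
  degree_mono degree_eq_sum
open Fermat.Agent.FunField.PlaceLemmas Fermat.Agent.Deuring Fermat.Agent.BadRed

variable {L k F F₁ : Type*} [Field L] [Field k] [Field F] [Field F₁] [Algebra L F] [Algebra k F₁]
variable {S : Sys L k F F₁} {p : Pen S} {q : ℕ} {U : Units p q} {Fb : Frob p q}
variable {Fq : Type*} [Field Fq] [Algebra L Fq] {Pq : Push U Fb Fq}

theorem addSplit : S.AddSplit := fun W W' _ _ hW hW' Q h => exists_add W W' hW hW' Q h

theorem countGe : S.CountGe := fun W _ hW Q => le_sum_P W hW Q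

section Fin

variable [IsAlgClosed L] [IsAlgClosed k] [IsFF L F] [IsFF k F₁] [IsFF L Fq]
  [HasPrincipalDivisors L F] [HasPrincipalDivisors k F₁] [HasPrincipalDivisors L Fq]
  {n : ℕ} {g g₁ : ℤ} (hRR : RRLarge L F g) (hRR₁ : RRLarge k F₁ g₁) (hF : FullRes U)

/-- the two relations determine powers of the gluing data -/
theorem zeta_pow {K : Type*} [Field K] {q : ℕ} (hq : 2 ≤ q) {κ₁ κ₂ x y : K} (h2 : κ₂ ≠ 0)
    (h1 : κ₁ ≠ 0) (e1 : x ^ q = κ₁ * y ^ (q - 1)) (e2 : x * y ^ (q - 1) = κ₂) :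
    x ^ ((q - 1) * (q + 1)) = (κ₁ * κ₂) ^ (q - 1) ∧ y ^ ((q - 1) * (q + 1)) = κ₂ ^ q / κ₁ := by
  have e3 : x ^ (q + 1) = κ₁ * κ₂ := by rw [pow_succ, e1, ← e2]; ring
  refine ⟨by rw [mul_comm, pow_mul, e3], ?_⟩
  have e4 : x ^ (q + 1) * (y ^ (q - 1)) ^ (q + 1) = κ₂ ^ (q + 1) := by rw [← mul_pow, e2]
  rw [e3, ← pow_mul] at e4
  rw [eq_div_iff h1]
  have e5 : κ₂ * (y ^ ((q - 1) * (q + 1)) * κ₁) = κ₂ * κ₂ ^ q := by
    rw [← pow_succ', ← e4]; ring
  exact mul_left_cancel₀ h2 e5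

include hRR hRR₁ hF in
/-- **normalised data are killed by `q (q - 1) (q + 1)`** -/
theorem TD.step_fin (hq : (q : k) = 0) (hnk : (n : k) ≠ 0) (T : TD Pq n)
    (h1 : ∀ i, (S.V i).LR 0 T.f 1)
    {ub : F₁} (hub : ∀ v, p.Eb 0 v = 0 → v.ord ub = U.o v) (hφub : Fb.φ ub = ub) :
    T.Killed (q * ((q - 1) * (q + 1))) := by
  have hgr : p.Growth := p.growth hRR
  have hn : n ≠ 0 := by rintro rfl; simp at hnk
  have h2q := U.two_le
  obtain ⟨ζ, hζ⟩ := exists_zeta U Fb hRR₁ hgr hF hn (T.toNTors h1)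
  obtain ⟨κ₁, κ₂, hκ₁, hκ₂, hκ⟩ := T.step_zeta hRR₁ hgr hF hn h1 hub hφub hζ
  set N' := (q - 1) * (q + 1) with hN'
  -- the constants
  obtain ⟨c, hcn, hc⟩ : ∃ c : Fin 3 → k, (∀ i, c i ^ n = 1) ∧
      ∀ y, 0 < U.o y → ∀ i, ζ i y ^ N' = c i := by
    by_cases hy : ∃ y, 0 < U.o y
    · obtain ⟨y₀, hy₀⟩ := hy
      refine ⟨fun i => ζ i y₀ ^ N', fun i => ?_, fun y hy i => ?_⟩
      · rw [← pow_mul, mul_comm, pow_mul, hζ.pow_eq y₀ hy₀ i, one_pow]
      · obtain ⟨a0, a1, a2⟩ := hκ y hy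
        obtain ⟨b0, b1, b2⟩ := hκ y₀ hy₀
        obtain ⟨d1, d2⟩ := zeta_pow h2q hκ₂ hκ₁ a1 a2
        obtain ⟨d3, d4⟩ := zeta_pow h2q hκ₂ hκ₁ b1 b2
        fin_cases i
        · show ζ 0 y ^ N' = ζ 0 y₀ ^ N'
          rw [a0, b0]
        · exact d2.trans d4.symm
        · exact d1.trans d3.symm
    · push Not at hy
      exact ⟨fun _ => 1, fun _ => one_pow n, fun y hy' => absurd hy' (not_lt.mpr (hy y))⟩
  have hc0 : ∀ i, c i ≠ 0 := by
    intro i h0
    have := hcn i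
    rw [h0, zero_pow hn] at this
    exact zero_ne_one this
  -- the constant functions on the components
  obtain ⟨gg, hgg⟩ := S.surj (fun _ => 0) (fun i => algebraMap k F₁ (c i))
  have hcF : ∀ i, algebraMap k F₁ (c i) ≠ 0 := fun i => (map_ne_zero _).mpr (hc0 i)
  have hgg0 : gg ≠ 0 := (hgg 0).ne_zero (hcF 0)
  have h1' : ∀ i, (S.V i).LR 0 (T.nsmul N').f 1 := fun i => by
    have := (h1 i).pow N'
    rwa [mul_zero, one_pow] at this
  set T4 : TD Pq n := (T.nsmul N').tw hgg0 (hgg 0).mem_FK with hT4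
  have h4 : ∀ i, (S.V i).LR 0 T4.f 1 := by
    intro i
    refine ((h1' i).mul ((hgg i).pow n)).congr' ?_ rfl ?_
    · ring
    · rw [one_mul, ← map_pow, hcn, map_one]
  -- the gluing data of the multiple
  obtain ⟨ζ', hζ'⟩ := exists_zeta U Fb hRR₁ hgr hF hn ((T.nsmul N').toNTors h1')
  have hζζ : ∀ z, 0 < U.o z → ∀ i, ζ' i z = c i := by
    intro z hz i
    rw [← hc z hz i]
    exact IsZeta.nsmul U hgr hF hn hζ N' hζ' hz i
  obtain ⟨m, h, b, hh, hb, hb0⟩ := exists_h0 U hF hn ((T.nsmul N').toNTors h1')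
  have hglue : ∀ i z, 0 < U.o z → b i * (algebraMap k F₁ (c i))⁻¹ - 1 ∈ geSub z 1 := by
    intro i z hz
    have h5 := hζ'.glue z hz m h hh b hb i
    rw [hb0, mul_one, hζζ z hz i] at h5
    have h6 : b i * (algebraMap k F₁ (c i))⁻¹ - 1 = (c i)⁻¹ • (b i - algebraMap k F₁ (c i)) := by
      rw [Algebra.smul_def, map_inv₀, mul_sub, inv_mul_cancel₀ (hcF i), mul_comm]
    rw [h6]
    exact (geSub z 1).smul_mem _ h5
  have hh4 : h * gg⁻¹ ∈ riemannRochSpace (m • p.E + (T4.toNTors h4).D) := by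
    have hD4 : (T4.toNTors h4).D = (T.nsmul N').D + dv (K := L) gg hgg0 := rfl
    by_cases h0 : h = 0
    · rw [h0, zero_mul]
      exact Submodule.zero_mem _
    · rw [mem_rr_of_ne (mul_ne_zero h0 (inv_ne_zero hgg0))]
      intro v
      have h5 := (mem_rr_of_ne h0).mp hh v
      rw [v.ord_mul h0 (inv_ne_zero hgg0), v.ord_inv, hD4]
      rw [Finsupp.add_apply] at h5 ⊢
      rw [Finsupp.add_apply, dv_apply]
      have h6 : ((T.nsmul N').toNTors h1').D v = (T.nsmul N').D v := rfl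
      rw [h6] at h5
      linarith
  obtain ⟨M₀, hM₀⟩ := exists_approx U Fb hRR₁ hF hgr hq
    (fun z hz => o_eq_twelve U Fb hRR₁ hgr hF hz)
    (fun z hz m x hx c hc => by
      have h5 := (geSub z 1).add_mem (frobsq_sub_mem U Fb hRR₁ hgr hF hz hx) hc
      rwa [sub_add_sub_cancel] at h5)
    (fun i z hz => glue_zero U Fb hRR₁ hgr hF (m := 1) (by rw [one_smul]; exact p.t_mem_rr)
      p.LR_t hz i)
    hn (T4.toNTors h4) hh4 (fun i => b i * (algebraMap k F₁ (c i))⁻¹)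
    (fun i => ((hb i).mul ((hgg i).inv (hcF i))).congr' (by ring) rfl rfl) hglue
  obtain ⟨M₁, hM₁⟩ := principal_of_lifts U hRR hRR₁ hF addSplit
  have hM : max M₀ M₁ ≤ q * max M₀ M₁ := Nat.le_mul_of_pos_left _ (by omega)
  obtain ⟨hu, hu'⟩ := hM₀ (q * max M₀ M₁) ((le_max_left _ _).trans hM) (dvd_mul_right _ _)
  obtain ⟨w, hw, hwv⟩ := hM₁ (q * max M₀ M₁) ((le_max_right _ _).trans hM) n hn hnk
    ((T4.toNTors h4).nsmul q) hu hu'
  have hK4 : T4.Killed q := ⟨w, hw, fun v => by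
    rw [← hwv v]
    show _ = (q • T4.D) v
    rw [Finsupp.smul_apply, nsmul_eq_mul]⟩
  exact T.killed_of_nsmul (TD.killed_of_tw _ hK4)

include hRR hRR₁ hF in
/-- **a class killed by the push-forwards is killed by `q (q - 1) ^ 2 (q + 1) ^ 2`** -/
theorem TD.killed (hq : (q : k) = 0) (hnk : (n : k) ≠ 0) (T : TD Pq n)
    {ub : F₁} (hub : ∀ v, p.Eb 0 v = 0 → v.ord ub = U.o v) (hφub : Fb.φ ub = ub) :
    T.Killed (q * ((q - 1) * (q + 1)) * (q - 1) * (q + 1)) := by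
  have hn : n ≠ 0 := by rintro rfl; simp at hnk
  obtain ⟨c, hc, hcK, g, hg, hgK, a, ha, hLR⟩ := T.step_val
  obtain ⟨g', hg', hgK', h1⟩ := TD.step_res hn _ ha hLR
  have h2 := TD.step_fin hRR hRR₁ hF hq hnk _ h1 hub hφub
  have h3 := TD.killed_of_nsmul _ (TD.killed_of_tw _ h2)
  exact TD.killed_of_nsmul _ (TD.killed_of_cst _ (TD.killed_of_tw _ h3))

end Fin

/-- **The endgame.** Prime-to-`q` torsion classes which are rational over the base field and killed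
by the two push-forwards have bounded order. -/
theorem core [IsAlgClosed L] [IsAlgClosed k] [IsFF L F] [IsFF k F₁] [IsFF L Fq]
    [HasPrincipalDivisors L F] [HasPrincipalDivisors k F₁] [HasPrincipalDivisors L Fq]
    {g g₁ : ℤ} (hRR : RRLarge L F g) (hRR₁ : RRLarge k F₁ g₁)
    (U : Units p q) (Fb : Frob p q) (Pq : Push U Fb Fq)
    (hgen : 12 * (1 - g) = ((q : ℤ) + 1) * (12 * (1 - g₁) - Divisor.degree U.o))
    (hq : (q : k) = 0) {ub : F₁} (hub : ∀ v, p.Eb 0 v = 0 → v.ord ub = U.o v)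
    (hφub : Fb.φ ub = ub) :
    ∃ C : ℕ, C ≠ 0 ∧ ∀ n : ℕ, (n : k) ≠ 0 → ∀ D ∈ fixD S.Γ, ∀ f ∈ S.FK, f ≠ 0 →
      (∀ v : Place L F, (n : ℤ) * D v = v.ord f) →
      (∀ i, ∃ g : Fq, g ≠ 0 ∧ ∀ v, Pq.pD i D v = v.ord g) →
      ∃ w : F, w ≠ 0 ∧ ∀ v : Place L F, (C : ℤ) * D v = v.ord w := by
  have hF : FullRes U := fullRes U hRR hRR₁ (p.growth hRR) countGe hgen
  have h2 := U.two_le
  refine ⟨q * ((q - 1) * (q + 1)) * (q - 1) * (q + 1), ?_, fun n hnk D hD f hf hf0 hDf hpr => ?_⟩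
  · have h3 : q - 1 ≠ 0 := by omega
    have h4 : q ≠ 0 := by omega
    positivity
  · exact TD.killed hRR hRR₁ hF hq hnk (⟨D, hD, f, hf, hf0, hDf, hpr⟩ : TD Pq n) hub hφub

end Fermat.Agent.Car
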