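import Fermat.Agent.Car.Glue
import Fermat.Agent.BadRed.SpMap

/-!
# Project CAR: the endgame, part 1: torsion data killed by the push-forwards
-/

set_option autoImplicit false
set_option linter.unusedSectionVars false
set_option linter.unusedSimpArgs false

noncomputable section

open AlgebraicCurve Module

namespace Fermat.Agent.Car

open Fermat.Agent.FunField hiding rr_mono mul_mem_rr pow_mem_rr deg_eq_one degree_nonneg
  degree_mono degree_eq_sum
open Fermat.Agent.FunField.PlaceLemmas Fermat.Agent.Deuring Fermat.Agent.BadRed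

variable {L k F F₁ : Type*} [Field L] [Field k] [Field F] [Field F₁] [Algebra L F] [Algebra k F₁]
variable {S : Sys L k F F₁} {p : Pen S} {q : ℕ} {U : Units p q} {Fb : Frob p q}
variable {Fq : Type*} [Field Fq] [Algebra L Fq] (Pq : Push U Fb Fq)

section Aut

variable [IsAlgClosed k]

theorem Frob.Fr_inj (Fb : Frob p q) : Function.Injective Fb.Fr := Fb.Fr.toRingHom.injective

theorem Frob.φ_algebraMap (Fb : Frob p q) (c : k) :
    Fb.φ (algebraMap k F₁ c) = algebraMap k F₁ (c ^ q) := by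
  apply Fb.Fr_inj
  rw [Fb.hFr, AlgHom.commutes, map_pow]

/-- the `q`-th power map on constants -/
def Frob.base (Fb : Frob p q) (hq : q ≠ 0) : k ≃+* k :=
  RingEquiv.ofBijective
    ({ toFun := fun c => c ^ q
       map_one' := one_pow q
       map_mul' := fun a b => mul_pow a b q
       map_zero' := zero_pow hq
       map_add' := fun a b => by
         apply (algebraMap k F₁).injective
         rw [← Fb.φ_algebraMap, map_add, map_add, map_add, Fb.φ_algebraMap, Fb.φ_algebraMap] } :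
      k →+* k)
    ⟨RingHom.injective _, fun b => by
      obtain ⟨c, hc⟩ := IsAlgClosed.exists_pow_nat_eq b (Nat.pos_of_ne_zero hq)
      exact ⟨c, hc⟩⟩

/-- coefficientwise Frobenius as a semilinear automorphism -/
def Frob.aut (Fb : Frob p q) (hq : q ≠ 0) : SemilinearAut k F₁ :=
  ⟨(Fb.φ, Fb.base hq), fun c => Fb.φ_algebraMap c⟩

theorem Frob.aut_smul (Fb : Frob p q) (hq : q ≠ 0) (x : F₁) : Fb.aut hq • x = Fb.φ x := rfl

theorem Frob.ord_aut (Fb : Frob p q) (hq : q ≠ 0) (z : Place k F₁) (x : F₁) :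
    (Fb.aut hq • z).ord (Fb.φ x) = z.ord x := by
  have := SemilinearAut.ord_smul (Fb.aut hq) z x
  rwa [Fb.aut_smul] at this

theorem Frob.ord_aut_symm (Fb : Frob p q) (hq : q ≠ 0) (z : Place k F₁) (x : F₁) :
    z.ord (Fb.φ.symm x) = (Fb.aut hq • z).ord x := by
  rw [← Fb.ord_aut hq z (Fb.φ.symm x), RingEquiv.apply_symm_apply]

/-- `Fr` of a function vanishing at the image -/
theorem Frob.Fr_geSub (Fb : Frob p q) (hq : q ≠ 0) {z : Place k F₁} {x : F₁}
    (h : x ∈ geSub (Fb.aut hq • z) 1) : Fb.Fr x ∈ geSub z 1 := by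
  rcases eq_or_ne x 0 with rfl | hx
  · rw [map_zero]; exact Submodule.zero_mem _
  rw [mem_geSub_of_ne hx] at h
  rw [mem_geSub]
  right
  rw [Fb.Fr_eq, ord_pow, Fb.ord_aut_symm hq]
  have : (1 : ℤ) ≤ q := by exact_mod_cast Nat.one_le_iff_ne_zero.mpr hq
  nlinarith

theorem Frob.Fr_const (Fb : Frob p q) (hq : q ≠ 0) {z : Place k F₁} {x : F₁} {c : k}
    (h : x - algebraMap k F₁ c ∈ geSub (Fb.aut hq • z) 1) :
    Fb.Fr x - algebraMap k F₁ c ∈ geSub z 1 := by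
  have := Fb.Fr_geSub hq h
  rwa [map_sub, AlgHom.commutes] at this

/-- the image of a non-cuspidal place is non-cuspidal -/
theorem Frob.Eb_aut (Fb : Frob p q) (hq : q ≠ 0) {z : Place k F₁} :
    p.Eb 0 (Fb.aut hq • z) = 0 ↔ p.Eb 0 z = 0 := by
  have ht : p.tb 0 ∈ riemannRochSpace (1 • p.Eb 0) := by
    rw [one_smul, mem_rr_of_ne (p.tb_ne 0)]
    intro v
    rw [p.hEb 0 v]
    have := le_max_right 0 (-(v.ord (p.tb 0)))
    omega
  constructor
  · intro h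
    by_contra hne
    have h1 := (Fb.hφ 1 (p.tb 0)).mpr ht
    have h2 : Fb.φ (p.tb 0) ≠ 0 := fun h0 => p.tb_ne 0 (by
      rw [← Fb.φ.symm_apply_apply (p.tb 0), h0, map_zero])
    have h3 := (mem_rr_of_ne h2).mp h1 (Fb.aut hq • z)
    rw [one_smul, h, Fb.ord_aut hq, p.hEb 0 z] at *
    rcases le_total 0 (-(z.ord (p.tb 0))) with h4 | h4
    · rw [max_eq_right h4] at hne
      omega
    · exact hne (max_eq_left h4)
  · intro h
    by_contra hne
    have h1 : Fb.φ.symm (p.tb 0) ∈ riemannRochSpace (1 • p.Eb 0) := by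
      rw [← Fb.hφ, RingEquiv.apply_symm_apply]
      exact ht
    have h2 : Fb.φ.symm (p.tb 0) ≠ 0 := fun h0 => p.tb_ne 0 (by
      rw [← Fb.φ.apply_symm_apply (p.tb 0), h0, map_zero])
    have h3 := (mem_rr_of_ne h2).mp h1 z
    rw [one_smul, h, Fb.ord_aut_symm hq] at h3
    rw [p.hEb 0] at hne
    rcases le_total 0 (-((Fb.aut hq • z).ord (p.tb 0))) with h4 | h4
    · rw [max_eq_right h4] at hne
      omega
    · exact hne (max_eq_left h4)

theorem Frob.o_aut (Fb : Frob p q) (hq : q ≠ 0) {ub : F₁}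
    (hub : ∀ v, p.Eb 0 v = 0 → v.ord ub = U.o v) (hφ : Fb.φ ub = ub) (z : Place k F₁) :
    U.o (Fb.aut hq • z) = U.o z := by
  by_cases hz : p.Eb 0 z = 0
  · have hz' := (Fb.Eb_aut hq).mpr hz
    rw [← hub _ hz, ← hub _ hz']
    conv_lhs => rw [← hφ]
    exact Fb.ord_aut hq z ub
  · have hz' : p.Eb 0 (Fb.aut hq • z) ≠ 0 := fun h => hz ((Fb.Eb_aut hq).mp h)
    rw [U.o_cusp _ hz, U.o_cusp _ hz']

end Aut

/-- torsion data killed by the two push-forwards -/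
structure TD (n : ℕ) where
  D : Divisor L F
  D_mem : D ∈ fixD S.Γ
  f : F
  f_mem : f ∈ S.FK
  f_ne : f ≠ 0
  hD : ∀ v : Place L F, (n : ℤ) * D v = v.ord f
  prin : ∀ i, ∃ g : Fq, g ≠ 0 ∧ ∀ v, Pq.pD i D v = v.ord g

variable {Pq}

namespace TD

variable {n : ℕ} (T : TD Pq n)

/-- multiples -/
def nsmul (c : ℕ) : TD Pq n where
  D := c • T.D
  D_mem := (fixD S.Γ).nsmul_mem T.D_mem c
  f := T.f ^ c
  f_mem := S.FK.pow_mem T.f_mem c
  f_ne := pow_ne_zero c T.f_ne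
  hD := fun v => by
    rw [Finsupp.smul_apply, nsmul_eq_mul, ord_pow, ← T.hD]
    ring
  prin := fun i => by
    obtain ⟨g, hg, h⟩ := T.prin i
    refine ⟨g ^ c, pow_ne_zero c hg, fun v => ?_⟩
    rw [map_nsmul, Finsupp.smul_apply, nsmul_eq_mul, h, ord_pow]

variable [HasPrincipalDivisors L F]

/-- changing the divisor in its class -/
def tw {g : F} (hg : g ≠ 0) (hgK : g ∈ S.FK) : TD Pq n where
  D := T.D + dv (K := L) g hg
  D_mem := (fixD S.Γ).add_mem T.D_mem (dv_mem_fixD hg hgK)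
  f := T.f * g ^ n
  f_mem := S.FK.mul_mem T.f_mem (S.FK.pow_mem hgK n)
  f_ne := mul_ne_zero T.f_ne (pow_ne_zero n hg)
  hD := fun v => by
    rw [Finsupp.add_apply, dv_apply, mul_add, T.hD, v.ord_mul T.f_ne (pow_ne_zero n hg), ord_pow]
  prin := fun i => by
    obtain ⟨g', hg', h⟩ := T.prin i
    refine ⟨g' * Pq.Nm i g, mul_ne_zero hg' (Pq.Nm_ne i g hg), fun v => ?_⟩
    rw [map_add, Finsupp.add_apply, h, v.ord_mul hg' (Pq.Nm_ne i g hg),
      Pq.ord_Nm i g hg (dv (K := L) g hg) (fun v => dv_apply hg v)]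

/-- a multiple of `D` is principal -/
def Killed (c : ℕ) : Prop := ∃ w : F, w ≠ 0 ∧ ∀ v : Place L F, (c : ℤ) * T.D v = v.ord w

theorem killed_of_nsmul {a c : ℕ} (h : (T.nsmul a).Killed c) : T.Killed (c * a) := by
  obtain ⟨w, hw, h⟩ := h
  refine ⟨w, hw, fun v => ?_⟩
  rw [← h v]
  show _ = (c : ℤ) * (a • T.D) v
  rw [Finsupp.smul_apply, nsmul_eq_mul]
  push_cast; ring

theorem killed_of_tw {g : F} {hg : g ≠ 0} {hgK : g ∈ S.FK} {c : ℕ}
    (h : (T.tw hg hgK).Killed c) : T.Killed c := by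
  obtain ⟨w, hw, h⟩ := h
  refine ⟨w * (g ^ c)⁻¹, mul_ne_zero hw (inv_ne_zero (pow_ne_zero c hg)), fun v => ?_⟩
  rw [v.ord_mul hw (inv_ne_zero (pow_ne_zero c hg)), v.ord_inv, ord_pow, ← h v]
  show _ = (c : ℤ) * (T.D + dv (K := L) g hg) v + _
  rw [Finsupp.add_apply, dv_apply]
  ring

end TD

section Roots

variable [IsAlgClosed L] [IsFF L Fq] {n : ℕ}

theorem Push.const_mem (Pq : Push U Fb Fq) {c : L} (h : algebraMap L Fq c ∈ fixF Pq.Γq) :
    c ∈ fixL S.Γ := by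
  apply Pq.fixLq
  intro g hg
  have h1 := h g hg
  rw [SemilinearAut.smul_algebraMap] at h1
  exact (algebraMap L Fq).injective h1

variable [HasPrincipalDivisors L Fq]

/-- the norm of `f` is a power up to a constant -/
theorem TD.exists_root (T : TD Pq n) (i : Fin 2) (hNm : Pq.Nm i T.f ∈ fixF Pq.Γq) :
    ∃ (G : Fq) (j : ℤ) (u : S.A), G ≠ 0 ∧ G ∈ fixF Pq.Γq ∧ (∀ v, Pq.pD i T.D v = v.ord G) ∧
      S.π u ≠ 0 ∧ (u : L) ∈ fixL S.Γ ∧
      Pq.Nm i T.f = algebraMap L Fq (S.ϖ ^ j * (u : L)) * G ^ n := by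
  obtain ⟨G, hG, hGK, hGD⟩ := Pq.rat _ (Pq.pD_fix i T.D T.D_mem) (T.prin i)
  have hN := Pq.Nm_ne i T.f T.f_ne
  have hGn := pow_ne_zero n hG
  have hord : ∀ v : Place L Fq, v.ord (Pq.Nm i T.f * (G ^ n)⁻¹) = 0 := by
    intro v
    have h1 := Pq.ord_Nm i T.f T.f_ne (n • T.D) (fun v => by
      rw [Finsupp.smul_apply, nsmul_eq_mul, T.hD]) v
    rw [map_nsmul, Finsupp.smul_apply, nsmul_eq_mul, hGD] at h1
    rw [v.ord_mul hN (inv_ne_zero hGn), v.ord_inv, ord_pow, ← h1]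
    ring
  obtain ⟨c, hc, hceq⟩ := exists_const_of_ord (K := L) (mul_ne_zero hN (inv_ne_zero hGn)) hord
  have hcK : c ∈ fixL S.Γ := by
    apply Pq.const_mem
    rw [← hceq]
    exact (fixF Pq.Γq).mul_mem hNm ((fixF Pq.Γq).inv_mem ((fixF Pq.Γq).pow_mem hGK n))
  obtain ⟨j, u, hu, hcu⟩ := S.unif c hcK hc
  refine ⟨G, j, u, hG, hGK, hGD, hu, ?_, ?_⟩
  · have h1 : (u : L) = (S.ϖ ^ j)⁻¹ * c := by
      rw [hcu, ← mul_assoc, inv_mul_cancel₀ (zpow_ne_zero _ S.ϖ_ne), one_mul]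
    rw [h1]
    exact (fixL S.Γ).mul_mem ((fixL S.Γ).inv_mem ((fixL S.Γ).zpow_mem S.ϖ_fix j)) hcK
  · rw [← hcu, ← hceq, mul_assoc, inv_mul_cancel₀ hGn, mul_one]

omit [IsAlgClosed L] [IsFF L Fq] [HasPrincipalDivisors L Fq] in
/-- leading terms of `c G ^ n` -/
theorem Push.LR_root (Pq : Push U Fb Fq) (l : Fin 2) {G : Fq} {j x : ℤ} {u : S.A} {γ : F₁}
    (hu : (u : L) ∈ fixL S.Γ) (hG : (Pq.W l).LR x G γ) :
    (Pq.W l).LR (j + n * x) (algebraMap L Fq (S.ϖ ^ j * (u : L)) * G ^ n)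
      (algebraMap k F₁ (S.π u) * γ ^ n) := by
  have h1 := (((Pq.ϖW l).zpow one_ne_zero j).mul (Pq.cstW l u hu)).mul (hG.pow n)
  refine h1.congr' ?_ ?_ ?_
  · ring
  · rw [map_mul, map_zpow₀]
  · rw [one_zpow, one_mul]

end Roots

end Fermat.Agent.Car
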