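import Fermat.Agent.Car.Core1

/-!
# Project CAR: the endgame, part 2: normalisation and the gluing relations
-/

set_option autoImplicit false
set_option linter.unusedSectionVars false
set_option linter.unusedSimpArgs false

noncomputable section

open AlgebraicCurve Module

namespace Fermat.Agent.Car

open Fermat.Agent.FunField hiding rr_mono mul_mem_rr pow_mem_rr deg_eq_one degree_nonneg
  degree_mono degree_eq_sum
open Fermat.Agent.FunField.PlaceLemmas Fermat.Agent.Deuring Fermat.Agent.BadRed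

variable {L k F F₁ : Type*} [Field L] [Field k] [Field F] [Field F₁] [Algebra L F] [Algebra k F₁]
variable {S : Sys L k F F₁} {p : Pen S} {q : ℕ} {U : Units p q} {Fb : Frob p q}
variable {Fq : Type*} [Field Fq] [Algebra L Fq] {Pq : Push U Fb Fq}

namespace TD

variable {n : ℕ} (T : TD Pq n)

/-- multiplying the function by a constant -/
def cst {c : L} (hc : c ≠ 0) (hcK : c ∈ fixL S.Γ) : TD Pq n where
  D := T.D
  D_mem := T.D_mem
  f := c • T.f
  f_mem := smul_mem_fixF hcK T.f_mem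
  f_ne := smul_ne_zero hc T.f_ne
  hD := fun v => by rw [T.hD, ord_smul_of_ne_zero v hc]
  prin := T.prin

theorem killed_of_cst {c : L} {hc : c ≠ 0} {hcK : c ∈ fixL S.Γ} {m : ℕ}
    (h : (T.cst hc hcK).Killed m) : T.Killed m := h

/-- normalised data -/
def toNTors (h : ∀ i, (S.V i).LR 0 T.f 1) : NTors S n where
  D := T.D
  D_mem := T.D_mem
  f := T.f
  f_mem := T.f_mem
  hD := T.hD
  LR_f := h

end TD

section Steps

variable [IsAlgClosed L] [IsFF L Fq] [HasPrincipalDivisors L F] [HasPrincipalDivisors L Fq]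
  {n : ℕ}

/-- **the valuations are killed by `q + 1`** -/
theorem TD.step_val (T : TD Pq n) : ∃ (c : L) (hc : c ≠ 0) (hcK : c ∈ fixL S.Γ) (g : F)
    (hg : g ≠ 0) (hgK : g ∈ S.FK) (a : Fin 3 → F₁), (∀ i, a i ≠ 0) ∧
      ∀ i, (S.V i).LR 0 (((T.nsmul (q + 1)).cst hc hcK).tw hg hgK).f (a i) := by
  choose w a ha hLR using fun i => (S.V i).exists_LR T.f_mem T.f_ne
  obtain ⟨⟨b00, hb00, h00⟩, ⟨b01, hb01, h01⟩, ⟨b10, hb10, h10⟩, ⟨b11, hb11, h11⟩⟩ :=
    Pq.val T.f w a ha hLR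
  obtain ⟨G, j, u, hG, hGK, -, hu, huK, hGeq⟩ := T.exists_root 0 h00.mem_FK
  obtain ⟨G', j', u', hG', hGK', -, hu', huK', hGeq'⟩ := T.exists_root 1 h10.mem_FK
  obtain ⟨x0, γ0, hγ0, hx0⟩ := (Pq.W 0).exists_LR hGK hG
  obtain ⟨y0, δ0, hδ0, hy0⟩ := (Pq.W 1).exists_LR hGK hG
  obtain ⟨x1, γ1, hγ1, hx1⟩ := (Pq.W 0).exists_LR hGK' hG'
  obtain ⟨y1, δ1, hδ1, hy1⟩ := (Pq.W 1).exists_LR hGK' hG'
  have hne : ∀ {v : S.A} {γ : F₁}, S.π v ≠ 0 → γ ≠ 0 → algebraMap k F₁ (S.π v) * γ ^ n ≠ 0 :=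
    fun hv hγ => mul_ne_zero (by simpa using hv) (pow_ne_zero n hγ)
  have e1 := (((Pq.LR_root 0 huK hx0).congr hGeq.symm rfl).unique' (hne hu hγ0) h00 hb00).1
  have e2 := (((Pq.LR_root 1 huK hy0).congr hGeq.symm rfl).unique' (hne hu hδ0) h01 hb01).1
  have e3 := (((Pq.LR_root 0 huK' hx1).congr hGeq'.symm rfl).unique' (hne hu' hγ1) h10 hb10).1
  have e4 := (((Pq.LR_root 1 huK' hy1).congr hGeq'.symm rfl).unique' (hne hu' hδ1) h11 hb11).1
  -- the exponents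
  set s : Fin 3 → ℤ := ![x0 - y0 + (x1 - y1), ((q : ℤ) + 1) * (x0 - y0) - (x0 - y0 + (x1 - y1)), 0]
    with hs
  have hkey : ∀ i, ((q : ℤ) + 1) * w i + -(((q : ℤ) + 1) * w 2) * S.e i = n * s i := by
    intro i
    fin_cases i
    · simp only [Fin.zero_eta, U.e0, hs, Matrix.cons_val_zero]
      push_cast
      linear_combination (1 : ℤ) * e2 - e1 + e4 - e3
    · simp only [Fin.mk_one, U.e1, hs, Matrix.cons_val_one, Matrix.cons_val_zero, U.cast_q1]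
      linear_combination -((q : ℤ) + 1) * e1 + ((q : ℤ) + 1) * e2 - e2 + e1 - e4 + e3
    · simp only [Fin.reduceFinMk, U.e2, hs, Matrix.cons_val]
      push_cast; ring
  obtain ⟨g, hg⟩ := S.surj (fun i => -(s i)) (fun _ => 1)
  have hg0 : g ≠ 0 := (hg 0).ne_zero one_ne_zero
  refine ⟨S.ϖ ^ (-(((q : ℤ) + 1) * w 2)), zpow_ne_zero _ S.ϖ_ne,
    (fixL S.Γ).zpow_mem S.ϖ_fix _, g, hg0, (hg 0).mem_FK,
    fun i => a i ^ (q + 1) * S.η i ^ (-(((q : ℤ) + 1) * w 2)), fun i =>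
      mul_ne_zero (pow_ne_zero _ (ha i)) (zpow_ne_zero _ (S.η_ne i)), fun i => ?_⟩
  have h1 := (S.ϖ_smul ((hLR i).pow (q + 1)) (-(((q : ℤ) + 1) * w 2))).mul ((hg i).pow n)
  refine h1.congr' ?_ rfl ?_
  · have := hkey i
    push_cast
    linarith
  · rw [one_pow, mul_one]

variable [IsAlgClosed k]

/-- **the residues are `n`-th powers after multiplication by `q - 1`** -/
theorem TD.step_res (hn : n ≠ 0) (T : TD Pq n) {a : Fin 3 → F₁} (ha : ∀ i, a i ≠ 0)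
    (hLR : ∀ i, (S.V i).LR 0 T.f (a i)) : ∃ (g : F) (hg : g ≠ 0) (hgK : g ∈ S.FK),
      ∀ i, (S.V i).LR 0 ((T.nsmul (q - 1)).tw hg hgK).f 1 := by
  obtain ⟨h00, h01, h10, h11⟩ := Pq.res T.f a ha hLR
  obtain ⟨G, j, u, hG, hGK, -, hu, huK, hGeq⟩ := T.exists_root 0 h00.mem_FK
  obtain ⟨G', j', u', hG', hGK', -, hu', huK', hGeq'⟩ := T.exists_root 1 h10.mem_FK
  obtain ⟨x0, γ0, hγ0, hx0⟩ := (Pq.W 0).exists_LR hGK hG
  obtain ⟨y0, δ0, hδ0, hy0⟩ := (Pq.W 1).exists_LR hGK hG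
  obtain ⟨x1, γ1, hγ1, hx1⟩ := (Pq.W 0).exists_LR hGK' hG'
  have hne : ∀ {v : S.A} {γ : F₁}, S.π v ≠ 0 → γ ≠ 0 → algebraMap k F₁ (S.π v) * γ ^ n ≠ 0 :=
    fun hv hγ => mul_ne_zero (by simpa using hv) (pow_ne_zero n hγ)
  have hφne : ∀ x : F₁, x ≠ 0 → Fb.φ x ≠ 0 := fun x hx h => hx (by
    rw [← Fb.φ.symm_apply_apply x, h, map_zero])
  have e1 := (((Pq.LR_root 0 huK hx0).congr hGeq.symm rfl).unique' (hne hu hγ0) h00
    (mul_ne_zero (ha 0) (pow_ne_zero _ (ha 1)))).2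
  have e2 := (((Pq.LR_root 1 huK hy0).congr hGeq.symm rfl).unique' (hne hu hδ0) h01
    (hφne _ (ha 2))).2
  have e3 := (((Pq.LR_root 0 huK' hx1).congr hGeq'.symm rfl).unique' (hne hu' hγ1) h10
    (hφne _ (ha 0))).2
  obtain ⟨ν, hν⟩ := IsAlgClosed.exists_pow_nat_eq (S.π u) (Nat.pos_of_ne_zero hn)
  obtain ⟨ν', hν'⟩ := IsAlgClosed.exists_pow_nat_eq (S.π u') (Nat.pos_of_ne_zero hn)
  rw [← hν, map_pow, ← mul_pow] at e1 e2
  rw [← hν', map_pow, ← mul_pow] at e3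
  set β0 : F₁ := Fb.φ.symm (algebraMap k F₁ ν' * γ1) with hβ0
  set β2 : F₁ := Fb.φ.symm (algebraMap k F₁ ν * δ0) with hβ2
  have f0 : a 0 = β0 ^ n := by
    apply Fb.φ.injective
    rw [← e3, hβ0, map_pow, RingEquiv.apply_symm_apply]
  have f2 : a 2 = β2 ^ n := by
    apply Fb.φ.injective
    rw [← e2, hβ2, map_pow, RingEquiv.apply_symm_apply]
  have hβ0n : β0 ≠ 0 := by
    intro h
    rw [h, zero_pow hn] at f0
    exact ha 0 f0
  have hβ2n : β2 ≠ 0 := by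
    intro h
    rw [h, zero_pow hn] at f2
    exact ha 2 f2
  set β1 : F₁ := algebraMap k F₁ ν * γ0 / β0 with hβ1
  have f1 : a 1 ^ (q - 1) = β1 ^ n := by
    rw [hβ1, div_pow, e1, ← f0]
    field_simp [ha 0]
  have hβ1n : β1 ≠ 0 := by
    intro h
    rw [h, zero_pow hn] at f1
    exact pow_ne_zero _ (ha 1) f1
  set δ : Fin 3 → F₁ := ![β0 ^ (q - 1), β1, β2 ^ (q - 1)] with hδ
  have hδn : ∀ i, δ i ≠ 0 := by
    intro i
    fin_cases i
    · exact pow_ne_zero _ hβ0n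
    · exact hβ1n
    · exact pow_ne_zero _ hβ2n
  have hδeq : ∀ i, a i ^ (q - 1) = δ i ^ n := by
    intro i
    fin_cases i
    · show a 0 ^ (q - 1) = (β0 ^ (q - 1)) ^ n
      rw [f0, ← pow_mul, ← pow_mul, mul_comm]
    · exact f1
    · show a 2 ^ (q - 1) = (β2 ^ (q - 1)) ^ n
      rw [f2, ← pow_mul, ← pow_mul, mul_comm]
  obtain ⟨g, hg⟩ := S.surj (fun _ => 0) (fun i => (δ i)⁻¹)
  have hg0 : g ≠ 0 := (hg 0).ne_zero (inv_ne_zero (hδn 0))
  refine ⟨g, hg0, (hg 0).mem_FK, fun i => ?_⟩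
  have h1 := ((hLR i).pow (q - 1)).mul ((hg i).pow n)
  refine h1.congr' ?_ rfl ?_
  · ring
  · rw [inv_pow, ← hδeq, mul_inv_cancel₀ (pow_ne_zero _ (ha i))]

variable [IsFF k F₁] [HasPrincipalDivisors k F₁]

/-- roots of constants are constants -/
theorem exists_const_root (hn : n ≠ 0) {γ : F₁} {c : k} (hc : c ≠ 0)
    (h : γ ^ n = algebraMap k F₁ c) : ∃ d : k, d ≠ 0 ∧ γ = algebraMap k F₁ d := by
  have hγ : γ ≠ 0 := by
    rintro rfl
    rw [zero_pow hn] at h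
    exact hc ((algebraMap k F₁).injective (h.symm.trans (map_zero _).symm))
  apply exists_const_of_ord hγ
  intro v
  have h1 := congrArg v.ord h
  rw [ord_pow, ord_algebraMap] at h1
  have hn' : (n : ℤ) ≠ 0 := by exact_mod_cast hn
  exact (mul_eq_zero.mp h1).resolve_left hn'

/-- normalised roots of the norms -/
theorem TD.exists_Gnorm (hn : n ≠ 0) (T : TD Pq n) (h1 : ∀ i, (S.V i).LR 0 T.f 1) (i : Fin 2) :
    ∃ (G : Fq) (c : Fin 2 → k), G ≠ 0 ∧ (∀ v, Pq.pD i T.D v = v.ord G) ∧ (∀ l, c l ≠ 0) ∧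
      ∀ l, (Pq.W l).LR 0 G (algebraMap k F₁ (c l)) := by
  have hres : ∀ l, (Pq.W l).LR 0 (Pq.Nm i T.f) 1 := by
    obtain ⟨h00, h01, h10, h11⟩ := Pq.res T.f (fun _ => 1) (fun _ => one_ne_zero) h1
    simp only [one_pow, mul_one, map_one] at h00 h01 h10 h11
    intro l
    fin_cases i <;> fin_cases l <;> assumption
  obtain ⟨G, j, u, hG, hGK, hGD, hu, huK, hGeq⟩ := T.exists_root i (hres 0).mem_FK
  choose x γ hγ hx using fun l => (Pq.W l).exists_LR hGK hG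
  have hne : ∀ l, algebraMap k F₁ (S.π u) * γ l ^ n ≠ 0 := fun l =>
    mul_ne_zero (by simpa using hu) (pow_ne_zero n (hγ l))
  have e := fun l => ((Pq.LR_root l huK (hx l)).congr hGeq.symm rfl).unique' (hne l) (hres l)
    one_ne_zero
  have hn' : (n : ℤ) ≠ 0 := by exact_mod_cast hn
  have hxx : ∀ l, x l = x 0 := by
    intro l
    have e1 := (e l).1
    have e2 := (e 0).1
    have : (n : ℤ) * x l = n * x 0 := by linarith
    exact mul_left_cancel₀ hn' this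
  have hconst : ∀ l, ∃ d : k, d ≠ 0 ∧ γ l = algebraMap k F₁ d := by
    intro l
    apply exists_const_root hn (inv_ne_zero hu)
    rw [map_inv₀]
    exact eq_inv_of_mul_eq_one_right (e l).2
  choose d hd hdγ using hconst
  refine ⟨algebraMap L Fq (S.ϖ ^ (-(x 0))) * G, d, mul_ne_zero ?_ hG, fun v => ?_, hd, fun l => ?_⟩
  · exact (map_ne_zero _).mpr (zpow_ne_zero _ S.ϖ_ne)
  · rw [← Algebra.smul_def, ord_smul_of_ne_zero v (zpow_ne_zero _ S.ϖ_ne)]
    exact hGD v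
  · have h2 := ((Pq.ϖW l).zpow one_ne_zero (-(x 0))).mul (hx l)
    refine h2.congr' ?_ ?_ ?_
    · rw [hxx l]; ring
    · rw [map_zpow₀]
    · rw [one_zpow, one_mul, hdγ]

theorem Pen.exists_Eb_le (p : Pen S) (i : Fin 3) (m : ℕ) : ∃ m' : ℕ, m • p.Eb i ≤ m' • p.Eb 0 := by
  classical
  refine ⟨m * ∑ v ∈ (p.Eb i).support, (p.Eb i v).toNat, ?_⟩
  rw [mul_smul]
  apply nsmul_le_nsmul_right
  rw [Finsupp.le_def]
  intro v
  rw [Finsupp.smul_apply, nsmul_eq_mul]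
  by_cases hv : v ∈ (p.Eb i).support
  · have h1 : p.Eb 0 v ≠ 0 := fun h => (Finsupp.mem_support_iff.mp hv) (p.supp 0 i v h)
    have h2 : 1 ≤ p.Eb 0 v := by
      have := p.Eb_apply_nonneg 0 v
      omega
    have h3 : (p.Eb i v).toNat ≤ ∑ v ∈ (p.Eb i).support, (p.Eb i v).toNat :=
      Finset.single_le_sum (f := fun v => (p.Eb i v).toNat) (fun _ _ => Nat.zero_le _) hv
    have h4 := Int.self_le_toNat (p.Eb i v)
    have h5 : ((p.Eb i v).toNat : ℤ) ≤ ((∑ v ∈ (p.Eb i).support, (p.Eb i v).toNat : ℕ) : ℤ) := by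
      exact_mod_cast h3
    nlinarith
  · rw [Finsupp.notMem_support_iff.mp hv]
    exact mul_nonneg (Int.natCast_nonneg _) (p.Eb_apply_nonneg 0 v)

variable {g₁ : ℤ} (hRR₁ : RRLarge k F₁ g₁) (hgr : p.Growth) (hF : FullRes U)

omit [IsAlgClosed L] [IsFF L Fq] [HasPrincipalDivisors L Fq] [IsAlgClosed k] [IsFF k F₁]
  [HasPrincipalDivisors k F₁] in
/-- norms of sections -/
theorem Push.Nm_mem (Pq : Push U Fb Fq) (i : Fin 2) {m : ℕ} {D : Divisor L F} {h : F}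
    (hh : h ∈ riemannRochSpace (m • p.E + D)) (h0 : h ≠ 0) {G : Fq} (hG : G ≠ 0)
    (hGD : ∀ v, Pq.pD i D v = v.ord G) :
    Pq.Nm i h * G ∈ riemannRochSpace (Pq.pD i (m • p.E)) := by
  have hN := Pq.Nm_ne i h h0
  rw [mem_rr_of_ne (mul_ne_zero hN hG)]
  intro v
  have h1 : -(m • p.E + D) ≤ dv (K := L) h h0 := by
    rw [Finsupp.le_def]
    intro w
    rw [Finsupp.neg_apply, dv_apply]
    exact (mem_rr_of_ne h0).mp hh w
  have h2 := Finsupp.le_def.mp (Pq.pD_mono i _ _ h1) v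
  rw [map_neg, map_add, Finsupp.neg_apply, Finsupp.add_apply, hGD,
    Pq.ord_Nm i h h0 (dv (K := L) h h0) (fun v => dv_apply h0 v)] at h2
  rw [v.ord_mul hN hG]
  linarith

variable [IsFF L F]

include hRR₁ hgr hF in
/-- **the gluing relations** -/
theorem TD.step_zeta (hn : n ≠ 0) (T : TD Pq n) (h1 : ∀ i, (S.V i).LR 0 T.f 1)
    {ub : F₁} (hub : ∀ v, p.Eb 0 v = 0 → v.ord ub = U.o v) (hφub : Fb.φ ub = ub)
    {ζ : Fin 3 → Place k F₁ → k} (hζ : IsZeta U (T.toNTors h1) ζ) :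
    ∃ κ₁ κ₂ : k, κ₁ ≠ 0 ∧ κ₂ ≠ 0 ∧ ∀ y, 0 < U.o y → ζ 0 y = 1 ∧
      ζ 2 y ^ q = κ₁ * ζ 1 y ^ (q - 1) ∧ ζ 2 y * ζ 1 y ^ (q - 1) = κ₂ := by
  have hq0 : q ≠ 0 := by have := U.two_le; omega
  obtain ⟨G, c, hG, hGD, hc, hGc⟩ := T.exists_Gnorm hn h1 0
  obtain ⟨G', c', hG', hGD', hc', hGc'⟩ := T.exists_Gnorm hn h1 1
  obtain ⟨m, h, b, hh, hb, hb0⟩ := exists_h0 U hF hn (T.toNTors h1)
  have hval : ∀ {y : Place k F₁} (_ : 0 < U.o y) (i : Fin 3),
      b i - algebraMap k F₁ (ζ i y) ∈ geSub y 1 := by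
    intro y hy i
    have := hζ.glue y hy m h hh b hb i
    rwa [hb0, mul_one] at this
  have hζne : ∀ {y : Place k F₁} (_ : 0 < U.o y) (i : Fin 3), ζ i y ≠ 0 := by
    intro y hy i h0
    have := hζ.pow_eq y hy i
    rw [h0, zero_pow hn] at this
    exact zero_ne_one this
  have h0 : h ≠ 0 := (hb 0).ne_zero (by rw [hb0]; exact one_ne_zero)
  -- nonvanishing of the residues in presence of a node
  have hbne : ∀ {y : Place k F₁} (_ : 0 < U.o y) (i : Fin 3), b i ≠ 0 := by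
    intro y hy i hbi
    have h2 := hval hy i
    rw [hbi, zero_sub] at h2
    have h3 := (geSub y 1).neg_mem h2
    rw [neg_neg] at h3
    exact hζne hy i (eq_zero_of_algebraMap_mem y h3)
  refine ⟨c 0 / c 1, c' 0 / c' 1, div_ne_zero (hc 0) (hc 1), div_ne_zero (hc' 0) (hc' 1),
    fun y hy => ⟨?_, ?_, ?_⟩⟩
  · have h2 := hval hy 0
    rw [hb0, ← map_one (algebraMap k F₁), ← map_sub] at h2
    exact (sub_eq_zero.mp (eq_zero_of_algebraMap_mem y h2)).symm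
  · -- the relation from `α`
    set z : Place k F₁ := (Fb.aut hq0)⁻¹ • y with hzdef
    have hzy : Fb.aut hq0 • z = y := by rw [hzdef, smul_inv_smul]
    have hz : 0 < U.o z := by
      have := Fb.o_aut hq0 hub hφub z
      rw [hzy] at this
      rw [← this]; exact hy
    obtain ⟨h00, h01, -, -⟩ := Pq.res h b (hbne hy) hb
    have hmem := Pq.Nm_mem 0 hh h0 hG hGD
    obtain ⟨-, -, hgl⟩ := Pq.glue 0 m _ _ _ hmem
      ((h00.mul (hGc 0)).congr' (add_zero 0) rfl rfl)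
      ((h01.mul (hGc 1)).congr' (add_zero 0) rfl rfl) z hz
    have hgl' : Fb.φ (b 2) * algebraMap k F₁ (c 1) -
        Fb.Fr (b 0 * b 1 ^ (q - 1) * algebraMap k F₁ (c 0)) ∈ geSub z 1 := by
      rw [mem_geSub]
      rcases hgl with hgl | hgl
      · exact Or.inl (sub_eq_zero.mpr hgl)
      · exact Or.inr hgl
    rw [hb0, one_mul, map_mul, map_pow, AlgHom.commutes] at hgl'
    have hz0 := U.Eb_zero_of_pos hz 0
    -- value of `Fr b₁`
    have hv1 : Fb.Fr (b 1) - algebraMap k F₁ (ζ 1 y) ∈ geSub z 1 :=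
      Fb.Fr_const hq0 (by rw [hzy]; exact hval hy 1)
    have hv2 : Fb.Fr (b 2) - algebraMap k F₁ (ζ 2 y) ∈ geSub z 1 :=
      Fb.Fr_const hq0 (by rw [hzy]; exact hval hy 2)
    have hreg : ∀ {x : F₁} {c : k}, x - algebraMap k F₁ c ∈ geSub z 1 → x ∈ geSub z 0 := by
      intro x c hx
      have h2 := (geSub z 0).add_mem (geSub_anti z zero_le_one hx) (algebraMap_mem_geSub_zero z c)
      rwa [sub_add_cancel] at h2
    have hp1 := pow_sub_mem (hreg hv1) (algebraMap_mem_geSub_zero z (ζ 1 y)) hv1 (q - 1)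
    have hp2 := pow_sub_mem (hreg hv2) (algebraMap_mem_geSub_zero z (ζ 2 y)) hv2 q
    -- value of `φ b₂`
    have hv3 : Fb.φ (b 2) - algebraMap k F₁ (ζ 2 y) ^ q ∈ geSub z 1 := by
      obtain ⟨m', hm'⟩ := p.exists_Eb_le 2 m
      have h2 : b 2 ∈ riemannRochSpace (m' • p.Eb 0) :=
        rr_mono hm' ((T.toNTors h1).res_mem hgr hn hh hb 2)
      have h3 := frobsq_sub_mem U Fb hRR₁ hgr hF hz ((Fb.hφ m' _).mpr h2)
      rw [Fb.hFr, map_pow] at h3
      have h4 := (geSub z 1).sub_mem hp2 h3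
      have h5 : Fb.Fr (b 2) ^ q - algebraMap k F₁ (ζ 2 y) ^ q - (Fb.Fr (b 2) ^ q - Fb.φ (b 2)) =
        Fb.φ (b 2) - algebraMap k F₁ (ζ 2 y) ^ q := by ring
      rwa [h5] at h4
    have h6 : algebraMap k F₁ (ζ 2 y ^ q * c 1 - ζ 1 y ^ (q - 1) * c 0) ∈ geSub z 1 := by
      have h7 := (geSub z 1).sub_mem ((geSub z 1).add_mem hgl'
        (mul_sub_mem (algebraMap_mem_geSub_zero z (c 0)) hp1))
        (mul_sub_mem (algebraMap_mem_geSub_zero z (c 1)) hv3)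
      refine (congrArg (· ∈ geSub z 1) ?_).mpr h7
      simp only [map_sub, map_mul, map_pow]
      ring
    have h8 := sub_eq_zero.mp (eq_zero_of_algebraMap_mem z h6)
    rw [div_mul_eq_mul_div, eq_div_iff (hc 1), h8]
    ring
  · -- the relation from `β`
    obtain ⟨-, -, h10, h11⟩ := Pq.res h b (hbne hy) hb
    have hmem := Pq.Nm_mem 1 hh h0 hG' hGD'
    obtain ⟨-, -, hgl⟩ := Pq.glue 1 m _ _ _ hmem
      ((h10.mul (hGc' 0)).congr' (add_zero 0) rfl rfl)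
      ((h11.mul (hGc' 1)).congr' (add_zero 0) rfl rfl) y hy
    have hgl' : b 2 * b 1 ^ (q - 1) * algebraMap k F₁ (c' 1) -
        Fb.Fr (Fb.φ (b 0) * algebraMap k F₁ (c' 0)) ∈ geSub y 1 := by
      rw [mem_geSub]
      rcases hgl with hgl | hgl
      · exact Or.inl (sub_eq_zero.mpr hgl)
      · exact Or.inr hgl
    rw [hb0, map_one, one_mul, AlgHom.commutes] at hgl'
    have hy0 := U.Eb_zero_of_pos hy 0
    have hr := fun i => (T.toNTors h1).res_geSub hgr hn hh hb i hy0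
    have hp1 := pow_sub_mem (hr 1) (algebraMap_mem_geSub_zero y (ζ 1 y)) (hval hy 1) (q - 1)
    have h6 : algebraMap k F₁ (ζ 2 y * ζ 1 y ^ (q - 1) * c' 1 - c' 0) ∈ geSub y 1 := by
      have h7 := (geSub y 1).sub_mem ((geSub y 1).sub_mem hgl'
        (mul_sub_mem (algebraMap_mem_geSub_zero y (c' 1)) (mul_sub_mem
          (pow_mem_geSub_zero (hr 1) (q - 1)) (hval hy 2))))
        (mul_sub_mem (algebraMap_mem_geSub_zero y (c' 1)) (mul_sub_mem
          (algebraMap_mem_geSub_zero y (ζ 2 y)) hp1))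
      refine (congrArg (· ∈ geSub y 1) ?_).mpr h7
      simp only [map_sub, map_mul, map_pow]
      ring
    have h8 := sub_eq_zero.mp (eq_zero_of_algebraMap_mem y h6)
    rw [eq_div_iff (hc' 1), h8]

end Steps

end Fermat.Agent.Car
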