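import Fermat.Agent.BadRed.KLat6
import Fermat.Agent.BadRed.Newton

/-!
# Project CAR: common definitions

`RV FK F₁`: a discrete valuation (with uniformizer `ε`) of the subfield `FK ⊆ F`, with a residue
map to `F₁`.  `Sys L k F F₁`: three such valuations of the field of rational functions
`FK = fixF Γ`, where `ϖ` has valuation `e i`.
-/

set_option autoImplicit false
set_option linter.unusedSectionVars false

noncomputable section

open AlgebraicCurve Module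

namespace Fermat.Agent.Car

open Fermat.Agent.FunField Fermat.Agent.FunField.PlaceLemmas Fermat.Agent.Deuring
  Fermat.Agent.BadRed

/-- A discrete valuation of the field `FK` with uniformizer `ε` and residue map `r` -/
structure RV {F : Type*} [Field F] (FK : Subfield F) (F₁ : Type*) [Field F₁] where
  /-- the valuation ring -/
  O : Subring F
  /-- the residue map -/
  r : O →+* F₁
  /-- uniformizer -/
  ε : F
  le_FK : ∀ f ∈ O, f ∈ FK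
  ε_mem : ε ∈ O
  ε_ne : ε ≠ 0
  res_ε : r ⟨ε, ε_mem⟩ = 0
  unif : ∀ f ∈ FK, f ≠ 0 → ∃ (n : ℤ) (h : ε ^ (-n) * f ∈ O), r ⟨_, h⟩ ≠ 0
  inv : ∀ (f : F) (h : f ∈ O), r ⟨f, h⟩ ≠ 0 → f⁻¹ ∈ O

namespace RV

variable {F : Type*} [Field F] {FK : Subfield F} {F₁ : Type*} [Field F₁] (V : RV FK F₁)

/-- `f` has valuation `≥ n` -/
def Ge (n : ℤ) (f : F) : Prop := V.ε ^ (-n) * f ∈ V.O

/-- `f` has valuation `≥ n` and the residue of `f / ε ^ n` is `a` (possibly `0`) -/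
def LR (n : ℤ) (f : F) (a : F₁) : Prop := ∃ h : V.ε ^ (-n) * f ∈ V.O, V.r ⟨_, h⟩ = a

variable {V} {n m : ℤ} {f g : F} {a b : F₁}

theorem LR.ge (h : V.LR n f a) : V.Ge n f := h.1

theorem Ge.exists_LR (h : V.Ge n f) : ∃ a, V.LR n f a := ⟨_, h, rfl⟩

theorem ge_iff : V.Ge n f ↔ ∃ a, V.LR n f a := ⟨Ge.exists_LR, fun ⟨_, h⟩ => h.ge⟩

theorem LR.unique (h : V.LR n f a) (h' : V.LR n f b) : a = b := by
  obtain ⟨h1, rfl⟩ := h
  obtain ⟨h2, rfl⟩ := h'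
  rfl

theorem LR.congr (h : V.LR n f a) (hfg : f = g) (hab : a = b) : V.LR n g b := by
  subst hfg hab
  exact h

theorem ε_mem_FK : V.ε ∈ FK := V.le_FK _ V.ε_mem

theorem Ge.mem_FK (h : V.Ge n f) : f ∈ FK := by
  have h1 : V.ε ^ n * (V.ε ^ (-n) * f) = f := by
    rw [← mul_assoc, ← zpow_add₀ V.ε_ne, add_neg_cancel, zpow_zero, one_mul]
  rw [← h1]
  exact FK.mul_mem (zpow_mem V.ε_mem_FK n) (V.le_FK _ h)

theorem LR.mem_FK (h : V.LR n f a) : f ∈ FK := h.ge.mem_FK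

theorem LR.add (h : V.LR n f a) (h' : V.LR n g b) : V.LR n (f + g) (a + b) := by
  obtain ⟨h1, rfl⟩ := h
  obtain ⟨h2, rfl⟩ := h'
  have h3 : V.ε ^ (-n) * (f + g) = V.ε ^ (-n) * f + V.ε ^ (-n) * g := mul_add _ _ _
  have h4 : V.ε ^ (-n) * (f + g) ∈ V.O := by rw [h3]; exact V.O.add_mem h1 h2
  refine ⟨h4, ?_⟩
  rw [← map_add]
  congr 1
  exact Subtype.ext h3

theorem LR.neg (h : V.LR n f a) : V.LR n (-f) (-a) := by
  obtain ⟨h1, rfl⟩ := h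
  have h3 : V.ε ^ (-n) * (-f) = -(V.ε ^ (-n) * f) := by ring
  have h4 : V.ε ^ (-n) * (-f) ∈ V.O := by rw [h3]; exact V.O.neg_mem h1
  refine ⟨h4, ?_⟩
  rw [← map_neg]
  congr 1
  exact Subtype.ext h3

theorem LR.sub (h : V.LR n f a) (h' : V.LR n g b) : V.LR n (f - g) (a - b) := by
  rw [sub_eq_add_neg, sub_eq_add_neg]
  exact h.add h'.neg

theorem LR.mul (h : V.LR n f a) (h' : V.LR m g b) : V.LR (n + m) (f * g) (a * b) := by
  obtain ⟨h1, rfl⟩ := h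
  obtain ⟨h2, rfl⟩ := h'
  have h3 : V.ε ^ (-(n + m)) * (f * g) = (V.ε ^ (-n) * f) * (V.ε ^ (-m) * g) := by
    rw [neg_add, zpow_add₀ V.ε_ne]; ring
  have h4 : V.ε ^ (-(n + m)) * (f * g) ∈ V.O := by rw [h3]; exact V.O.mul_mem h1 h2
  refine ⟨h4, ?_⟩
  rw [← map_mul]
  congr 1
  exact Subtype.ext h3

theorem LR.zero (V : RV FK F₁) (n : ℤ) : V.LR n 0 0 := by
  have h3 : V.ε ^ (-n) * (0 : F) = 0 := mul_zero _
  have h4 : V.ε ^ (-n) * (0 : F) ∈ V.O := by rw [h3]; exact V.O.zero_mem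
  refine ⟨h4, ?_⟩
  rw [← map_zero V.r]
  congr 1
  exact Subtype.ext h3

theorem LR.one (V : RV FK F₁) : V.LR 0 1 1 := by
  have h3 : V.ε ^ (-0 : ℤ) * (1 : F) = 1 := by simp
  have h4 : V.ε ^ (-0 : ℤ) * (1 : F) ∈ V.O := by rw [h3]; exact V.O.one_mem
  refine ⟨h4, ?_⟩
  rw [← map_one V.r]
  congr 1
  exact Subtype.ext h3

theorem LR.eps (V : RV FK F₁) : V.LR 1 V.ε 1 := by
  have h3 : V.ε ^ (-1 : ℤ) * V.ε = 1 := by rw [zpow_neg_one, inv_mul_cancel₀ V.ε_ne]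
  have h4 : V.ε ^ (-1 : ℤ) * V.ε ∈ V.O := by rw [h3]; exact V.O.one_mem
  refine ⟨h4, ?_⟩
  rw [← map_one V.r]
  congr 1
  exact Subtype.ext h3

theorem Ge.add (h : V.Ge n f) (h' : V.Ge n g) : V.Ge n (f + g) := by
  obtain ⟨a, ha⟩ := h.exists_LR
  obtain ⟨b, hb⟩ := h'.exists_LR
  exact (ha.add hb).ge

theorem Ge.neg (h : V.Ge n f) : V.Ge n (-f) := by
  obtain ⟨a, ha⟩ := h.exists_LR
  exact ha.neg.ge

theorem Ge.sub (h : V.Ge n f) (h' : V.Ge n g) : V.Ge n (f - g) := by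
  rw [sub_eq_add_neg]
  exact h.add h'.neg

theorem Ge.mul (h : V.Ge n f) (h' : V.Ge m g) : V.Ge (n + m) (f * g) := by
  obtain ⟨a, ha⟩ := h.exists_LR
  obtain ⟨b, hb⟩ := h'.exists_LR
  exact (ha.mul hb).ge

theorem Ge.zero (V : RV FK F₁) (n : ℤ) : V.Ge n 0 := (LR.zero V n).ge

theorem LR.congr' (h : V.LR n f a) (hnm : n = m) (hfg : f = g) (hab : a = b) : V.LR m g b := by
  subst hnm hfg hab
  exact h

theorem LR.pow (h : V.LR n f a) (k : ℕ) : V.LR (k * n) (f ^ k) (a ^ k) := by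
  induction k with
  | zero =>
    simp only [pow_zero, Nat.cast_zero, zero_mul]
    exact LR.one V
  | succ k ih =>
    refine LR.congr' (LR.mul ih h) ?_ (pow_succ _ _).symm (pow_succ _ _).symm
    push_cast; ring

theorem LR.ne_zero (h : V.LR n f a) (ha : a ≠ 0) : f ≠ 0 := by
  rintro rfl
  exact ha (h.unique (LR.zero V n))

/-- lowering the level -/
theorem LR.lower (h : V.LR n f a) (hmn : m < n) : V.LR m f 0 := by
  obtain ⟨d, hd⟩ : ∃ d : ℕ, n = m + (d + 1 : ℕ) := ⟨(n - m - 1).toNat, by omega⟩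
  obtain ⟨h1, rfl⟩ := h
  have h3 : V.ε ^ (-m) * f = V.ε * (V.ε ^ d * (V.ε ^ (-n) * f)) := by
    have h5 : V.ε ^ (-m) = V.ε * V.ε ^ d * V.ε ^ (-n) := by
      rw [← pow_succ', ← zpow_natCast, ← zpow_add₀ V.ε_ne]
      congr 1
      omega
    rw [h5]; ring
  have h5 : V.ε ^ d * (V.ε ^ (-n) * f) ∈ V.O := V.O.mul_mem (V.O.pow_mem V.ε_mem d) h1
  have h4 : V.ε ^ (-m) * f ∈ V.O := by
    rw [h3]; exact V.O.mul_mem V.ε_mem h5
  refine ⟨h4, ?_⟩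
  have h6 : (⟨_, h4⟩ : V.O) = ⟨V.ε, V.ε_mem⟩ * ⟨_, h5⟩ := Subtype.ext h3
  rw [h6, map_mul, V.res_ε, zero_mul]

theorem Ge.lower (h : V.Ge n f) (hmn : m ≤ n) : V.Ge m f := by
  rcases eq_or_lt_of_le hmn with rfl | h1
  · exact h
  · obtain ⟨a, ha⟩ := h.exists_LR
    exact (ha.lower h1).ge

theorem Ge.lr_zero (h : V.Ge n f) (hmn : m < n) : V.LR m f 0 := by
  obtain ⟨a, ha⟩ := h.exists_LR
  exact ha.lower hmn

/-- every nonzero element has a leading term -/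
theorem exists_LR (V : RV FK F₁) (hf : f ∈ FK) (hf0 : f ≠ 0) : ∃ (n : ℤ) (a : F₁), a ≠ 0 ∧ V.LR n f a := by
  obtain ⟨n, h, hr⟩ := V.unif f hf hf0
  exact ⟨n, _, hr, h, rfl⟩

theorem LR.inv (h : V.LR n f a) (ha : a ≠ 0) : V.LR (-n) f⁻¹ a⁻¹ := by
  obtain ⟨h1, rfl⟩ := h
  have h2 := V.inv _ h1 ha
  have h3 : V.ε ^ (-(-n)) * f⁻¹ = (V.ε ^ (-n) * f)⁻¹ := by
    rw [mul_inv, ← zpow_neg]
  have h4 : V.ε ^ (-(-n)) * f⁻¹ ∈ V.O := by rw [h3]; exact h2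
  refine ⟨h4, ?_⟩
  have h5 : (⟨_, h4⟩ : V.O) = ⟨_, h2⟩ := Subtype.ext h3
  rw [h5]
  apply eq_inv_of_mul_eq_one_left
  rw [← map_mul, ← map_one V.r]
  congr 1
  apply Subtype.ext
  show (V.ε ^ (-n) * f)⁻¹ * (V.ε ^ (-n) * f) = 1
  apply inv_mul_cancel₀
  intro h0
  apply ha
  have : (⟨_, h1⟩ : V.O) = 0 := Subtype.ext h0
  rw [this, map_zero]

theorem LR.div (h : V.LR n f a) (h' : V.LR m g b) (hb : b ≠ 0) :
    V.LR (n - m) (f / g) (a / b) := by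
  rw [div_eq_mul_inv, div_eq_mul_inv, sub_eq_add_neg]
  exact h.mul (h'.inv hb)

theorem LR.zpow (h : V.LR n f a) (ha : a ≠ 0) (k : ℤ) : V.LR (k * n) (f ^ k) (a ^ k) := by
  obtain ⟨d, rfl | rfl⟩ := k.eq_nat_or_neg
  · rw [zpow_natCast, zpow_natCast]
    exact h.pow d
  · rw [zpow_neg, zpow_neg, zpow_natCast, zpow_natCast, neg_mul]
    exact (h.pow d).inv (pow_ne_zero _ ha)

/-- the valuation and the leading term are unique -/
theorem LR.unique' (h : V.LR n f a) (ha : a ≠ 0) (h' : V.LR m f b) (hb : b ≠ 0) :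
    n = m ∧ a = b := by
  rcases lt_trichotomy n m with h1 | h1 | h1
  · exact absurd (h.unique (h'.lower h1)) ha
  · subst h1
    exact ⟨rfl, h.unique h'⟩
  · exact absurd (h'.unique (h.lower h1)) hb

theorem LR.le_of_ge (h : V.LR n f a) (ha : a ≠ 0) (h' : V.Ge m f) : m ≤ n := by
  by_contra hlt
  push Not at hlt
  exact ha (h.unique (h'.lr_zero hlt))

/-- vanishing residue raises the level -/
theorem LR.raise (h : V.LR n f 0) : V.Ge (n + 1) f := by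
  rcases eq_or_ne f 0 with rfl | hf
  · exact Ge.zero V _
  obtain ⟨m, a, ha, hm⟩ := V.exists_LR h.mem_FK hf
  have h1 : n ≤ m := hm.le_of_ge ha h.ge
  rcases eq_or_lt_of_le h1 with rfl | h2
  · exact absurd (hm.unique h) ha
  · exact hm.ge.lower h2

theorem LR.zpow_eps (V : RV FK F₁) (k : ℤ) : V.LR k (V.ε ^ k) 1 := by
  have := (LR.eps V).zpow one_ne_zero k
  rwa [mul_one, one_zpow] at this

theorem LR.sum {ι : Type*} (s : Finset ι) {f : ι → F} {a : ι → F₁}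
    (h : ∀ i ∈ s, V.LR n (f i) (a i)) : V.LR n (∑ i ∈ s, f i) (∑ i ∈ s, a i) := by
  classical
  induction s using Finset.induction_on with
  | empty => simpa using LR.zero V n
  | insert i s hi ih =>
    rw [Finset.sum_insert hi, Finset.sum_insert hi]
    exact (h i (Finset.mem_insert_self i s)).add
      (ih fun j hj => h j (Finset.mem_insert_of_mem hj))

theorem Ge.sum {ι : Type*} (s : Finset ι) {f : ι → F}
    (h : ∀ i ∈ s, V.Ge n (f i)) : V.Ge n (∑ i ∈ s, f i) := by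
  classical
  induction s using Finset.induction_on with
  | empty => simpa using Ge.zero V n
  | insert i s hi ih =>
    rw [Finset.sum_insert hi]
    exact (h i (Finset.mem_insert_self i s)).add
      (ih fun j hj => h j (Finset.mem_insert_of_mem hj))

end RV

variable (L k F F₁ : Type*) [Field L] [Field k] [Field F] [Field F₁] [Algebra L F] [Algebra k F₁]

/-- **The valuation data**: three discrete valuations of the field of `Γ`-rational functions -/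
structure Sys where
  A : ValuationSubring L
  π : A →+* k
  Γ : Set (SemilinearAut L F)
  π_surj : Function.Surjective π
  π_ker : ∀ a : A, π a = 0 ↔ ¬ IsUnit a
  /-- uniformizer of the constants -/
  ϖ : L
  ϖ_mem : ϖ ∈ A
  ϖ_ne : ϖ ≠ 0
  ϖ_res : π ⟨ϖ, ϖ_mem⟩ = 0
  ϖ_fix : ϖ ∈ fixL Γ
  unif : ∀ c ∈ fixL Γ, c ≠ 0 → ∃ (n : ℤ) (u : A), π u ≠ 0 ∧ c = ϖ ^ n * u
  lift : ∀ x : k, ∃ a : A, (a : L) ∈ fixL Γ ∧ π a = x
  arch : ∀ a : L, a ≠ 0 → ∃ m : ℕ, a * (ϖ ^ m)⁻¹ ∉ A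
  /-- the three valuations -/
  V : Fin 3 → RV (fixF Γ) F₁
  /-- ramification -/
  e : Fin 3 → ℕ
  e_pos : ∀ i, 0 < e i
  cst : ∀ (i : Fin 3) (a : A), (a : L) ∈ fixL Γ →
    (V i).LR 0 (algebraMap L F (a : L)) (algebraMap k F₁ (π a))
  /-- residue of `ϖ / ε ^ e` -/
  η : Fin 3 → F₁
  η_ne : ∀ i, η i ≠ 0
  LR_ϖ : ∀ i, (V i).LR (e i) (algebraMap L F ϖ) (η i)
  surj : ∀ (n : Fin 3 → ℤ) (a : Fin 3 → F₁), ∃ f : F, ∀ i, (V i).LR (n i) f (a i)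
  bdd : ∀ (W : Submodule L F), FiniteDimensional L W → ∀ l : F →ₗ[L] L,
    ∃ c : L, c ≠ 0 ∧ ∀ f ∈ W, (V 0).Ge 0 f → c * l f ∈ A
  rat : ∀ (W : Submodule L F), FiniteDimensional L W → (∀ g ∈ Γ, ∀ f ∈ W, g • f ∈ W) →
    W ≤ Submodule.span L ((W : Set F) ∩ (fixF Γ : Set F))

variable {L k F F₁}

namespace Sys

variable (S : Sys L k F F₁)

/-- the rational functions -/
abbrev FK : Subfield F := fixF S.Γ

/-- `f` has valuation `≥ s j` on component `j`, for all `j` -/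
def Ge (s : Fin 3 → ℤ) (f : F) : Prop := ∀ j, (S.V j).Ge (s j) f

variable {S} {s s' : Fin 3 → ℤ} {f g : F} {a b : F₁}

theorem Ge.mem_FK (h : S.Ge s f) : f ∈ S.FK := (h 0).mem_FK

theorem Ge.add (h : S.Ge s f) (h' : S.Ge s g) : S.Ge s (f + g) := fun j => (h j).add (h' j)

theorem Ge.neg (h : S.Ge s f) : S.Ge s (-f) := fun j => (h j).neg

theorem Ge.sub (h : S.Ge s f) (h' : S.Ge s g) : S.Ge s (f - g) := fun j => (h j).sub (h' j)

theorem Ge.mul (h : S.Ge s f) (h' : S.Ge s' g) : S.Ge (s + s') (f * g) :=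
  fun j => (h j).mul (h' j)

theorem Ge.zero (S : Sys L k F F₁) (s : Fin 3 → ℤ) : S.Ge s 0 := fun _ => RV.Ge.zero _ _

theorem Ge.lower (h : S.Ge s f) (hs : s' ≤ s) : S.Ge s' f := fun j => (h j).lower (hs j)

theorem Ge.sum {ι : Type*} (t : Finset ι) {f : ι → F}
    (h : ∀ i ∈ t, S.Ge s (f i)) : S.Ge s (∑ i ∈ t, f i) :=
  fun j => RV.Ge.sum t fun i hi => h i hi j

theorem Ge.pow (h : S.Ge 0 f) (n : ℕ) : S.Ge 0 (f ^ n) := by
  intro j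
  obtain ⟨a, ha⟩ := (h j).exists_LR
  have h1 := (ha.pow n).ge
  simpa using h1

variable (S)

/-- the constants of `K ∩ A` -/
theorem cst_smul {i : Fin 3} {n : ℤ} {f : F} {x : F₁} (h : (S.V i).LR n f x) {a : S.A}
    (ha : (a : L) ∈ fixL S.Γ) : (S.V i).LR n ((a : L) • f) (S.π a • x) := by
  have h1 := (S.cst i a ha).mul h
  rw [zero_add] at h1
  rw [Algebra.smul_def, Algebra.smul_def]
  exact h1

theorem cst_smul_ge {i : Fin 3} {n : ℤ} {f : F} (h : (S.V i).Ge n f) {a : S.A}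
    (ha : (a : L) ∈ fixL S.Γ) : (S.V i).Ge n ((a : L) • f) := by
  obtain ⟨x, hx⟩ := h.exists_LR
  exact (S.cst_smul hx ha).ge

theorem ϖ_smul {i : Fin 3} {n : ℤ} {f : F} {x : F₁} (h : (S.V i).LR n f x) (m : ℤ) :
    (S.V i).LR (n + m * S.e i) (S.ϖ ^ m • f) (x * S.η i ^ m) := by
  have h1 := h.mul ((S.LR_ϖ i).zpow (S.η_ne i) m)
  refine h1.congr' rfl ?_ rfl
  rw [Algebra.smul_def, map_zpow₀, mul_comm]

theorem ϖ_smul_ge {i : Fin 3} {n : ℤ} {f : F} (h : (S.V i).Ge n f) (m : ℤ) :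
    (S.V i).Ge (n + m * S.e i) (S.ϖ ^ m • f) := by
  obtain ⟨x, hx⟩ := h.exists_LR
  exact (S.ϖ_smul hx m).ge

/-- residues at `i` of the elements of `W` of valuation `≥ s` -/
def P (W : Submodule L F) (s : Fin 3 → ℤ) (i : Fin 3) : Submodule k F₁ where
  carrier := {a | ∃ f ∈ W, S.Ge s f ∧ (S.V i).LR (s i) f a}
  zero_mem' := ⟨0, W.zero_mem, Ge.zero S s, RV.LR.zero _ _⟩
  add_mem' := by
    rintro a b ⟨f, hf, h1, h2⟩ ⟨g, hg, h3, h4⟩
    exact ⟨f + g, W.add_mem hf hg, h1.add h3, h2.add h4⟩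
  smul_mem' := by
    rintro c a ⟨f, hf, h1, h2⟩
    obtain ⟨x, hx, rfl⟩ := S.lift c
    exact ⟨(x : L) • f, W.smul_mem _ hf, fun j => S.cst_smul_ge (h1 j) hx, S.cst_smul h2 hx⟩

theorem mem_P {W : Submodule L F} {s : Fin 3 → ℤ} {i : Fin 3} {a : F₁} :
    a ∈ S.P W s i ↔ ∃ f ∈ W, S.Ge s f ∧ (S.V i).LR (s i) f a := Iff.rfl

theorem P_mono {W W' : Submodule L F} (h : W ≤ W') (s : Fin 3 → ℤ) (i : Fin 3) :
    S.P W s i ≤ S.P W' s i := fun _ ⟨f, hf, h1, h2⟩ => ⟨f, h hf, h1, h2⟩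

/-- triples of residues of the integral elements of `W` -/
def Res (W : Submodule L F) : Submodule k (Fin 3 → F₁) where
  carrier := {a | ∃ f ∈ W, ∀ i, (S.V i).LR 0 f (a i)}
  zero_mem' := ⟨0, W.zero_mem, fun i => RV.LR.zero _ _⟩
  add_mem' := by
    rintro a b ⟨f, hf, h1⟩ ⟨g, hg, h3⟩
    exact ⟨f + g, W.add_mem hf hg, fun i => (h1 i).add (h3 i)⟩
  smul_mem' := by
    rintro c a ⟨f, hf, h1⟩
    obtain ⟨x, hx, rfl⟩ := S.lift c
    exact ⟨(x : L) • f, W.smul_mem _ hf, fun j => S.cst_smul (h1 j) hx⟩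

theorem mem_Res {W : Submodule L F} {a : Fin 3 → F₁} :
    a ∈ S.Res W ↔ ∃ f ∈ W, ∀ i, (S.V i).LR 0 f (a i) := Iff.rfl

end Sys

/-- a chain of levels `0 = σ 0 < σ 1 < ... < σ T = e`, raising one coordinate at each step -/
structure Path (e : Fin 3 → ℕ) where
  T : ℕ
  σ : ℕ → Fin 3 → ℤ
  i : ℕ → Fin 3
  zero : σ 0 = 0
  succ : ∀ t, t < T → σ (t + 1) = σ t + Pi.single (i t) 1
  last : ∀ j, σ T j = e j

/-- normalised torsion data: `n D = div f` where `f` has residue `1` on all components -/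
structure NTors (S : Sys L k F F₁) (n : ℕ) where
  D : Divisor L F
  D_mem : D ∈ fixD S.Γ
  f : F
  f_mem : f ∈ S.FK
  hD : ∀ v : Place L F, (n : ℤ) * D v = v.ord f
  LR_f : ∀ i, (S.V i).LR 0 f 1

/-- **The pencil.** -/
structure Pen (S : Sys L k F F₁) where
  t : F
  t_mem : t ∈ S.FK
  tb : Fin 3 → F₁
  LR_t : ∀ i, (S.V i).LR 0 t (tb i)
  tb_ne : ∀ i, tb i ≠ 0
  E : Divisor L F
  hE : ∀ v, E v = max 0 (-(v.ord t))
  Eb : Fin 3 → Divisor k F₁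
  hEb : ∀ i v, Eb i v = max 0 (-(v.ord (tb i)))
  supp : ∀ i j v, Eb i v = 0 → Eb j v = 0
  deg_eq : Divisor.degree E = ∑ i, (S.e i : ℤ) * Divisor.degree (Eb i)
  deg_pos : ∀ i, 0 < Divisor.degree (Eb i)

/-- `U j` has divisor supported at the poles of `t`; it has valuation `12 e j` on component `j` and
`0` on the others.  `o` is the divisor of zeros of the Hasse unit away from the cusps. -/
structure Units {S : Sys L k F F₁} (p : Pen S) (q : ℕ) where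
  two_le : 2 ≤ q
  e_eq : S.e = ![1, q - 1, 1]
  η0 : S.η 0 = 1
  η2 : S.η 2 = 1
  U : Fin 3 → F
  c : ℕ
  U_mem : ∀ i, U i ∈ riemannRochSpace (c • p.E)
  U_inv_mem : ∀ i, (U i)⁻¹ ∈ riemannRochSpace (c • p.E)
  rU : Fin 3 → Fin 3 → F₁
  rU_ne : ∀ i j, rU i j ≠ 0
  LR_U : ∀ i j, (S.V j).LR (if i = j then 12 * (S.e i : ℤ) else 0) (U i) (rU i j)
  o : Divisor k F₁
  o_nonneg : 0 ≤ o
  o_cusp : ∀ v, p.Eb 0 v ≠ 0 → o v = 0
  ord_off : ∀ i j v, p.Eb 0 v = 0 → i ≠ j → v.ord (rU i j) = (S.e i : ℤ) * o v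
  ord_0 : ∀ v, p.Eb 0 v = 0 → v.ord (rU 0 0) = -(q * o v)
  ord_1 : ∀ v, p.Eb 0 v = 0 → v.ord (rU 1 1) = -(2 * o v) + 12 * v.ord (S.η 1)
  ord_2 : ∀ v, p.Eb 0 v = 0 → v.ord (rU 2 2) = -(q * o v)

/-- Frobenius on `F₁` and the functions of level `N` -/
structure Frob {S : Sys L k F F₁} (p : Pen S) (q : ℕ) where
  /-- the `k`-linear Frobenius -/
  Fr : F₁ →ₐ[k] F₁
  /-- the coefficientwise Frobenius -/
  φ : F₁ ≃+* F₁
  hFr : ∀ a, Fr (φ a) = a ^ q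
  hφ : ∀ (m : ℕ) (a : F₁), φ a ∈ riemannRochSpace (m • p.Eb 0) ↔ a ∈ riemannRochSpace (m • p.Eb 0)
  /-- `α α x` -/
  lvl : ∀ (m : ℕ) (x : F₁), x ∈ riemannRochSpace (m • p.Eb 0) → ∃ (m' : ℕ) (f : F),
    f ∈ riemannRochSpace (m' • p.E) ∧ (S.V 0).LR 0 f x ∧ (S.V 1).LR 0 f x ∧
      (S.V 2).LR 0 f (Fr (Fr x))
  /-- `β β x` -/
  lvl' : ∀ (m : ℕ) (x : F₁), x ∈ riemannRochSpace (m • p.Eb 0) → ∃ (m' : ℕ) (f : F),
    f ∈ riemannRochSpace (m' • p.E) ∧ (S.V 0).LR 0 f (Fr (Fr x)) ∧ (S.V 1).LR 0 f x ∧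
      (S.V 2).LR 0 f x

/-- The push-forwards to level `N q`.  `W 0`, `W 1` are the two valuations of the field of rational
functions of level `N q`; `Nm 0`, `Nm 1` are the norms along the two degeneracy maps. -/
structure Push {S : Sys L k F F₁} {p : Pen S} {q : ℕ} (U : Units p q) (Fb : Frob p q)
    (Fq : Type*) [Field Fq] [Algebra L Fq] where
  Γq : Set (SemilinearAut L Fq)
  W : Fin 2 → RV (fixF Γq) F₁
  /-- constants -/
  cstW : ∀ (i : Fin 2) (a : S.A), (a : L) ∈ fixL S.Γ →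
    (W i).LR 0 (algebraMap L Fq (a : L)) (algebraMap k F₁ (S.π a))
  ϖW : ∀ i, (W i).LR 1 (algebraMap L Fq S.ϖ) 1
  fixLq : ∀ a : L, a ∈ fixL Γq → a ∈ fixL S.Γ
  /-- norms -/
  Nm : Fin 2 → F →* Fq
  Nm_ne : ∀ i f, f ≠ 0 → Nm i f ≠ 0
  /-- push-forward of divisors -/
  pD : Fin 2 → Divisor L F →+ Divisor L Fq
  pD_mono : ∀ i D D', D ≤ D' → pD i D ≤ pD i D'
  pD_fix : ∀ i D, D ∈ fixD S.Γ → pD i D ∈ fixD Γq
  ord_Nm : ∀ i f, f ≠ 0 → ∀ D : Divisor L F, (∀ v, D v = v.ord f) → ∀ v, pD i D v = v.ord (Nm i f)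
  /-- rational principal divisors are divisors of rational functions -/
  rat : ∀ D ∈ fixD Γq, (∃ f : Fq, f ≠ 0 ∧ ∀ v, D v = v.ord f) →
    ∃ f : Fq, f ≠ 0 ∧ f ∈ fixF Γq ∧ ∀ v, D v = v.ord f
  /-- valuations of norms -/
  val : ∀ (f : F) (n : Fin 3 → ℤ) (a : Fin 3 → F₁), (∀ i, a i ≠ 0) → (∀ i, (S.V i).LR (n i) f (a i)) →
    (∃ b, b ≠ 0 ∧ (W 0).LR (n 0 + n 1) (Nm 0 f) b) ∧ (∃ b, b ≠ 0 ∧ (W 1).LR (q * n 2) (Nm 0 f) b) ∧
    (∃ b, b ≠ 0 ∧ (W 0).LR (q * n 0) (Nm 1 f) b) ∧ (∃ b, b ≠ 0 ∧ (W 1).LR (n 2 + n 1) (Nm 1 f) b)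
  /-- residues of norms -/
  res : ∀ (f : F) (a : Fin 3 → F₁), (∀ i, a i ≠ 0) → (∀ i, (S.V i).LR 0 f (a i)) →
    (W 0).LR 0 (Nm 0 f) (a 0 * a 1 ^ (q - 1)) ∧ (W 1).LR 0 (Nm 0 f) (Fb.φ (a 2)) ∧
    (W 0).LR 0 (Nm 1 f) (Fb.φ (a 0)) ∧ (W 1).LR 0 (Nm 1 f) (a 2 * a 1 ^ (q - 1))
  /-- gluing at level `N q`: for functions `f` of level `N q` which are integral on both components
  and regular outside the cusps -/
  glue : ∀ (i : Fin 2) (m : ℕ) (f : Fq) (a b : F₁), f ∈ riemannRochSpace (pD i (m • p.E)) →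
    (W 0).LR 0 f a → (W 1).LR 0 f b → ∀ z : Place k F₁, 0 < U.o z →
      0 ≤ z.ord a ∧ 0 ≤ z.ord b ∧ (b = Fb.Fr a ∨ 0 < z.ord (b - Fb.Fr a))

end Fermat.Agent.Car
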