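import Fermat.Agent.Degen.HeckeEq

/-!
# The function field of level `N r²` and its two degeneracy maps
-/

set_option autoImplicit false
set_option linter.unusedSectionVars false

noncomputable section

open HahnSeries ModularCurve Module AlgebraicCurve IntermediateField

namespace Fermat.Agent.Car

open Fermat.Agent.Degen

/-- inclusion of subfields of the field of Laurent series -/
def incE {L : Type*} [Field L] {E E' : IntermediateField L (LaurentSeries L)} (h : E ≤ E') :
    E →ₐ[L] E' where
  toFun x := ⟨(x : LaurentSeries L), h x.2⟩
  map_one' := Subtype.ext rfl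
  map_mul' _ _ := Subtype.ext rfl
  map_zero' := Subtype.ext rfl
  map_add' _ _ := Subtype.ext rfl
  commutes' _ := Subtype.ext rfl

theorem coe_incE {L : Type*} [Field L] {E E' : IntermediateField L (LaurentSeries L)} (h : E ≤ E')
    (x : E) : (incE h x : LaurentSeries L) = x := rfl

variable (L : Type*) [Field L] (N r : ℕ) [hr : Fact r.Prime] [hN : NeZero N]

instance neZero_prime : NeZero r := ⟨hr.out.ne_zero⟩

instance neZero_mul_prime : NeZero (N * r) := ⟨mul_ne_zero hN.out hr.out.ne_zero⟩

/-- the first degeneracy map: inclusion -/
def al : modularFunctionFieldFullC L (N * r) →ₐ[L] modularFunctionFieldFullC L (N * r * r) :=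
  incE (full_degeneracyC_le L (Dvd.intro r rfl))

/-- the second degeneracy map: `f ↦ f(q^r)` -/
def be : modularFunctionFieldFullC L (N * r) →ₐ[L] modularFunctionFieldFullC L (N * r * r) :=
  dg r (fun _ hx => qExpand_mem_full dvd_rfl hx)

theorem coe_al (x : modularFunctionFieldFullC L (N * r)) :
    (al L N r x : LaurentSeries L) = x := coe_incE _ _

theorem coe_be (x : modularFunctionFieldFullC L (N * r)) :
    (be L N r x : LaurentSeries L) = qExpand L r (x : LaurentSeries L) := coe_dg _ _ _

end Fermat.Agent.Car
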