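import Fermat.Agent.Car.W2
import Fermat.Agent.Car.Fld
import Fermat.Agent.BadRed.NormConc
import Fermat.Agent.BadRed.Conc5
import Fermat.Agent.HeckeRed.Degen

/-!
# Project CAR, block C6: embeddings of the function field of `X₀(N q²)`

`al`, `be : F_{Nq} → F_{Nqq}`, the involution `WW`, the embeddings `psi2 v` (`v` a primitive
`q`-th root of unity), the norm formula.
-/

set_option autoImplicit false
set_option linter.unusedSectionVars false

noncomputable section

open ModularCurve Fermat.Agent.ModPoly Polynomial IntermediateField HahnSeries AlgebraicCurve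

namespace Fermat.Agent.Car

open Fermat.Agent.ModDeg Fermat.Agent.AtkinLehner Fermat.Agent.BadRed Fermat.Agent.HeckeRed

variable (L : Type*) [Field L] (N q : ℕ) [hq : Fact q.Prime] [hN : NeZero N]

variable {L N q}

/-- Homomorphisms of `F_{Nqq}` are determined on `α F_{Nq}` and `β F_{Nq}`. -/
theorem ringHom_ext_ab {M : Type*} [Field M]
    (f g : modularFunctionFieldFullC L (N * q * q) →+* M)
    (h1 : ∀ x, f (al L N q x) = g (al L N q x)) (h2 : ∀ x, f (be L N q x) = g (be L N q x)) :
    f = g := by
  have hq0 := hq.out.ne_zero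
  refine ringHom_ext f g (fun c => ?_) (fun d hd hd0 => ?_)
  · have := h1 (algebraMap L _ c)
    rwa [AlgHom.commutes] at this
  · rcases dvd_mul_prime_sq_cases hq.out hd with hd1 | ⟨e, he, rfl⟩ | ⟨e, he, rfl⟩
    · have e1 : (⟨vj L d, vj_mem_full L hd0 hd⟩ : modularFunctionFieldFullC L (N * q * q)) =
          al L N q ⟨vj L d, vj_mem_full L hd0 (hd1.mul_right q)⟩ := by
        apply Subtype.ext
        rw [coe_al]
      rw [e1]
      exact h1 _
    · have e1 : (⟨vj L (e * q), vj_mem_full L hd0 hd⟩ :
          modularFunctionFieldFullC L (N * q * q)) =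
          al L N q ⟨vj L (e * q), vj_mem_full L hd0 (Nat.mul_dvd_mul_right he q)⟩ :=
        by apply Subtype.ext; rw [coe_al]
      rw [e1]
      exact h1 _
    · have he0 : e ≠ 0 := left_ne_zero_of_mul hd0
      have e1 : (⟨vj L (e * (q * q)), vj_mem_full L hd0 hd⟩ :
          modularFunctionFieldFullC L (N * q * q)) =
          be L N q ⟨vj L (e * q), vj_mem_full L (mul_ne_zero he0 hq0)
            (Nat.mul_dvd_mul_right he q)⟩ := by
        apply Subtype.ext
        rw [coe_be]
        show vj L (e * (q * q)) = qExpand L q (vj L (e * q))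
        rw [qExpand_vj L q _ (mul_ne_zero he0 hq0), mul_assoc]
      rw [e1]
      exact h2 _

theorem algHom_ext_ab {M : Type*} [Field M] [Algebra L M]
    (f g : modularFunctionFieldFullC L (N * q * q) →ₐ[L] M)
    (h1 : ∀ x, f (al L N q x) = g (al L N q x)) (h2 : ∀ x, f (be L N q x) = g (be L N q x)) :
    f = g := by
  have h := ringHom_ext_ab (f : modularFunctionFieldFullC L (N * q * q) →+* M) g h1 h2
  exact AlgHom.ext fun x => DFunLike.congr_fun h x

variable [IsAlgClosed L] [CharZero L]

section Defs

variable (L N q) (hqN : ¬ q ∣ N)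

/-- **The involution `w_{q²}`.** -/
def WW : modularFunctionFieldFullC L (N * q * q) ≃ₐ[L] modularFunctionFieldFullC L (N * q * q) :=
  w₂ (cast_ne_zero_L L N) (cast_ne_zero_Lr L q) hqN

theorem WW_WW (f : modularFunctionFieldFullC L (N * q * q)) :
    WW L N q hqN (WW L N q hqN f) = f := w₂_w₂ _ _ _ f

theorem WW_symm : (WW L N q hqN).symm = WW L N q hqN := w₂_symm _ _ _

theorem WW_al (x : modularFunctionFieldFullC L (N * q)) :
    WW L N q hqN (al L N q x) = be L N q (ww L N q hqN x) := by
  apply Subtype.ext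
  rw [coe_be]
  have e : al L N q x = ⟨(x : LaurentSeries L), by rw [← coe_al L N q x]; exact (al L N q x).2⟩ :=
    Subtype.ext (coe_al L N q x)
  rw [e]
  exact w₂_apply_of_mem _ _ _ x.2 _

theorem WW_be (x : modularFunctionFieldFullC L (N * q)) :
    WW L N q hqN (be L N q x) = al L N q (ww L N q hqN x) := by
  have h := WW_al L N q hqN (ww L N q hqN x)
  rw [ww_ww] at h
  rw [← h, WW_WW]

variable {q}

/-- **The embedding `ψ₂`** at the middle cusp, `v` a primitive `q`-th root of unity. -/
def psi2 (v : Lˣ) (hv : IsPrimitiveRoot v q) :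
    modularFunctionFieldFullC L (N * q * q) →ₐ[L] LaurentSeries L :=
  psi (cast_ne_zero_L L N) (cast_ne_zero_Lr L q) hqN hv.pow_eq_one (hv.ne_one hq.out.one_lt)

variable {L N} {v : Lˣ} (hv : IsPrimitiveRoot v q)

theorem psi2_al (x : modularFunctionFieldFullC L (N * q)) :
    psi2 L N hqN v hv (al L N q x) = x := by
  have e : al L N q x = ⟨(x : LaurentSeries L), by rw [← coe_al L N q x]; exact (al L N q x).2⟩ :=
    Subtype.ext (coe_al L N q x)
  rw [e]
  exact psi_apply_of_mem _ _ _ _ _ x.2 _

theorem psi2_be (x : modularFunctionFieldFullC L (N * q)) :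
    psi2 L N hqN v hv (be L N q x) = twist v (ww L N q hqN x : LaurentSeries L) := by
  have hq0 := hq.out.ne_zero
  have h : ((psi2 L N hqN v hv).toRingHom.comp (be L N q).toRingHom : _ →+* LaurentSeries L) =
      (twist v).comp (((modularFunctionFieldFullC L (N * q)).val : _ →+* LaurentSeries L).comp
        (ww L N q hqN).toAlgHom.toRingHom) := by
    refine ringHom_ext _ _ (fun c => ?_) (fun d hd hd0 => ?_)
    · show psi2 L N hqN v hv (be L N q (algebraMap L _ c)) =
        twist v ((ww L N q hqN (algebraMap L _ c) : modularFunctionFieldFullC L (N * q)) :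
          LaurentSeries L)
      rw [AlgHom.commutes, AlgHom.commutes, AlgEquiv.commutes]
      exact (twist_algebraMap v c).symm
    · show psi2 L N hqN v hv (be L N q ⟨vj L d, _⟩) =
        twist v ((ww L N q hqN ⟨vj L d, _⟩ : modularFunctionFieldFullC L (N * q)) :
          LaurentSeries L)
      rcases dvd_mul_prime_cases hq.out hd with hd1 | ⟨e, he, rfl⟩
      · have e1 : be L N q ⟨vj L d, vj_mem_full L hd0 hd⟩ =
            al L N q ⟨vj L (d * q), vj_mem_full L (mul_ne_zero hd0 hq0)
              (Nat.mul_dvd_mul_right hd1 q)⟩ := by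
          apply Subtype.ext
          rw [coe_be, coe_al]
          exact qExpand_vj L q d hd0
        have e2 : (ww L N q hqN ⟨vj L d, vj_mem_full L hd0 hd⟩ : LaurentSeries L) =
            vj L (d * q) := w_vj _ _ _ hd1 _
        have e3 : twist v (vj L (d * q)) = vj L (d * q) := by
          rw [← qExpand_vj L q d hd0, twist_qExpand_of_pow_eq_one v q hv.pow_eq_one]
        rw [e1, psi2_al, e2, e3]
      · have he0 : e ≠ 0 := left_ne_zero_of_mul hd0
        have e1 : be L N q ⟨vj L (e * q), vj_mem_full L hd0 hd⟩ =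
            ⟨vj L (e * (q * q)), vj_mem_full L (mul_ne_zero he0 (mul_ne_zero hq0 hq0))
              (by rw [mul_assoc]; exact Nat.mul_dvd_mul_right he _)⟩ := by
          apply Subtype.ext
          rw [coe_be]
          show qExpand L q (vj L (e * q)) = vj L (e * (q * q))
          rw [qExpand_vj L q _ hd0, mul_assoc]
        have e2 : (ww L N q hqN ⟨vj L (e * q), vj_mem_full L hd0 hd⟩ : LaurentSeries L) =
            vj L e := w_vj_mul _ _ _ he _
        rw [e1, e2]
        exact psi_vj _ _ _ _ _ he _
  exact DFunLike.congr_fun h x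

/-- `ψ₂^{(v)}(W f) = twist v (ψ₂^{(v⁻¹)} f)` -/
theorem psi2_WW (f : modularFunctionFieldFullC L (N * q * q)) :
    psi2 L N hqN v hv (WW L N q hqN f) = twist v (psi2 L N hqN v⁻¹ hv.inv f) := by
  have h : ((psi2 L N hqN v hv).toRingHom.comp (WW L N q hqN).toAlgHom.toRingHom :
      _ →+* LaurentSeries L) = (twist v).comp (psi2 L N hqN v⁻¹ hv.inv).toRingHom := by
    refine ringHom_ext_ab _ _ (fun x => ?_) (fun x => ?_)
    · show psi2 L N hqN v hv (WW L N q hqN (al L N q x)) =
        twist v (psi2 L N hqN v⁻¹ hv.inv (al L N q x))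
      rw [WW_al, psi2_be, ww_ww, psi2_al]
    · show psi2 L N hqN v hv (WW L N q hqN (be L N q x)) =
        twist v (psi2 L N hqN v⁻¹ hv.inv (be L N q x))
      rw [WW_be, psi2_al, psi2_be, twist_twist, mul_inv_cancel, twist_one]
  exact DFunLike.congr_fun h f

end Defs

end Fermat.Agent.Car
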