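import Fermat.Agent.AtkinLehner.Norm

/-!
# The norm from `F_{N r²}` to `F_{N r}` in terms of expansions
-/

set_option autoImplicit false
set_option linter.unusedSectionVars false
set_option linter.style.haveILetI false

noncomputable section

open ModularCurve AlgebraicCurve Fermat.Agent.ModPoly Polynomial IntermediateField

namespace Fermat.Agent.Car

open Fermat.Agent.ModDeg Fermat.Agent.HeckeRed Fermat.Agent.AtkinLehner

variable {K : Type*} [Field K] [IsAlgClosed K] {N r : ℕ} [hN : NeZero N] [hr : Fact r.Prime]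

section Incl

variable (K N r) in
/-- `F_{Nr} ⊆ F_{Nr²}`. -/
theorem full_le_sq :
    modularFunctionFieldFullC K (N * r) ≤ modularFunctionFieldFullC K (N * r * r) :=
  haveI : NeZero (N * r) := ⟨mul_ne_zero (NeZero.ne N) hr.out.ne_zero⟩
  full_le_mul (K := K) (N := N * r) (p := r)

/-- the inclusion of intermediate fields -/
def inclI {E E' : IntermediateField K (LaurentSeries K)} (h : E ≤ E') : E →ₐ[K] E' where
  toFun x := ⟨x, h x.2⟩
  map_one' := Subtype.ext rfl
  map_mul' _ _ := Subtype.ext rfl
  map_zero' := Subtype.ext rfl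
  map_add' _ _ := Subtype.ext rfl
  commutes' _ := Subtype.ext rfl

theorem coe_inclI {E E' : IntermediateField K (LaurentSeries K)} (h : E ≤ E') (x : E) :
    ((inclI h x : E') : LaurentSeries K) = x := rfl

variable (K N r) in
/-- the inclusion `F_{Nr} → F_{Nr²}` -/
def inclSq : modularFunctionFieldFullC K (N * r) →ₐ[K]
    modularFunctionFieldFullC K (N * r * r) := inclI (full_le_sq K N r)

theorem coe_inclSq (x : modularFunctionFieldFullC K (N * r)) :
    ((inclSq K N r x : modularFunctionFieldFullC K (N * r * r)) : LaurentSeries K) = x :=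
  coe_inclI _ x

theorem finrank_inclSq (hNrr : ((N * r * r : ℕ) : K) ≠ 0) :
    finrankAlong K (inclSq K N r) = r := by
  haveI : NeZero (N * r) := ⟨mul_ne_zero (NeZero.ne N) hr.out.ne_zero⟩
  have h1 := finrankAlong_alpha (K := K) (N := N * r) (p := r) rfl rfl (inclSq K N r)
    coe_inclSq hNrr
  rw [psi_mul_prime_of_dvd (NeZero.ne _) hr.out (Dvd.intro_left N rfl)] at h1
  have h2 : 0 < dedekindPsi (N * r) := HeckeRed.dedekindPsi_pos (N * r)
  exact Nat.eq_of_mul_eq_mul_right h2 (by rw [h1])

variable (K N r) in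
/-- the norm from `F_{Nr²}` to `F_{Nr}` -/
def nrm : modularFunctionFieldFullC K (N * r * r) →* modularFunctionFieldFullC K (N * r) :=
  letI := algebraAlong (inclSq K N r)
  Algebra.norm (modularFunctionFieldFullC K (N * r))

theorem nrm_apply (x : modularFunctionFieldFullC K (N * r * r)) :
    nrm K N r x = normAlong (inclSq K N r) x := rfl

end Incl

theorem vj_mem_sq : vj K (r * r) ∈ modularFunctionFieldFullC K (N * r * r) :=
  vj_mem_full K (mul_ne_zero hr.out.ne_zero hr.out.ne_zero) ⟨N, by ring⟩

section Mid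

variable (hNrr : ((N * r * r : ℕ) : K) ≠ 0) {v : Kˣ} (hv : IsPrimitiveRoot v r)
  (ψ : Fin (r - 1) → modularFunctionFieldFullC K (N * r * r) →+* LaurentSeries K)
  (h1 : ∀ b (x : modularFunctionFieldFullC K (N * r)), ψ b (inclSq K N r x) = x)
  (h2 : ∀ b : Fin (r - 1), ψ b ⟨vj K (r * r), vj_mem_sq⟩ = twist (v ^ (b + 1 : ℕ)) (vj K 1))

/-- the embeddings over `F_{Nr}` -/
def midEmb : Option (Fin (r - 1)) → modularFunctionFieldFullC K (N * r * r) →+* LaurentSeries K
  | none => ((modularFunctionFieldFullC K (N * r * r)).val : _ →+* LaurentSeries K)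
  | some b => ψ b

theorem twist_vj_coeff (u : Kˣ) : (twist u (vj K 1)).coeff (-1) = ((u⁻¹ : Kˣ) : K) := by
  rw [twist_coeff, vj_one, zpow_neg_one, coeff_jqModC_neg_one, mul_one]

include hv h2 in
theorem midEmb_injective : Function.Injective (midEmb ψ) := by
  have hr2 := hr.out.two_le
  have e0 : ∀ b : Fin (r - 1), (twist (v ^ (b + 1 : ℕ)) (vj K 1)).coeff (-1) ≠ 0 := by
    intro b
    rw [twist_vj_coeff]
    exact Units.ne_zero _
  have e1 : (vj K (r * r)).coeff (-1) = 0 := by
    haveI : NeZero (r * r) := ⟨mul_ne_zero hr.out.ne_zero hr.out.ne_zero⟩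
    rw [vj_eq, qExpand_coeff_of_not_dvd]
    intro h
    have h4 : ((r * r : ℕ) : ℤ) ∣ 1 := by simpa using h
    have h5 := Int.le_of_dvd one_pos h4
    have h6 : 4 ≤ r * r := by nlinarith
    omega
  intro i j hij
  have h3 := DFunLike.congr_fun hij ⟨vj K (r * r), vj_mem_sq⟩
  rcases i with _ | b <;> rcases j with _ | c
  · rfl
  · exfalso
    apply e0 c
    rw [← h2 c]
    have h4 : midEmb ψ (some c) ⟨vj K (r * r), vj_mem_sq⟩ = vj K (r * r) := h3.symm
    rw [show ψ c ⟨vj K (r * r), vj_mem_sq⟩ = vj K (r * r) from h4, e1]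
  · exfalso
    apply e0 b
    rw [← h2 b]
    have h4 : midEmb ψ (some b) ⟨vj K (r * r), vj_mem_sq⟩ = vj K (r * r) := h3
    rw [show ψ b ⟨vj K (r * r), vj_mem_sq⟩ = vj K (r * r) from h4, e1]
  · have h4 : ψ b ⟨vj K (r * r), vj_mem_sq⟩ = ψ c ⟨vj K (r * r), vj_mem_sq⟩ := h3
    rw [h2, h2] at h4
    have h5 := congrArg (fun x : LaurentSeries K => x.coeff (-1)) h4
    simp only [twist_vj_coeff] at h5
    have h6 : v ^ (b + 1 : ℕ) = v ^ (c + 1 : ℕ) := inv_injective (Units.ext h5)
    have h7 := hv.pow_inj (i := b + 1) (j := c + 1) (by omega) (by omega) h6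
    congr 1
    exact Fin.ext (by omega)

include hNrr hv h1 h2 in
/-- **Norm formula** at the cusp `∞`: `N f = f ∏ ψ_b f`. -/
theorem nrm_eq_mid (f : modularFunctionFieldFullC K (N * r * r)) :
    ((nrm K N r f : modularFunctionFieldFullC K (N * r)) : LaurentSeries K) =
      (f : LaurentSeries K) * ∏ b, ψ b f := by
  have hr2 := hr.out.two_le
  letI := algebraAlong (inclSq K N r)
  have hfr := finrank_inclSq (K := K) (N := N) (r := r) hNrr
  have h' : Module.finrank (modularFunctionFieldFullC K (N * r))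
    (modularFunctionFieldFullC K (N * r * r)) = r := hfr
  haveI : Module.Finite (modularFunctionFieldFullC K (N * r))
      (modularFunctionFieldFullC K (N * r * r)) :=
    Module.finite_of_finrank_pos (by rw [h']; omega)
  have h3 : ((nrm K N r f : modularFunctionFieldFullC K (N * r)) : LaurentSeries K) =
      ∏ i, midEmb ψ i f := by
    refine norm_eq_prod ((modularFunctionFieldFullC K (N * r)).val :
      modularFunctionFieldFullC K (N * r) →+* LaurentSeries K)
      (midEmb ψ) (fun i x => ?_) (midEmb_injective hv ψ h2) ?_ f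
    · rcases i with _ | b
      · exact coe_inclSq x
      · exact h1 b x
    · rw [Fintype.card_option, Fintype.card_fin, h']; omega
  rw [h3, Fintype.prod_option]
  rfl

end Mid

section End

variable (hNrr : ((N * r * r : ℕ) : K) ≠ 0) {v : Kˣ} (hv : IsPrimitiveRoot v r)
  (w : modularFunctionFieldFullC K (N * r) →+* modularFunctionFieldFullC K (N * r))
  (W : modularFunctionFieldFullC K (N * r * r) →+* modularFunctionFieldFullC K (N * r * r))
  (hW : ∀ x : modularFunctionFieldFullC K (N * r), (W (inclSq K N r x) : LaurentSeries K) =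
    (haveI : NeZero r := ⟨hr.out.ne_zero⟩; qExpand K r (w x : LaurentSeries K)))
  (hW2 : (W ⟨vj K (r * r), vj_mem_sq⟩ : LaurentSeries K) = vj K 1)

/-- the embeddings over `F_{Nr}` embedded by `w` -/
def endEmb (v : Kˣ)
    (W : modularFunctionFieldFullC K (N * r * r) →+* modularFunctionFieldFullC K (N * r * r))
    (b : Fin r) : modularFunctionFieldFullC K (N * r * r) →+* LaurentSeries K :=
  (twist (v ^ (b : ℕ))).comp
    (((modularFunctionFieldFullC K (N * r * r)).val : _ →+* LaurentSeries K).comp W)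

theorem endEmb_apply (b : Fin r) (f : modularFunctionFieldFullC K (N * r * r)) :
    endEmb v W b f = twist (v ^ (b : ℕ)) (W f : LaurentSeries K) := rfl

include hNrr hv hW hW2 in
/-- **Norm formula** at the cusp `0`: `(w N f)(q^r) = ∏ (W f)(ζ^b q)`. -/
theorem nrm_eq_end (f : modularFunctionFieldFullC K (N * r * r)) :
    (haveI : NeZero r := ⟨hr.out.ne_zero⟩; qExpand K r (w (nrm K N r f) : LaurentSeries K)) =
      ∏ b : Fin r, twist (v ^ (b : ℕ)) (W f : LaurentSeries K) := by
  have hr0 : NeZero r := ⟨hr.out.ne_zero⟩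
  letI := algebraAlong (inclSq K N r)
  have hfr := finrank_inclSq (K := K) (N := N) (r := r) hNrr
  have h' : Module.finrank (modularFunctionFieldFullC K (N * r))
    (modularFunctionFieldFullC K (N * r * r)) = r := hfr
  haveI : Module.Finite (modularFunctionFieldFullC K (N * r))
      (modularFunctionFieldFullC K (N * r * r)) :=
    Module.finite_of_finrank_pos (by rw [h']; exact hr.out.pos)
  refine norm_eq_prod ((qExpand K r).comp
    (((modularFunctionFieldFullC K (N * r)).val : _ →+* LaurentSeries K).comp w))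
    (endEmb v W) (fun i x => ?_) ?_ (by rw [Fintype.card_fin, h']) f
  · change endEmb v W i (inclSq K N r x) = qExpand K r (w x : LaurentSeries K)
    rw [endEmb_apply, hW, twist_qExpand_of_pow_eq_one]
    rw [← pow_mul, mul_comm, pow_mul, hv.pow_eq_one, one_pow]
  · intro i j hij
    have h3 := DFunLike.congr_fun hij ⟨vj K (r * r), vj_mem_sq⟩
    rw [endEmb_apply, endEmb_apply, hW2] at h3
    have h5 := congrArg (fun x : LaurentSeries K => x.coeff (-1)) h3
    simp only [twist_vj_coeff] at h5
    have h6 : v ^ (i : ℕ) = v ^ (j : ℕ) := inv_injective (Units.ext h5)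
    exact Fin.ext (hv.pow_inj i.2 j.2 h6)

end End

end Fermat.Agent.Car
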