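import Fermat.Agent.Car.Emb
import Fermat.Agent.Car.Nrm
import Fermat.Agent.AtkinLehner.Coeff

/-!
# Project CAR, block C6, part 2

The embeddings `psi2` and the involution `WW` commute with coefficientwise automorphisms;
tameness; trace and norm along `al`.
-/

set_option autoImplicit false
set_option linter.unusedSectionVars false

noncomputable section

open ModularCurve Fermat.Agent.ModPoly Polynomial IntermediateField HahnSeries AlgebraicCurve

namespace Fermat.Agent.Car

open Fermat.Agent.ModDeg Fermat.Agent.AtkinLehner Fermat.Agent.BadRed Fermat.Agent.HeckeRed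
  Fermat.Agent.Igusa

variable {L : Type*} [Field L] {N q : ℕ} [hq : Fact q.Prime] [hN : NeZero N]

section Coeff

theorem coeffEquiv_al (σ : L ≃+* L) (x : modularFunctionFieldFullC L (N * q)) :
    coeffEquiv σ (N * q * q) (al L N q x) = al L N q (coeffEquiv σ (N * q) x) := by
  apply Subtype.ext
  rw [coe_coeffEquiv, coe_al, coe_al, coe_coeffEquiv]

theorem coeffEquiv_be (σ : L ≃+* L) (x : modularFunctionFieldFullC L (N * q)) :
    coeffEquiv σ (N * q * q) (be L N q x) = be L N q (coeffEquiv σ (N * q) x) := by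
  apply Subtype.ext
  rw [coe_coeffEquiv, coe_be, coe_be, coe_coeffEquiv, coeffMap_qExpand]

variable [IsAlgClosed L] [CharZero L] (hqN : ¬ q ∣ N)

theorem ww_coeffEquiv (σ : L ≃+* L) (x : modularFunctionFieldFullC L (N * q)) :
    ww L N q hqN (coeffEquiv σ (N * q) x) = coeffEquiv σ (N * q) (ww L N q hqN x) := by
  apply Subtype.ext
  rw [coe_coeffEquiv]
  exact (w_coeffMap (cast_ne_zero_L L N) (cast_ne_zero_Lr L q) hqN
    (cast_ne_zero_L L N) (cast_ne_zero_Lr L q) (σ : L →+* L) x).symm

/-- `W` commutes with coefficientwise automorphisms. -/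
theorem WW_coeffEquiv (σ : L ≃+* L) (f : modularFunctionFieldFullC L (N * q * q)) :
    WW L N q hqN (coeffEquiv σ (N * q * q) f) = coeffEquiv σ (N * q * q) (WW L N q hqN f) := by
  have h : ((WW L N q hqN).toAlgHom.toRingHom.comp
      (coeffEquiv σ (N * q * q) : _ →+* modularFunctionFieldFullC L (N * q * q))) =
      (coeffEquiv σ (N * q * q) : _ →+* modularFunctionFieldFullC L (N * q * q)).comp
        (WW L N q hqN).toAlgHom.toRingHom := by
    refine ringHom_ext_ab _ _ (fun x => ?_) (fun x => ?_)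
    · show WW L N q hqN (coeffEquiv σ (N * q * q) (al L N q x)) =
        coeffEquiv σ (N * q * q) (WW L N q hqN (al L N q x))
      rw [coeffEquiv_al, WW_al, WW_al, coeffEquiv_be, ww_coeffEquiv]
    · show WW L N q hqN (coeffEquiv σ (N * q * q) (be L N q x)) =
        coeffEquiv σ (N * q * q) (WW L N q hqN (be L N q x))
      rw [coeffEquiv_be, WW_be, WW_be, coeffEquiv_al, ww_coeffEquiv]
  exact DFunLike.congr_fun h f

/-- `W` commutes with coefficientwise automorphisms, in terms of expansions. -/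
theorem WW_coeffMap (σ : L ≃+* L) {f g : modularFunctionFieldFullC L (N * q * q)}
    (h : (g : LaurentSeries L) = coeffMap (σ : L →+* L) (f : LaurentSeries L)) :
    (WW L N q hqN g : LaurentSeries L) =
      coeffMap (σ : L →+* L) (WW L N q hqN f : LaurentSeries L) := by
  have e : g = coeffEquiv σ (N * q * q) f := Subtype.ext h
  rw [e, WW_coeffEquiv, coe_coeffEquiv]

theorem _root_.Fermat.Agent.Car.prim_map (σ : L ≃+* L) {v : Lˣ} (hv : IsPrimitiveRoot v q) :
    IsPrimitiveRoot (Units.map (σ : L →* L) v) q :=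
  hv.map_of_injective (Units.map_injective σ.injective)

/-- **`ψ₂` and coefficientwise automorphisms**: `ψ₂^{σ v}(f^σ) = (ψ₂^v f)^σ`. -/
theorem psi2_coeffEquiv (σ : L ≃+* L) {v : Lˣ} (hv : IsPrimitiveRoot v q)
    (f : modularFunctionFieldFullC L (N * q * q)) :
    psi2 L N hqN (Units.map (σ : L →* L) v) (prim_map σ hv) (coeffEquiv σ (N * q * q) f) =
      coeffMap (σ : L →+* L) (psi2 L N hqN v hv f) := by
  have h : ((psi2 L N hqN (Units.map (σ : L →* L) v) (prim_map σ hv)).toRingHom.comp
      (coeffEquiv σ (N * q * q) : _ →+* modularFunctionFieldFullC L (N * q * q))) =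
      (coeffMap (σ : L →+* L)).comp (psi2 L N hqN v hv).toRingHom := by
    refine ringHom_ext_ab _ _ (fun x => ?_) (fun x => ?_)
    · show psi2 L N hqN _ (prim_map σ hv) (coeffEquiv σ (N * q * q) (al L N q x)) =
        coeffMap (σ : L →+* L) (psi2 L N hqN v hv (al L N q x))
      rw [coeffEquiv_al, psi2_al, psi2_al, coe_coeffEquiv]
    · show psi2 L N hqN _ (prim_map σ hv) (coeffEquiv σ (N * q * q) (be L N q x)) =
        coeffMap (σ : L →+* L) (psi2 L N hqN v hv (be L N q x))
      rw [coeffEquiv_be, psi2_be, psi2_be, ww_coeffEquiv, coe_coeffEquiv, BadRed.coeffMap_twist]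
      rfl
  exact DFunLike.congr_fun h f

/-- `ψ₂^{v'}(g) = (ψ₂^v f)^σ` if `g = f^σ`, `v' = σ v`. -/
theorem psi2_coeffMap (σ : L ≃+* L) {v v' : Lˣ} (hv : IsPrimitiveRoot v q)
    (hv' : IsPrimitiveRoot v' q) (hvv : (v' : L) = σ v)
    {f g : modularFunctionFieldFullC L (N * q * q)}
    (h : (g : LaurentSeries L) = coeffMap (σ : L →+* L) (f : LaurentSeries L)) :
    psi2 L N hqN v' hv' g = coeffMap (σ : L →+* L) (psi2 L N hqN v hv f) := by
  have e : g = coeffEquiv σ (N * q * q) f := Subtype.ext h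
  have e' : v' = Units.map (σ : L →* L) v := Units.ext hvv
  subst e e'
  exact psi2_coeffEquiv hqN σ hv f

end Coeff

section Smul

variable [IsAlgClosed L] [CharZero L] (hqN : ¬ q ∣ N) {σ : L ≃+* L}
  {g : SemilinearAut L (modularFunctionFieldFullC L (N * q * q))}
  (hg : ∀ x : modularFunctionFieldFullC L (N * q * q),
    ((g • x : modularFunctionFieldFullC L (N * q * q)) : LaurentSeries L) =
      coeffMap (σ : L →+* L) (x : LaurentSeries L))

include hg

/-- `W (g • f) = g • W f` for the coefficientwise action. -/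
theorem WW_smul (f : modularFunctionFieldFullC L (N * q * q)) :
    WW L N q hqN (g • f) = g • WW L N q hqN f :=
  Subtype.ext (by rw [WW_coeffMap hqN σ (hg f), hg])

/-- `ψ₂^{σ v} (g • f) = (ψ₂^v f)^σ`. -/
theorem psi2_smul {v v' : Lˣ} (hv : IsPrimitiveRoot v q)
    (hv' : IsPrimitiveRoot v' q) (hvv : (v' : L) = σ v)
    (f : modularFunctionFieldFullC L (N * q * q)) :
    psi2 L N hqN v' hv' (g • f) = coeffMap (σ : L →+* L) (psi2 L N hqN v hv f) :=
  psi2_coeffMap hqN σ hv hv' hvv (hg f)

end Smul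

section Tame

theorem twist_mem_tame {v : Lˣ} {n : ℕ} (hn : n ≠ 0) (hv : v ^ n = 1) {x : LaurentSeries L}
    (hx : x ∈ tame L) : twist v x ∈ tame L := by
  obtain ⟨M, hM, hx⟩ := hx
  refine ⟨Submodule.span ℤ (Set.range fun i : Fin n => ((v : L) ^ (i : ℕ))) * M,
    (Submodule.fg_span (Set.finite_range _)).mul hM, fun m => ?_⟩
  rw [twist_coeff]
  refine Submodule.mul_mem_mul (Submodule.subset_span ?_) (hx m)
  have hn' : (n : ℤ) ≠ 0 := by exact_mod_cast hn
  have h0 : 0 ≤ m % n := Int.emod_nonneg _ hn'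
  have h1 : m % n < n := Int.emod_lt_of_pos _ (by omega)
  refine ⟨⟨(m % n).toNat, by omega⟩, ?_⟩
  show (v : L) ^ (m % n).toNat = ((v ^ m : Lˣ) : L)
  rw [← Units.val_pow_eq_pow_val]
  congr 1
  have h2 : v ^ m = v ^ (m % n + n * (m / n)) := by rw [Int.emod_add_mul_ediv]
  rw [h2, zpow_add, zpow_mul, zpow_natCast, hv, one_zpow, mul_one, ← zpow_natCast,
    Int.toNat_of_nonneg h0]

theorem vj_mem_tame {d : ℕ} (hd : d ≠ 0) : vj L d ∈ tame L := by
  haveI : NeZero d := ⟨hd⟩
  rw [vj_eq]
  exact qExpand_jqModC_mem_tame d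

/-- a homomorphism of the function field that maps the `j_d` to tame series is tame -/
theorem isTameHom_of_gen {M : ℕ} (ψ : modularFunctionFieldFullC L M →ₐ[L] LaurentSeries L)
    (h : ∀ d (hd : d ∣ M) (hd0 : d ≠ 0), ψ ⟨vj L d, vj_mem_full L hd0 hd⟩ ∈ tame L) :
    IsTameHom ψ := by
  intro x
  have h1 : ψ x ∈ IntermediateField.adjoin L (tame L : Set (LaurentSeries L)) := by
    refine ringHom_mem (ψ : modularFunctionFieldFullC L M →+* LaurentSeries L)
      (IntermediateField.adjoin L (tame L : Set (LaurentSeries L))).toSubfield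
      (fun c => ?_) (fun d hd hd0 => ?_) x
    · show ψ (algebraMap L _ c) ∈ IntermediateField.adjoin L (tame L : Set (LaurentSeries L))
      rw [AlgHom.commutes]
      exact IntermediateField.algebraMap_mem _ c
    · exact IntermediateField.subset_adjoin L _ (h d hd hd0)
  exact isTameField_adjoin (le_refl _) _ h1

variable [IsAlgClosed L] [CharZero L] (hqN : ¬ q ∣ N) {v : Lˣ} (hv : IsPrimitiveRoot v q)

/-- **`ψ₂` is tame.** -/
theorem isTameHom_psi2 : IsTameHom (psi2 L N hqN v hv) := by
  have hq0 := hq.out.ne_zero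
  refine isTameHom_of_gen _ fun d hd hd0 => ?_
  rcases dvd_mul_prime_sq_cases hq.out hd with hd1 | ⟨e, he, rfl⟩ | ⟨e, he, rfl⟩
  · have e1 : (⟨vj L d, vj_mem_full L hd0 hd⟩ : modularFunctionFieldFullC L (N * q * q)) =
        al L N q ⟨vj L d, vj_mem_full L hd0 (hd1.mul_right q)⟩ := by
      apply Subtype.ext
      rw [coe_al]
    rw [e1, psi2_al]
    exact vj_mem_tame hd0
  · have e1 : (⟨vj L (e * q), vj_mem_full L hd0 hd⟩ :
        modularFunctionFieldFullC L (N * q * q)) =
        al L N q ⟨vj L (e * q), vj_mem_full L hd0 (Nat.mul_dvd_mul_right he q)⟩ := by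
      apply Subtype.ext
      rw [coe_al]
    rw [e1, psi2_al]
    exact vj_mem_tame hd0
  · have he0 : e ≠ 0 := left_ne_zero_of_mul hd0
    have e2 : psi2 L N hqN v hv ⟨vj L (e * (q * q)), vj_mem_full L hd0 hd⟩ =
        twist v (vj L e) := psi_vj _ _ _ _ _ he _
    rw [e2]
    exact twist_mem_tame hq0 hv.pow_eq_one (vj_mem_tame he0)

/-- The identity embedding is tame. -/
theorem isTameHom_valq : IsTameHom (modularFunctionFieldFullC L (N * q * q)).val :=
  isTameHom_val (isTameField_full _)

/-- `W` followed by the identity embedding is tame -/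
theorem isTameHom_WW :
    IsTameHom ((modularFunctionFieldFullC L (N * q * q)).val.comp (WW L N q hqN).toAlgHom) :=
  (isTameHom_valq (L := L) (N := N) (q := q)).comp _

/-- `ψ₂ ∘ W` is tame -/
theorem isTameHom_psi2_WW :
    IsTameHom ((psi2 L N hqN v hv).comp (WW L N q hqN).toAlgHom) :=
  (isTameHom_psi2 hqN hv).comp _

end Tame

section Vj

variable [IsAlgClosed L] [CharZero L] (hqN : ¬ q ∣ N) {v : Lˣ} (hv : IsPrimitiveRoot v q)

theorem psi2_vj {e : ℕ} (he : e ∣ N) (h : vj L (e * (q * q)) ∈ modularFunctionFieldFullC L (N * q * q)) :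
    psi2 L N hqN v hv ⟨vj L (e * (q * q)), h⟩ = twist v (vj L e) := psi_vj _ _ _ _ _ he h

theorem psi2_of_mem {x : LaurentSeries L} (hx : x ∈ modularFunctionFieldFullC L (N * q))
    (h : x ∈ modularFunctionFieldFullC L (N * q * q)) :
    psi2 L N hqN v hv ⟨x, h⟩ = x := psi_apply_of_mem _ _ _ _ _ hx h

theorem WW_vj {e : ℕ} (he : e ∣ N) (h : vj L (e * (q * q)) ∈ modularFunctionFieldFullC L (N * q * q)) :
    (WW L N q hqN ⟨vj L (e * (q * q)), h⟩ : LaurentSeries L) = vj L e := by
  have he0 : e ≠ 0 := by rintro rfl; exact hN.out (zero_dvd_iff.mp he)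
  have hq0 := hq.out.ne_zero
  have e1 : (⟨vj L (e * (q * q)), h⟩ : modularFunctionFieldFullC L (N * q * q)) =
      be L N q ⟨vj L (e * q), vj_mem_full L (mul_ne_zero he0 hq0)
        (Nat.mul_dvd_mul_right he q)⟩ := by
    apply Subtype.ext
    rw [coe_be]
    show vj L (e * (q * q)) = qExpand L q (vj L (e * q))
    rw [qExpand_vj L q _ (mul_ne_zero he0 hq0), mul_assoc]
  rw [e1, WW_be, coe_al]
  exact w_vj_mul _ _ _ he _

theorem WW_vj' {e : ℕ} (he : e ∣ N) (h : vj L e ∈ modularFunctionFieldFullC L (N * q * q)) :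
    (WW L N q hqN ⟨vj L e, h⟩ : LaurentSeries L) = vj L (e * (q * q)) := by
  have he0 : e ≠ 0 := by rintro rfl; exact hN.out (zero_dvd_iff.mp he)
  have hq0 := hq.out.ne_zero
  have e1 : (⟨vj L e, h⟩ : modularFunctionFieldFullC L (N * q * q)) =
      al L N q ⟨vj L e, vj_mem_full L he0 (he.mul_right q)⟩ := by
    apply Subtype.ext
    rw [coe_al]
  have e2 : (ww L N q hqN ⟨vj L e, vj_mem_full L he0 (he.mul_right q)⟩ : LaurentSeries L) =
      vj L (e * q) := w_vj _ _ _ he _
  rw [e1, WW_al, coe_be, e2, qExpand_vj L q _ (mul_ne_zero he0 hq0), mul_assoc]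

theorem WW_vj_mid {e : ℕ} (he : e ∣ N)
    (h : vj L (e * q) ∈ modularFunctionFieldFullC L (N * q * q)) :
    (WW L N q hqN ⟨vj L (e * q), h⟩ : LaurentSeries L) = vj L (e * q) := by
  have he0 : e ≠ 0 := by rintro rfl; exact hN.out (zero_dvd_iff.mp he)
  have hq0 := hq.out.ne_zero
  have e1 : (⟨vj L (e * q), h⟩ : modularFunctionFieldFullC L (N * q * q)) =
      al L N q ⟨vj L (e * q), vj_mem_full L (mul_ne_zero he0 hq0)
        (Nat.mul_dvd_mul_right he q)⟩ := by
    apply Subtype.ext
    rw [coe_al]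
  have e2 : (ww L N q hqN ⟨vj L (e * q), vj_mem_full L (mul_ne_zero he0 hq0)
        (Nat.mul_dvd_mul_right he q)⟩ : LaurentSeries L) = vj L e := w_vj_mul _ _ _ he _
  rw [e1, WW_al, coe_be, e2, qExpand_vj L q _ he0]

end Vj

section Generic

variable {K : Type*} [Field K] {E E' : IntermediateField K (LaurentSeries K)} (α : E →ₐ[K] E')
  {T : Type*} [Fintype T] (s : T → E' →+* LaurentSeries K)
  (hs : ∀ i x, s i (α x) = (x : LaurentSeries K)) (hinj : Function.Injective s)
  (hcard : Fintype.card T = finrankAlong K α) (hpos : 0 < finrankAlong K α)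

include hs hinj hcard hpos

theorem trace_coe (f : E') :
    ((traceAlong α f : E) : LaurentSeries K) = ∑ i, s i f := by
  letI := algebraAlong α
  haveI : Module.Finite E E' := Module.finite_of_finrank_pos hpos
  exact trace_eq_sum (E.val : E →+* LaurentSeries K) s hs hinj hcard f

theorem norm_coe (f : E') :
    ((normAlong α f : E) : LaurentSeries K) = ∏ i, s i f := by
  letI := algebraAlong α
  haveI : Module.Finite E E' := Module.finite_of_finrank_pos hpos
  exact norm_eq_prod (E.val : E →+* LaurentSeries K) s hs hinj hcard f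

end Generic

section Norm

variable (L N q) in
theorem finrankAlong_al [IsAlgClosed L] [CharZero L] : finrankAlong L (al L N q) = q := by
  have hNq : ((N * q * q : ℕ) : L) ≠ 0 :=
    Nat.cast_ne_zero.mpr (mul_ne_zero (mul_ne_zero hN.out hq.out.ne_zero) hq.out.ne_zero)
  have h1 := finrankAlong_alpha (K := L) (N := N * q) (p := q) rfl rfl (al L N q)
    (coe_al L N q) hNq
  rw [psi_mul_prime_of_dvd (NeZero.ne _) hq.out (Dvd.intro_left N rfl)] at h1
  have h2 : 0 < dedekindPsi (N * q) := HeckeRed.dedekindPsi_pos (N * q)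
  exact Nat.eq_of_mul_eq_mul_right h2 (by rw [h1])

variable [IsAlgClosed L] [CharZero L] (hqN : ¬ q ∣ N) {v : Lˣ} (hv : IsPrimitiveRoot v q)

include hv in
theorem prim_pow_succ (b : Fin (q - 1)) : IsPrimitiveRoot (v ^ (b + 1 : ℕ)) q := by
  have hb := b.2
  refine hv.pow_of_coprime _ (Nat.Coprime.symm ?_)
  rw [hq.out.coprime_iff_not_dvd]
  intro h
  have := Nat.le_of_dvd (by omega) h
  omega

/-- the embeddings `ψ₂^{(v^{b+1})}`, `b = 0, …, q - 2` -/
def psib (b : Fin (q - 1)) : modularFunctionFieldFullC L (N * q * q) →ₐ[L] LaurentSeries L :=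
  psi2 L N hqN (v ^ (b + 1 : ℕ)) (prim_pow_succ hv b)

theorem psib_def (b : Fin (q - 1)) :
    psib hqN hv b = psi2 L N hqN (v ^ (b + 1 : ℕ)) (prim_pow_succ hv b) := rfl

theorem psib_al (b : Fin (q - 1)) (x : modularFunctionFieldFullC L (N * q)) :
    psib hqN hv b (al L N q x) = x := psi2_al hqN _ x

theorem psib_be (b : Fin (q - 1)) (x : modularFunctionFieldFullC L (N * q)) :
    psib hqN hv b (be L N q x) =
      twist (v ^ (b + 1 : ℕ)) (ww L N q hqN x : LaurentSeries L) := psi2_be hqN _ x

theorem isTameHom_psib (b : Fin (q - 1)) : IsTameHom (psib hqN hv b) := isTameHom_psi2 hqN _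

theorem psib_injective :
    Function.Injective (midEmb (K := L) (N := N) (r := q)
      (fun b => (psib hqN hv b : _ →+* LaurentSeries L))) := by
  refine midEmb_injective hv _ fun b => ?_
  have e : (⟨vj L (q * q), vj_mem_sq⟩ : modularFunctionFieldFullC L (N * q * q)) =
      ⟨vj L (1 * (q * q)), by rw [one_mul]; exact vj_mem_sq⟩ :=
    Subtype.ext (congrArg (vj L) (one_mul _).symm)
  show psib hqN hv b ⟨vj L (q * q), vj_mem_sq⟩ = _
  rw [e]
  exact psi2_vj hqN _ (one_dvd N) _

variable (L N q) in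
theorem finiteAlong_al : FiniteAlong L (al L N q) := by
  have h := finrankAlong_al L N q
  letI := algebraAlong (al L N q)
  have h' : Module.finrank (modularFunctionFieldFullC L (N * q))
    (modularFunctionFieldFullC L (N * q * q)) = q := h
  show Module.Finite (modularFunctionFieldFullC L (N * q))
    (modularFunctionFieldFullC L (N * q * q))
  exact Module.finite_of_finrank_pos (by rw [h']; exact hq.out.pos)

theorem card_mid : Fintype.card (Option (Fin (q - 1))) = q := by
  have := hq.out.two_le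
  rw [Fintype.card_option, Fintype.card_fin]
  omega

/-- **Trace formula** along `α : F_{Nq} → F_{Nqq}`. -/
theorem trace_al (f : modularFunctionFieldFullC L (N * q * q)) :
    ((traceAlong (al L N q) f : modularFunctionFieldFullC L (N * q)) : LaurentSeries L) =
      (f : LaurentSeries L) + ∑ b, psib hqN hv b f := by
  have h3 := trace_coe (al L N q) (midEmb (K := L) (N := N) (r := q)
        (fun b => (psib hqN hv b : _ →+* LaurentSeries L))) (fun i x => by
      rcases i with _ | b
      · exact coe_al L N q x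
      · exact psib_al hqN hv b x) (psib_injective hqN hv)
    (by rw [card_mid, finrankAlong_al]) (by rw [finrankAlong_al]; exact hq.out.pos) f
  rw [h3, Fintype.sum_option]
  rfl

/-- **Norm formula** along `α : F_{Nq} → F_{Nqq}`. -/
theorem norm_al (f : modularFunctionFieldFullC L (N * q * q)) :
    ((normAlong (al L N q) f : modularFunctionFieldFullC L (N * q)) : LaurentSeries L) =
      (f : LaurentSeries L) * ∏ b, psib hqN hv b f := by
  have h3 := norm_coe (al L N q) (midEmb (K := L) (N := N) (r := q)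
        (fun b => (psib hqN hv b : _ →+* LaurentSeries L))) (fun i x => by
      rcases i with _ | b
      · exact coe_al L N q x
      · exact psib_al hqN hv b x) (psib_injective hqN hv)
    (by rw [card_mid, finrankAlong_al]) (by rw [finrankAlong_al]; exact hq.out.pos) f
  rw [h3, Fintype.prod_option]
  rfl

end Norm

end Fermat.Agent.Car
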