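import Mathlib

/-!
A group of operators `u` with `(u - 1)² = 0` has a nonzero fixed vector.
-/

set_option autoImplicit false

namespace Fermat.Agent.Car

/-- anticommutation -/
theorem anticomm {R : Type*} [Ring R] {a b : R} (ha : a * a = 0) (hb : b * b = 0)
    (hab : (a + b + a * b) * (a + b + a * b) = 0) : a * b + b * a = 0 := by
  have e : a * b + b * a + a * b * a + b * a * b + a * b * a * b = 0 := by
    have h1 : (a + b + a * b) * (a + b + a * b) = a * a + a * b + a * a * b + b * a + b * b +
        b * a * b + a * b * a + a * (b * b) + a * b * a * b := by noncomm_ring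
    rw [h1, ha, hb, zero_mul, mul_zero] at hab
    rw [← hab]
    abel
  have h2 : a * b * a + a * b * a * b = 0 := by
    have h3 : a * (a * b + b * a + a * b * a + b * a * b + a * b * a * b) =
        (a * a) * b + a * b * a + (a * a) * b * a + a * b * a * b + (a * a) * b * a * b := by
      noncomm_ring
    simp only [e, mul_zero, ha, zero_mul, zero_add, add_zero] at h3
    exact h3.symm
  have h4 : a * b * a = 0 := by
    have h5 : (a * b * a + a * b * a * b) * (1 - b) = a * b * a - a * b * a * (b * b) := by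
      noncomm_ring
    simp only [h2, mul_zero, hb, zero_mul, sub_zero] at h5
    exact h5.symm
  have h6 : b * a * b + a * b * a * b = 0 := by
    have h7 : (a * b + b * a + a * b * a + b * a * b + a * b * a * b) * b =
        a * (b * b) + b * a * b + a * b * a * b + b * a * (b * b) + a * b * a * (b * b) := by
      noncomm_ring
    simp only [e, mul_zero, hb, zero_mul, zero_add, add_zero] at h7
    exact h7.symm
  rw [h4, zero_mul, add_zero] at h6
  rw [h4, h6, zero_mul, add_zero, add_zero, add_zero] at e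
  exact e

theorem exists_fixed {O Λ G : Type*} [CommRing O] [IsNoetherianRing O] [AddCommGroup Λ]
    [Module O Λ] [Module.Free O Λ] [Module.Finite O Λ] [Nontrivial Λ] [Group G]
    (ρ : G →* Module.End O Λ) (I : Subgroup G)
    (h : ∀ σ ∈ I, (ρ σ - 1) * (ρ σ - 1) = 0) : ∃ y : Λ, y ≠ 0 ∧ ∀ σ ∈ I, ρ σ y = y := by
  classical
  -- the span of the `ρ σ - 1`
  let N : Submodule O (Module.End O Λ) := Submodule.span O {m | ∃ σ ∈ I, m = ρ σ - 1}
  have hac : ∀ m ∈ N, ∀ σ ∈ I, m * (ρ σ - 1) + (ρ σ - 1) * m = 0 := by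
    intro m hm σ hσ
    induction hm using Submodule.span_induction with
    | mem m hm =>
      obtain ⟨τ, hτ, rfl⟩ := hm
      refine anticomm (h τ hτ) (h σ hσ) ?_
      have h1 := h (τ * σ) (I.mul_mem hτ hσ)
      have h2 : ρ (τ * σ) - 1 = (ρ τ - 1) + (ρ σ - 1) + (ρ τ - 1) * (ρ σ - 1) := by
        rw [map_mul]
        noncomm_ring
      rw [h2] at h1
      exact h1
    | zero => rw [zero_mul, mul_zero, add_zero]
    | add m m' _ _ h1 h2 =>
      rw [add_mul, mul_add, add_add_add_comm, h1, h2, add_zero]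
    | smul c m _ h1 =>
      rw [smul_mul_assoc, mul_smul_comm, ← smul_add, h1, smul_zero]
  let A : Λ → Submodule O (Module.End O Λ) := fun y =>
    N ⊓ LinearMap.ker (LinearMap.applyₗ (R := O) (M := Λ) (M₂ := Λ) y)
  have hA : ∀ y m, m ∈ A y ↔ m ∈ N ∧ m y = 0 := fun y m => by
    simp only [A, Submodule.mem_inf, LinearMap.mem_ker, LinearMap.applyₗ_apply_apply]
  obtain ⟨_, ⟨y, hy0, rfl⟩, hmax⟩ := set_has_maximal_iff_noetherian.mpr
    (inferInstance : IsNoetherian O (Module.End O Λ)) {B | ∃ y : Λ, y ≠ 0 ∧ B = A y} (by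
      obtain ⟨y, hy⟩ := exists_ne (0 : Λ)
      exact ⟨_, y, hy, rfl⟩)
  refine ⟨y, hy0, fun σ hσ => ?_⟩
  by_contra hne
  have hy' : (ρ σ - 1) y ≠ 0 := by
    intro h0
    rw [LinearMap.sub_apply, Module.End.one_apply, sub_eq_zero] at h0
    exact hne h0
  have hlt : A y < A ((ρ σ - 1) y) := by
    refine lt_of_le_of_ne ?_ ?_
    · intro m hm
      rw [hA] at hm ⊢
      refine ⟨hm.1, ?_⟩
      have h1 := LinearMap.congr_fun (hac m hm.1 σ hσ) y
      rw [LinearMap.add_apply, Module.End.mul_apply, Module.End.mul_apply, hm.2, map_zero,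
        add_zero] at h1
      exact h1
    · intro he
      have h1 : (ρ σ - 1) ∈ A ((ρ σ - 1) y) := by
        rw [hA]
        refine ⟨Submodule.subset_span ⟨σ, hσ, rfl⟩, ?_⟩
        have h2 := LinearMap.congr_fun (h σ hσ) y
        rw [Module.End.mul_apply] at h2
        exact h2
      rw [← he, hA] at h1
      exact hy' h1.2
  exact hmax _ ⟨_, hy', rfl⟩ hlt

end Fermat.Agent.Car
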