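import Fermat.Agent.Car.EndLat
import Fermat.Agent.Car.EndUni
import Fermat.Agent.NewPoint.LinAlg
import Fermat.Agent.NewPoint.Occurs
import Fermat.Agent.Frob.Exists

/-!
S36 from `HeckeGaloisModule`s with degeneracy maps.
-/

set_option autoImplicit false

open scoped TensorProduct
open Polynomial IsLocalRing CongruenceSubgroup ModularFormClass CuspForm

namespace Fermat.Agent.Car

open Fermat.Agent.QuadRep Fermat.Agent.HGModule Fermat.Agent.HeckeGal Fermat.Agent.HGAssembly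

local notation "G" => (AlgebraicClosure ℚ ≃ₐ[ℚ] AlgebraicClosure ℚ)

/-- the base change of relations defined by infinitely many rows -/
theorem relation_baseChange_set {A K : Type*} [CommRing A] [IsDomain A] [IsNoetherianRing A]
    [Field K] (f : A →+* K) (hf : Function.Injective f) {r : ℕ} (𝒞 : Set (Fin r → A))
    (h : ∀ x : Fin r → A, (∀ c ∈ 𝒞, dotProduct c x = 0) → x = 0) (x : Fin r → K)
    (hx : ∀ c ∈ 𝒞, dotProduct (fun i => f (c i)) x = 0) : x = 0 := by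
  classical
  obtain ⟨s, hs, hspan⟩ := (Submodule.fg_span_iff_fg_span_finset_subset 𝒞).mp
    (IsNoetherian.noetherian (Submodule.span A 𝒞))
  have key := NewPoint.relation_baseChange f hf
    (Matrix.of fun (i : s) j => (i : Fin r → A) j) (1 : Matrix (Fin r) (Fin r) A) ?_ x ?_
  · rw [Matrix.map_one _ (map_zero _) (map_one _), Matrix.one_mulVec] at key
    exact key
  · intro y hy
    rw [Matrix.one_mulVec]
    refine h y fun c hc => ?_
    have hc' : c ∈ Submodule.span A (s : Set (Fin r → A)) := by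
      rw [← hspan]
      exact Submodule.subset_span hc
    clear hc
    induction hc' using Submodule.span_induction with
    | mem c hc => exact congrFun hy ⟨c, hc⟩
    | zero => rw [zero_dotProduct]
    | add a b _ _ ha hb => rw [add_dotProduct, ha, hb, add_zero]
    | smul a c _ hc => rw [smul_dotProduct, hc, smul_zero]
  · ext i
    exact hx _ (hs i.2)

/-- Degeneracy maps `a, b : T_p J₀(M) → T_p J₀(N)` at a prime `q`, such that the common kernel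
contains no nonzero vector fixed by the inertia at `q`. -/
structure NewSq (p : ℕ) [Fact p.Prime] (M : ℕ) [NeZero M] (S : Finset ℕ)
    (D : HeckeGaloisModule p M (↑S : Set ℕ)) (q : ℕ) : Type 1 where
  N : ℕ
  [neZero : NeZero N]
  dvd : N ∣ M
  ne : N ≠ M
  D' : HeckeGaloisModule p N (↑S : Set ℕ)
  a : (ℤ_[p] ⊗[ℤ] D.H) →ₗ[ℤ_[p]] (ℤ_[p] ⊗[ℤ] D'.H)
  b : (ℤ_[p] ⊗[ℤ] D.H) →ₗ[ℤ_[p]] (ℤ_[p] ⊗[ℤ] D'.H)
  a_hecke : ∀ (ℓ : ℕ) (hℓ : ℓ.Prime) (hM : ¬ ℓ ∣ M) (hN : ¬ ℓ ∣ N) (hS : ℓ ∉ (↑S : Set ℕ))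
    (x : ℤ_[p] ⊗[ℤ] D.H),
    a ((D.θ (heckeAlgebra.T hℓ hM hS)).baseChange ℤ_[p] x) =
      (D'.θ (heckeAlgebra.T hℓ hN hS)).baseChange ℤ_[p] (a x)
  b_hecke : ∀ (ℓ : ℕ) (hℓ : ℓ.Prime) (hM : ¬ ℓ ∣ M) (hN : ¬ ℓ ∣ N) (hS : ℓ ∉ (↑S : Set ℕ))
    (x : ℤ_[p] ⊗[ℤ] D.H),
    b ((D.θ (heckeAlgebra.T hℓ hM hS)).baseChange ℤ_[p] x) =
      (D'.θ (heckeAlgebra.T hℓ hN hS)).baseChange ℤ_[p] (b x)
  inert : ∀ A : ValuationSubring (AlgebraicClosure ℚ), A.LiesOverPrime q →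
    ∀ x : ℤ_[p] ⊗[ℤ] D.H, a x = 0 → b x = 0 →
      (∀ σ ∈ A.inertiaSubgroupIn ℚ, D.ρ σ x = x) → x = 0

attribute [instance] NewSq.neZero

section

variable {p : ℕ} [Fact p.Prime] {M : ℕ} [NeZero M] {S : Finset ℕ}
  {D : HeckeGaloisModule p M (↑S : Set ℕ)}

theorem toMatrix_comp_eq {N : ℕ} [NeZero N] {D' : HeckeGaloisModule p N (↑S : Set ℕ)}
    (f : (ℤ_[p] ⊗[ℤ] D.H) →ₗ[ℤ_[p]] (ℤ_[p] ⊗[ℤ] D'.H))
    (t : heckeAlgebra M 2 (↑S : Set ℕ)) (t' : heckeAlgebra N 2 (↑S : Set ℕ))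
    (h : ∀ x, f ((D.θ t).baseChange ℤ_[p] x) = (D'.θ t').baseChange ℤ_[p] (f x)) :
    LinearMap.toMatrix (basp D) (basp D') f * (Q D t).map (algebraMap ℤ ℤ_[p]) =
      (Q D' t').map (algebraMap ℤ ℤ_[p]) * LinearMap.toMatrix (basp D) (basp D') f := by
  rw [← toMatrix_baseChange_θ, ← toMatrix_baseChange_θ]
  have h1 : f ∘ₗ (D.θ t).baseChange ℤ_[p] = (D'.θ t').baseChange ℤ_[p] ∘ₗ f :=
    LinearMap.ext h
  have h2 := congrArg (LinearMap.toMatrix (basp D) (basp D')) h1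
  rw [LinearMap.toMatrix_comp (basp D) (basp D) (basp D'),
    LinearMap.toMatrix_comp (basp D) (basp D') (basp D')] at h2
  exact h2

theorem killed_of_new
    (hD : ∀ (p : ℕ) [Fact p.Prime] (N : ℕ) [NeZero N] (S : Finset ℕ), p ∈ S →
      (∀ q : ℕ, q.Prime → q ∣ N → q ∈ S) → Nonempty (HeckeGaloisModule p N (↑S : Set ℕ)))
    {g : CuspForm (Gamma0 M) 2} (hg : g.IsNewform)
    (hMS : ∀ q : ℕ, q.Prime → q ∣ M → q ∈ S)
    (chig : heckeAlgebra M 2 (↑S : Set ℕ) →+* ℂ)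
    (hchig : ∀ (ℓ : ℕ) (hℓ : ℓ.Prime) (hℓM : ¬ ℓ ∣ M) (hℓS : ℓ ∉ (↑S : Set ℕ)),
      chig (heckeAlgebra.T hℓ hℓM hℓS) = qCoeff g ℓ)
    {N : ℕ} [NeZero N] (hNM : N ∣ M) (hne : N ≠ M) (D' : HeckeGaloisModule p N (↑S : Set ℕ))
    {K : Type*} [Field K] (i : chig.range →+* K) (hi : Function.Injective i)
    (f : ℤ_[p] →+* K)
    (c : (ℤ_[p] ⊗[ℤ] D.H) →ₗ[ℤ_[p]] (ℤ_[p] ⊗[ℤ] D'.H))
    (hc : ∀ (ℓ : ℕ) (hℓ : ℓ.Prime) (hM : ¬ ℓ ∣ M) (hN : ¬ ℓ ∣ N) (hS : ℓ ∉ (↑S : Set ℕ))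
      (x : ℤ_[p] ⊗[ℤ] D.H),
      c ((D.θ (heckeAlgebra.T hℓ hM hS)).baseChange ℤ_[p] x) =
        (D'.θ (heckeAlgebra.T hℓ hN hS)).baseChange ℤ_[p] (c x))
    (x : Fin (rk D) → K)
    (hx : ∀ t, ((Q D t).map (Int.castRingHom K)).mulVec x = i (chig.rangeRestrict t) • x) :
    ((LinearMap.toMatrix (basp D) (basp D') c).map f).mulVec x = 0 := by
  have hZ : ∀ {m n : ℕ} (B : Matrix (Fin m) (Fin n) ℤ),
      (B.map (algebraMap ℤ ℤ_[p])).map f = B.map (Int.castRingHom K) := by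
    intro m n B
    ext a b
    simp
  refine NewPoint.eigenvector_eq_zero hD hg hNM hne S hMS chig hchig i hi
    (((Int.castRingHom K).mapMatrix).comp (Q D')) _ (fun ℓ hℓ hℓN hℓM hℓS => ?_)
  have h1 := toMatrix_comp_eq c _ _ (hc ℓ hℓ hℓM hℓN hℓS)
  have h2 := congrArg (fun B : Matrix (Fin (rk D')) (Fin (rk D)) ℤ_[p] => B.map f) h1
  simp only [Matrix.map_mul, hZ] at h2
  show ((Q D' (heckeAlgebra.T hℓ hℓN hℓS)).map (Int.castRingHom K)).mulVec _ = _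
  rw [Matrix.mulVec_mulVec, ← h2, ← Matrix.mulVec_mulVec, hx, Matrix.mulVec_smul]

/-- no vector of the eigenspace is fixed by inertia -/
theorem eq_zero_of_fixed {q : ℕ} (E : NewSq p M S D q)
    (hD : ∀ (p : ℕ) [Fact p.Prime] (N : ℕ) [NeZero N] (S : Finset ℕ), p ∈ S →
      (∀ q : ℕ, q.Prime → q ∣ N → q ∈ S) → Nonempty (HeckeGaloisModule p N (↑S : Set ℕ)))
    {g : CuspForm (Gamma0 M) 2} (hg : g.IsNewform)
    (hMS : ∀ q : ℕ, q.Prime → q ∣ M → q ∈ S)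
    (chig : heckeAlgebra M 2 (↑S : Set ℕ) →+* ℂ)
    (hchig : ∀ (ℓ : ℕ) (hℓ : ℓ.Prime) (hℓM : ¬ ℓ ∣ M) (hℓS : ℓ ∉ (↑S : Set ℕ)),
      chig (heckeAlgebra.T hℓ hℓM hℓS) = qCoeff g ℓ)
    {K : Type*} [Field K] (i : chig.range →+* K) (hi : Function.Injective i)
    (f : ℤ_[p] →+* K) (hf : Function.Injective f)
    {A : ValuationSubring (AlgebraicClosure ℚ)} (hA : A.LiesOverPrime q)
    (x : Fin (rk D) → K)
    (hx : ∀ t, ((Q D t).map (Int.castRingHom K)).mulVec x = i (chig.rangeRestrict t) • x)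
    (hI : ∀ σ ∈ A.inertiaSubgroupIn ℚ, ((P D σ).map f).mulVec x = x) : x = 0 := by
  classical
  let 𝒞 : Set (Fin (rk D) → ℤ_[p]) := {c | (∃ k, c = LinearMap.toMatrix (basp D) (basp E.D') E.a k) ∨
    (∃ k, c = LinearMap.toMatrix (basp D) (basp E.D') E.b k) ∨
    ∃ σ ∈ A.inertiaSubgroupIn ℚ, ∃ k, c = (P D σ - 1) k}
  refine relation_baseChange_set f hf 𝒞 ?_ x ?_
  · intro y hy
    let z := (basp D).equivFun.symm y
    have hz : (basp D).repr z = Finsupp.equivFunOnFinite.symm y := by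
      ext j
      have := congrFun ((basp D).equivFun.apply_symm_apply y) j
      exact this
    have hz' : ((basp D).repr z : Fin (rk D) → ℤ_[p]) = y := by
      ext j
      rw [hz]
      rfl
    have e1 : E.a z = 0 := by
      have h1 := LinearMap.toMatrix_mulVec_repr (basp D) (basp E.D') E.a z
      rw [hz'] at h1
      apply (basp E.D').repr.injective
      ext j
      rw [← congrFun h1 j, map_zero]
      exact hy _ (Or.inl ⟨j, rfl⟩)
    have e2 : E.b z = 0 := by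
      have h1 := LinearMap.toMatrix_mulVec_repr (basp D) (basp E.D') E.b z
      rw [hz'] at h1
      apply (basp E.D').repr.injective
      ext j
      rw [← congrFun h1 j, map_zero]
      exact hy _ (Or.inr (Or.inl ⟨j, rfl⟩))
    have e3 : ∀ σ ∈ A.inertiaSubgroupIn ℚ, D.ρ σ z = z := by
      intro σ hσ
      have h6 := LinearMap.toMatrix_mulVec_repr (basp D) (basp D) (D.ρ σ) z
      have h7 : LinearMap.toMatrix (basp D) (basp D) (D.ρ σ) = P D σ := by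
        rw [P_def]
        rfl
      rw [hz', h7] at h6
      have h8 : (P D σ - 1).mulVec y = 0 := by
        ext k
        exact hy _ (Or.inr (Or.inr ⟨σ, hσ, k, rfl⟩))
      rw [Matrix.sub_mulVec, Matrix.one_mulVec, sub_eq_zero] at h8
      apply (basp D).repr.injective
      ext j
      have h9 := congrFun h6 j
      rw [h8] at h9
      rw [← h9, hz]
      rfl
    have e4 := E.inert A hA z e1 e2 e3
    rw [← hz', e4, map_zero]
    rfl
  · intro c hc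
    have h1 := killed_of_new hD hg hMS chig hchig E.dvd E.ne E.D' i hi f E.a E.a_hecke x hx
    have h2 := killed_of_new hD hg hMS chig hchig E.dvd E.ne E.D' i hi f E.b E.b_hecke x hx
    rcases hc with ⟨k, rfl⟩ | ⟨k, rfl⟩ | ⟨σ, hσ, k, rfl⟩
    · exact congrFun h1 k
    · exact congrFun h2 k
    · have h3 := hI σ hσ
      have h4 : (((P D σ - 1).map f).mulVec x) = 0 := by
        rw [Matrix.map_sub _ (map_sub f), Matrix.map_one _ (map_zero _) (map_one _),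
          Matrix.sub_mulVec, Matrix.one_mulVec, h3, sub_self]
      exact congrFun h4 k

end

/-- **S36**, from modules with degeneracy data. -/
theorem S36_of_modules
    (hD : ∀ (p : ℕ) [Fact p.Prime] (N : ℕ) [NeZero N] (S : Finset ℕ), p ∈ S →
      (∀ q : ℕ, q.Prime → q ∣ N → q ∈ S) → Nonempty (HeckeGaloisModule p N (↑S : Set ℕ)))
    (hE : ∀ (p : ℕ) [Fact p.Prime] (M : ℕ) [NeZero M] (S : Finset ℕ), p ∈ S →
      (∀ q : ℕ, q.Prime → q ∣ M → q ∈ S) → ∃ D : HeckeGaloisModule p M (↑S : Set ℕ),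
        ∀ q : ℕ, q.Prime → q ≠ p → M.factorization q = 2 → Nonempty (NewSq p M S D q))
    {M : ℕ} [NeZero M] {g : CuspForm (CongruenceSubgroup.Gamma0 M) 2} (hg : g.IsNewform)
    (lam : ℕ) [Fact lam.Prime]
    (S : Finset ℕ)
    (O' : Type) [CommRing O'] [IsDomain O'] [IsDiscreteValuationRing O']
    [IsAdicComplete (IsLocalRing.maximalIdeal O') O'] [Finite (IsLocalRing.ResidueField O')]
    [CharZero O'] (hlamO' : (lam : O') ∈ IsLocalRing.maximalIdeal O')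
    (chig : CuspForm.heckeAlgebra M 2 (↑S : Set ℕ) →+* ℂ)
    (hchig : ∀ (ℓ : ℕ) (hℓ : ℓ.Prime) (hℓM : ¬ ℓ ∣ M) (hℓS : ℓ ∉ (↑S : Set ℕ)),
      chig (CuspForm.heckeAlgebra.T hℓ hℓM hℓS) = ModularFormClass.qCoeff g ℓ)
    (iota : chig.range →+* O')
    (hlamS : lam ∈ S) (hMS : ∀ q : ℕ, q.Prime → q ∣ M → q ∈ S) :
    ∃ (O'' : Type) (_ : CommRing O'') (_ : IsDomain O'') (_ : IsDiscreteValuationRing O'')
      (_ : IsAdicComplete (IsLocalRing.maximalIdeal O'') O'') (_ : Finite (IsLocalRing.ResidueField O''))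
      (_ : CharZero O'') (_ : Algebra O' O'') (_ : Module.Finite O' O'') (_ : IsLocalHom (algebraMap O' O'')),
      Function.Injective (algebraMap O' O'') ∧
      ∃ ρ : GaloisRepAdic O'',
        (∀ (ℓ : ℕ) (hℓ : ℓ.Prime) (hℓM : ¬ ℓ ∣ M) (hℓS : ℓ ∉ (↑S : Set ℕ)),
          ∀ A : ValuationSubring (AlgebraicClosure ℚ), A.LiesOverPrime ℓ →
            ∀ σ : AlgebraicClosure ℚ ≃ₐ[ℚ] AlgebraicClosure ℚ, A.IsFrobeniusAt σ ℓ →
              LinearMap.charpoly (ρ.ρ σ) =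
                X ^ 2 - C (algebraMap O' O'' ((iota.comp chig.rangeRestrict) (CuspForm.heckeAlgebra.T hℓ hℓM hℓS))) * X
                  + C ((ℓ : O''))) ∧
        (∀ q : ℕ, q.Prime → q ≠ lam → M.factorization q = 2 → ¬ ρ.IsUnipotentOnInertiaAt q) := by
  classical
  obtain ⟨D, hDq⟩ := hE lam M S hlamS hMS
  let χ : heckeAlgebra M 2 (↑S : Set ℕ) →+* O' := iota.comp chig.rangeRestrict
  obtain ⟨Λ, i1, i2, i3, i4, i5, ρ, hcont, hfrob, f, hf, j, hj0, hjQ, hjρ⟩ :=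
    exists_lattice_rep_emb D O' hlamO' χ
  let a : ℕ → O' := fun ℓ => if h : ℓ.Prime ∧ ¬ ℓ ∣ M ∧ ℓ ∉ (↑S : Set ℕ) then
    χ (CuspForm.heckeAlgebra.T h.1 h.2.1 h.2.2) else 0
  have ha : ∀ (ℓ : ℕ) (hℓ : ℓ.Prime) (hℓN : ¬ ℓ ∣ M) (hℓS : ℓ ∉ (↑S : Set ℕ)),
      a ℓ = χ (CuspForm.heckeAlgebra.T hℓ hℓN hℓS) := fun ℓ hℓ hℓN hℓS =>
    dif_pos ⟨hℓ, hℓN, hℓS⟩
  obtain ⟨O₂, j1, j2, j3, j4, j5, j6, j7, j8, j9, hinj, ρ', t, ht, hchar, h1, h2⟩ :=
    exists_galoisRepAdic_strong lam O' hlamO' Λ ρ hcont S hlamS a (by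
      intro ℓ hℓ hℓS A hA τ hτ
      have hℓN : ¬ ℓ ∣ M := fun h => hℓS (hMS ℓ hℓ h)
      have hℓS' : ℓ ∉ (↑S : Set ℕ) := fun h => hℓS (Finset.mem_coe.mp h)
      rw [ha ℓ hℓ hℓN hℓS']
      exact hfrob ℓ hℓ hℓN hℓS' (fun e => hℓS (e ▸ hlamS)) A hA τ hτ)
  refine ⟨O₂, j1, j2, j3, j4, j5, j6, j7, j8, j9, hinj, ρ', ?_, ?_⟩
  · intro ℓ hℓ hℓN hℓS A hA σ hσ
    rw [h1 ℓ hℓ (fun h => hℓS (Finset.mem_coe.mpr h)) A hA σ hσ, ha ℓ hℓ hℓN hℓS]
  · intro q hq hqlam hq2 huni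
    obtain ⟨E⟩ := hDq q hq hqlam hq2
    obtain ⟨A, hA⟩ := Frob.exists_liesOverPrime (AlgebraicClosure ℚ) hq
    -- injectivity of `iota`
    have hiota : Function.Injective iota := by
      have hfin := Period.finite_heckeAlgebra M 2 (↑S : Set ℕ)
      have hR : Module.Finite ℤ chig.range :=
        Module.Finite.of_surjective (chig.rangeRestrict.toIntAlgHom.toLinearMap)
          chig.rangeRestrict_surjective
      have hint : Algebra.IsIntegral ℤ chig.range := inferInstance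
      rw [RingHom.injective_iff_ker_eq_bot]
      apply Ideal.eq_bot_of_comap_eq_bot (R := ℤ)
      rw [eq_bot_iff]
      intro n hn
      rw [Ideal.mem_comap, RingHom.mem_ker] at hn
      rw [Ideal.mem_bot]
      have h1 : ((n : ℤ) : O') = 0 := by simpa using hn
      exact_mod_cast h1
    let i : chig.range →+* FractionRing O' := (algebraMap O' (FractionRing O')).comp iota
    have hi : Function.Injective i := (IsFractionRing.injective O' (FractionRing O')).comp hiota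
    -- inertia is unipotent
    have hun : ∀ σ ∈ A.inertiaSubgroupIn ℚ, (ρ σ - 1) * (ρ σ - 1) = 0 := by
      intro σ hσ
      have h3 := huni A hA σ hσ
      have hc := hchar σ
      rw [h3] at hc
      have hc1 := congrArg (fun P : Polynomial O₂ => P.coeff 1) hc
      have hc0 := congrArg (fun P : Polynomial O₂ => P.coeff 0) hc
      have e : (X - 1 : Polynomial O₂) ^ 2 = X ^ 2 - C 2 * X + C 1 := by
        rw [C_1, show (C (2 : O₂)) = 2 from rfl]
        ring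
      rw [e] at hc1 hc0
      simp only [coeff_add, coeff_sub, coeff_C_mul, coeff_X_pow, coeff_X_one, coeff_C, coeff_X_zero,
        mul_one, mul_zero, sub_zero, zero_add] at hc1 hc0
      simp only [one_ne_zero, if_false, add_zero, show ¬ (1 = 2) by decide, zero_sub, neg_inj,
        if_true, show ¬ (0 = 2) by decide, zero_add] at hc1 hc0
      have ht2 : t σ = 2 := hinj (by rw [← hc1, map_ofNat])
      have hcy : cyc lam O' hlamO' σ = 1 := hinj (by rw [← hc0, map_one])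
      have h4 := ht σ
      rw [ht2, hcy, one_smul] at h4
      have h5 : ρ σ⁻¹ * ρ σ = 1 := by rw [← map_mul, inv_mul_cancel, map_one]
      have h6 := congrArg (fun w : Module.End O' Λ => w * ρ σ) h4
      simp only [add_mul, h5, smul_mul_assoc, one_mul] at h6
      have h7 : (ρ σ - 1) * (ρ σ - 1) = ρ σ * ρ σ + 1 - (2 : O') • ρ σ := by
        rw [two_smul]
        noncomm_ring
      rw [h7, h6, sub_self]
    obtain ⟨y, hy0, hy⟩ := exists_fixed ρ (A.inertiaSubgroupIn ℚ) hun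
    apply hy0
    apply hj0
    refine eq_zero_of_fixed E hD hg hMS chig hchig i hi f hf hA (j y) (fun t => hjQ y t)
      fun σ hσ => ?_
    rw [hjρ, hy σ hσ]

end Fermat.Agent.Car
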