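import Fermat.Agent.Car.PenX

/-!
# Project CAR: the Frobenius structure of the pencil of `X₀(N q²)`
-/

set_option autoImplicit false
set_option linter.unusedSectionVars false

noncomputable section

open AlgebraicCurve Module IntermediateField ModularCurve HahnSeries

namespace Fermat.Agent.Car

open Fermat.Agent.FunField Fermat.Agent.FunField.PlaceLemmas Fermat.Agent.Deuring
  Fermat.Agent.BadRed Fermat.Agent.HeckeRed Fermat.Agent.ModPoly Fermat.Agent.Igusa

section OverQb

local notation "Qb" => AlgebraicClosure ℚ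

variable {A : ValuationSubring Qb}
  {κ : Type*} [Field κ] [IsAlgClosed κ] {π : A →+* κ} [IsLocalHom π]
  (hπ : Function.Surjective π) (harch : ArchA π)
  {N q : ℕ} [hq : Fact q.Prime] [hN : NeZero N] [CharP κ q] {hqN : ¬ q ∣ N}
  (hA : A.LiesOverPrime q)
  (hg : genusFF κ (modularFunctionFieldFullC κ N) =
    genusFF Qb (modularFunctionFieldFullC Qb N))
  (d : CP.DecAut A π) (hd : CP.IsFrob d q)
  {v : Qbˣ} {hv : IsPrimitiveRoot v q}
  {S : Sys Qb κ (modularFunctionFieldFullC Qb (N * q * q)) (modularFunctionFieldFullC κ N)}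

theorem pen_E_eq : (CP.pen A π hπ harch N q hqN hg d hd).E =
    poleDiv ((CP.pen A π hπ harch N q hqN hg d hd).t : modularFunctionFieldFullC Qb (N * q)) := by
  ext w
  rw [(CP.pen A π hπ harch N q hqN hg d hd).hE, poleDiv_apply, max_comm]

theorem pen_Eb_eq : (CP.pen A π hπ harch N q hqN hg d hd).Eb =
    poleDiv (CP.pen A π hπ harch N q hqN hg d hd).tb := by
  ext w
  rw [(CP.pen A π hπ harch N q hqN hg d hd).hEb, poleDiv_apply, max_comm]

include hA in
/-- rational lifts at level `N q` -/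
theorem exists_rat_ER {m : ℕ} {x y : modularFunctionFieldFullC κ N}
    (h : (x, y) ∈ (twoVal A π hπ harch N q hqN).toRData.red
      (riemannRochSpace (m • (CP.pen A π hπ harch N q hqN hg d hd).E))) :
    ∃ f : modularFunctionFieldFullC Qb (N * q), f ∈ fixF (IΓ A (N * q)) ∧
      f ∈ riemannRochSpace (m • (CP.pen A π hπ harch N q hqN hg d hd).E) ∧
      (twoVal A π hπ harch N q hqN).V₁.ER f x ∧ (twoVal A π hπ harch N q hqN).V₂.ER f y := by
  have h0 : (x, y) ∈ (CP.pen A π hπ harch N q hqN hg d hd).Tr 0 m := by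
    show _ ∈ (twoVal A π hπ harch N q hqN).toRData.red _
    rw [add_zero]
    exact h
  obtain ⟨f, h1, h2, h3⟩ := (RQ π hπ harch N q hqN hA hg d hd).rat.rat 0
    ((RQ π hπ harch N q hqN hA hg d hd).𝒟.zero_mem) m _ h0
  have h4 := (twoVal A π hπ harch N q hqN).ER_of_O f
  rw [h3] at h4
  rw [add_zero] at h2
  exact ⟨f, h1, h2, h4.1, h4.2⟩

/-- **The Frobenius structure.** -/
def frobX (hS : IsGaussSys hqN π hv S) (hΓ : S.Γ = IΓ A (N * q * q)) :
    Frob (penX hπ harch hg d hd hS hΓ) q where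
  Fr := CP.frFull κ q N
  φ := (CP.pen A π hπ harch N q hqN hg d hd).φ
  hFr := (CP.pen A π hπ harch N q hqN hg d hd).hFr
  hφ m a := by
    have h1 : (penX hπ harch hg d hd hS hΓ).Eb 0 = (CP.pen A π hπ harch N q hqN hg d hd).Eb :=
      (pen_Eb_eq hπ harch hg d hd).symm
    rw [h1]
    exact (CP.pen A π hπ harch N q hqN hg d hd).hφ m a
  lvl m x hx := by
    have h1 : (penX hπ harch hg d hd hS hΓ).Eb 0 = (CP.pen A π hπ harch N q hqN hg d hd).Eb :=
      (pen_Eb_eq hπ harch hg d hd).symm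
    rw [h1] at hx
    obtain ⟨m', hm'⟩ := (CP.pen A π hπ harch N q hqN hg d hd).hS1 m x hx
    obtain ⟨f, f1, f2, f3, f4⟩ := exists_rat_ER hπ harch hA hg d hd hm'
    have hf : al Qb N q f ∈ S.FK := by
      show _ ∈ fixF S.Γ
      rw [hΓ]
      exact al_mem_fixF_coef f1
    refine ⟨m', al Qb N q f, ?_, hS.LR_al hπ harch hf f3 f4⟩
    rw [pen_E_eq] at f2
    exact map_mem_rr (al Qb N q) f2
  lvl' m x hx := by
    have h1 : (penX hπ harch hg d hd hS hΓ).Eb 0 = (CP.pen A π hπ harch N q hqN hg d hd).Eb :=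
      (pen_Eb_eq hπ harch hg d hd).symm
    rw [h1] at hx
    obtain ⟨m', hm'⟩ := (CP.pen A π hπ harch N q hqN hg d hd).hS2 m x hx
    obtain ⟨f, f1, f2, f3, f4⟩ := exists_rat_ER hπ harch hA hg d hd hm'
    have hf : be Qb N q f ∈ S.FK := by
      show _ ∈ fixF S.Γ
      rw [hΓ]
      exact be_mem_fixF_coef f1
    have hLR := hS.LR_be hπ harch hf f3 f4
    rcases eq_or_ne f 0 with rfl | hf0
    · refine ⟨0, be Qb N q 0, ?_, hLR⟩
      rw [map_zero]
      exact Submodule.zero_mem _
    have hbf : be Qb N q f ≠ 0 := by rwa [Ne, map_eq_zero]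
    have ht : (penX hπ harch hg d hd hS hΓ).t = jF Qb (N * q * q) * CP.jrF Qb (N * q) q :=
      al_pen_t hπ harch hg d hd
    have key : ∀ w : Place Qb (modularFunctionFieldFullC Qb (N * q * q)),
        0 ≤ w.ord (penX hπ harch hg d hd hS hΓ).t → 0 ≤ w.ord (be Qb N q f) := by
      intro w hw
      have h2 := (ord_of_t N q hqN ht w hw).2
      have e1 : be Qb N q (jF Qb (N * q)) = CP.jrF Qb (N * q) q :=
        Subtype.ext (coe_be Qb N q _)
      rw [← e1] at h2
      have h3 : 0 ≤ (w.restrictAlong (be Qb N q) (HeckeRed.isIntegral_of_isFF _)).ord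
          (jF Qb (N * q)) := by
        by_contra hcon
        push Not at hcon
        have := (ord_neg_iff_along (be Qb N q) (HeckeRed.isIntegral_of_isFF _)
          (jF Qb (N * q)) w).mpr hcon
        omega
      have h4 : 0 ≤ (w.restrictAlong (be Qb N q) (HeckeRed.isIntegral_of_isFF _)).ord f := by
        have h5 := (jrF_pole_iff (L := Qb) N q hqN
          (w.restrictAlong (be Qb N q) (HeckeRed.isIntegral_of_isFF _))).not.mpr
          (not_lt.mpr h3)
        have h6 : 0 ≤ (w.restrictAlong (be Qb N q) (HeckeRed.isIntegral_of_isFF _)).ord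
            ((CP.pen A π hπ harch N q hqN hg d hd).t :
              modularFunctionFieldFullC Qb (N * q)) := by
          rw [CP.pen_t]
          have hj0 : jF Qb (N * q) ≠ 0 := by
            intro h
            exact HeckeRed.transcendental_jF Qb (N * q) (by rw [h]; exact isAlgebraic_zero)
          have hj1 : CP.jrF Qb N q ≠ 0 := by
            intro h
            have h7 : ww Qb N q hqN (jF Qb (N * q)) = CP.jrF Qb N q := CP.w_jF
            rw [h, map_eq_zero] at h7
            exact hj0 h7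
          rw [Place.ord_mul _ hj0 hj1]
          omega
        have h7 := (mem_rr_of_ne hf0).mp f2
          (w.restrictAlong (be Qb N q) (HeckeRed.isIntegral_of_isFF _))
        rw [Finsupp.smul_apply, (CP.pen A π hπ harch N q hqN hg d hd).hE,
          max_eq_left (by omega), smul_zero] at h7
        omega
      by_contra hcon
      push Not at hcon
      have := (ord_neg_iff_along (be Qb N q) (HeckeRed.isIntegral_of_isFF _) f w).mp hcon
      omega
    obtain ⟨c, hc⟩ := LLu.exists_mem_rr_poleDiv (K := Qb)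
      (t := (penX hπ harch hg d hd hS hΓ).t) hbf key
    exact ⟨c, be Qb N q f, hc c le_rfl, hLR⟩

/-- the pencil is `j(τ) j(qτ)` -/
theorem isJPen_penX (hS : IsGaussSys hqN π hv S) (hΓ : S.Γ = IΓ A (N * q * q)) :
    IsJPen (penX hπ harch hg d hd hS hΓ) where
  t_eq := al_pen_t hπ harch hg d hd
  Eb0 w := by
    have h1 : (penX hπ harch hg d hd hS hΓ).Eb 0 = (CP.pen A π hπ harch N q hqN hg d hd).Eb :=
      (pen_Eb_eq hπ harch hg d hd).symm
    rw [h1]
    exact Eb_iff π hπ harch N q hqN hg d hd w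

variable (ι : Qb →+* ℂ)

/-- **The units.** -/
def unitsX (hS : IsGaussSys hqN π hv S) (hΓ : S.Γ = IΓ A (N * q * q)) :
    Units (penX hπ harch hg d hd hS hΓ) q :=
  unitsOf ι hqN π hπ harch hv hS (isJPen_penX hπ harch hg d hd hS hΓ)
    (by show _ ∈ fixF S.Γ; rw [hΓ]; exact au_mem_fixF ι N q (inertΓ A))
    (by show _ ∈ fixF S.Γ; rw [hΓ]; exact bu_mem_fixF ι N q (inertΓ A))

theorem unitsX_o (hS : IsGaussSys hqN π hv S) (hΓ : S.Γ = IΓ A (N * q * q)) :
    (unitsX hπ harch hg d hd ι hS hΓ).o = oDiv κ N q (ubr ι A π hπ harch N q hqN) := rfl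

theorem unitsX_hub (hS : IsGaussSys hqN π hv S) (hΓ : S.Γ = IΓ A (N * q * q)) :
    ∀ w, (penX hπ harch hg d hd hS hΓ).Eb 0 w = 0 →
      w.ord (ubr ι A π hπ harch N q hqN) = (unitsX hπ harch hg d hd ι hS hΓ).o w := fun w hw =>
  (oDiv_off rfl w (not_lt.mp fun h =>
    ((isJPen_penX hπ harch hg d hd hS hΓ).Eb0 w).mpr h hw)).symm

theorem frobX_ub (hS : IsGaussSys hqN π hv S) (hΓ : S.Γ = IΓ A (N * q * q)) :
    (frobX hπ harch hA hg d hd hS hΓ).φ (ubr ι A π hπ harch N q hqN) =
      ubr ι A π hπ harch N q hqN := by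
  apply Subtype.ext
  show (((CP.pen A π hπ harch N q hqN hg d hd).φ (ubr ι A π hπ harch N q hqN) :
    modularFunctionFieldFullC κ N) : LaurentSeries κ) = MzCusp.uL κ q
  rw [CP.pen_φ, coe_ubr, MzCusp.coeffMap_uL]

/-- **The genus relation.** -/
theorem unitsX_hgen (h4 : 4 ∣ N ∨ 9 ∣ N) (hS : IsGaussSys hqN π hv S)
    (hΓ : S.Γ = IΓ A (N * q * q)) :
    12 * (1 - (genusFF Qb (modularFunctionFieldFullC Qb (N * q * q)) : ℤ)) =
      (q + 1) * (12 * (1 - (genusFF κ (modularFunctionFieldFullC κ N) : ℤ)) -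
        Divisor.degree (unitsX hπ harch hg d hd ι hS hΓ).o) :=
  hgen_of (ub := ubr ι A π hπ harch N q hqN) rfl ι h4 hqN hg

end OverQb

end Fermat.Agent.Car
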