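import Fermat.Agent.Car.Defs
import Fermat.Agent.BadRed.Multi

/-!
# Calculus of Gauss residues; discrete valuations from embeddings into Laurent series
-/

set_option autoImplicit false
set_option linter.unusedSectionVars false

noncomputable section

open AlgebraicCurve Module ModularCurve HahnSeries

namespace Fermat.Agent.Car

open Fermat.Agent.Igusa Fermat.Agent.BadRed

section GR

variable {L : Type*} [Field L] (A : ValuationSubring L) {κ : Type*} [Field κ] (π : A →+* κ)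

/-- `y` is in the Gauss ring and has residue `b` -/
def GR (y : LaurentSeries L) (b : LaurentSeries κ) : Prop :=
  ∃ h : y ∈ gaussRing A π, gaussRes A π ⟨y, h⟩ = b

variable {A π} {x y : LaurentSeries L} {a b : LaurentSeries κ}

theorem GR.mem (h : GR A π y b) : y ∈ gaussRing A π := h.1

theorem GR.of_mem (h : y ∈ gaussRing A π) : GR A π y (gaussRes A π ⟨y, h⟩) := ⟨h, rfl⟩

theorem GR.unique (h : GR A π y a) (h' : GR A π y b) : a = b := by
  obtain ⟨h1, rfl⟩ := h
  obtain ⟨h2, rfl⟩ := h'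
  rfl

theorem GR.congr (h : GR A π x a) (h1 : x = y) (h2 : a = b) : GR A π y b := by
  subst h1 h2
  exact h

theorem GR.add (h : GR A π x a) (h' : GR A π y b) : GR A π (x + y) (a + b) := by
  obtain ⟨h1, rfl⟩ := h
  obtain ⟨h2, rfl⟩ := h'
  refine ⟨(gaussRing A π).add_mem h1 h2, ?_⟩
  rw [← map_add]
  exact congrArg _ (Subtype.ext (Subring.coe_add (gaussRing A π) ⟨x, h1⟩ ⟨y, h2⟩).symm)

theorem GR.mul (h : GR A π x a) (h' : GR A π y b) : GR A π (x * y) (a * b) := by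
  obtain ⟨h1, rfl⟩ := h
  obtain ⟨h2, rfl⟩ := h'
  refine ⟨(gaussRing A π).mul_mem h1 h2, ?_⟩
  rw [← map_mul]
  exact congrArg _ (Subtype.ext (Subring.coe_mul (gaussRing A π) ⟨x, h1⟩ ⟨y, h2⟩).symm)

theorem GR.neg (h : GR A π x a) : GR A π (-x) (-a) := by
  obtain ⟨h1, rfl⟩ := h
  refine ⟨(gaussRing A π).neg_mem h1, ?_⟩
  rw [← map_neg]
  exact congrArg _ (Subtype.ext (Subring.coe_neg (gaussRing A π) ⟨x, h1⟩).symm)

theorem GR.sub (h : GR A π x a) (h' : GR A π y b) : GR A π (x - y) (a - b) := by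
  rw [sub_eq_add_neg, sub_eq_add_neg]
  exact h.add h'.neg

theorem GR.one : GR A π (1 : LaurentSeries L) 1 :=
  ⟨(gaussRing A π).one_mem, (congrArg _ (Subtype.ext rfl)).trans (map_one (gaussRes A π))⟩

theorem GR.zero : GR A π (0 : LaurentSeries L) 0 :=
  ⟨(gaussRing A π).zero_mem, (congrArg _ (Subtype.ext rfl)).trans (map_zero (gaussRes A π))⟩

theorem GR.pow (h : GR A π x a) (n : ℕ) : GR A π (x ^ n) (a ^ n) := by
  obtain ⟨h1, rfl⟩ := h
  refine ⟨(gaussRing A π).pow_mem h1 n, ?_⟩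
  rw [← map_pow]
  exact congrArg _ (Subtype.ext (SubmonoidClass.coe_pow (⟨x, h1⟩ : gaussRing A π) n).symm)

theorem GR.ne_zero (h : GR A π x a) (ha : a ≠ 0) : x ≠ 0 := by
  rintro rfl
  exact ha (h.unique GR.zero)

theorem GR.inv (h : GR A π x a) (ha : a ≠ 0) : GR A π x⁻¹ a⁻¹ := by
  obtain ⟨h1, rfl⟩ := h
  have h2 : x⁻¹ ∈ gaussRing A π := inv_mem_gauss A π h1 ha
  refine ⟨h2, ?_⟩
  apply eq_inv_of_mul_eq_one_left
  have hx : x ≠ 0 := GR.ne_zero ⟨h1, rfl⟩ ha
  have h3 : (⟨x⁻¹, h2⟩ : gaussRing A π) * ⟨x, h1⟩ = 1 := Subtype.ext (inv_mul_cancel₀ hx)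
  rw [← map_mul, h3, map_one]

theorem GR.zpow (h : GR A π x a) (ha : a ≠ 0) (n : ℤ) : GR A π (x ^ n) (a ^ n) := by
  obtain ⟨d, rfl | rfl⟩ := n.eq_nat_or_neg
  · rw [zpow_natCast, zpow_natCast]
    exact h.pow d
  · rw [zpow_neg, zpow_neg, zpow_natCast, zpow_natCast]
    exact (h.pow d).inv (pow_ne_zero _ ha)

theorem GR.div (h : GR A π x a) (h' : GR A π y b) (hb : b ≠ 0) : GR A π (x / y) (a / b) := by
  rw [div_eq_mul_inv, div_eq_mul_inv]
  exact h.mul (h'.inv hb)

theorem GR.emb (P : LaurentSeries A) : GR A π (coeffMap A.subtype P) (coeffMap π P) :=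
  ⟨emb_mem_gaussRing P, gaussRes_emb P⟩

theorem coeffMap_algebraMap' {R S : Type*} [Field R] [Field S] (f : R →+* S) (c : R) :
    coeffMap f (algebraMap R (LaurentSeries R) c) = algebraMap S (LaurentSeries S) (f c) := by
  ext n
  rw [coeffMap_coeff]
  rcases eq_or_ne n 0 with rfl | hn
  · simp [HahnSeries.algebraMap_apply', LaurentSeries]
  · simp [HahnSeries.algebraMap_apply', HahnSeries.coeff_single_of_ne hn]

/-- constants -/
theorem GR.cst (a : A) : GR A π (algebraMap L (LaurentSeries L) (a : L))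
    (algebraMap κ (LaurentSeries κ) (π a)) := by
  have h1 : coeffMap A.subtype ((HahnSeries.C : A →+* LaurentSeries A) a) =
      algebraMap L (LaurentSeries L) (a : L) := by
    ext n
    rw [coeffMap_coeff]
    rcases eq_or_ne n 0 with rfl | hn
    · simp [HahnSeries.algebraMap_apply', LaurentSeries]
    · simp [HahnSeries.algebraMap_apply', HahnSeries.coeff_single_of_ne hn]
  have h2 : coeffMap π ((HahnSeries.C : A →+* LaurentSeries A) a) =
      algebraMap κ (LaurentSeries κ) (π a) := by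
    ext n
    rw [coeffMap_coeff]
    rcases eq_or_ne n 0 with rfl | hn
    · simp [HahnSeries.algebraMap_apply', LaurentSeries]
    · simp [HahnSeries.algebraMap_apply', HahnSeries.coeff_single_of_ne hn]
  exact (GR.emb _).congr h1 h2

theorem GR.sum {ι : Type*} (s : Finset ι) {x : ι → LaurentSeries L} {a : ι → LaurentSeries κ}
    (h : ∀ i ∈ s, GR A π (x i) (a i)) : GR A π (∑ i ∈ s, x i) (∑ i ∈ s, a i) := by
  classical
  induction s using Finset.induction_on with
  | empty => simpa using GR.zero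
  | insert i s hi ih =>
    rw [Finset.sum_insert hi, Finset.sum_insert hi]
    exact (h i (Finset.mem_insert_self i s)).add
      (ih fun j hj => h j (Finset.mem_insert_of_mem hj))

end GR

section RvPsi

variable {L : Type*} [Field L] {A : ValuationSubring L} {κ : Type*} [Field κ] {π : A →+* κ}
  {F : Type*} [Field F] [Algebra L F] {Γ : Set (SemilinearAut L F)}
  (ψ : F →ₐ[L] LaurentSeries L) (E₁ : IntermediateField κ (LaurentSeries κ))
  (ε : F) (hεf : ε ∈ fixF Γ) (hε0 : ε ≠ 0) (hε : GR A π (ψ ε) 0)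
  (hmem : ∀ f ∈ fixF Γ, ∀ h : ψ f ∈ gaussRing A π, gaussRes A π ⟨ψ f, h⟩ ∈ E₁)
  (hscale : ∀ f ∈ fixF Γ, f ≠ 0 → ∃ (n : ℤ) (b : LaurentSeries κ), b ≠ 0 ∧
    GR A π (ψ (ε ^ (-n) * f)) b)

/-- **The discrete valuation attached to an embedding `ψ : F → L((X))`.** -/
def rvPsi : RV (fixF Γ) E₁ where
  O := (gaussRing A π).comap ψ.toRingHom ⊓ (fixF Γ).toSubring
  r :=
    { toFun := fun f => ⟨gaussRes A π ⟨ψ (f : F), f.2.1⟩, hmem _ f.2.2 f.2.1⟩
      map_one' := by
        apply Subtype.ext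
        have h : (⟨ψ ((1 : ((gaussRing A π).comap ψ.toRingHom ⊓ (fixF Γ).toSubring : Subring F)) : F),
          (1 : ((gaussRing A π).comap ψ.toRingHom ⊓ (fixF Γ).toSubring : Subring F)).2.1⟩ :
            gaussRing A π) = 1 := Subtype.ext (map_one ψ)
        show gaussRes A π _ = 1
        rw [h, map_one]
      map_mul' := fun f g => by
        apply Subtype.ext
        have h : (⟨ψ ((f * g : ((gaussRing A π).comap ψ.toRingHom ⊓ (fixF Γ).toSubring :
          Subring F)) : F), (f * g).2.1⟩ : gaussRing A π) =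
            ⟨ψ (f : F), f.2.1⟩ * ⟨ψ (g : F), g.2.1⟩ := Subtype.ext (map_mul ψ (f : F) (g : F))
        show gaussRes A π _ = _
        rw [h, map_mul]
        rfl
      map_zero' := by
        apply Subtype.ext
        have h : (⟨ψ ((0 : ((gaussRing A π).comap ψ.toRingHom ⊓ (fixF Γ).toSubring : Subring F)) : F),
          (0 : ((gaussRing A π).comap ψ.toRingHom ⊓ (fixF Γ).toSubring : Subring F)).2.1⟩ :
            gaussRing A π) = 0 := Subtype.ext (map_zero ψ)
        show gaussRes A π _ = 0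
        rw [h, map_zero]
      map_add' := fun f g => by
        apply Subtype.ext
        have h : (⟨ψ ((f + g : ((gaussRing A π).comap ψ.toRingHom ⊓ (fixF Γ).toSubring :
          Subring F)) : F), (f + g).2.1⟩ : gaussRing A π) =
            ⟨ψ (f : F), f.2.1⟩ + ⟨ψ (g : F), g.2.1⟩ := Subtype.ext (map_add ψ (f : F) (g : F))
        show gaussRes A π _ = _
        rw [h, map_add]
        rfl }
  ε := ε
  le_FK _ hf := hf.2
  ε_mem := ⟨hε.mem, hεf⟩
  ε_ne := hε0
  res_ε := Subtype.ext (GR.unique ⟨hε.mem, rfl⟩ hε)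
  unif f hf hf0 := by
    obtain ⟨n, b, hb, h⟩ := hscale f hf hf0
    refine ⟨n, ⟨h.mem, (fixF Γ).mul_mem (zpow_mem hεf _) hf⟩, ?_⟩
    intro h0
    apply hb
    have h1 : gaussRes A π ⟨ψ (ε ^ (-n) * f), h.mem⟩ = 0 := congrArg Subtype.val h0
    exact h.unique ⟨h.mem, h1⟩
  inv f h hr := by
    have hr' : gaussRes A π ⟨ψ f, h.1⟩ ≠ 0 := fun h0 => hr (Subtype.ext h0)
    refine ⟨?_, (fixF Γ).inv_mem h.2⟩
    have h2 : GR A π (ψ f)⁻¹ _ := GR.inv ⟨h.1, rfl⟩ hr'
    show ψ f⁻¹ ∈ gaussRing A π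
    rw [map_inv₀]
    exact h2.mem

theorem rvPsi_LR {n : ℤ} {f : F} {a : E₁} :
    (rvPsi ψ E₁ ε hεf hε0 hε hmem hscale).LR n f a ↔
      f ∈ fixF Γ ∧ GR A π (ψ (ε ^ (-n) * f)) (a : LaurentSeries κ) := by
  constructor
  · intro h
    refine ⟨h.mem_FK, ?_⟩
    obtain ⟨h1, h2⟩ := h
    exact ⟨h1.1, congrArg Subtype.val h2⟩
  · rintro ⟨hf, h1, h2⟩
    exact ⟨⟨h1, (fixF Γ).mul_mem (zpow_mem hεf _) hf⟩, Subtype.ext h2⟩

theorem rvPsi_LR_zero {f : F} {a : E₁} :
    (rvPsi ψ E₁ ε hεf hε0 hε hmem hscale).LR 0 f a ↔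
      f ∈ fixF Γ ∧ GR A π (ψ f) (a : LaurentSeries κ) := by
  rw [rvPsi_LR, neg_zero, zpow_zero, one_mul]

end RvPsi

end Fermat.Agent.Car
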