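import Fermat.Agent.Car.Full
import Fermat.Agent.FunField.AlgClosed

/-!
# Project CAR: gluing data
-/

set_option autoImplicit false
set_option linter.unusedSectionVars false
set_option linter.unusedSimpArgs false

noncomputable section

open AlgebraicCurve Module

namespace Fermat.Agent.Car

open Fermat.Agent.FunField hiding rr_mono mul_mem_rr pow_mem_rr deg_eq_one degree_nonneg
  degree_mono degree_eq_sum
open Fermat.Agent.FunField.PlaceLemmas Fermat.Agent.Deuring Fermat.Agent.BadRed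

variable {L k F F₁ : Type*} [Field L] [Field k] [Field F] [Field F₁] [Algebra L F] [Algebra k F₁]
variable {S : Sys L k F F₁} {p : Pen S} {q : ℕ} (U : Units p q) (Fb : Frob p q)

namespace Frob

theorem Fr_eq (a : F₁) : Fb.Fr a = (Fb.φ.symm a) ^ q := by
  have := Fb.hFr (Fb.φ.symm a)
  rwa [RingEquiv.apply_symm_apply] at this

theorem Fr_Fr_eq (a : F₁) : Fb.Fr (Fb.Fr a) = (Fb.φ.symm (Fb.φ.symm a)) ^ (q * q) := by
  rw [Fb.Fr_eq a, map_pow, Fb.Fr_eq, ← pow_mul]

theorem Fr_mem {m : ℕ} {a : F₁} (ha : a ∈ riemannRochSpace (m • p.Eb 0)) :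
    Fb.Fr a ∈ riemannRochSpace ((q * m) • p.Eb 0) := by
  rw [Fb.Fr_eq, mul_smul]
  apply pow_mem_rr
  rw [← Fb.hφ, RingEquiv.apply_symm_apply]
  exact ha

end Frob

section Slope

variable (hgr : p.Growth)

include hgr in
/-- values of elements with zero residue on the first component -/
theorem slope_one {n : ℕ} (hn : n ≠ 0) (τ : NTors S n) {m : ℕ} {h : F}
    (hh : h ∈ riemannRochSpace (m • p.E + τ.D)) (hge : S.Ge 0 h) (h0 : (S.V 0).LR 0 h 0)
    {i : Fin 3} (hi : i ≠ 0) {a : F₁} (ha : (S.V i).LR 0 h a) (ha0 : a ≠ 0)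
    {z : Place k F₁} (hz : p.Eb 0 z = 0) : U.o z ≤ 12 * z.ord a := by
  have hs : S.Ge (Pi.single 0 1) h := by
    intro j
    by_cases hj : j = 0
    · subst hj
      rw [Pi.single_eq_same]
      exact h0.raise
    · rw [Pi.single_eq_of_ne hj]
      exact hge j
  have hsi : (Pi.single 0 (1 : ℤ) : Fin 3 → ℤ) i = 0 := Pi.single_eq_of_ne hi _
  have h1 := slope_key U hgr hn τ hh hs (i := i) (a := a) (by rw [hsi]; exact ha) ha0 hz
  rw [hsi, mul_zero, zero_mul, add_zero, U.Q_eq] at h1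
  have h2 : U.coef (Pi.single 0 1) i = (q : ℤ) - 1 := by
    have e1 : (Pi.single 0 (1 : ℤ) : Fin 3 → ℤ) 1 = 0 := Pi.single_eq_of_ne (by decide) _
    have e2 : (Pi.single 0 (1 : ℤ) : Fin 3 → ℤ) 2 = 0 := Pi.single_eq_of_ne (by decide) _
    fin_cases i
    · exact absurd rfl hi
    · simp only [Units.coef, Fin.mk_one, Matrix.cons_val_one, Matrix.cons_val_zero,
        Pi.single_eq_same, e1, e2]
      ring
    · simp only [Units.coef, Fin.reduceFinMk, Matrix.cons_val, Pi.single_eq_same, e1, e2]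
      ring
  rw [h2] at h1
  have h3 : (0 : ℤ) < (q : ℤ) - 1 := by
    have : (2 : ℤ) ≤ q := by exact_mod_cast U.two_le
    linarith
  have h4 : ((q : ℤ) - 1) * U.o z ≤ ((q : ℤ) - 1) * (12 * z.ord a) := by linarith
  exact le_of_mul_le_mul_left h4 h3

include U in
theorem Units.Eb_zero_of_pos {z : Place k F₁} (hz : 0 < U.o z) (i : Fin 3) : p.Eb i z = 0 := by
  by_contra h
  have h1 : p.Eb 0 z ≠ 0 := fun h0 => h (p.supp 0 i z h0)
  rw [U.o_cusp z h1] at hz
  exact lt_irrefl _ hz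

include hgr in
/-- Frobenius squared fixes the nodes, first version -/
theorem frobsq_ord {m : ℕ} {y : F₁} (hy : y ∈ riemannRochSpace (m • p.Eb 0))
    (hne : Fb.Fr (Fb.Fr y) - y ≠ 0) {z : Place k F₁} (hz : p.Eb 0 z = 0) :
    U.o z ≤ 12 * z.ord (Fb.Fr (Fb.Fr y) - y) := by
  obtain ⟨m₁, f, hf, h0, h1, h2⟩ := Fb.lvl _ _ (Fb.Fr_mem (Fb.Fr_mem hy))
  obtain ⟨m₂, f', hf', h0', h1', h2'⟩ := Fb.lvl' _ _ hy
  have hd0 := h0.sub h0'
  have hd1 := h1.sub h1'
  have hd2 := h2.sub h2'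
  rw [sub_self] at hd0
  have hmem : f - f' ∈ riemannRochSpace (max m₁ m₂ • p.E + (NTors.zero S 1).D) := by
    rw [NTors.zero_D, add_zero]
    exact Submodule.sub_mem _ (rr_mono (p.E_mono (le_max_left _ _)) hf)
      (rr_mono (p.E_mono (le_max_right _ _)) hf')
  have hge : S.Ge 0 (f - f') := by
    intro j
    fin_cases j
    · exact hd0.ge
    · exact hd1.ge
    · exact hd2.ge
  exact slope_one U hgr one_ne_zero (NTors.zero S 1) hmem hge hd0 (by decide : (1 : Fin 3) ≠ 0)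
    hd1 hne hz

end Slope

section Nodes

variable [IsFF L F] [IsFF k F₁] [HasPrincipalDivisors L F] [HasPrincipalDivisors k F₁]
  [IsAlgClosed k] {g₁ : ℤ} (hRR₁ : RRLarge k F₁ g₁) (hgr : p.Growth) (hF : FullRes U)

include hRR₁ in
/-- uniformizers regular outside the cusps -/
theorem exists_unif_rr {z : Place k F₁} (hz : p.Eb 0 z = 0) :
    ∃ (m : ℕ) (y : F₁), y ∈ riemannRochSpace (m • p.Eb 0) ∧ y ≠ 0 ∧ z.ord y = 1 := by
  classical
  obtain ⟨c, hc⟩ := hRR₁
  obtain ⟨m, hm⟩ : ∃ m : ℕ, c + 2 ≤ m := ⟨(c + 2).toNat, Int.self_le_toNat _⟩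
  have hdeg : (m : ℤ) ≤ Divisor.degree (m • p.Eb 0) := by
    rw [map_nsmul, nsmul_eq_mul]
    have := p.deg_pos 0
    nlinarith [Int.natCast_nonneg m]
  have hz1 : (z.deg : ℤ) = 1 := by rw [deg_eq_one z]; rfl
  have h1 : Divisor.degree (m • p.Eb 0 - Finsupp.single z 1) =
      Divisor.degree (m • p.Eb 0) - 1 := by
    rw [map_sub, Divisor.degree_single, hz1]; ring
  have h2 : Divisor.degree (m • p.Eb 0 - Finsupp.single z 2) =
      Divisor.degree (m • p.Eb 0) - 2 := by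
    rw [map_sub, Divisor.degree_single, hz1]; ring
  obtain ⟨f1, r1⟩ := hc (m • p.Eb 0 - Finsupp.single z 1) (by rw [h1]; linarith)
  obtain ⟨f2, r2⟩ := hc (m • p.Eb 0 - Finsupp.single z 2) (by rw [h2]; linarith)
  rw [h1] at r1
  rw [h2] at r2
  have hle : riemannRochSpace (m • p.Eb 0 - Finsupp.single z 2) ≤
      riemannRochSpace (m • p.Eb 0 - Finsupp.single z 1) := by
    apply rr_mono
    rw [Finsupp.le_def]
    intro v
    rw [Finsupp.sub_apply, Finsupp.sub_apply, Finsupp.single_apply, Finsupp.single_apply]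
    split_ifs <;> omega
  have hne : ¬ riemannRochSpace (m • p.Eb 0 - Finsupp.single z 1) ≤
      riemannRochSpace (m • p.Eb 0 - Finsupp.single z 2) := by
    intro h
    have := le_antisymm h hle
    rw [this] at r1
    omega
  obtain ⟨y, hy1, hy2⟩ := SetLike.not_le_iff_exists.mp hne
  have hy0 : y ≠ 0 := by
    rintro rfl
    exact hy2 (Submodule.zero_mem _)
  refine ⟨m, y, ?_, hy0, ?_⟩
  · refine rr_mono ?_ hy1
    rw [sub_le_self_iff]
    exact single_nonneg z zero_le_one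
  · have e1 := (mem_rr_of_ne hy0).mp hy1
    rw [mem_rr_of_ne hy0] at hy2
    push Not at hy2
    obtain ⟨w, hw⟩ := hy2
    have e1w := e1 w
    rw [Finsupp.sub_apply] at hw e1w
    by_cases hwz : w = z
    · subst hwz
      rw [Finsupp.single_eq_same, Finsupp.smul_apply, hz, smul_zero] at hw e1w
      omega
    · rw [Finsupp.single_eq_of_ne hwz] at hw e1w
      omega

theorem stdσ_zero (π : Equiv.Perm (Fin 3)) : stdσ π 0 = 0 := by
  ext j
  simp [stdσ]

theorem stdσ_one (π : Equiv.Perm (Fin 3)) : stdσ π 1 = Pi.single (π 0) 1 := by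
  rw [stdσ_succ π 0, stdσ_zero, zero_add, stdi_lt π (by norm_num)]
  rfl

include hF in
theorem dvd_o (z : Place k F₁) : (12 : ℤ) ∣ U.o z := by
  have h1 := hF.exact (Equiv.swap 1 2) 1 (by have := U.two_le; omega) z
  have h2 : stdi (Equiv.swap 1 2) 1 = 2 := by
    rw [stdi_lt _ (by norm_num)]
    show Equiv.swap (1 : Fin 3) 2 1 = 2
    rw [Equiv.swap_apply_left]
  have h3 : stdσ (Equiv.swap 1 2) 1 = Pi.single 0 1 := by
    rw [stdσ_one]
    congr 1
  rw [h2, h3, U.numD_apply] at h1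
  have e1 : (Pi.single 0 (1 : ℤ) : Fin 3 → ℤ) 1 = 0 := Pi.single_eq_of_ne (by decide) _
  have e2 : (Pi.single 0 (1 : ℤ) : Fin 3 → ℤ) 2 = 0 := Pi.single_eq_of_ne (by decide) _
  simp only [Units.coef, Matrix.cons_val, Pi.single_eq_same, e1, e2, U.Q_eq] at h1
  have hq : (0 : ℤ) < (q : ℤ) - 1 := by
    have : (2 : ℤ) ≤ q := by exact_mod_cast U.two_le
    linarith
  refine ⟨U.low (Pi.single 0 1) 2 z, ?_⟩
  have h4 : ((q : ℤ) - 1) * U.o z = ((q : ℤ) - 1) * (12 * U.low (Pi.single 0 1) 2 z) := by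
    linarith
  exact mul_left_cancel₀ hq.ne' h4

include U in
/-- Frobenius squared of a function vanishing at a node -/
theorem ord_frobsq {y : F₁} {z : Place k F₁} (h : Fb.Fr (Fb.Fr y) ∈ geSub z 1) :
    Fb.Fr (Fb.Fr y) ∈ geSub z 2 := by
  rw [mem_geSub] at h ⊢
  rcases h with h | h
  · exact Or.inl h
  · right
    rw [Fb.Fr_Fr_eq, ord_pow] at h ⊢
    have h2 : (2 : ℤ) ≤ ((q * q : ℕ) : ℤ) := by
      have := U.two_le
      have h3 : 2 ≤ q * q := by nlinarith
      exact_mod_cast h3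
    by_contra hlt
    push Not at hlt
    have h4 : 0 < z.ord (Fb.φ.symm (Fb.φ.symm y)) := by
      by_contra h5
      push Not at h5
      nlinarith
    nlinarith

include hRR₁ hgr hF Fb in
/-- **the nodes are simple zeros** -/
theorem o_eq_twelve {z : Place k F₁} (hz : 0 < U.o z) : U.o z = 12 := by
  have hz0 := U.Eb_zero_of_pos hz 0
  obtain ⟨m, y, hy, hy0, hord⟩ := exists_unif_rr hRR₁ hz0
  obtain ⟨d, hd⟩ := dvd_o U hF z
  have hy1 : y ∈ geSub z 1 := mem_geSub.mpr (Or.inr hord.ge)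
  have h1 : Fb.Fr (Fb.Fr y) - y ∈ geSub z 1 := by
    rw [mem_geSub]
    by_cases hne : Fb.Fr (Fb.Fr y) - y = 0
    · exact Or.inl hne
    · right
      have := frobsq_ord U Fb hgr hy hne hz0
      omega
  have h2 : Fb.Fr (Fb.Fr y) ∈ geSub z 1 := by
    have := (geSub z 1).add_mem h1 hy1
    rwa [sub_add_cancel] at this
  have h3 := ord_frobsq U Fb h2
  have hne : Fb.Fr (Fb.Fr y) - y ≠ 0 := by
    intro h
    rw [sub_eq_zero] at h
    rw [h, mem_geSub_of_ne hy0] at h3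
    omega
  have h4 := frobsq_ord U Fb hgr hy hne hz0
  have h5 : z.ord (Fb.Fr (Fb.Fr y) - y) ≤ 1 := by
    by_contra hlt
    push Not at hlt
    have h6 : Fb.Fr (Fb.Fr y) - y ∈ geSub z 2 := mem_geSub.mpr (Or.inr (by omega))
    have h7 := (geSub z 2).sub_mem h3 h6
    rw [sub_sub_cancel, mem_geSub_of_ne hy0] at h7
    omega
  omega

include hRR₁ hgr hF in
/-- **nodes are fixed by Frobenius squared** -/
theorem frobsq_sub_mem {z : Place k F₁} (hz : 0 < U.o z) {m : ℕ} {x : F₁}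
    (hx : x ∈ riemannRochSpace (m • p.Eb 0)) : Fb.Fr (Fb.Fr x) - x ∈ geSub z 1 := by
  rw [mem_geSub]
  by_cases hne : Fb.Fr (Fb.Fr x) - x = 0
  · exact Or.inl hne
  · right
    have := frobsq_ord U Fb hgr hx hne (U.Eb_zero_of_pos hz 0)
    have h12 := o_eq_twelve U Fb hRR₁ hgr hF hz
    omega

theorem algebraMap_mem_rr' {D : Divisor k F₁} (hD : 0 ≤ D) (c : k) :
    algebraMap k F₁ c ∈ riemannRochSpace D := by
  rw [Algebra.algebraMap_eq_smul_one]
  exact Submodule.smul_mem _ _ (one_mem_rr hD)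

include hRR₁ hgr hF in
theorem frobsq_const {z : Place k F₁} (hz : 0 < U.o z) {m : ℕ} {x : F₁}
    (hx : x ∈ riemannRochSpace (m • p.Eb 0)) {c : k} (hc : x - algebraMap k F₁ c ∈ geSub z 1) :
    Fb.Fr (Fb.Fr x) - algebraMap k F₁ c ∈ geSub z 2 := by
  have h1 : x - algebraMap k F₁ c ∈ riemannRochSpace (m • p.Eb 0) :=
    Submodule.sub_mem _ hx (algebraMap_mem_rr' (nsmul_nonneg (p.Eb_nonneg 0) m) c)
  have h2 := frobsq_sub_mem U Fb hRR₁ hgr hF hz h1
  have h3 := (geSub z 1).add_mem h2 hc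
  rw [sub_add_cancel] at h3
  have h4 := ord_frobsq U Fb h3
  rwa [map_sub, map_sub, AlgHom.commutes, AlgHom.commutes] at h4

include hRR₁ hgr hF Fb in
/-- **gluing for functions** -/
theorem glue_zero {m : ℕ} {h : F} (hh : h ∈ riemannRochSpace (m • p.E)) {a : Fin 3 → F₁}
    (ha : ∀ i, (S.V i).LR 0 h (a i)) {z : Place k F₁} (hz : 0 < U.o z) (i : Fin 3) :
    a i - a 0 ∈ geSub z 1 := by
  have h12 := o_eq_twelve U Fb hRR₁ hgr hF hz
  have ha0 : a 0 ∈ riemannRochSpace (m • p.Eb 0) :=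
    hgr m 0 ⟨h, hh, fun j => (ha j).ge, ha 0⟩
  obtain ⟨m₁, f, hf, h0, h1, h2⟩ := Fb.lvl _ _ ha0
  have hmem : h - f ∈ riemannRochSpace (max m m₁ • p.E + (NTors.zero S 1).D) := by
    rw [NTors.zero_D, add_zero]
    exact Submodule.sub_mem _ (rr_mono (p.E_mono (le_max_left _ _)) hh)
      (rr_mono (p.E_mono (le_max_right _ _)) hf)
  have hd0 := (ha 0).sub h0
  have hd1 := (ha 1).sub h1
  have hd2 := (ha 2).sub h2
  rw [sub_self] at hd0
  have hge : S.Ge 0 (h - f) := by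
    intro j
    fin_cases j
    · exact hd0.ge
    · exact hd1.ge
    · exact hd2.ge
  have key : ∀ {i : Fin 3} (_ : i ≠ 0) {b : F₁} (_ : (S.V i).LR 0 (h - f) b), b ∈ geSub z 1 := by
    intro i hi b hb
    rw [mem_geSub]
    by_cases hb0 : b = 0
    · exact Or.inl hb0
    · right
      have := slope_one U hgr one_ne_zero (NTors.zero S 1) hmem hge hd0 hi hb hb0
        (U.Eb_zero_of_pos hz 0)
      omega
  fin_cases i
  · simp
  · exact key (by decide) hd1
  · have h3 := key (by decide) hd2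
    have h4 := frobsq_sub_mem U Fb hRR₁ hgr hF hz ha0
    have h5 := (geSub z 1).add_mem h3 h4
    have h6 : a 2 - Fb.Fr (Fb.Fr (a 0)) + (Fb.Fr (Fb.Fr (a 0)) - a 0) = a 2 - a 0 := by ring
    rw [h6] at h5
    exact h5

/-- residues of `L(mE + D)` -/
theorem NTors.res_mem (hgr : p.Growth) {n : ℕ} (hn : n ≠ 0) (τ : NTors S n) {m : ℕ} {h : F}
    (hh : h ∈ riemannRochSpace (m • p.E + τ.D)) {a : Fin 3 → F₁}
    (ha : ∀ i, (S.V i).LR 0 h (a i)) (i : Fin 3) : a i ∈ riemannRochSpace (m • p.Eb i) := by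
  have h1 := τ.pow_mul_mem hh
  rw [smul_smul] at h1
  have h2 : ∀ j, (S.V j).LR 0 (h ^ n * τ.f) (a j ^ n) := by
    intro j
    have := ((ha j).pow n).mul (τ.LR_f j)
    simpa using this
  have h3 := hgr (n * m) i ⟨_, h1, fun j => (h2 j).ge, h2 i⟩
  rw [mul_smul] at h3
  exact pow_mem_rr_iff hn h3

theorem NTors.res_geSub (hgr : p.Growth) {n : ℕ} (hn : n ≠ 0) (τ : NTors S n) {m : ℕ} {h : F}
    (hh : h ∈ riemannRochSpace (m • p.E + τ.D)) {a : Fin 3 → F₁}
    (ha : ∀ i, (S.V i).LR 0 h (a i)) (i : Fin 3) {z : Place k F₁} (hz : p.Eb 0 z = 0) :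
    a i ∈ geSub z 0 := by
  have h1 := τ.res_mem hgr hn hh ha i
  rw [mem_geSub]
  by_cases h0 : a i = 0
  · exact Or.inl h0
  · right
    have := (mem_rr_of_ne h0).mp h1 z
    rwa [Finsupp.smul_apply, p.supp 0 i z hz, smul_zero, neg_zero] at this

include hF in
/-- a function in `L(mE + D)` with residue `1` on the first component -/
theorem exists_h0 {n : ℕ} (hn : n ≠ 0) (τ : NTors S n) : ∃ (m : ℕ) (h : F) (b : Fin 3 → F₁),
    h ∈ riemannRochSpace (m • p.E + τ.D) ∧ (∀ i, (S.V i).LR 0 h (b i)) ∧ b 0 = 1 := by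
  obtain ⟨m₀, hm₀⟩ := hF.full
  have h1 := hm₀ m₀ le_rfl n hn τ 1 0 (by omega)
  have h2 : stdi (1 : Equiv.Perm (Fin 3)) 0 = 0 := by
    rw [stdi_lt _ (by norm_num)]; rfl
  rw [h2, stdσ_zero] at h1
  have h3 : U.low 0 0 = 0 := by
    ext v
    have h4 : U.numD 0 0 v = 0 := by
      rw [U.numD_apply]
      simp [Units.coef]
    rw [U.low_apply, h4]
    simp
  rw [h3, sub_zero] at h1
  have h5 : (1 : F₁) ∈ S.P (riemannRochSpace (m₀ • p.E + τ.D)) 0 0 := by
    rw [h1]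
    exact one_mem_rr (nsmul_nonneg (p.Eb_nonneg 0) m₀)
  obtain ⟨h, hh, hge, hlr⟩ := h5
  choose b hb using fun j => (hge j).exists_LR
  exact ⟨m₀, h, b, hh, hb, (hb 0).unique hlr⟩

/-- `ζ` describes the gluing of `L(mE + D)` at the nodes -/
structure IsZeta {n : ℕ} (τ : NTors S n) (ζ : Fin 3 → Place k F₁ → k) : Prop where
  pow_eq : ∀ z, 0 < U.o z → ∀ i, ζ i z ^ n = 1
  glue : ∀ z, 0 < U.o z → ∀ (m : ℕ) (h : F), h ∈ riemannRochSpace (m • p.E + τ.D) →
    ∀ a : Fin 3 → F₁, (∀ i, (S.V i).LR 0 h (a i)) → ∀ i,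
      a i - algebraMap k F₁ (ζ i z) * a 0 ∈ geSub z 1

theorem mul_sub_mem {z : Place k F₁} {x y : F₁} (hx : x ∈ geSub z 0) (hy : y ∈ geSub z 1) :
    x * y ∈ geSub z 1 := by
  have := mul_mem_geSub hx hy
  rwa [zero_add] at this

theorem pow_sub_mem {z : Place k F₁} {x y : F₁} (hx : x ∈ geSub z 0) (hy : y ∈ geSub z 0)
    (h : x - y ∈ geSub z 1) (n : ℕ) : x ^ n - y ^ n ∈ geSub z 1 := by
  induction n with
  | zero => simp
  | succ n ih =>
    have h1 : x ^ (n + 1) - y ^ (n + 1) = x * (x ^ n - y ^ n) + y ^ n * (x - y) := by ring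
    rw [h1]
    exact (geSub z 1).add_mem (mul_sub_mem hx ih) (mul_sub_mem (pow_mem_geSub_zero hy n) h)

include hRR₁ hgr hF Fb in
/-- **existence of the gluing data** -/
theorem exists_zeta {n : ℕ} (hn : n ≠ 0) (τ : NTors S n) :
    ∃ ζ : Fin 3 → Place k F₁ → k, IsZeta U τ ζ := by
  classical
  obtain ⟨m, h, b, hh, hb, hb0⟩ := exists_h0 U hF hn τ
  obtain ⟨m', h', b', hh', hb', hb0'⟩ := exists_h0 U hF hn τ.neg
  have hc : ∀ (i : Fin 3) (z : Place k F₁), ∃ c : k, 0 < U.o z →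
      b i - algebraMap k F₁ c ∈ geSub z 1 := by
    intro i z
    by_cases hz : 0 < U.o z
    · obtain ⟨c, hc⟩ := exists_sub_mem z (τ.res_geSub hgr hn hh hb i (U.Eb_zero_of_pos hz 0))
      exact ⟨c, fun _ => hc⟩
    · exact ⟨1, fun h => absurd h hz⟩
  choose ζ hζ using hc
  refine ⟨ζ, ?_, ?_⟩
  · intro z hz i
    have h1 := τ.pow_mul_mem hh
    rw [smul_smul] at h1
    have h2 : ∀ j, (S.V j).LR 0 (h ^ n * τ.f) (b j ^ n) := by
      intro j
      have := ((hb j).pow n).mul (τ.LR_f j)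
      simpa using this
    have h3 := glue_zero U Fb hRR₁ hgr hF h1 h2 hz i
    simp only [hb0, one_pow] at h3
    have h4 := pow_sub_mem (τ.res_geSub hgr hn hh hb i (U.Eb_zero_of_pos hz 0))
      (algebraMap_mem_geSub_zero z (ζ i z)) (hζ i z hz) n
    have h5 := (geSub z 1).sub_mem h3 h4
    have h6 : b i ^ n - 1 - (b i ^ n - algebraMap k F₁ (ζ i z) ^ n) =
        algebraMap k F₁ (ζ i z ^ n - 1) := by
      rw [map_sub, map_pow, map_one]; ring
    rw [h6] at h5
    exact sub_eq_zero.mp (eq_zero_of_algebraMap_mem z h5)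
  · intro z hz m₂ f hf a ha i
    have hz0 := U.Eb_zero_of_pos hz 0
    have gb := τ.res_geSub hgr hn hh hb i hz0
    have ga := τ.res_geSub hgr hn hf ha i hz0
    have ga0 := τ.res_geSub hgr hn hf ha 0 hz0
    have h1 : h * h' ∈ riemannRochSpace ((m + m') • p.E) := by
      have := mul_mem_rr hh hh'
      rw [NTors.neg_D] at this
      have e : m • p.E + τ.D + (m' • p.E + -τ.D) = (m + m') • p.E := by rw [add_smul]; abel
      rwa [e] at this
    have h2 : f * h' ∈ riemannRochSpace ((m₂ + m') • p.E) := by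
      have := mul_mem_rr hf hh'
      rw [NTors.neg_D] at this
      have e : m₂ • p.E + τ.D + (m' • p.E + -τ.D) = (m₂ + m') • p.E := by rw [add_smul]; abel
      rwa [e] at this
    have h3 := glue_zero U Fb hRR₁ hgr hF h1 (a := fun j => b j * b' j) (fun j => by
      have := (hb j).mul (hb' j)
      rwa [add_zero] at this) hz i
    have h4 := glue_zero U Fb hRR₁ hgr hF h2 (a := fun j => a j * b' j) (fun j => by
      have := (ha j).mul (hb' j)
      rwa [add_zero] at this) hz i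
    simp only [hb0, hb0', mul_one] at h3 h4
    have h5 : a i - algebraMap k F₁ (ζ i z) * a 0 = -(a i * (b i * b' i - 1)) +
        b i * (a i * b' i - a 0) + a 0 * (b i - algebraMap k F₁ (ζ i z)) := by ring
    rw [h5]
    exact (geSub z 1).add_mem ((geSub z 1).add_mem ((geSub z 1).neg_mem (mul_sub_mem ga h3))
      (mul_sub_mem gb h4)) (mul_sub_mem ga0 (hζ i z hz))

include hgr hF in
theorem IsZeta.nsmul {n : ℕ} (hn : n ≠ 0) {τ : NTors S n} {ζ ζ' : Fin 3 → Place k F₁ → k}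
    (hζ : IsZeta U τ ζ) (c : ℕ) (hζ' : IsZeta U (τ.nsmul c) ζ') {z : Place k F₁}
    (hz : 0 < U.o z) (i : Fin 3) : ζ' i z = ζ i z ^ c := by
  have hz0 := U.Eb_zero_of_pos hz 0
  obtain ⟨m, h, b, hh, hb, hb0⟩ := exists_h0 U hF hn τ
  have h1 := hζ.glue z hz m h hh b hb i
  have h2 : h ^ c ∈ riemannRochSpace ((c * m) • p.E + (τ.nsmul c).D) := by
    have := pow_mem_rr hh c
    rwa [smul_add, smul_smul] at this
  have h3 := hζ'.glue z hz (c * m) (h ^ c) h2 (fun j => b j ^ c) (fun j => by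
    have := (hb j).pow c
    rwa [mul_zero] at this) i
  simp only [hb0, one_pow, mul_one] at h1 h3
  have h4 := pow_sub_mem (τ.res_geSub hgr hn hh hb i hz0)
    (algebraMap_mem_geSub_zero z (ζ i z)) h1 c
  rw [← map_pow] at h4
  exact sub_mem_unique z h3 h4

end Nodes

end Fermat.Agent.Car
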