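import Fermat.Agent.Car.Wire
import Fermat.Agent.BadRed.RatClassX
import Fermat.Agent.BadRed.KLConc
import Fermat.Agent.BadRed.SpMap

/-!
# From divisors to points of the Jacobian
-/

set_option autoImplicit false
set_option linter.unusedSectionVars false

noncomputable section

open AlgebraicCurve Module IntermediateField ModularCurve HahnSeries

namespace Fermat.Agent.Car

open Fermat.Agent.BadRed Fermat.Agent.Degen
open Fermat.Agent.FunField Fermat.Agent.FunField.PlaceLemmas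

local notation "Qb" => AlgebraicClosure ℚ

/-- The conclusion of the core, for divisors -/
def CoreConc {L F Fq : Type*} [Field L] [Field F] [Algebra L F] [Field Fq] [Algebra L Fq]
    (k : Type*) [Field k] (Γ : Set (SemilinearAut L F))
    (pD : Fin 2 → Divisor L F →+ Divisor L Fq) (C : ℕ) : Prop :=
  ∀ n : ℕ, (n : k) ≠ 0 → ∀ D ∈ fixD Γ, ∀ f ∈ fixF Γ, f ≠ 0 →
    (∀ v : Place L F, (n : ℤ) * D v = v.ord f) →
    (∀ i, ∃ g : Fq, g ≠ 0 ∧ ∀ v : Place L Fq, pD i D v = v.ord g) →
    ∃ w : F, w ≠ 0 ∧ ∀ v : Place L F, (C : ℤ) * D v = v.ord w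

/-- From divisors to classes, for generic fields. -/
theorem smul_eq_zero_of_coreConc {k : Type*} [Field k] {A : ValuationSubring Qb}
    {N q : ℕ} [NeZero N] [NeZero (N * q)] [NeZero (N * q * q)] [NeZero q]
    {E₀ E : IntermediateField Qb (LaurentSeries Qb)} [IsFF Qb E₀] [IsFF Qb E]
    (hE₀ : E₀ = modularFunctionFieldFullC Qb (N * q))
    (hE : E = modularFunctionFieldFullC Qb (N * q * q))
    (α β : E₀ →ₐ[Qb] E)
    (a b : modularFunctionFieldFullC Qb (N * q) →ₐ[Qb] modularFunctionFieldFullC Qb (N * q * q))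
    (hα : ∀ (x : E₀) (y : modularFunctionFieldFullC Qb (N * q)),
      (x : LaurentSeries Qb) = y → (α x : LaurentSeries Qb) = a y)
    (hβ : ∀ (x : E₀) (y : modularFunctionFieldFullC Qb (N * q)),
      (x : LaurentSeries Qb) = y → (β x : LaurentSeries Qb) = b y)
    (pD : Fin 2 → Divisor Qb (modularFunctionFieldFullC Qb (N * q * q)) →+
      Divisor Qb (modularFunctionFieldFullC Qb (N * q)))
    (hpD0 : ∀ D, pD 0 D = push a D) (hpD1 : ∀ D, pD 1 D = push b D)
    {C : ℕ} (hC : CoreConc k (IΓ A (N * q * q)) pD C)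
    {n : ℕ} (hn : (n : k) ≠ 0) (x : Pic0 Qb E) (hnx : n • x = 0)
    (hI : ∀ s ∈ A.inertiaSubgroupIn ℚ, ∀ g : SemilinearAut Qb E,
      (∀ y : E, ((g • y : E) : LaurentSeries Qb) = coeffMap ((s : Qb ≃+* Qb) : Qb →+* Qb) y) →
        g • x = x)
    (h0 : pushPic α x = 0) (h1 : pushPic β x = 0) : C • x = 0 := by
  subst hE₀ hE
  have e1 : α = a := AlgHom.ext fun y => Subtype.ext (hα y y rfl)
  have e2 : β = b := AlgHom.ext fun y => Subtype.ext (hβ y y rfl)
  subst e1 e2
  obtain ⟨D, hDx, hD, f, hf0, hf, hfD⟩ := exists_rat_rep (N * q * q) (Γ₀ := inertΓ A) (x := x)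
    (by
      rintro g ⟨σ, ⟨s, hs, rfl⟩, hg⟩
      exact hI s hs g hg) hnx
  subst hDx
  have h3 : ∀ i, ∃ g : modularFunctionFieldFullC Qb (N * q), g ≠ 0 ∧
      ∀ v : Place Qb (modularFunctionFieldFullC Qb (N * q)),
        pD i (D : Divisor Qb (modularFunctionFieldFullC Qb (N * q * q))) v = v.ord g := by
    intro i
    fin_cases i
    · rw [pushPic_mk] at h0
      obtain ⟨g, hg, hgD⟩ := (mk_eq_zero_iff _).mp h0
      refine ⟨g, hg, fun v => ?_⟩
      rw [← hgD v, coe_pushZ]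
      exact DFunLike.congr_fun (hpD0 _) v
    · rw [pushPic_mk] at h1
      obtain ⟨g, hg, hgD⟩ := (mk_eq_zero_iff _).mp h1
      refine ⟨g, hg, fun v => ?_⟩
      rw [← hgD v, coe_pushZ]
      exact DFunLike.congr_fun (hpD1 _) v
  obtain ⟨w, hw0, hw⟩ := hC n hn D hD f hf hf0 hfD h3
  exact (mk_eq_zero_iff ((C : ℤ) • D)).mpr ⟨w, hw0, fun v => by rw [← hw v]; rfl⟩

/-- **`HCore` at one place `A`** from the core. -/
theorem hcore_of_coreConc {k : Type*} [Field k] {A : ValuationSubring Qb}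
    {N q : ℕ} [NeZero N] [NeZero (N * q)] [NeZero (N * q * q)] [NeZero q]
    (a b : modularFunctionFieldFullC Qb (N * q) →ₐ[Qb] modularFunctionFieldFullC Qb (N * q * q))
    (ha : ∀ y, (a y : LaurentSeries Qb) = y)
    (hb : ∀ y, (b y : LaurentSeries Qb) = qExpand Qb q (y : LaurentSeries Qb))
    (pD : Fin 2 → Divisor Qb (modularFunctionFieldFullC Qb (N * q * q)) →+
      Divisor Qb (modularFunctionFieldFullC Qb (N * q)))
    (hpD0 : ∀ D, pD 0 D = push a D) (hpD1 : ∀ D, pD 1 D = push b D)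
    {C : ℕ} (hC : CoreConc k (IΓ A (N * q * q)) pD C)
    {n : ℕ} (hn : (n : k) ≠ 0) (x : JZero (N * q * q)) (hnx : n • x = 0)
    (hI : ∀ s ∈ A.inertiaSubgroupIn ℚ, s • x = x)
    (h0 : pushPic (heckeAlphaBar Qb (N * q) q) x = 0)
    (h1 : pushPic (heckeBetaBar Qb (N * q) q) x = 0) : C • x = 0 := by
  refine smul_eq_zero_of_coreConc (HeckeRed.laurentBaseChange_full Qb (N * q))
    (HeckeRed.laurentBaseChange_full Qb (N * q * q)) (heckeAlphaBar Qb (N * q) q)
    (heckeBetaBar Qb (N * q) q) a b ?_ ?_ pD hpD0 hpD1 hC hn x hnx ?_ h0 h1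
  · intro y z hyz
    rw [coe_heckeAlphaBar, ha, hyz]
  · intro y z hyz
    rw [coe_heckeBetaBar, hb, hyz]
  · intro s hs g hg
    have h2 : g • x = s • x := by
      rw [galois_smul_pic0_def]
      congr 1
      refine Subtype.ext (Prod.ext ?_ ?_)
      · refine RingEquiv.ext fun y => Subtype.ext ?_
        exact hg y
      · refine RingEquiv.ext fun a => ?_
        have h1 := hg (algebraMap Qb _ a)
        rw [SemilinearAut.smul_algebraMap] at h1
        exact (algebraMap Qb (LaurentSeries Qb)).injective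
          (h1.trans (coeffMap_algebraMap _ _))
    rw [h2]
    exact hI s hs

end Fermat.Agent.Car
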