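import Fermat.Agent.Car.EndMod
import Fermat.Agent.NewPoint.Final

/-!
S36 from a statement on torsion points of Jacobians.
-/

set_option autoImplicit false

noncomputable section

open AlgebraicCurve ModularCurve
open scoped TensorProduct
open ModularCurve.Period CongruenceSubgroup

namespace Fermat.Agent.Car

open Fermat.Agent.BadRed Fermat.Agent.Degen Fermat.Agent.Tate Fermat.Agent.HGModule
  Fermat.Agent.HeckeRed Fermat.Agent.NewPoint

local notation "Qb" => AlgebraicClosure ℚ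
local notation "G" => (AlgebraicClosure ℚ ≃ₐ[ℚ] AlgebraicClosure ℚ)

theorem eq_zero_of_smul_comp {p : ℕ} [Fact p.Prime] {M : ℕ} [NeZero M] {S : Set ℕ}
    (I : TateInput p M S) (x : ℤ_[p] ⊗[ℤ] parabolicHoms ℤ (Gamma0 M) ℤ) {C : ℕ} (hC0 : C ≠ 0)
    (h : ∀ n, C • I.comp n x = 0) : x = 0 := by
  have h3 : (C : ℤ_[p]) • x = 0 := by
    refine I.ext_comp fun n => ?_
    rw [comp_smul, map_zero]
    exact h n
  exact (smul_eq_zero.mp h3).resolve_left (Nat.cast_ne_zero.mpr hC0)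

theorem smul_comp_of_rho {p : ℕ} [Fact p.Prime] {M : ℕ} [NeZero M] {S : Set ℕ}
    (I : TateInput p M S) (x : ℤ_[p] ⊗[ℤ] parabolicHoms ℤ (Gamma0 M) ℤ) {σ : G}
    (h : I.rho σ x = x) (n : ℕ) : σ • I.comp n x = I.comp n x := by
  rw [← I.comp_rho σ n x, h]

/-- The degeneracy data, from maps of Jacobians. -/
def newSq {p : ℕ} [Fact p.Prime] {M N : ℕ} [NeZero M] [NeZero N] {S : Finset ℕ}
    (I : TateInput p M (↑S : Set ℕ)) (I' : TateInput p N (↑S : Set ℕ))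
    (hNM : N ∣ M) (hne : N ≠ M) (q : ℕ) (α β : I.J →+ I'.J)
    (hα : ∀ (ℓ : ℕ) (hℓ : ℓ.Prime) (hM : ¬ ℓ ∣ M) (hN : ¬ ℓ ∣ N), ℓ ∉ (↑S : Set ℕ) →
      ∀ x : I.J, (∃ n : ℕ, p ^ n • x = 0) → α (I.T ℓ hℓ hM x) = I'.T ℓ hℓ hN (α x))
    (hβ : ∀ (ℓ : ℕ) (hℓ : ℓ.Prime) (hM : ¬ ℓ ∣ M) (hN : ¬ ℓ ∣ N), ℓ ∉ (↑S : Set ℕ) →
      ∀ x : I.J, (∃ n : ℕ, p ^ n • x = 0) → β (I.T ℓ hℓ hM x) = I'.T ℓ hℓ hN (β x))
    (hin : ∀ A : ValuationSubring (AlgebraicClosure ℚ), A.LiesOverPrime q →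
      ∃ C : ℕ, C ≠ 0 ∧ ∀ x : I.J, (∃ n : ℕ, p ^ n • x = 0) →
        (∀ σ ∈ A.inertiaSubgroupIn ℚ, σ • x = x) → α x = 0 → β x = 0 → C • x = 0) :
    NewSq p M S I.toModule q where
  N := N
  dvd := hNM
  ne := hne
  D' := I'.toModule
  a := homTate I I' α
  b := homTate I I' β
  a_hecke := fun ℓ hℓ hM hN hS x => homTate_theta I I' α ℓ hℓ hM hN hS (hα ℓ hℓ hM hN hS) x
  b_hecke := fun ℓ hℓ hM hN hS x => homTate_theta I I' β ℓ hℓ hM hN hS (hβ ℓ hℓ hM hN hS) x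
  inert := fun A hA x hx1 hx2 hx3 => by
    have h1 := (homTate_eq_zero_iff I I' α x).mp hx1
    have h2 := (homTate_eq_zero_iff I I' β x).mp hx2
    obtain ⟨C, hC0, hC⟩ := hin A hA
    exact eq_zero_of_smul_comp I x hC0 fun n =>
      hC (I.comp n x) ⟨n, comp_torsion I n x⟩ (fun σ hσ => smul_comp_of_rho I x (hx3 σ hσ) n)
        (h1 n) (h2 n)

/-- The statement on torsion points of Jacobians. -/
def HCore (N q : ℕ) [NeZero N] [NeZero (N * q)] [NeZero (N * q * q)] [NeZero q] : Prop :=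
  ∀ A : ValuationSubring Qb, A.LiesOverPrime q → ∃ C : ℕ, C ≠ 0 ∧ ∀ n : ℕ, ¬ q ∣ n →
    ∀ x : JZero (N * q * q), n • x = 0 → (∀ s ∈ A.inertiaSubgroupIn ℚ, s • x = x) →
      pushPic (heckeAlphaBar Qb (N * q) q) x = 0 → pushPic (heckeBetaBar Qb (N * q) q) x = 0 →
        C • x = 0

/-- the degeneracy data at a prime whose square exactly divides the level -/
theorem nonempty_newSq
    (hcore : ∀ (N q : ℕ) [NeZero N] [NeZero (N * q)] [NeZero (N * q * q)] [NeZero q],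
      q.Prime → ¬ q ∣ N → HCore N q)
    {p M : ℕ} [Fact p.Prime] [NeZero M] {S : Finset ℕ}
    (hMS : ∀ q : ℕ, q.Prime → q ∣ M → q ∈ (↑S : Set ℕ)) {q : ℕ} (hq : q.Prime) (hqp : q ≠ p)
    (hq2 : M.factorization q = 2) :
    Nonempty (NewSq p M S (jI M p (↑S : Set ℕ) hMS).toModule q) := by
  have hM0 : M ≠ 0 := NeZero.ne M
  obtain ⟨N, hN, hqN⟩ : ∃ N, M = N * q * q ∧ ¬ q ∣ N := by
    refine ⟨M / q ^ 2, ?_, ?_⟩
    · have h1 : q ^ 2 ∣ M := by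
        rw [← hq2]
        exact Nat.ordProj_dvd M q
      rw [mul_assoc, ← sq]
      exact (Nat.div_mul_cancel h1).symm
    · have h1 := Nat.not_dvd_ordCompl hq hM0
      rw [hq2] at h1
      exact h1
  have hN0 : NeZero N := ⟨fun h => hM0 (by rw [hN, h, zero_mul, zero_mul])⟩
  have iq : NeZero q := ⟨hq.ne_zero⟩
  have iNq : NeZero (N * q) := ⟨mul_ne_zero hN0.out hq.ne_zero⟩
  subst hN
  refine ⟨newSq (jI (N * q * q) p (↑S : Set ℕ) hMS)
    (jI (N * q) p (↑S : Set ℕ) fun r hr h => hMS r hr (h.mul_right q)) (Dvd.intro q rfl) ?_ q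
    (pushPic (heckeAlphaBar Qb (N * q) q)) (pushPic (heckeBetaBar Qb (N * q) q)) ?_ ?_ ?_⟩
  · intro h
    have h1 : N * q * 1 = N * q * q := by rw [mul_one]; exact h
    exact hq.one_lt.ne (Nat.eq_of_mul_eq_mul_left (Nat.pos_of_ne_zero iNq.out) h1)
  · intro ℓ hℓ hM _ _ x _
    exact pushPic_alpha_heckeOperatorBar ℓ hℓ hM x
  · intro ℓ hℓ hM _ _ x _
    exact pushPic_beta_heckeOperatorBar ℓ hℓ hM x
  · intro A hA
    obtain ⟨C, hC0, hC⟩ := hcore N q hq hqN A hA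
    refine ⟨C, hC0, ?_⟩
    rintro x ⟨n, hn⟩ hx h1 h2
    exact hC (p ^ n) (dvd_pow_of_ne (Fact.out : p.Prime) hq hqp) x hn hx h1 h2

open Polynomial in
/-- **S36** from the statement on torsion points. -/
theorem S36_of_hcore
    (hcore : ∀ (N q : ℕ) [NeZero N] [NeZero (N * q)] [NeZero (N * q * q)] [NeZero q],
      q.Prime → ¬ q ∣ N → HCore N q)
    {M : ℕ} [NeZero M] {g : CuspForm (CongruenceSubgroup.Gamma0 M) 2} (hg : g.IsNewform)
    (lam : ℕ) [Fact lam.Prime]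
    (S : Finset ℕ)
    (O' : Type) [CommRing O'] [IsDomain O'] [IsDiscreteValuationRing O']
    [IsAdicComplete (IsLocalRing.maximalIdeal O') O'] [Finite (IsLocalRing.ResidueField O')]
    [CharZero O'] (hlamO' : (lam : O') ∈ IsLocalRing.maximalIdeal O')
    (chig : CuspForm.heckeAlgebra M 2 (↑S : Set ℕ) →+* ℂ)
    (hchig : ∀ (ℓ : ℕ) (hℓ : ℓ.Prime) (hℓM : ¬ ℓ ∣ M) (hℓS : ℓ ∉ (↑S : Set ℕ)),
      chig (CuspForm.heckeAlgebra.T hℓ hℓM hℓS) = ModularFormClass.qCoeff g ℓ)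
    (iota : chig.range →+* O')
    (hlamS : lam ∈ S) (hMS : ∀ q : ℕ, q.Prime → q ∣ M → q ∈ S) :
    ∃ (O'' : Type) (_ : CommRing O'') (_ : IsDomain O'') (_ : IsDiscreteValuationRing O'')
      (_ : IsAdicComplete (IsLocalRing.maximalIdeal O'') O'') (_ : Finite (IsLocalRing.ResidueField O''))
      (_ : CharZero O'') (_ : Algebra O' O'') (_ : Module.Finite O' O'') (_ : IsLocalHom (algebraMap O' O'')),
      Function.Injective (algebraMap O' O'') ∧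
      ∃ ρ : GaloisRepAdic O'',
        (∀ (ℓ : ℕ) (hℓ : ℓ.Prime) (hℓM : ¬ ℓ ∣ M) (hℓS : ℓ ∉ (↑S : Set ℕ)),
          ∀ A : ValuationSubring (AlgebraicClosure ℚ), A.LiesOverPrime ℓ →
            ∀ σ : AlgebraicClosure ℚ ≃ₐ[ℚ] AlgebraicClosure ℚ, A.IsFrobeniusAt σ ℓ →
              LinearMap.charpoly (ρ.ρ σ) =
                X ^ 2 - C (algebraMap O' O'' ((iota.comp chig.rangeRestrict) (CuspForm.heckeAlgebra.T hℓ hℓM hℓS))) * X
                  + C ((ℓ : O''))) ∧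
        (∀ q : ℕ, q.Prime → q ≠ lam → M.factorization q = 2 → ¬ ρ.IsUnipotentOnInertiaAt q) := by
  refine S36_of_modules ?_ ?_ hg lam S O' hlamO' chig hchig iota hlamS hMS
  · intro p _ N _ S _ hS
    exact ⟨(jI N p (↑S : Set ℕ) fun r hr h => Finset.mem_coe.mpr (hS r hr h)).toModule⟩
  · intro p _ M _ S _ hS
    exact ⟨(jI M p (↑S : Set ℕ) fun r hr h => Finset.mem_coe.mpr (hS r hr h)).toModule,
      fun q hq hqp hq2 => nonempty_newSq hcore
        (fun r hr h => Finset.mem_coe.mpr (hS r hr h)) hq hqp hq2⟩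

end Fermat.Agent.Car
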