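import Fermat.Agent.Car.Lvl
import Fermat.Agent.Car.Wire

/-!
# Change of the prime-to-`q` level for the core statement of project CAR, conclusion
-/

set_option autoImplicit false

noncomputable section

open ModularCurve AlgebraicCurve

namespace Fermat.Agent.Car

open Fermat.Agent.Degen Fermat.Agent.HeckeRed Fermat.Agent.FunField

local notation "Qb" => AlgebraicClosure ℚ

/-- **Change of level.** -/
theorem hcore_of_mul {N M q : ℕ} [NeZero N] [NeZero M] [NeZero q] [NeZero (N * q)]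
    [NeZero (N * q * q)] [NeZero (M * q)] [NeZero (M * q * q)] (hq : q.Prime) (hqM : ¬ q ∣ M)
    (hNM : N ∣ M) (H : HCore M q) : HCore N q := by
  intro A hA
  obtain ⟨C, hC, HC⟩ := H A hA
  refine ⟨finrankAlong Qb (inclBar Qb (Nat.mul_dvd_mul_right (Nat.mul_dvd_mul_right hNM q) q)) * C,
    mul_ne_zero (finrankAlong_pos _).ne' hC, ?_⟩
  intro n hn x hx hI ha hb
  refine smul_eq_zero_of_pullPic _ C x (HC n hn _ ?_ ?_ ?_ ?_)
  · rw [← map_nsmul, hx, map_zero]
  · intro s hs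
    rw [← pullPic_galois_inclBar, hI s hs]
  · rw [← pullPic_inclBar_alpha hq hqM hNM x, ha, map_zero]
  · rw [← pullPic_inclBar_beta hq hNM x, hb, map_zero]

/-- **The core statement for all levels** from levels without elliptic points. -/
theorem hcore_of_noEll
    (H : ∀ (N q : ℕ) [NeZero N] [NeZero (N * q)] [NeZero (N * q * q)] [NeZero q],
      q.Prime → ¬ q ∣ N → (4 ∣ N ∨ 9 ∣ N) → HCore N q)
    (N q : ℕ) [NeZero N] [NeZero (N * q)] [NeZero (N * q * q)] [NeZero q] (hq : q.Prime)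
    (hqN : ¬ q ∣ N) : HCore N q := by
  obtain ⟨c, hc, hqc, h⟩ : ∃ c : ℕ, c ≠ 0 ∧ ¬ q ∣ c ∧ (4 ∣ N * c ∨ 9 ∣ N * c) := by
    rcases eq_or_ne q 2 with rfl | h2
    · exact ⟨9, by norm_num, by norm_num, Or.inr (dvd_mul_left 9 N)⟩
    · refine ⟨4, by norm_num, fun h => h2 ?_, Or.inl (dvd_mul_left 4 N)⟩
      have h4 : q ∣ 2 ^ 2 := by norm_num; exact h
      exact (Nat.prime_dvd_prime_iff_eq hq Nat.prime_two).mp (hq.dvd_of_dvd_pow h4)
  have : NeZero (N * c) := ⟨mul_ne_zero (NeZero.ne N) hc⟩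
  have : NeZero (N * c * q) := ⟨mul_ne_zero (NeZero.ne (N * c)) hq.ne_zero⟩
  have : NeZero (N * c * q * q) := ⟨mul_ne_zero (NeZero.ne (N * c * q)) hq.ne_zero⟩
  have hqNc : ¬ q ∣ N * c := fun hd => (hq.dvd_mul.mp hd).elim hqN hqc
  exact hcore_of_mul hq hqNc (dvd_mul_right N c) (H (N * c) q hq hqNc h)

end Fermat.Agent.Car
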