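import Fermat.Agent.BadRed.KLConc
import Fermat.Agent.Car.Emb

/-!
# Gluing at level `N q`, and the push-forward of the polar divisor
-/

set_option autoImplicit false
set_option linter.unusedSectionVars false

noncomputable section

open AlgebraicCurve Module IntermediateField ModularCurve HahnSeries

namespace Fermat.Agent.Car

open Fermat.Agent.FunField Fermat.Agent.FunField.PlaceLemmas Fermat.Agent.Igusa
  Fermat.Agent.Deuring Fermat.Agent.AtkinLehner Fermat.Agent.HeckeRed Fermat.Agent.Degen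
  Fermat.Agent.BadRed

section Abs

variable {L k F F₁ : Type*} [Field L] [Field k] [Field F] [Field F₁] [Algebra L F] [Algebra k F₁]

theorem er_sub {A : ValuationSubring L} {π : A →+* k} {V : ResVal A π F F₁} {f g : F} {a b : F₁}
    (hf : V.ER f a) (hg : V.ER g b) : V.ER (f - g) (a - b) := by
  obtain ⟨h, rfl⟩ := hf
  obtain ⟨h', rfl⟩ := hg
  exact ⟨sub_mem h h', by rw [← map_sub]; rfl⟩

/-- **Gluing, abstract form.** -/
theorem glue_abs (T : TwoVal L k F F₁) (p : FrobPencil T.toRData) [IsFF L F] [IsFF k F₁]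
    [HasPrincipalDivisors L F] [HasPrincipalDivisors k F₁] [IsAlgClosed k] {g : ℤ}
    (hRR : RRLarge L F g) (harch : T.Arch) {u : F} {ub : F₁} {c₀ : L} (hub : ub ≠ 0)
    (hc₀ : c₀ ≠ 0) (h₁ : T.V₁.ER u ub) (h₂ : T.V₂.ER (c₀ • u) ub⁻¹) {c : ℕ}
    (huc : u ∈ riemannRochSpace (c • p.E)) {f : F} {m : ℕ} (hf : f ∈ riemannRochSpace (m • p.E))
    {a b : F₁} (ha : T.V₁.ER f a) (hb : T.V₂.ER f b) {z : Place k F₁} (hz : p.Eb z = 0)
    (hz' : 0 < z.ord ub) : 0 ≤ z.ord a ∧ 0 ≤ z.ord b ∧ (b = p.Fr a ∨ 0 < z.ord (b - p.Fr a)) := by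
  -- functions of `L(m E)` have residues in `L(m Eb)`
  have key : ∀ (m : ℕ) (f : F) (a b : F₁), f ∈ riemannRochSpace (m • p.E) → T.V₁.ER f a →
      T.V₂.ER f b → a ∈ riemannRochSpace (m • p.Eb) ∧ b ∈ riemannRochSpace (m • p.Eb) := by
    intro m f a b hf ha hb
    obtain ⟨h, rfl, hr⟩ := T.exists_O ha hb
    exact p.red_le hRR m ⟨h, hf, hr⟩
  have hreg : ∀ (m : ℕ) (x : F₁), x ∈ riemannRochSpace (m • p.Eb) → 0 ≤ z.ord x := by
    intro m x hx
    rcases eq_or_ne x 0 with rfl | hx0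
    · exact (Place.ord_zero (v := z)).ge
    have h1 := (mem_rr_of_ne hx0).mp hx z
    rwa [Finsupp.smul_apply, hz, smul_zero, neg_zero] at h1
  obtain ⟨hma, hmb⟩ := key m f a b hf ha hb
  refine ⟨hreg m a hma, hreg m b hmb, ?_⟩
  -- subtract a lift of `a`
  obtain ⟨m', h, hh, hhr⟩ := p.hS1 m a hma
  have hER := T.ER_of_O h
  rw [hhr] at hER
  by_cases hab : b = p.Fr a
  · exact Or.inl hab
  right
  have hab' : b - p.Fr a ≠ 0 := sub_ne_zero.mpr hab
  have e1 : T.V₁.ER (f - (h : F)) 0 := by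
    have := er_sub ha hER.1
    rwa [sub_self] at this
  have e2 : T.V₂.ER (f - (h : F)) (b - p.Fr a) := er_sub hb hER.2
  have hf0 : f - (h : F) ≠ 0 := e2.ne_zero hab'
  -- divide by a constant at the first valuation
  obtain ⟨hO, hO0⟩ := e1
  obtain ⟨ε, hε0, hε, g', hg'⟩ := T.V₁.exists_dvd T.π_ker (f := ⟨_, hO⟩) hO0 hf0
  change f - (h : F) = algebraMap L F (ε : L) * g' at hg'
  obtain ⟨M, b', hb', hb0⟩ := T.exists_small harch hε0 hε hc₀
  -- the function `F ^ M * (c₀ u)`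
  have e3 : T.V₁.ER ((f - (h : F)) ^ M * (c₀ • u)) 0 := by
    have h3 : (f - (h : F)) ^ M * (c₀ • u) = algebraMap L F (b' : L) * ((g' : F) ^ M * u) := by
      rw [hg', hb', Algebra.smul_def, mul_pow, map_mul, map_pow]
      ring
    rw [h3]
    have h4 := (ResVal.ER.cst (V := T.V₁) b').mul (((ResVal.ER.of_mem g'.2).pow M).mul h₁)
    rwa [hb0, map_zero, zero_mul] at h4
  have e4 : T.V₂.ER ((f - (h : F)) ^ M * (c₀ • u)) ((b - p.Fr a) ^ M * ub⁻¹) :=
    (e2.pow M).mul h₂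
  have hE0 : 0 ≤ p.E := p.E_nonneg
  have e5 : f - (h : F) ∈ riemannRochSpace ((m + m') • p.E) := by
    refine Submodule.sub_mem _ (FunField.rr_mono ?_ hf) (FunField.rr_mono ?_ hh)
    · exact nsmul_le_nsmul_left hE0 (Nat.le_add_right _ _)
    · exact nsmul_le_nsmul_left hE0 (Nat.le_add_left _ _)
  have e6 : (f - (h : F)) ^ M * (c₀ • u) ∈ riemannRochSpace ((M * (m + m') + c) • p.E) := by
    have h9 : (M * (m + m') + c) • p.E = M • ((m + m') • p.E) + c • p.E := by
      rw [add_smul, mul_smul]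
    have h10 : (f - (h : F)) ^ M ∈ riemannRochSpace (M • ((m + m') • p.E)) := Deuring.pow_mem_rr e5 M
    have h11 : c₀ • u ∈ riemannRochSpace (c • p.E) := Submodule.smul_mem _ c₀ huc
    rw [h9]
    exact Deuring.mul_mem_rr h10 h11
  have h7 := hreg _ _ (key _ _ _ _ e6 e3 e4).2
  rw [z.ord_mul (pow_ne_zero M hab') (inv_ne_zero hub), ord_pow, z.ord_inv] at h7
  by_contra hcon
  push Not at hcon
  have h8 : (M : ℤ) * z.ord (b - p.Fr a) ≤ 0 :=
    mul_nonpos_of_nonneg_of_nonpos (Nat.cast_nonneg M) hcon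
  linarith

theorem exists_le_nsmul {K E : Type*} [Field K] [Field E] [Algebra K E] {D D' : Divisor K E}
    (h0 : 0 ≤ D') (h : ∀ v, D' v = 0 → D v = 0) : ∃ c : ℕ, D ≤ c • D' := by
  classical
  refine ⟨∑ v ∈ D.support, (D v).natAbs, Finsupp.le_def.mpr fun v => ?_⟩
  rw [Finsupp.smul_apply, nsmul_eq_mul]
  have h1 := Finsupp.le_def.mp h0 v
  rw [Finsupp.zero_apply] at h1
  by_cases hv : D v = 0
  · rw [hv]
    exact mul_nonneg (Nat.cast_nonneg _) h1
  have h2 : D' v ≠ 0 := fun h' => hv (h v h')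
  have h3 : 1 ≤ D' v := by omega
  have h4 : (D v).natAbs ≤ ∑ v ∈ D.support, (D v).natAbs :=
    Finset.single_le_sum (f := fun v => (D v).natAbs) (fun _ _ => Nat.zero_le _)
      (Finsupp.mem_support_iff.mpr hv)
  have h5 : D v ≤ ((D v).natAbs : ℤ) := Int.le_natAbs
  have h6 : ((D v).natAbs : ℤ) ≤ ((∑ v ∈ D.support, (D v).natAbs : ℕ) : ℤ) := by exact_mod_cast h4
  nlinarith

end Abs

section Cusps

variable {L : Type*} [Field L] [IsAlgClosed L] [CharZero L] {N q : ℕ} [hq : Fact q.Prime]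
  [hN : NeZero N]

theorem jF_reg_iff_jrF_reg (hqN : ¬ q ∣ N) (v : Place L (modularFunctionFieldFullC L (N * q))) :
    0 ≤ v.ord (jF L (N * q)) ↔ 0 ≤ v.ord (CP.jrF L N q) := by
  have hwj : ww L N q hqN (jF L (N * q)) = CP.jrF L N q := CP.w_jF
  have h1 := CP.pole_iff_of_involution (ww L N q hqN) (fun f => ww_ww L N q hqN f)
    (jF L (N * q)) (fun v hv => by
      rw [hwj]
      exact CP.jF_pole_reg v hv) v
  rw [hwj] at h1
  exact not_lt.symm.trans ((not_congr h1).trans not_lt)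

theorem jF_ne_zero' (M : ℕ) [NeZero M] : jF L M ≠ 0 := by
  intro h
  have h1 := congrArg (Subtype.val) h
  have h2 : (jF L M : LaurentSeries L) = jqModC L := rfl
  change (jF L M : LaurentSeries L) = 0 at h1
  rw [h2] at h1
  have h3 := ModPoly.transcendental_jqModC (K := L)
  rw [h1] at h3
  exact h3 isAlgebraic_zero

theorem jrF_ne_zero' (hqN : ¬ q ∣ N) : CP.jrF L N q ≠ 0 := by
  have hwj : ww L N q hqN (jF L (N * q)) = CP.jrF L N q := CP.w_jF
  rw [← hwj]
  exact (map_ne_zero_iff _ (ww L N q hqN).injective).mpr (jF_ne_zero' _)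

theorem t_reg_iff (hqN : ¬ q ∣ N) (v : Place L (modularFunctionFieldFullC L (N * q))) :
    0 ≤ v.ord (jF L (N * q) * CP.jrF L N q) ↔ 0 ≤ v.ord (jF L (N * q)) := by
  have h1 := jF_reg_iff_jrF_reg hqN v
  rw [v.ord_mul (jF_ne_zero' _) (jrF_ne_zero' hqN)]
  omega

theorem al_jF : al L N q (jF L (N * q)) = jF L (N * q * q) := by
  apply Subtype.ext
  rw [coe_al]
  rfl

theorem al_jrF : al L N q (CP.jrF L N q) = be L N q (jF L (N * q)) := by
  apply Subtype.ext
  rw [coe_al, coe_be]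
  rfl

theorem ord_map_nonneg_iff {F F' : Type*} [Field F] [Field F'] [Algebra L F] [Algebra L F']
    [IsFF L F] [IsFF L F'] (φ : F →ₐ[L] F') (w : Place L F') (f : F) :
    0 ≤ w.ord (φ f) ↔ 0 ≤ (res φ w).ord f := by
  have h := ramificationIndexAlong_pos φ w
  have h' : (0 : ℤ) < Place.ramificationIndexAlong φ w := by exact_mod_cast h
  rw [ord_res]
  exact mul_nonneg_iff_of_pos_left h'

/-- on `X₀(N q²)` the poles of `j`, `j(q·)` and `j(q²·)` agree -/
theorem al_jF_reg_iff (hqN : ¬ q ∣ N) (w : Place L (modularFunctionFieldFullC L (N * q * q))) :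
    0 ≤ w.ord (al L N q (jF L (N * q))) ↔ 0 ≤ w.ord (be L N q (jF L (N * q))) := by
  have h1 : ∀ w : Place L (modularFunctionFieldFullC L (N * q * q)),
      0 ≤ w.ord (al L N q (jF L (N * q))) → 0 ≤ w.ord (be L N q (jF L (N * q))) := by
    intro w h
    rw [al_jF] at h
    rw [← al_jrF]
    have e : al L N q (CP.jrF L N q) = CP.jrF L (N * q) q := by
      apply Subtype.ext
      rw [coe_al]
      rfl
    rw [e]
    exact not_lt.mp (CP.jF_pole_reg w (not_lt.mpr h))
  have h2 : ∀ w : Place L (modularFunctionFieldFullC L (N * q * q)),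
      0 ≤ w.ord (be L N q (jF L (N * q))) → 0 ≤ w.ord (be L N q (CP.jrF L N q)) := by
    intro w h
    rw [ord_map_nonneg_iff] at h ⊢
    exact (jF_reg_iff_jrF_reg hqN _).mp h
  have hwj : WW L N q hqN (al L N q (jF L (N * q))) = be L N q (CP.jrF L N q) := by
    rw [WW_al]
    congr 1
    exact CP.w_jF
  refine ⟨h1 w, fun h => ?_⟩
  have h3 := CP.pole_iff_of_involution (WW L N q hqN) (fun f => WW_WW L N q hqN f)
    (al L N q (jF L (N * q))) (fun v hv => by
      rw [hwj]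
      exact not_lt.mpr (h2 v (h1 v (not_lt.mp hv)))) w
  rw [hwj] at h3
  exact not_lt.mp fun h4 => absurd (h2 w h) (not_le.mpr (h3.mp h4))

theorem al_t_reg_of_al {w : Place L (modularFunctionFieldFullC L (N * q * q))}
    (h : 0 ≤ (res (al L N q) w).ord (jF L (N * q) * CP.jrF L N q)) :
    0 ≤ w.ord (al L N q (jF L (N * q) * CP.jrF L N q)) :=
  (ord_map_nonneg_iff _ _ _).mpr h

theorem al_t_reg_of_be (hqN : ¬ q ∣ N) {w : Place L (modularFunctionFieldFullC L (N * q * q))}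
    (h : 0 ≤ (res (be L N q) w).ord (jF L (N * q) * CP.jrF L N q)) :
    0 ≤ w.ord (al L N q (jF L (N * q) * CP.jrF L N q)) := by
  rw [t_reg_iff hqN, ← ord_map_nonneg_iff, ← al_jF_reg_iff hqN, ord_map_nonneg_iff,
    ← t_reg_iff hqN, ← ord_map_nonneg_iff] at h
  exact h

/-- Push-forward of a multiple of a divisor supported at the cusps. -/
theorem push_E_le' (hqN : ¬ q ∣ N) {E' : Divisor L (modularFunctionFieldFullC L (N * q))}
    (hE'0 : 0 ≤ E')
    (hE' : ∀ v : Place L (modularFunctionFieldFullC L (N * q)), E' v = 0 →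
      0 ≤ v.ord (jF L (N * q) * CP.jrF L N q))
    {E : Divisor L (modularFunctionFieldFullC L (N * q * q))}
    (hE : ∀ w : Place L (modularFunctionFieldFullC L (N * q * q)),
      0 ≤ w.ord (al L N q (jF L (N * q) * CP.jrF L N q)) → E w = 0) (m : ℕ) :
    ∃ c : ℕ, push (al L N q) (m • E) ≤ c • E' ∧ push (be L N q) (m • E) ≤ c • E' := by
  obtain ⟨c₁, h₁⟩ := exists_le_nsmul (D := push (al L N q) (m • E)) hE'0 (fun v hv => by
    refine push_apply_eq_zero _ fun w hw => ?_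
    rw [Finsupp.smul_apply, hE w (al_t_reg_of_al (by rw [hw]; exact hE' v hv)), smul_zero])
  obtain ⟨c₂, h₂⟩ := exists_le_nsmul (D := push (be L N q) (m • E)) hE'0 (fun v hv => by
    refine push_apply_eq_zero _ fun w hw => ?_
    rw [Finsupp.smul_apply, hE w (al_t_reg_of_be hqN (by rw [hw]; exact hE' v hv)), smul_zero])
  exact ⟨max c₁ c₂, h₁.trans (nsmul_le_nsmul_left hE'0 (le_max_left _ _)),
    h₂.trans (nsmul_le_nsmul_left hE'0 (le_max_right _ _))⟩

end Cusps

section OverQb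

local notation "Qb" => AlgebraicClosure ℚ

variable {A : ValuationSubring Qb}
  {κ : Type*} [Field κ] [IsAlgClosed κ] (π : A →+* κ) [IsLocalHom π]
  (hπ : Function.Surjective π) (harch : ArchA π)
  (N q : ℕ) [hq : Fact q.Prime] [hN : NeZero N] [CharP κ q] (hqN : ¬ q ∣ N)
  (hg : genusFF κ (modularFunctionFieldFullC κ N) =
    genusFF Qb (modularFunctionFieldFullC Qb N))
  (d : CP.DecAut A π) (hd : CP.IsFrob d q)

include harch in
/-- **Gluing at level `N q`.** -/
theorem glue_q (ι : Qb →+* ℂ) {f : modularFunctionFieldFullC Qb (N * q)} {m : ℕ}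
    (hf : f ∈ riemannRochSpace (m • (CP.pen A π hπ harch N q hqN hg d hd).E))
    {a b : modularFunctionFieldFullC κ N}
    (ha : (twoVal A π hπ harch N q hqN).V₁.ER f a) (hb : (twoVal A π hπ harch N q hqN).V₂.ER f b)
    {z : Place κ (modularFunctionFieldFullC κ N)} (hz : 0 ≤ z.ord (jF κ N))
    (hz' : 0 < z.ord (ubr ι A π hπ harch N q hqN))
    (Fr : modularFunctionFieldFullC κ N →ₐ[κ] modularFunctionFieldFullC κ N)
    (hFr : ∀ x, (Fr x : LaurentSeries κ) = qExpand κ q (x : LaurentSeries κ)) :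
    0 ≤ z.ord a ∧ 0 ≤ z.ord b ∧ (b = Fr a ∨ 0 < z.ord (b - Fr a)) := by
  have : NeZero (N * q) := ⟨mul_ne_zero (NeZero.ne N) hq.out.ne_zero⟩
  have H := CP.pen_hyp A π hπ harch N q hqN hg d hd
  obtain ⟨c, hc1, -⟩ := u0_mem ι A π hπ harch N q hqN
    (p := CP.pen A π hπ harch N q hqN hg d hd) (CP.pen_t A π hπ harch N q hqN hg d hd)
  obtain ⟨h0, -, c', hc', e1, e2⟩ := slope_u0 ι A π hπ harch N q hqN (q : A) (by push_cast; rfl)
  have hqL : ((q : A) : Qb) ≠ 0 := by
    push_cast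
    exact cast_ne_zero_Lr Qb q
  have hEb : (CP.pen A π hπ harch N q hqN hg d hd).Eb z = 0 := by
    by_contra hne
    have h1 := (Eb_iff π hπ harch N q hqN hg d hd z).mp hne
    omega
  have hFr' : Fr a = (CP.pen A π hπ harch N q hqN hg d hd).Fr a := by
    apply Subtype.ext
    rw [hFr, CP.pen_Fr]
  rw [hFr']
  refine glue_abs (twoVal A π hπ harch N q hqN) (CP.pen A π hπ harch N q hqN hg d hd) H.hRR harch
    (u := c' • LLu.u0 ι N q) (c₀ := (((q : A) : Qb) ^ ((12 : ℕ) : ℤ))⁻¹) h0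
    (inv_ne_zero (zpow_ne_zero _ hqL)) e1 ?_ (c := c) (Submodule.smul_mem _ _ hc1) hf ha hb hEb hz'
  have e3 := e2
  rw [mul_comm c' _, ← smul_smul] at e3
  exact e3

/-- **Push-forward of the polar divisor.** -/
theorem push_E_le {E : Divisor Qb (modularFunctionFieldFullC Qb (N * q * q))}
    (hE : ∀ w : Place Qb (modularFunctionFieldFullC Qb (N * q * q)),
      0 ≤ w.ord (al Qb N q
        ((CP.pen A π hπ harch N q hqN hg d hd).t : modularFunctionFieldFullC Qb (N * q))) →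
      E w = 0) (m : ℕ) :
    ∃ c : ℕ, push (al Qb N q) (m • E) ≤ c • (CP.pen A π hπ harch N q hqN hg d hd).E ∧
      push (be Qb N q) (m • E) ≤ c • (CP.pen A π hπ harch N q hqN hg d hd).E := by
  rw [CP.pen_t] at hE
  refine push_E_le' hqN (CP.pen A π hπ harch N q hqN hg d hd).E_nonneg (fun v hv => ?_) hE m
  rw [(CP.pen A π hπ harch N q hqN hg d hd).hE, CP.pen_t] at hv
  have h1 := le_max_right (0 : ℤ) (-(v.ord (jF Qb (N * q) * CP.jrF Qb N q)))
  rw [hv] at h1
  linarith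

theorem push_poleDiv_le (m : ℕ) :
    ∃ c : ℕ, push (al Qb N q) (m • poleDiv (al Qb N q
        ((CP.pen A π hπ harch N q hqN hg d hd).t : modularFunctionFieldFullC Qb (N * q)))) ≤
          c • (CP.pen A π hπ harch N q hqN hg d hd).E ∧
      push (be Qb N q) (m • poleDiv (al Qb N q
        ((CP.pen A π hπ harch N q hqN hg d hd).t : modularFunctionFieldFullC Qb (N * q)))) ≤
          c • (CP.pen A π hπ harch N q hqN hg d hd).E :=
  push_E_le π hπ harch N q hqN hg d hd (fun w hw => by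
    rw [poleDiv_apply]
    exact max_eq_right (by linarith)) m

end OverQb

end Fermat.Agent.Car
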