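import Fermat.Agent.Car.PushX
import Fermat.Agent.Car.PushGlue
import Fermat.Agent.Car.FrobX

/-!
# Project CAR, block C9: the push-forward data of `X₀(N q²)`
-/

set_option autoImplicit false
set_option linter.unusedSectionVars false

noncomputable section

open AlgebraicCurve Module HahnSeries ModularCurve IntermediateField

namespace Fermat.Agent.Car

open Fermat.Agent.FunField Fermat.Agent.FunField.PlaceLemmas Fermat.Agent.Deuring
  Fermat.Agent.BadRed Fermat.Agent.Degen Fermat.Agent.HeckeRed Fermat.Agent.AtkinLehner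
  Fermat.Agent.ModPoly Fermat.Agent.Igusa

local notation "Qb" => AlgebraicClosure ℚ

variable {A : ValuationSubring Qb}
  {κ : Type*} [Field κ] [IsAlgClosed κ] {π : A →+* κ} [IsLocalHom π]
  (hπ : Function.Surjective π) (harch : ArchA π)
  {N q : ℕ} [hq : Fact q.Prime] [hN : NeZero N] [CharP κ q] {hqN : ¬ q ∣ N}
  (hA : A.LiesOverPrime q)
  (hg : genusFF κ (modularFunctionFieldFullC κ N) =
    genusFF Qb (modularFunctionFieldFullC Qb N))
  (d : CP.DecAut A π) (hd : CP.IsFrob d q)
  {S : Sys Qb κ (modularFunctionFieldFullC Qb (N * q * q)) (modularFunctionFieldFullC κ N)}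
  {v : Qbˣ} {hv : IsPrimitiveRoot v q} (ι : Qb →+* ℂ)

/-- **The push-forward data of `X₀(N q²)`.** -/
def pushX (hS : IsGaussSys hqN π hv S) (hΓ : S.Γ = IΓ A (N * q * q)) (G : GaussLR π hqN S v hv) :
    Push (unitsX hπ harch hg d hd ι hS hΓ) (frobX hπ harch hA hg d hd hS hΓ)
      (modularFunctionFieldFullC Qb (N * q)) :=
  mkPush hπ harch hA G _ _ (fun x => rfl) (by
    intro i m f a b hf ha hb z hz
    obtain ⟨c, hc1, hc2⟩ := push_poleDiv_le π hπ harch N q hqN hg d hd m
    have hcusp : 0 ≤ z.ord (jF κ N) := by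
      by_contra hcon
      push Not at hcon
      have h1 := oDiv_cusp (N := N) (q := q) (ub := ubr ι A π hπ harch N q hqN) rfl z hcon
      rw [unitsX_o, h1] at hz
      exact lt_irrefl _ hz
    have hub : 0 < z.ord (ubr ι A π hπ harch N q hqN) := by
      have h1 := oDiv_off (N := N) (q := q) (ub := ubr ι A π hπ harch N q hqN) rfl z hcusp
      rw [unitsX_o, h1] at hz
      exact hz
    refine glue_q π hπ harch N q hqN hg d hd ι (m := c) ?_ ha hb hcusp hub _ (fun x => rfl)
    fin_cases i
    · exact Deuring.rr_mono hc1 hf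
    · exact Deuring.rr_mono hc2 hf)

theorem pushX_pD0 (hS : IsGaussSys hqN π hv S) (hΓ : S.Γ = IΓ A (N * q * q))
    (G : GaussLR π hqN S v hv) (D : Divisor Qb (modularFunctionFieldFullC Qb (N * q * q))) :
    (pushX hπ harch hA hg d hd ι hS hΓ G).pD 0 D = push (al Qb N q) D := rfl

theorem pushX_pD1 (hS : IsGaussSys hqN π hv S) (hΓ : S.Γ = IΓ A (N * q * q))
    (G : GaussLR π hqN S v hv) (D : Divisor Qb (modularFunctionFieldFullC Qb (N * q * q))) :
    (pushX hπ harch hA hg d hd ι hS hΓ G).pD 1 D = push (be Qb N q) D := rfl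

end Fermat.Agent.Car
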