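import Fermat.Agent.Car.SysX
import Fermat.Agent.Car.PushY
import Fermat.Agent.Car.Core
import Fermat.Agent.Car.HPt
import Fermat.Agent.Car.LvlCore

/-!
# Project CAR: the core statement for `X₀(N q²)` at `q`
-/

set_option autoImplicit false
set_option linter.unusedSectionVars false

noncomputable section

open AlgebraicCurve Module HahnSeries ModularCurve IntermediateField

namespace Fermat.Agent.Car

open Fermat.Agent.FunField Fermat.Agent.FunField.PlaceLemmas Fermat.Agent.Deuring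
  Fermat.Agent.BadRed Fermat.Agent.Degen Fermat.Agent.HeckeRed Fermat.Agent.AtkinLehner
  Fermat.Agent.ModPoly Fermat.Agent.Igusa

local notation "Qb" => AlgebraicClosure ℚ

theorem hcore_gen {A : ValuationSubring Qb}
    {κ : Type*} [Field κ] [IsAlgClosed κ] {π : A →+* κ} [IsLocalHom π]
    (hπ : Function.Surjective π) (harch : ArchA π)
    {N q : ℕ} [hq : Fact q.Prime] [hN : NeZero N] [CharP κ q] (hqN : ¬ q ∣ N)
    (hA : A.LiesOverPrime q)
    (hg : genusFF κ (modularFunctionFieldFullC κ N) =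
      genusFF Qb (modularFunctionFieldFullC Qb N))
    (d : CP.DecAut A π) (hd : CP.IsFrob d q) (ι : Qb →+* ℂ) (h4 : 4 ∣ N ∨ 9 ∣ N) :
    ∃ C : ℕ, C ≠ 0 ∧ CoreConc κ (IΓ A (N * q * q)) ![push (al Qb N q), push (be Qb N q)] C := by
  obtain ⟨v, hv⟩ := exists_prim Qb q
  have hS : IsGaussSys hqN π hv (sysX π hπ harch N q hqN hA v hv) := isGaussSys_sysX
  have G : GaussLR π hqN (sysX π hπ harch N q hqN hA v hv) v hv := gaussLR_sysX
  have hΓ : (sysX π hπ harch N q hqN hA v hv).Γ = IΓ A (N * q * q) := rfl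
  obtain ⟨C, hC, H⟩ := core TorsInj.rrLarge_genusFF TorsInj.rrLarge_genusFF
    (unitsX hπ harch hg d hd ι hS hΓ) (frobX hπ harch hA hg d hd hS hΓ)
    (pushX hπ harch hA hg d hd ι hS hΓ G) (unitsX_hgen hπ harch hg d hd ι h4 hS hΓ)
    (CharP.cast_eq_zero κ q) (unitsX_hub hπ harch hg d hd ι hS hΓ)
    (frobX_ub hπ harch hA hg d hd ι hS hΓ)
  exact ⟨C, hC, fun n hn D hD f hf hf0 hfD h => H n hn D hD f hf hf0 hfD h⟩

/-- **`HCore`** for levels without elliptic points. -/
theorem hCore_of_h4 (N q : ℕ) [NeZero N] [NeZero (N * q)] [NeZero (N * q * q)] [NeZero q]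
    (hqp : q.Prime) (hqN : ¬ q ∣ N) (h4 : 4 ∣ N ∨ 9 ∣ N) : HCore N q := by
  intro A hA
  have i0 : Fact q.Prime := ⟨hqp⟩
  have i1 : IsAlgClosed (IsLocalRing.ResidueField A) := isAlgClosed_residueField A
  have i2 : CharP (IsLocalRing.ResidueField A) q := charP_residueField hqp hA
  have i5 : IsLocalHom (IsLocalRing.residue A) := inferInstance
  have hN : (N : IsLocalRing.ResidueField A) ≠ 0 := fun h =>
    hqN ((CharP.cast_eq_zero_iff _ q N).mp h)
  obtain ⟨σ₀, hσ₀⟩ := Fermat.Agent.Frob.exists_isFrobeniusAt hqp hA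
  let d : CP.DecAut A (IsLocalRing.residue A) :=
    { σ := (σ₀ : Qb ≃+* Qb)
      τ := MulSemiringAction.toRingAut (A.decompositionSubgroup ℚ) (IsLocalRing.ResidueField A)
        ⟨σ₀, hσ₀.mem_decompositionSubgroup⟩
      mem_iff := fun a => (mem_iff_decomp hσ₀.mem_decompositionSubgroup a).symm
      res := residue_decomp hσ₀.mem_decompositionSubgroup }
  have hd : CP.IsFrob d q := fun a => hσ₀.smul_residue_eq a
  let ι : Qb →+* ℂ := (IsAlgClosed.lift (R := ℚ) (S := Qb) (M := ℂ) : Qb →ₐ[ℚ] ℂ).toRingHom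
  obtain ⟨C, hC, H⟩ := hcore_gen (π := IsLocalRing.residue A) IsLocalRing.residue_surjective
    (archA hqp hA) hqN hA (Cusps.genusFF_residue A N hN) d hd ι h4
  refine ⟨C, hC, fun n hn x hnx hI h0 h1 => ?_⟩
  have hn' : (n : IsLocalRing.ResidueField A) ≠ 0 := fun h =>
    hn ((CharP.cast_eq_zero_iff _ q n).mp h)
  exact hcore_of_coreConc (al Qb N q) (be Qb N q) (fun y => coe_al Qb N q y)
    (fun y => coe_be Qb N q y) _ (fun D => rfl) (fun D => rfl) H hn' x hnx hI h0 h1

end Fermat.Agent.Car
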