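import Fermat.Agent.Car.Defs

/-!
# Project CAR: counting dimensions along a chain of levels
-/

set_option autoImplicit false
set_option linter.unusedSectionVars false

noncomputable section

open AlgebraicCurve Module

namespace Fermat.Agent.Car

open Fermat.Agent.FunField Fermat.Agent.FunField.PlaceLemmas Fermat.Agent.Deuring
  Fermat.Agent.BadRed

section Fix

variable {L F : Type*} [Field L] [Field F] [Algebra L F] {Γ : Set (SemilinearAut L F)}

theorem smul_linComb {ι : Type*} {f : ι → F} (hf : ∀ i, f i ∈ fixF Γ) {g : SemilinearAut L F}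
    (hg : g ∈ Γ) (c : ι →₀ L) : g • Finsupp.linearCombination L f c =
      Finsupp.linearCombination L f (c.mapRange (SemilinearAut.baseAut g) (map_zero _)) := by
  rw [Finsupp.linearCombination_apply, Finsupp.linearCombination_apply,
    Finsupp.sum_mapRange_index (h := fun i a => a • f i) (fun i => zero_smul L (f i)),
    Finsupp.sum, Finsupp.sum, Finset.smul_sum]
  refine Finset.sum_congr rfl fun i _ => ?_
  rw [Algebra.smul_def, Algebra.smul_def, smul_mul', SemilinearAut.smul_algebraMap, hf i g hg]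

/-- **Artin's lemma**: rational functions which are linearly independent over the rational
constants are linearly independent. -/
theorem linIndep_of_fix {ι : Type*} (f : ι → F) (hf : ∀ i, f i ∈ fixF Γ)
    (h : ∀ c : ι →₀ L, (∀ i, c i ∈ fixL Γ) → Finsupp.linearCombination L f c = 0 → c = 0) :
    LinearIndependent L f := by
  classical
  rw [linearIndependent_iff]
  by_contra hcon
  push Not at hcon
  obtain ⟨c₀, hc₀, hc₀'⟩ := hcon
  -- a relation with minimal support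
  have hex : ∃ n : ℕ, ∃ c : ι →₀ L, Finsupp.linearCombination L f c = 0 ∧ c ≠ 0 ∧
      c.support.card = n := ⟨_, c₀, hc₀, hc₀', rfl⟩
  obtain ⟨c, hc, hcne, hcard⟩ := Nat.find_spec hex
  have hmin : ∀ d : ι →₀ L, Finsupp.linearCombination L f d = 0 →
      d.support.card < c.support.card → d = 0 := by
    intro d hd hlt
    by_contra hdne
    rw [hcard] at hlt
    exact Nat.find_min hex hlt ⟨d, hd, hdne, rfl⟩
  obtain ⟨i₀, hi₀⟩ := Finsupp.ne_iff.mp hcne
  rw [Finsupp.zero_apply] at hi₀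
  -- normalise
  let c' : ι →₀ L := (c i₀)⁻¹ • c
  have hc' : Finsupp.linearCombination L f c' = 0 := by
    rw [map_smul, hc, smul_zero]
  have hsupp : c'.support = c.support := by
    refine Finsupp.support_smul_eq (inv_ne_zero hi₀)
  have hone : c' i₀ = 1 := by
    rw [Finsupp.smul_apply, smul_eq_mul, inv_mul_cancel₀ hi₀]
  have hfix : ∀ i, c' i ∈ fixL Γ := by
    intro i g hg
    let d : ι →₀ L := c'.mapRange (SemilinearAut.baseAut g) (map_zero _) - c'
    have hd : Finsupp.linearCombination L f d = 0 := by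
      rw [map_sub, ← smul_linComb hf hg, hc', smul_zero, sub_zero]
    have hd0 : d = 0 := by
      refine hmin d hd (Finset.card_lt_card ?_)
      rw [← hsupp, Finset.ssubset_iff_of_subset]
      · refine ⟨i₀, ?_, ?_⟩
        · rw [Finsupp.mem_support_iff, hone]; exact one_ne_zero
        · rw [Finsupp.notMem_support_iff, Finsupp.sub_apply, Finsupp.mapRange_apply, hone,
            map_one, sub_self]
      · intro j hj
        rw [Finsupp.mem_support_iff] at hj ⊢
        intro h0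
        apply hj
        rw [Finsupp.sub_apply, Finsupp.mapRange_apply, h0, map_zero, sub_zero]
    have h1 := DFunLike.congr_fun hd0 i
    rw [Finsupp.sub_apply, Finsupp.mapRange_apply, Finsupp.zero_apply, sub_eq_zero] at h1
    exact h1
  have h2 := h c' hfix hc'
  rw [h2, Finsupp.zero_apply] at hone
  exact zero_ne_one hone

/-- coordinates of rational elements with respect to a rational basis are rational -/
theorem coord_mem_fixL {ι : Type*} {b : ι → F} (hli : LinearIndependent L b)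
    (hb : ∀ i, b i ∈ fixF Γ) {c : ι →₀ L} (h : Finsupp.linearCombination L b c ∈ fixF Γ) (i : ι) :
    c i ∈ fixL Γ := by
  intro g hg
  have h1 := h g hg
  rw [smul_linComb hb hg] at h1
  have h2 := hli h1
  have h3 := DFunLike.congr_fun h2 i
  rwa [Finsupp.mapRange_apply] at h3

end Fix

variable {L k F F₁ : Type*} [Field L] [Field k] [Field F] [Field F₁] [Algebra L F] [Algebra k F₁]
variable (S : Sys L k F F₁)

namespace Sys

theorem ge_ϖ {s : Fin 3 → ℤ} {f : F} (h : S.Ge s f) (m : ℤ) :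
    S.Ge (fun j => s j + m * S.e j) (S.ϖ ^ m • f) := fun j => S.ϖ_smul_ge (h j) m

theorem ge_cst {s : Fin 3 → ℤ} {f : F} (h : S.Ge s f) {a : S.A} (ha : (a : L) ∈ fixL S.Γ) :
    S.Ge s ((a : L) • f) := fun j => S.cst_smul_ge (h j) ha

/-- rational functions become integral after scaling -/
theorem exists_scale {f : F} (hf : f ∈ S.FK) (s : Fin 3 → ℤ) :
    ∃ m : ℕ, ∀ m' : ℕ, m ≤ m' → S.Ge s ((S.ϖ ^ m' : L) • f) := by
  rcases eq_or_ne f 0 with rfl | hf0
  · exact ⟨0, fun m' _ => by rw [smul_zero]; exact Ge.zero S s⟩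
  have h1 : ∀ i, ∃ n : ℤ, (S.V i).Ge n f := fun i => by
    obtain ⟨n, a, -, h⟩ := (S.V i).exists_LR hf hf0
    exact ⟨n, h.ge⟩
  choose n hn using h1
  refine ⟨(∑ i, |s i - n i|).toNat, fun m' hm' i => ?_⟩
  have h2 := S.ϖ_smul_ge (hn i) (m' : ℤ)
  rw [zpow_natCast] at h2
  refine h2.lower ?_
  have h3 : |s i - n i| ≤ ∑ i, |s i - n i| :=
    Finset.single_le_sum (f := fun i => |s i - n i|) (fun i _ => abs_nonneg _)
      (Finset.mem_univ i)
  have h4 : (0 : ℤ) ≤ ∑ i, |s i - n i| := Finset.sum_nonneg fun i _ => abs_nonneg _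
  have h5 : ((∑ i, |s i - n i|).toNat : ℤ) ≤ m' := by exact_mod_cast hm'
  rw [Int.toNat_of_nonneg h4] at h5
  have h6 := le_abs_self (s i - n i)
  have h7 : (1 : ℤ) ≤ S.e i := by exact_mod_cast S.e_pos i
  have h8 : (0 : ℤ) ≤ m' := by positivity
  nlinarith

/-- bounded denominators -/
theorem exists_ϖ_mul_mem {c : L} (hc : c ≠ 0) : ∃ B : ℕ, ∀ B' : ℕ, B ≤ B' → ∀ a : L, c * a ∈ S.A →
    S.ϖ ^ B' * a ∈ S.A := by
  obtain ⟨B, hB⟩ := S.arch c hc
  have h1 : S.ϖ ^ B * c⁻¹ ∈ S.A := by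
    rcases S.A.mem_or_inv_mem (c * (S.ϖ ^ B)⁻¹) with h | h
    · exact absurd h hB
    · rwa [mul_inv, inv_inv, mul_comm] at h
  refine ⟨B, fun B' hB' a ha => ?_⟩
  obtain ⟨d, rfl⟩ := Nat.exists_eq_add_of_le hB'
  have h2 : S.ϖ ^ (B + d) * a = S.ϖ ^ d * ((S.ϖ ^ B * c⁻¹) * (c * a)) := by
    rw [pow_add]
    field_simp
  rw [h2]
  exact mul_mem (pow_mem S.ϖ_mem d) (mul_mem h1 ha)

end Sys

section PathLemmas

variable {e : Fin 3 → ℕ} (Q : Path e)

theorem Path.mono {t t' : ℕ} (h : t ≤ t') (h' : t' ≤ Q.T) : Q.σ t ≤ Q.σ t' := by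
  induction t', h using Nat.le_induction with
  | base => exact le_rfl
  | succ m _ ih =>
    refine (ih (by omega)).trans ?_
    rw [Q.succ m (by omega)]
    intro j
    rw [Pi.add_apply]
    have : (0 : ℤ) ≤ (Pi.single (Q.i m) 1 : Fin 3 → ℤ) j := by
      rcases eq_or_ne j (Q.i m) with rfl | hj
      · rw [Pi.single_eq_same]; exact zero_le_one
      · rw [Pi.single_eq_of_ne hj]
    linarith

theorem Path.nonneg {t : ℕ} (h : t ≤ Q.T) : 0 ≤ Q.σ t := by
  rw [← Q.zero]; exact Q.mono (Nat.zero_le t) h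

theorem Path.le_e {t : ℕ} (h : t ≤ Q.T) (j : Fin 3) : Q.σ t j ≤ e j := by
  rw [← Q.last j]; exact Q.mono h le_rfl j

theorem Path.step_apply {t : ℕ} (h : t < Q.T) : Q.σ (t + 1) (Q.i t) = Q.σ t (Q.i t) + 1 := by
  rw [Q.succ t h, Pi.add_apply, Pi.single_eq_same]

theorem Path.lt_e {t : ℕ} (h : t < Q.T) : Q.σ t (Q.i t) < e (Q.i t) := by
  have h1 := Q.le_e (t := t + 1) h (Q.i t)
  rw [Q.step_apply h] at h1
  linarith

end PathLemmas

section Indep

variable {S} (Q : Path S.e)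

/-- raising the level at one component -/
theorem Sys.ge_succ {s : Fin 3 → ℤ} {i : Fin 3} {f : F} (h : S.Ge s f) (h0 : (S.V i).LR (s i) f 0) :
    S.Ge (s + Pi.single i 1) f := by
  intro j
  rw [Pi.add_apply]
  rcases eq_or_ne j i with rfl | hj
  · rw [Pi.single_eq_same]; exact h0.raise
  · rw [Pi.single_eq_of_ne hj, add_zero]; exact h j

/-- **Independence of lifts.** -/
theorem linIndep_lifts {J : ℕ → Type*} (x : (t : ℕ) → J t → F) (a : (t : ℕ) → J t → F₁)
    (hx : ∀ t j, t < Q.T → S.Ge (Q.σ t) (x t j))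
    (hxa : ∀ t j, t < Q.T → (S.V (Q.i t)).LR (Q.σ t (Q.i t)) (x t j) (a t j))
    (ha : ∀ t, t < Q.T → LinearIndependent k (a t)) :
    LinearIndependent L (fun y : Σ t : Fin Q.T, J t => x y.1 y.2) := by
  classical
  refine linIndep_of_fix (Γ := S.Γ) _ (fun y => (hx _ _ y.1.2).mem_FK) fun c hc hrel => ?_
  by_contra hne
  -- valuations of the coefficients
  have hv : ∀ y, c y ≠ 0 → ∃ (n : ℤ) (u : S.A), S.π u ≠ 0 ∧ c y = S.ϖ ^ n * u := fun y hy =>
    S.unif _ (hc y) hy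
  choose! n u hu hcu using hv
  have hsne : c.support.Nonempty := Finsupp.support_nonempty_iff.mpr hne
  obtain ⟨y₀, hy₀, hmin⟩ := Finset.exists_min_image c.support n hsne
  -- scaled relation
  let c' : (Σ t : Fin Q.T, J t) → L := fun y => S.ϖ ^ (-n y₀) * c y
  have hfix : ∀ y, c' y ∈ fixL S.Γ := fun y =>
    (fixL S.Γ).mul_mem (zpow_mem S.ϖ_fix _) (hc y)
  have hA : ∀ y, c' y ∈ S.A := by
    intro y
    rcases eq_or_ne (c y) 0 with h0 | h0
    · change S.ϖ ^ (-n y₀) * c y ∈ S.A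
      rw [h0, mul_zero]; exact S.A.zero_mem
    · have h1 := hmin y (Finsupp.mem_support_iff.mpr h0)
      have h2 : c' y = S.ϖ ^ (n y - n y₀).toNat * u y := by
        change S.ϖ ^ (-n y₀) * c y = _
        rw [hcu y h0, ← mul_assoc, ← zpow_add₀ S.ϖ_ne, ← zpow_natCast,
          Int.toNat_of_nonneg (by linarith)]
        congr 2
        ring
      rw [h2]
      exact mul_mem (pow_mem S.ϖ_mem _) (u y).2
  let cA : (Σ t : Fin Q.T, J t) → S.A := fun y => ⟨c' y, hA y⟩
  have hy₀' : c y₀ ≠ 0 := Finsupp.mem_support_iff.mp hy₀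
  have hcA₀ : S.π (cA y₀) ≠ 0 := by
    have h1 : cA y₀ = u y₀ := by
      apply Subtype.ext
      change S.ϖ ^ (-n y₀) * c y₀ = _
      rw [hcu y₀ hy₀', ← mul_assoc, ← zpow_add₀ S.ϖ_ne, neg_add_cancel, zpow_zero, one_mul]
    rw [h1]; exact hu y₀ hy₀'
  -- coefficients with zero residue are divisible by `ϖ`
  have hdiv : ∀ y, S.π (cA y) = 0 → ∃ b : S.A, (b : L) ∈ fixL S.Γ ∧ (cA y : L) = S.ϖ * b := by
    intro y hy
    rcases eq_or_ne (c y) 0 with h0 | h0
    · refine ⟨0, (fixL S.Γ).zero_mem, ?_⟩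
      change S.ϖ ^ (-n y₀) * c y = _
      rw [h0, mul_zero, ZeroMemClass.coe_zero, mul_zero]
    · have h1 := hmin y (Finsupp.mem_support_iff.mpr h0)
      have h3 : n y ≠ n y₀ := by
        intro h3
        apply hu y h0
        have h4 : cA y = u y := by
          apply Subtype.ext
          change S.ϖ ^ (-n y₀) * c y = _
          rw [hcu y h0, ← h3, ← mul_assoc, ← zpow_add₀ S.ϖ_ne, neg_add_cancel, zpow_zero, one_mul]
        rw [← h4]; exact hy
      have h5 : (0 : ℤ) ≤ n y - n y₀ - 1 := by omega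
      have h2 : (cA y : L) = S.ϖ * (S.ϖ ^ (n y - n y₀ - 1).toNat * u y) := by
        change S.ϖ ^ (-n y₀) * c y = _
        rw [hcu y h0, ← mul_assoc, ← mul_assoc, ← zpow_add₀ S.ϖ_ne, ← pow_succ', ← zpow_natCast]
        congr 2
        push_cast
        rw [Int.toNat_of_nonneg h5]
        ring
      have h6 : S.ϖ ^ (n y - n y₀ - 1).toNat * (u y : L) ∈ S.A :=
        mul_mem (pow_mem S.ϖ_mem _) (u y).2
      refine ⟨⟨_, h6⟩, ?_, h2⟩
      change S.ϖ ^ (n y - n y₀ - 1).toNat * (u y : L) ∈ fixL S.Γ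
      have h7 : S.ϖ ^ (n y - n y₀ - 1).toNat * (u y : L) = S.ϖ⁻¹ * (cA y : L) := by
        rw [h2, ← mul_assoc, inv_mul_cancel₀ S.ϖ_ne, one_mul]
      rw [h7]
      exact (fixL S.Γ).mul_mem ((fixL S.Γ).inv_mem S.ϖ_fix) (hfix y)
  -- the first step with a unit coefficient
  have hex : ∃ t : ℕ, ∃ y ∈ c.support, (y.1 : ℕ) = t ∧ S.π (cA y) ≠ 0 := ⟨_, y₀, hy₀, rfl, hcA₀⟩
  obtain ⟨y₁, hy₁, hty₁, hπy₁⟩ := Nat.find_spec hex
  set t₀ := Nat.find hex with ht₀
  have hbefore : ∀ y ∈ c.support, (y.1 : ℕ) < t₀ → S.π (cA y) = 0 := by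
    intro y hy hlt
    by_contra h
    exact Nat.find_min hex hlt ⟨y, hy, rfl, h⟩
  have ht₀T : t₀ < Q.T := by rw [← hty₁]; exact y₁.1.2
  -- the relation at level `σ t₀`
  have hrel' : ∑ y ∈ c.support, (cA y : L) • x y.1 y.2 = 0 := by
    have h1 : ∀ y ∈ c.support, (cA y : L) • x y.1 y.2 = S.ϖ ^ (-n y₀) • (c y • x y.1 y.2) :=
      fun y _ => by
        change (S.ϖ ^ (-n y₀) * c y) • _ = _
        rw [mul_smul]
    rw [Finset.sum_congr rfl h1, ← Finset.smul_sum]
    rw [Finsupp.linearCombination_apply, Finsupp.sum] at hrel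
    rw [hrel, smul_zero]
  have hterm : ∀ y ∈ c.support, (S.V (Q.i t₀)).LR (Q.σ t₀ (Q.i t₀)) ((cA y : L) • x y.1 y.2)
      (if (y.1 : ℕ) = t₀ then S.π (cA y) • a y.1 y.2 else 0) := by
    intro y hy
    rcases lt_trichotomy (y.1 : ℕ) t₀ with h | h | h
    · rw [if_neg h.ne]
      obtain ⟨b, hb, hb'⟩ := hdiv y (hbefore y hy h)
      rw [hb', mul_smul]
      have h1 := S.cst_smul_ge (hx y.1 y.2 y.1.2 (Q.i t₀)) hb
      have h2 := S.ϖ_smul_ge h1 1
      rw [zpow_one] at h2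
      refine h2.lr_zero ?_
      have h3 := Q.lt_e ht₀T
      have h4 := Q.nonneg (t := y.1) (by omega) (Q.i t₀)
      rw [Pi.zero_apply] at h4
      linarith
    · rw [if_pos h]
      have h1 := hxa y.1 y.2 y.1.2
      rw [← h]
      exact S.cst_smul h1 (hfix _)
    · rw [if_neg h.ne']
      have h1 := S.cst_smul_ge (hx y.1 y.2 y.1.2 (Q.i t₀)) (a := cA y) (hfix y)
      refine h1.lr_zero ?_
      have h2 := Q.mono (t := t₀ + 1) (t' := y.1) h (by omega) (Q.i t₀)
      rw [Q.step_apply ht₀T] at h2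
      linarith
  have hsum := RV.LR.sum c.support hterm
  rw [hrel'] at hsum
  have hzero := (RV.LR.zero (S.V (Q.i t₀)) _).unique hsum
  -- the residue relation
  let ι₀ : J t₀ → (Σ t : Fin Q.T, J t) := fun j => ⟨⟨t₀, ht₀T⟩, j⟩
  have hι₀ : Function.Injective ι₀ := fun j j' h => by
    have := (Sigma.mk.inj_iff.mp h).2
    exact eq_of_heq this
  have hli := ha t₀ ht₀T
  rw [linearIndependent_iff'] at hli
  have h9 := Finset.sum_preimage ι₀ c.support hι₀.injOn
    (fun y => if (y.1 : ℕ) = t₀ then S.π (cA y) • a y.1 y.2 else 0) (fun y _ hyr => by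
      rw [if_neg]
      intro h
      apply hyr
      obtain ⟨⟨t, ht⟩, j⟩ := y
      simp only at h
      subst h
      exact ⟨j, rfl⟩)
  rw [← hzero] at h9
  have h11 := hli (c.support.preimage ι₀ hι₀.injOn) (fun j => S.π (cA (ι₀ j))) (by
    rw [← h9]
    refine Finset.sum_congr rfl fun j _ => ?_
    rw [if_pos rfl])
  obtain ⟨⟨t₁, ht₁⟩, j₁⟩ := y₁
  simp only at hty₁
  subst hty₁
  exact hπy₁ (h11 j₁ (Finset.mem_preimage.mpr hy₁))

end Indep

section Count

variable {S}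

/-- lifts of residues -/
theorem Sys.exists_lift {W : Submodule L F} {s : Fin 3 → ℤ} {i : Fin 3} {ι : Type*}
    (a : ι → S.P W s i) : ∃ x : ι → F, (∀ j, x j ∈ W) ∧ (∀ j, S.Ge s (x j)) ∧
      ∀ j, (S.V i).LR (s i) (x j) (a j) := by
  choose x hx using fun j => (a j).2
  exact ⟨x, fun j => (hx j).1, fun j => (hx j).2.1, fun j => (hx j).2.2⟩

variable (W : Submodule L F) [FiniteDimensional L W] (Q : Path S.e)

/-- independent residues in one step lift to independent functions -/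
theorem linIndep_lift_one {t : ℕ} (ht : t < Q.T) {ι : Type*} {a : ι → F₁}
    (ha : LinearIndependent k a) {x : ι → F} (hx : ∀ j, S.Ge (Q.σ t) (x j))
    (hxa : ∀ j, (S.V (Q.i t)).LR (Q.σ t (Q.i t)) (x j) (a j)) : LinearIndependent L x := by
  classical
  let J : ℕ → Type _ := fun t' => {j : ι // t' = t}
  have h1 := linIndep_lifts (S := S) Q (J := J) (fun _ j => x j.1) (fun _ j => a j.1)
    (fun t' j _ => by
      obtain ⟨j, rfl⟩ := j
      exact hx j) (fun t' j _ => by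
      obtain ⟨j, rfl⟩ := j
      exact hxa j) (fun t' _ => by
      refine ha.comp _ ?_
      intro j j' h
      exact Subtype.ext h)
  have h2 := h1.comp (fun j : ι => (⟨⟨t, ht⟩, ⟨j, rfl⟩⟩ : Σ t' : Fin Q.T, J t')) (by
    intro j j' h
    have h3 := eq_of_heq (Sigma.mk.inj_iff.mp h).2
    exact congrArg Subtype.val h3)
  exact h2

theorem finiteDimensional_P : ∀ t < Q.T, FiniteDimensional k (S.P W (Q.σ t) (Q.i t)) := by
  intro t ht
  let b := Basis.ofVectorSpace k (S.P W (Q.σ t) (Q.i t))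
  obtain ⟨x, hxW, hx, hxa⟩ := Sys.exists_lift (fun j => b j)
  have hli : LinearIndependent k (fun j => (b j : F₁)) :=
    b.linearIndependent.map' (S.P W (Q.σ t) (Q.i t)).subtype (Submodule.ker_subtype _)
  have h1 := linIndep_lift_one Q ht hli hx hxa
  have h2 : LinearIndependent L (fun j => (⟨x j, hxW j⟩ : W)) :=
    LinearIndependent.of_comp W.subtype h1
  have : Finite (Basis.ofVectorSpaceIndex k (S.P W (Q.σ t) (Q.i t))) := h2.finite
  exact Module.Finite.of_basis b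

/-- the lifts of bases of the pieces -/
theorem exists_lifts : ∃ (x : (t : ℕ) → Fin (finrank k (S.P W (Q.σ t) (Q.i t))) → F)
    (b : (t : ℕ) → Fin (finrank k (S.P W (Q.σ t) (Q.i t))) → S.P W (Q.σ t) (Q.i t)),
    (∀ t j, t < Q.T → x t j ∈ W) ∧ (∀ t j, t < Q.T → S.Ge (Q.σ t) (x t j)) ∧
    (∀ t j, t < Q.T → (S.V (Q.i t)).LR (Q.σ t (Q.i t)) (x t j) (b t j)) ∧
    (∀ t, t < Q.T → LinearIndependent k (fun j => (b t j : F₁))) ∧
    ∀ t, t < Q.T → ∀ y : S.P W (Q.σ t) (Q.i t), ∃ c : Fin (finrank k (S.P W (Q.σ t) (Q.i t))) → k,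
      y = ∑ j, c j • b t j := by
  classical
  have hfd := finiteDimensional_P W Q
  have hb : ∀ t, ∃ b : Fin (finrank k (S.P W (Q.σ t) (Q.i t))) → S.P W (Q.σ t) (Q.i t), t < Q.T →
      LinearIndependent k (fun j => (b j : F₁)) ∧
      ∀ y : S.P W (Q.σ t) (Q.i t), ∃ c : Fin (finrank k (S.P W (Q.σ t) (Q.i t))) → k,
      y = ∑ j, c j • b j := by
    intro t
    by_cases ht : t < Q.T
    · have := hfd t ht
      let b := finBasis k (S.P W (Q.σ t) (Q.i t))
      refine ⟨b, fun _ => ⟨b.linearIndependent.map' (S.P W (Q.σ t) (Q.i t)).subtype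
        (Submodule.ker_subtype _), fun y => ⟨b.repr y, (b.sum_repr y).symm⟩⟩⟩
    · exact ⟨fun _ => 0, fun h => absurd h ht⟩
  choose b hb using hb
  have hx : ∀ t, ∃ x : Fin (finrank k (S.P W (Q.σ t) (Q.i t))) → F, (∀ j, x j ∈ W) ∧
      (∀ j, S.Ge (Q.σ t) (x j)) ∧ ∀ j, (S.V (Q.i t)).LR (Q.σ t (Q.i t)) (x j) (b t j) := fun t =>
    Sys.exists_lift (b t)
  choose x hx using hx
  exact ⟨x, b, fun t j _ => (hx t).1 j, fun t j _ => (hx t).2.1 j, fun t j _ => (hx t).2.2 j,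
    fun t ht => (hb t ht).1, fun t ht => (hb t ht).2⟩

/-- **Upper bound** for the sum of the dimensions of the pieces. -/
theorem sum_P_le : ∑ t ∈ Finset.range Q.T, finrank k (S.P W (Q.σ t) (Q.i t)) ≤ finrank L W := by
  classical
  obtain ⟨x, b, hxW, hx, hxb, hb, -⟩ := exists_lifts W Q
  have h1 := linIndep_lifts (S := S) Q x (fun t j => (b t j : F₁)) hx hxb hb
  have h2 : LinearIndependent L (fun y : Σ t : Fin Q.T,
      Fin (finrank k (S.P W (Q.σ t) (Q.i t))) => (⟨x y.1 y.2, hxW y.1 y.2 y.1.2⟩ : W)) :=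
    LinearIndependent.of_comp W.subtype h1
  have h3 := h2.fintype_card_le_finrank
  rw [Fintype.card_sigma] at h3
  simp only [Fintype.card_fin] at h3
  rwa [Fin.sum_univ_eq_sum_range (fun t => finrank k (S.P W (Q.σ t) (Q.i t)))] at h3

theorem le_sum_P' (hW : ∀ g ∈ S.Γ, ∀ f ∈ W, g • f ∈ W) :
    finrank L W ≤ ∑ t ∈ Finset.range Q.T, finrank k (S.P W (Q.σ t) (Q.i t)) := by
  classical
  obtain ⟨x, b, hxW, hx, hxb, hb, hspan⟩ := exists_lifts W Q
  let X : Submodule L F := Submodule.span L (Set.range (fun y : Σ t : Fin Q.T,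
      Fin (finrank k (S.P W (Q.σ t) (Q.i t))) => x y.1 y.2))
  have hxX : ∀ t j, t < Q.T → x t j ∈ X := fun t j ht =>
    Submodule.subset_span ⟨⟨⟨t, ht⟩, j⟩, rfl⟩
  -- one cycle
  have hcyc : ∀ f ∈ W, S.Ge 0 f → ∃ z ∈ X, ∃ f' ∈ W, S.Ge 0 f' ∧ f = z + S.ϖ • f' := by
    intro f hf hf0
    have key : ∀ t, t ≤ Q.T → ∃ z ∈ X, ∃ f' ∈ W, S.Ge (Q.σ t) f' ∧ f = z + f' := by
      intro t
      induction t with
      | zero => intro _; exact ⟨0, X.zero_mem, f, hf, by rw [Q.zero]; exact hf0, by rw [zero_add]⟩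
      | succ t ih =>
        intro ht
        obtain ⟨z, hz, f', hf', hge, hfz⟩ := ih (by omega)
        obtain ⟨a, ha⟩ := (hge (Q.i t)).exists_LR
        obtain ⟨c, hc⟩ := hspan t ht ⟨a, f', hf', hge, ha⟩
        choose cl hcl hclc using fun j => S.lift (c j)
        let y : F := ∑ j, (cl j : L) • x t j
        have hyX : y ∈ X := X.sum_mem fun j _ => X.smul_mem _ (hxX t j ht)
        have hyW : y ∈ W := W.sum_mem fun j _ => W.smul_mem _ (hxW t j ht)
        have hyge : S.Ge (Q.σ t) y := Sys.Ge.sum _ fun j _ => S.ge_cst (hx t j ht) (hcl j)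
        have hyr : (S.V (Q.i t)).LR (Q.σ t (Q.i t)) y a := by
          have h1 : (S.V (Q.i t)).LR (Q.σ t (Q.i t)) y (∑ j, S.π (cl j) • (b t j : F₁)) :=
            RV.LR.sum _ fun j _ => S.cst_smul (hxb t j ht) (hcl j)
          refine h1.congr rfl ?_
          have h2 := congrArg Subtype.val hc
          simp only [Submodule.coe_sum, Submodule.coe_smul] at h2
          rw [h2]
          exact Finset.sum_congr rfl fun j _ => by rw [hclc]
        refine ⟨z + y, X.add_mem hz hyX, f' - y, W.sub_mem hf' hyW, ?_, by rw [hfz]; abel⟩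
        rw [Q.succ t ht]
        refine Sys.ge_succ (hge.sub hyge) ?_
        have h3 := ha.sub hyr
        rwa [sub_self] at h3
    obtain ⟨z, hz, f', hf', hge, hfz⟩ := key Q.T le_rfl
    refine ⟨z, hz, S.ϖ⁻¹ • f', W.smul_mem _ hf', ?_, ?_⟩
    · have h1 := S.ge_ϖ hge (-1)
      rw [zpow_neg_one] at h1
      refine h1.lower fun j => ?_
      change (0 : ℤ) ≤ Q.σ Q.T j + -1 * (S.e j : ℤ)
      rw [Q.last]
      linarith
    · rw [smul_smul, mul_inv_cancel₀ S.ϖ_ne, one_smul]; exact hfz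
  -- `X = W`
  have hWX : W ≤ X := by
    by_contra hnot
    obtain ⟨w, hw, hwX⟩ := Set.not_subset.mp hnot
    -- a rational element outside `X`
    obtain ⟨f, ⟨hfW, hfK⟩, hfX⟩ : ∃ f ∈ ((W : Set F) ∩ (fixF S.Γ : Set F)), f ∉ X := by
      by_contra hcon
      push Not at hcon
      exact hwX ((Submodule.span_le.mpr hcon) (S.rat W inferInstance hW hw))
    obtain ⟨l, hlf, hlX⟩ : ∃ l : F →ₗ[L] L, l f ≠ 0 ∧ ∀ z ∈ X, l z = 0 := by
      obtain ⟨l, hl, hlX⟩ := Submodule.exists_le_ker_of_notMem hfX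
      exact ⟨l, hl, fun z hz => LinearMap.mem_ker.mp (hlX hz)⟩
    obtain ⟨m, hm⟩ := S.exists_scale hfK 0
    obtain ⟨c, hc0, hc⟩ := S.bdd W inferInstance l
    -- iterate
    have hit : ∀ n : ℕ, ∀ f ∈ W, S.Ge 0 f → ∃ f' ∈ W, S.Ge 0 f' ∧ l f = S.ϖ ^ n * l f' := by
      intro n
      induction n with
      | zero => intro f hf h0; exact ⟨f, hf, h0, by rw [pow_zero, one_mul]⟩
      | succ n ih =>
        intro f hf h0
        obtain ⟨f', hf', h0', hl'⟩ := ih f hf h0
        obtain ⟨z, hz, f'', hf'', h0'', hl''⟩ := hcyc f' hf' h0'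
        refine ⟨f'', hf'', h0'', ?_⟩
        rw [hl', hl'', map_add, hlX z hz, zero_add, map_smul, smul_eq_mul, pow_succ, mul_assoc]
    let a : L := c * l (S.ϖ ^ m • f)
    have ha : a ≠ 0 := mul_ne_zero hc0 (by
      rw [map_smul, smul_eq_mul]
      exact mul_ne_zero (pow_ne_zero _ S.ϖ_ne) hlf)
    obtain ⟨n, hn⟩ := S.arch a ha
    obtain ⟨f', hf', h0', hl'⟩ := hit n _ (W.smul_mem _ hfW) (hm m le_rfl)
    apply hn
    have h1 := hc f' hf' (h0' 0)
    have h2 : a * (S.ϖ ^ n)⁻¹ = c * l f' := by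
      change c * l (S.ϖ ^ m • f) * (S.ϖ ^ n)⁻¹ = _
      rw [hl']
      have := pow_ne_zero n S.ϖ_ne
      field_simp
    rw [h2]; exact h1
  have h1 : finrank L W ≤ finrank L X := by
    have : FiniteDimensional L X := FiniteDimensional.span_of_finite L (Set.finite_range _)
    exact Submodule.finrank_mono hWX
  refine h1.trans ((finrank_range_le_card _).trans ?_)
  rw [Fintype.card_sigma]
  simp only [Fintype.card_fin]
  rw [Fin.sum_univ_eq_sum_range (fun t => finrank k (S.P W (Q.σ t) (Q.i t)))]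

end Count

/-- **Lower bound** for the sum of the dimensions of the pieces of a stable space. -/
theorem le_sum_P {S : Sys L k F F₁} (W : Submodule L F) [FiniteDimensional L W]
    (hW : ∀ g ∈ S.Γ, ∀ f ∈ W, g • f ∈ W) (Q : Path S.e) :
    finrank L W ≤ ∑ t ∈ Finset.range Q.T, finrank k (S.P W (Q.σ t) (Q.i t)) :=
  le_sum_P' W Q hW

section Add

variable {S} (W W' : Submodule L F)

/-- `x ∈ W + W'` of level `s` can be decomposed modulo level `s'` -/
def Dec (S : Sys L k F F₁) (W W' : Submodule L F) (s s' : Fin 3 → ℤ) : Prop :=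
  ∀ x ∈ W ⊔ W', S.Ge s x → ∃ y ∈ W, S.Ge s y ∧ ∃ z ∈ W', S.Ge s z ∧ S.Ge s' (x - (y + z))

variable {W W'}

theorem Dec.trans {s s' s'' : Fin 3 → ℤ} (h : Dec S W W' s s') (h' : Dec S W W' s' s'')
    (hs : s ≤ s') : Dec S W W' s s'' := by
  intro x hx hxs
  obtain ⟨y, hy, hys, z, hz, hzs, h1⟩ := h x hx hxs
  obtain ⟨y', hy', hys', z', hz', hzs', h2⟩ := h' (x - (y + z))
    ((W ⊔ W').sub_mem hx (Submodule.add_mem_sup hy hz)) h1
  refine ⟨y + y', W.add_mem hy hy', hys.add (hys'.lower hs), z + z', W'.add_mem hz hz',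
    hzs.add (hzs'.lower hs), ?_⟩
  have h3 : x - (y + y' + (z + z')) = x - (y + z) - (y' + z') := by abel
  rw [h3]; exact h2

theorem Dec.refl (s : Fin 3 → ℤ) : Dec S W W' s s := fun x _ hxs =>
  ⟨0, W.zero_mem, Sys.Ge.zero S s, 0, W'.zero_mem, Sys.Ge.zero S s, by
    rw [add_zero, sub_zero]; exact hxs⟩

/-- shifting by the uniformizer -/
theorem Dec.shift {s s' : Fin 3 → ℤ} (h : Dec S W W' s s') (c : ℤ) :
    Dec S W W' (fun j => s j + c * S.e j) (fun j => s' j + c * S.e j) := by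
  intro x hx hxs
  have h1 := S.ge_ϖ hxs (-c)
  obtain ⟨y, hy, hys, z, hz, hzs, h2⟩ := h (S.ϖ ^ (-c) • x) ((W ⊔ W').smul_mem _ hx)
    (h1.lower fun j => by linarith)
  refine ⟨S.ϖ ^ c • y, W.smul_mem _ hy, S.ge_ϖ hys c, S.ϖ ^ c • z, W'.smul_mem _ hz,
    S.ge_ϖ hzs c, ?_⟩
  have h3 : x - (S.ϖ ^ c • y + S.ϖ ^ c • z) = S.ϖ ^ c • (S.ϖ ^ (-c) • x - (y + z)) := by
    rw [smul_sub, smul_add, smul_smul, ← zpow_add₀ S.ϖ_ne, add_neg_cancel, zpow_zero, one_smul]
  rw [h3]
  exact S.ge_ϖ h2 c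

theorem Dec.step {s : Fin 3 → ℤ} {i : Fin 3} (h : S.P (W ⊔ W') s i ≤ S.P W s i ⊔ S.P W' s i) :
    Dec S W W' s (s + Pi.single i 1) := by
  intro x hx hxs
  obtain ⟨a, ha⟩ := (hxs i).exists_LR
  obtain ⟨b, hb, c, hc, hbc⟩ := Submodule.mem_sup.mp (h ⟨x, hx, hxs, ha⟩)
  obtain ⟨y, hy, hys, hyb⟩ := hb
  obtain ⟨z, hz, hzs, hzc⟩ := hc
  refine ⟨y, hy, hys, z, hz, hzs, Sys.ge_succ (hxs.sub (hys.add hzs)) ?_⟩
  have h1 := ha.sub (hyb.add hzc)
  rwa [hbc, sub_self] at h1

variable (W W') [FiniteDimensional L W] [FiniteDimensional L W']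

/-- functions of high level can be decomposed -/
theorem exists_high (hW : ∀ g ∈ S.Γ, ∀ f ∈ W, g • f ∈ W) (hW' : ∀ g ∈ S.Γ, ∀ f ∈ W', g • f ∈ W')
    (s : Fin 3 → ℤ) : ∃ N : ℕ, ∀ x ∈ W ⊔ W', S.Ge (fun j => s j + N * S.e j) x →
      ∃ y ∈ W, S.Ge s y ∧ ∃ z ∈ W', S.Ge s z ∧ x = y + z := by
  classical
  -- a rational basis contained in `W ∪ W'`
  let G : Set F := ((W : Set F) ∩ (fixF S.Γ : Set F)) ∪ ((W' : Set F) ∩ (fixF S.Γ : Set F))
  have hG : W ⊔ W' = Submodule.span L G := by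
    apply le_antisymm
    · refine sup_le ((S.rat W inferInstance hW).trans ?_) ((S.rat W' inferInstance hW').trans ?_)
      · exact Submodule.span_mono Set.subset_union_left
      · exact Submodule.span_mono Set.subset_union_right
    · rw [Submodule.span_le]
      rintro x (⟨hx, -⟩ | ⟨hx, -⟩)
      · exact Submodule.mem_sup_left hx
      · exact Submodule.mem_sup_right hx
  obtain ⟨κ, b, -, hsp, hli⟩ := exists_linearIndependent' L (fun x : G => (x : F))
  have hspan : Submodule.span L (Set.range ((fun x : G => (x : F)) ∘ b)) = W ⊔ W' := by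
    rw [hG, hsp, Subtype.range_coe]
  let β : κ → F := (fun x : G => (x : F)) ∘ b
  have hβK : ∀ j, β j ∈ fixF S.Γ := fun j => by
    rcases (b j).2 with h | h
    · exact h.2
    · exact h.2
  have hβmem : ∀ j, β j ∈ W ∨ β j ∈ W' := fun j => by
    rcases (b j).2 with h | h
    · exact Or.inl h.1
    · exact Or.inr h.1
  have hli' : LinearIndependent L β := hli
  have hβW : ∀ j, β j ∈ W ⊔ W' := fun j => by
    rw [← hspan]; exact Submodule.subset_span ⟨j, rfl⟩
  have hfin : Finite κ := by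
    have h1 : LinearIndependent L (fun j => (⟨β j, hβW j⟩ : (W ⊔ W' : Submodule L F))) :=
      LinearIndependent.of_comp (W ⊔ W').subtype hli'
    exact h1.finite
  have := Fintype.ofFinite κ
  -- coordinate functionals
  have hl : ∀ j, ∃ l : F →ₗ[L] L, ∀ j', l (β j') = if j' = j then 1 else 0 := by
    intro j
    obtain ⟨l, hl⟩ := (Basis.span hli').coord j |>.exists_extend
    refine ⟨l, fun j' => ?_⟩
    have h1 := LinearMap.congr_fun hl (Basis.span hli' j')
    have h2 : (((Basis.span hli' j' : Submodule.span L (Set.range β))) : F) = β j' :=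
      congrArg Subtype.val (Basis.span_apply hli' j')
    rw [LinearMap.comp_apply, Submodule.subtype_apply, h2, Basis.coord_apply, Basis.repr_self,
      Finsupp.single_apply] at h1
    exact h1
  choose l hl using hl
  have hexp : ∀ x ∈ W ⊔ W', x = ∑ j, l j x • β j := by
    intro x hx
    rw [← hspan] at hx
    obtain ⟨c, rfl⟩ := (Submodule.mem_span_range_iff_exists_fun L).mp hx
    refine Finset.sum_congr rfl fun j _ => ?_
    congr 1
    rw [map_sum, Finset.sum_eq_single j]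
    · rw [map_smul]
      have := hl j j
      rw [if_pos rfl] at this
      change c j = c j • l j (β j)
      rw [this, smul_eq_mul, mul_one]
    · intro j' _ hj'
      rw [map_smul]
      have := hl j j'
      rw [if_neg hj'] at this
      change c j' • l j (β j') = 0
      rw [this, smul_zero]
    · intro h
      exact absurd (Finset.mem_univ j) h
  have hfixc : ∀ x ∈ W ⊔ W', x ∈ fixF S.Γ → ∀ j, l j x ∈ fixL S.Γ := by
    intro x hx hxK j
    let c : κ →₀ L := Finsupp.equivFunOnFinite.symm fun j => l j x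
    have h1 : Finsupp.linearCombination L β c = x := by
      rw [Finsupp.linearCombination_apply,
        Finsupp.sum_fintype c (fun i a => a • β i) (fun i => zero_smul L (β i))]
      exact (hexp x hx).symm
    exact coord_mem_fixL hli' hβK (by rw [h1]; exact hxK) j
  -- bounds
  have hbd := fun j => S.bdd (W ⊔ W') inferInstance (l j)
  choose c hc0 hc using hbd
  choose B hB using fun j => S.exists_ϖ_mul_mem (hc0 j)
  choose M hM using fun j => S.exists_scale (hβK j) s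
  obtain ⟨m₀, hm₀⟩ := S.exists_scale (f := (1 : F)) (fixF S.Γ).one_mem s
  let N₀ : ℕ := ∑ j, (B j + M j)
  -- the level `s + N e` implies level `0` after division by `ϖ ^ N`, up to a shift
  obtain ⟨n₀, hn₀⟩ : ∃ n₀ : ℕ, ∀ j : Fin 3, 0 ≤ s j + n₀ * S.e j := by
    refine ⟨∑ j, (s j).natAbs, fun j => ?_⟩
    have h1 : ((s j).natAbs : ℤ) ≤ (∑ j, (s j).natAbs : ℕ) := by
      exact_mod_cast Finset.single_le_sum (f := fun j => (s j).natAbs) (fun _ _ => Nat.zero_le _)
        (Finset.mem_univ j)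
    have h2 : -((s j).natAbs : ℤ) ≤ s j := by omega
    have h3 : (1 : ℤ) ≤ S.e j := by exact_mod_cast S.e_pos j
    have h4 : (0 : ℤ) ≤ ((∑ j, (s j).natAbs : ℕ) : ℤ) := Int.natCast_nonneg _
    nlinarith
  refine ⟨N₀ + n₀, fun x hx hxs => ?_⟩
  -- the coordinates are divisible
  have hcoord : ∀ j, ∃ u : S.A, (u : L) ∈ fixL S.Γ ∧ ∃ m : ℕ, M j ≤ m ∧ l j x = S.ϖ ^ m * u := by
    intro j
    have hBN : B j + M j ≤ N₀ := Finset.single_le_sum (f := fun j => B j + M j)
      (fun _ _ => Nat.zero_le _) (Finset.mem_univ j)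
    let x' : F := S.ϖ ^ (-(N₀ : ℤ)) • x
    have hx' : x' ∈ W ⊔ W' := (W ⊔ W').smul_mem _ hx
    have hx'0 : S.Ge 0 x' := by
      have h1 := S.ge_ϖ hxs (-(N₀ : ℤ))
      refine h1.lower fun j => ?_
      have := hn₀ j
      rw [Pi.zero_apply]
      push_cast
      linarith
    have h2 := hB j (N₀ - M j) (by omega) _ (hc j x' hx' (hx'0 0))
    refine ⟨⟨_, h2⟩, ?_, M j, le_rfl, ?_⟩
    · exact (fixL S.Γ).mul_mem ((fixL S.Γ).pow_mem S.ϖ_fix _) (hfixc x' hx' hx'0.mem_FK j)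
    · change l j x = S.ϖ ^ M j * (S.ϖ ^ (N₀ - M j) * l j (S.ϖ ^ (-(N₀ : ℤ)) • x))
      rw [map_smul, smul_eq_mul, ← mul_assoc, ← mul_assoc, ← pow_add, Nat.add_sub_cancel' (by omega),
        ← zpow_natCast, ← zpow_add₀ S.ϖ_ne, add_neg_cancel, zpow_zero, one_mul]
  have hterm : ∀ j, S.Ge s (l j x • β j) := by
    intro j
    obtain ⟨u, hu, m, hm, hlj⟩ := hcoord j
    rw [hlj, mul_comm, mul_smul]
    exact S.ge_cst (hM j m hm) hu
  refine ⟨∑ j with β j ∈ W, l j x • β j, W.sum_mem fun j hj =>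
    W.smul_mem _ (Finset.mem_filter.mp hj).2, Sys.Ge.sum _ fun j _ => hterm j,
    ∑ j with ¬ β j ∈ W, l j x • β j, W'.sum_mem fun j hj =>
    W'.smul_mem _ ((hβmem j).resolve_left (Finset.mem_filter.mp hj).2),
    Sys.Ge.sum _ fun j _ => hterm j, ?_⟩
  rw [Finset.sum_filter_add_sum_filter_not]
  exact hexp x hx

/-- **Decomposition of integral functions.** -/
theorem exists_add (hW : ∀ g ∈ S.Γ, ∀ f ∈ W, g • f ∈ W) (hW' : ∀ g ∈ S.Γ, ∀ f ∈ W', g • f ∈ W')
    (Q : Path S.e) (h : ∀ t < Q.T, S.P (W ⊔ W') (Q.σ t) (Q.i t) ≤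
      S.P W (Q.σ t) (Q.i t) ⊔ S.P W' (Q.σ t) (Q.i t)) :
    ∀ t ≤ Q.T, ∀ c : ℤ, ∀ x ∈ W ⊔ W', S.Ge (fun j => Q.σ t j + c * S.e j) x →
      ∃ y ∈ W, S.Ge (fun j => Q.σ t j + c * S.e j) y ∧
      ∃ z ∈ W', S.Ge (fun j => Q.σ t j + c * S.e j) z ∧ x = y + z := by
  intro t ht c
  -- `Dec` along the path
  have h1 : ∀ t₁ t₂, t₁ ≤ t₂ → t₂ ≤ Q.T → Dec S W W' (Q.σ t₁) (Q.σ t₂) := by
    intro t₁ t₂ h12
    induction t₂, h12 using Nat.le_induction with
    | base => intro _; exact Dec.refl _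
    | succ m hm ih =>
      intro hT
      refine (ih (by omega)).trans ?_ (Q.mono hm (by omega))
      rw [Q.succ m (by omega)]
      exact Dec.step (h m (by omega))
  have hlast : Q.σ Q.T = fun j => Q.σ 0 j + 1 * (S.e j : ℤ) := by
    funext j
    rw [Q.last, Q.zero, Pi.zero_apply, zero_add, one_mul]
  have hcyc : Dec S W W' (Q.σ t) (fun j => Q.σ t j + 1 * (S.e j : ℤ)) := by
    refine (h1 t Q.T ht le_rfl).trans ?_ (Q.mono ht le_rfl)
    rw [hlast]
    exact (h1 0 t (Nat.zero_le t) ht).shift 1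
  have hN : ∀ N : ℕ, Dec S W W' (Q.σ t) (fun j => Q.σ t j + (N : ℤ) * (S.e j : ℤ)) := by
    intro N
    induction N with
    | zero =>
      have : (fun j => Q.σ t j + ((0 : ℕ) : ℤ) * (S.e j : ℤ)) = Q.σ t := by
        funext j; simp
      rw [this]; exact Dec.refl _
    | succ N ih =>
      refine ih.trans ?_ fun j => ?_
      · have h2 := hcyc.shift N
        have h3 : (fun j => Q.σ t j + 1 * (S.e j : ℤ) + (N : ℤ) * (S.e j : ℤ)) =
            fun j => Q.σ t j + ((N + 1 : ℕ) : ℤ) * (S.e j : ℤ) := by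
          funext j; push_cast; ring
        rwa [h3] at h2
      · have : (0 : ℤ) ≤ (N : ℤ) * (S.e j : ℤ) := by positivity
        linarith
  obtain ⟨N, hhigh⟩ := exists_high (S := S) W W' hW hW' (Q.σ t)
  -- the unshifted statement
  have hmain : ∀ x ∈ W ⊔ W', S.Ge (Q.σ t) x →
      ∃ y ∈ W, S.Ge (Q.σ t) y ∧ ∃ z ∈ W', S.Ge (Q.σ t) z ∧ x = y + z := by
    intro x hx hxs
    obtain ⟨y, hy, hys, z, hz, hzs, h2⟩ := hN N x hx hxs
    obtain ⟨y', hy', hys', z', hz', hzs', h3⟩ := hhigh (x - (y + z))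
      ((W ⊔ W').sub_mem hx (Submodule.add_mem_sup hy hz)) h2
    refine ⟨y + y', W.add_mem hy hy', hys.add hys', z + z', W'.add_mem hz hz', hzs.add hzs', ?_⟩
    rw [sub_eq_iff_eq_add] at h3
    rw [h3]; abel
  intro x hx hxs
  have h4 := S.ge_ϖ hxs (-c)
  obtain ⟨y, hy, hys, z, hz, hzs, h5⟩ := hmain (S.ϖ ^ (-c) • x) ((W ⊔ W').smul_mem _ hx)
    (h4.lower fun j => by linarith)
  refine ⟨S.ϖ ^ c • y, W.smul_mem _ hy, S.ge_ϖ hys c, S.ϖ ^ c • z, W'.smul_mem _ hz,
    S.ge_ϖ hzs c, ?_⟩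
  rw [← smul_add, ← h5, smul_smul, ← zpow_add₀ S.ϖ_ne, add_neg_cancel, zpow_zero, one_smul]

end Add

end Fermat.Agent.Car
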