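import Fermat.Agent.Car.Psi2
import Fermat.Agent.Degen.HeckeEq
import Fermat.Agent.NewPoint.Final

/-!
# Change of the prime-to-`q` level for the core statement of project CAR
-/

set_option autoImplicit false
set_option linter.unusedSectionVars false
set_option linter.style.haveILetI false

noncomputable section

open ModularCurve AlgebraicCurve Fermat.Agent.ModPoly Polynomial IntermediateField

namespace Fermat.Agent.Car

open Fermat.Agent.ModDeg Fermat.Agent.HeckeRed Fermat.Agent.AtkinLehner Fermat.Agent.FunField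
  Fermat.Agent.Degen

variable {K : Type*} [Field K] [IsAlgClosed K] {M p : ℕ} [hp : Fact p.Prime]

section Deg

variable (hMK : (M : K) ≠ 0) (hpK : (p : K) ≠ 0)
  {E E' : IntermediateField K (LaurentSeries K)} [IsFF K E] [IsFF K E']
  (hE : E = modularFunctionFieldFullC K (M * p)) (hE' : E' = modularFunctionFieldFullC K (M * p * p))

include hMK hpK hE hE' in
theorem finrankAlong_alpha_sq (α : E →ₐ[K] E') (hα : ∀ x, (α x : LaurentSeries K) = x) :
    finrankAlong K α = p := by
  have hM : M ≠ 0 := by rintro rfl; simp at hMK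
  haveI : NeZero (M * p) := ⟨mul_ne_zero hM hp.out.ne_zero⟩
  have h0 : ((M * p * p : ℕ) : K) ≠ 0 := by
    push_cast; exact mul_ne_zero (mul_ne_zero hMK hpK) hpK
  have h1 := finrankAlong_alpha hE hE' α hα h0
  rw [psi_mul_prime_of_dvd (NeZero.ne (M * p)) hp.out (Dvd.intro_left M rfl)] at h1
  exact Nat.eq_of_mul_eq_mul_right (dedekindPsi_pos (M * p)) h1

include hMK hpK hE hE' in
theorem finrankAlong_beta_sq (β : E →ₐ[K] E')
    (hβ : ∀ x, (β x : LaurentSeries K) =
      (haveI : NeZero p := ⟨hp.out.ne_zero⟩; qExpand K p (x : LaurentSeries K))) :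
    finrankAlong K β = p := by
  have hM : M ≠ 0 := by rintro rfl; simp at hMK
  haveI : NeZero p := ⟨hp.out.ne_zero⟩
  haveI : NeZero (M * p) := ⟨mul_ne_zero hM hp.out.ne_zero⟩
  have h0 : ((M * p * p : ℕ) : K) ≠ 0 := by
    push_cast; exact mul_ne_zero (mul_ne_zero hMK hpK) hpK
  have h1 := finrankAlong_beta hE hE' β hβ h0
  rw [psi_mul_prime_of_dvd (NeZero.ne (M * p)) hp.out (Dvd.intro_left M rfl)] at h1
  exact Nat.eq_of_mul_eq_mul_right (dedekindPsi_pos (M * p)) h1

end Deg

section Gen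

variable (hMK : (M : K) ≠ 0) (hpK : (p : K) ≠ 0) (hpM : ¬ p ∣ M)

theorem twist_qExpand_of_pow {u : Kˣ} (hu : u ^ p = 1) (x : LaurentSeries K) :
    haveI : NeZero p := ⟨hp.out.ne_zero⟩
    twist u (qExpand K p x) = qExpand K p x := by
  haveI : NeZero p := ⟨hp.out.ne_zero⟩
  ext n
  rw [twist_coeff]
  by_cases hn : (p : ℤ) ∣ n
  · obtain ⟨m, rfl⟩ := hn
    rw [zpow_mul, zpow_natCast, hu, one_zpow, Units.val_one, one_mul]
  · rw [qExpand_coeff_of_not_dvd p _ hn, mul_zero]

include hMK hpK hpM in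
/-- `F_{Mp²} = F_{Mp}(j(q^{p²}))` -/
theorem gen_alpha_sq (S : Subfield (modularFunctionFieldFullC K (M * p * p)))
    (h1 : ∀ (x : LaurentSeries K) (_ : x ∈ modularFunctionFieldFullC K (M * p))
      (h : x ∈ modularFunctionFieldFullC K (M * p * p)), ⟨x, h⟩ ∈ S)
    (h2 : ∀ h : vj K (1 * (p * p)) ∈ modularFunctionFieldFullC K (M * p * p),
      ⟨vj K (1 * (p * p)), h⟩ ∈ S) :
    S = ⊤ := by
  classical
  have hM : M ≠ 0 := by rintro rfl; simp at hMK
  haveI : NeZero M := ⟨hM⟩
  haveI : NeZero p := ⟨hp.out.ne_zero⟩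
  haveI : NeZero (M * p) := ⟨mul_ne_zero hM hp.out.ne_zero⟩
  haveI : NeZero (M * p * p) := ⟨mul_ne_zero (NeZero.ne (M * p)) hp.out.ne_zero⟩
  have hle : modularFunctionFieldFullC K (M * p) ≤ modularFunctionFieldFullC K (M * p * p) :=
    full_degeneracyC_le K (Dvd.intro p rfl)
  let α : modularFunctionFieldFullC K (M * p) →ₐ[K] modularFunctionFieldFullC K (M * p * p) :=
    IntermediateField.inclusion hle
  have hα : ∀ x, (α x : LaurentSeries K) = x := fun x => rfl
  have hpp : p * p ≠ 0 := mul_ne_zero hp.out.ne_zero hp.out.ne_zero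
  have hmem : vj K (1 * (p * p)) ∈ modularFunctionFieldFullC K (M * p * p) :=
    vj_mem_full K (by rwa [one_mul]) (by rw [one_mul, mul_assoc]; exact Dvd.intro_left M rfl)
  obtain ⟨v, hv⟩ := exists_primitiveRoot_unit (K := K) hp.out hpK
  have hdeg : finrankAlong K α = p := finrankAlong_alpha_sq hMK hpK rfl rfl α hα
  letI := algebraAlong α
  haveI : Module.Finite (modularFunctionFieldFullC K (M * p))
      (modularFunctionFieldFullC K (M * p * p)) := by
    have h' : Module.finrank (modularFunctionFieldFullC K (M * p))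
      (modularFunctionFieldFullC K (M * p * p)) = p := hdeg
    exact Module.finite_of_finrank_pos (by rw [h']; exact hp.out.pos)
  have hpow : ∀ b : Fin p, (v ^ (b : ℕ)) ^ p = 1 := fun b => by
    rw [← pow_mul, mul_comm, pow_mul, hv.pow_eq_one, one_pow]
  have hpow1 : ∀ b : Fin p, (b : ℕ) ≠ 0 → v ^ (b : ℕ) ≠ 1 := fun b hb =>
    hv.pow_ne_one_of_pos_of_lt hb b.2
  let σ : Fin p → modularFunctionFieldFullC K (M * p * p) →+* LaurentSeries K := fun b =>
    if hb : (b : ℕ) = 0 then ((modularFunctionFieldFullC K (M * p * p)).val : _ →+* _)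
    else (psi hMK hpK hpM (hpow b) (hpow1 b hb)).toRingHom
  have hσ0 : ∀ b : Fin p, (b : ℕ) = 0 → ∀ x, σ b x = (x : LaurentSeries K) := by
    intro b hb x
    simp only [σ, dif_pos hb]
    rfl
  have hσ1 : ∀ (b : Fin p) (hb : (b : ℕ) ≠ 0), ∀ x,
      σ b x = psi hMK hpK hpM (hpow b) (hpow1 b hb) x := by
    intro b hb x
    simp only [σ, dif_neg hb]
    rfl
  refine subfield_eq_top_of_adjoin (F := modularFunctionFieldFullC K (M * p))
    (x := ⟨vj K (1 * (p * p)), hmem⟩) ?_ S ?_ (h2 _)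
  · refine adjoin_eq_top_of_conj
      ((modularFunctionFieldFullC K (M * p)).val : modularFunctionFieldFullC K (M * p) →+* LaurentSeries K)
      σ (fun i x => ?_) ?_ _ ?_
    · show σ i (α x) = (x : LaurentSeries K)
      by_cases hi : (i : ℕ) = 0
      · rw [hσ0 i hi]; rfl
      · rw [hσ1 i hi]
        exact psi_apply_of_mem hMK hpK hpM (hpow i) (hpow1 i hi) x.2 _
    · rw [Fintype.card_fin]
      exact hdeg.symm
    · have hnone : ∀ b : Fin p, (b : ℕ) = 0 →
          (σ b ⟨vj K (1 * (p * p)), hmem⟩).coeff (-1 : ℤ) = 0 := by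
        intro b hb
        rw [hσ0 b hb]
        show (vj K (1 * (p * p))).coeff (-1 : ℤ) = 0
        refine coeff_vj_of_not_dvd (by rwa [one_mul]) fun h => ?_
        rw [dvd_neg] at h
        have h3 : 1 * (p * p) ∣ 1 := by exact_mod_cast h
        have h4 := Nat.le_of_dvd one_pos h3
        have h5 := hp.out.two_le
        nlinarith
      have hsome : ∀ b : Fin p, (b : ℕ) ≠ 0 →
          (σ b ⟨vj K (1 * (p * p)), hmem⟩).coeff (-1 : ℤ) =
            (((v ^ (b : ℕ)) ^ (-1 : ℤ) : Kˣ) : K) := by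
        intro b hb
        rw [hσ1 b hb, psi_vj hMK hpK hpM (hpow b) (hpow1 b hb) (one_dvd M), twist_coeff, vj_one,
          coeff_jqModC_neg_one, mul_one]
      intro i j hij
      have hc := congrArg (fun f : LaurentSeries K => f.coeff (-1 : ℤ)) hij
      simp only at hc
      by_cases hi : (i : ℕ) = 0 <;> by_cases hj : (j : ℕ) = 0
      · exact Fin.ext (hi.trans hj.symm)
      · rw [hnone i hi, hsome j hj] at hc
        exact absurd hc.symm (Units.ne_zero _)
      · rw [hnone j hj, hsome i hi] at hc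
        exact absurd hc (Units.ne_zero _)
      · rw [hsome i hi, hsome j hj] at hc
        have h3 := Units.ext hc
        rw [zpow_neg_one, zpow_neg_one, inv_inj] at h3
        exact Fin.ext (hv.pow_inj i.2 j.2 h3)
  · intro y
    exact h1 _ y.2 _

include hMK hpK in
/-- `F_{Mp²} = F_{Mp}(q^p)(j(q))` -/
theorem gen_beta_sq (S : Subfield (modularFunctionFieldFullC K (M * p * p)))
    (h1 : haveI : NeZero p := ⟨hp.out.ne_zero⟩
      ∀ (x : LaurentSeries K) (_ : x ∈ modularFunctionFieldFullC K (M * p))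
      (h : qExpand K p x ∈ modularFunctionFieldFullC K (M * p * p)), ⟨_, h⟩ ∈ S)
    (h2 : ∀ h : vj K 1 ∈ modularFunctionFieldFullC K (M * p * p), ⟨vj K 1, h⟩ ∈ S) :
    S = ⊤ := by
  classical
  have hM : M ≠ 0 := by rintro rfl; simp at hMK
  haveI : NeZero M := ⟨hM⟩
  haveI : NeZero p := ⟨hp.out.ne_zero⟩
  haveI : NeZero (M * p) := ⟨mul_ne_zero hM hp.out.ne_zero⟩
  haveI : NeZero (M * p * p) := ⟨mul_ne_zero (NeZero.ne (M * p)) hp.out.ne_zero⟩
  let β : modularFunctionFieldFullC K (M * p) →ₐ[K] modularFunctionFieldFullC K (M * p * p) :=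
    dg p (fun x hx => qExpand_mem_full dvd_rfl hx)
  have hβ : ∀ x, (β x : LaurentSeries K) = qExpand K p (x : LaurentSeries K) := fun x => rfl
  have hmem : vj K 1 ∈ modularFunctionFieldFullC K (M * p * p) :=
    vj_mem_full K one_ne_zero (one_dvd _)
  obtain ⟨v, hv⟩ := exists_primitiveRoot_unit (K := K) hp.out hpK
  have hdeg : finrankAlong K β = p := finrankAlong_beta_sq hMK hpK rfl rfl β hβ
  letI := algebraAlong β
  haveI : Module.Finite (modularFunctionFieldFullC K (M * p))
      (modularFunctionFieldFullC K (M * p * p)) := by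
    have h' : Module.finrank (modularFunctionFieldFullC K (M * p))
      (modularFunctionFieldFullC K (M * p * p)) = p := hdeg
    exact Module.finite_of_finrank_pos (by rw [h']; exact hp.out.pos)
  have hpow : ∀ b : Fin p, (v ^ (b : ℕ)) ^ p = 1 := fun b => by
    rw [← pow_mul, mul_comm, pow_mul, hv.pow_eq_one, one_pow]
  let σ : Fin p → modularFunctionFieldFullC K (M * p * p) →+* LaurentSeries K := fun b =>
    (twist (v ^ (b : ℕ))).comp ((modularFunctionFieldFullC K (M * p * p)).val : _ →+* _)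
  have hσ : ∀ b x, σ b x = twist (v ^ (b : ℕ)) (x : LaurentSeries K) := fun b x => rfl
  refine subfield_eq_top_of_adjoin (F := modularFunctionFieldFullC K (M * p))
    (x := ⟨vj K 1, hmem⟩) ?_ S ?_ (h2 _)
  · refine adjoin_eq_top_of_conj
      ((qExpand K p).comp ((modularFunctionFieldFullC K (M * p)).val :
        modularFunctionFieldFullC K (M * p) →+* LaurentSeries K))
      σ (fun i x => ?_) ?_ _ ?_
    · show σ i (β x) = qExpand K p (x : LaurentSeries K)
      rw [hσ, hβ]
      exact twist_qExpand_of_pow (hpow i) _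
    · rw [Fintype.card_fin]
      exact hdeg.symm
    · have hsome : ∀ b : Fin p, (σ b ⟨vj K 1, hmem⟩).coeff (-1 : ℤ) =
            (((v ^ (b : ℕ)) ^ (-1 : ℤ) : Kˣ) : K) := by
        intro b
        rw [hσ, twist_coeff]
        show _ * (vj K 1).coeff (-1 : ℤ) = _
        rw [vj_one, coeff_jqModC_neg_one, mul_one]
      intro i j hij
      have hc := congrArg (fun f : LaurentSeries K => f.coeff (-1 : ℤ)) hij
      simp only at hc
      rw [hsome i, hsome j] at hc
      have h3 := Units.ext hc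
      rw [zpow_neg_one, zpow_neg_one, inv_inj] at h3
      exact Fin.ext (hv.pow_inj i.2 j.2 h3)
  · intro y
    exact h1 _ y.2 _

end Gen

section Square

variable {N : ℕ} (hNM : N ∣ M) (hMK : (M : K) ≠ 0) (hpK : (p : K) ≠ 0) (hpM : ¬ p ∣ M)
  {E₀ E₁ E₀' E₁' : IntermediateField K (LaurentSeries K)}
  [IsFF K E₀] [IsFF K E₁] [IsFF K E₀'] [IsFF K E₁']
  (hE₀ : E₀ = modularFunctionFieldFullC K (N * p))
  (hE₁ : E₁ = modularFunctionFieldFullC K (N * p * p))
  (hE₀' : E₀' = modularFunctionFieldFullC K (M * p))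
  (hE₁' : E₁' = modularFunctionFieldFullC K (M * p * p))
  (δ : E₀ →ₐ[K] E₀') (hδ : ∀ x, (δ x : LaurentSeries K) = x)
  (δ' : E₁ →ₐ[K] E₁') (hδ' : ∀ x, (δ' x : LaurentSeries K) = x)

include hNM hMK hpK hpM hE₀ hE₁ hE₀' hE₁' hδ hδ' in
theorem pullPic_pushPic_alpha_sq (α : E₀ →ₐ[K] E₁) (hα : ∀ x, (α x : LaurentSeries K) = x)
    (α' : E₀' →ₐ[K] E₁') (hα' : ∀ x, (α' x : LaurentSeries K) = x) (x : Pic0 K E₁) :
    pullPic δ (pushPic α x) = pushPic α' (pullPic δ' x) := by
  have hM : M ≠ 0 := by rintro rfl; simp at hMK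
  have hN : N ≠ 0 := fun h => hM (Nat.eq_zero_of_zero_dvd (h ▸ hNM))
  have hNK : (N : K) ≠ 0 := by
    obtain ⟨c, rfl⟩ := hNM
    intro h
    exact hMK (by rw [Nat.cast_mul, h, zero_mul])
  subst hE₀ hE₁ hE₀' hE₁'
  refine pullPic_pushPic α δ α' δ' ?_ ?_ ?_ x
  · refine AlgHom.ext fun y => Subtype.ext ?_
    show ((α' (δ y) : modularFunctionFieldFullC K (M * p * p)) : LaurentSeries K) =
      (δ' (α y) : modularFunctionFieldFullC K (M * p * p))
    rw [hδ', hα', hα, hδ]
  · intro S h1 h2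
    refine gen_alpha_sq hMK hpK hpM S ?_ ?_
    · intro y hy h
      have e : (⟨y, h⟩ : modularFunctionFieldFullC K (M * p * p)) = α' ⟨y, hy⟩ :=
        Subtype.ext (hα' ⟨y, hy⟩).symm
      rw [e]
      exact h1 _
    · intro h
      have hy : vj K (1 * (p * p)) ∈ modularFunctionFieldFullC K (N * p * p) :=
        vj_mem_full K (by rw [one_mul]; exact mul_ne_zero hp.out.ne_zero hp.out.ne_zero)
          (by rw [one_mul, mul_assoc]; exact Dvd.intro_left N rfl)
      have e : (⟨_, h⟩ : modularFunctionFieldFullC K (M * p * p)) = δ' ⟨_, hy⟩ :=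
        Subtype.ext (hδ' ⟨_, hy⟩).symm
      rw [e]
      exact h2 _
  · rw [finrankAlong_alpha_sq hMK hpK rfl rfl α' hα',
      finrankAlong_alpha_sq hNK hpK rfl rfl α hα]

include hNM hMK hpK hE₀ hE₁ hE₀' hE₁' hδ hδ' in
theorem pullPic_pushPic_beta_sq (β : E₀ →ₐ[K] E₁)
    (hβ : ∀ x, (β x : LaurentSeries K) =
      (haveI : NeZero p := ⟨hp.out.ne_zero⟩; qExpand K p (x : LaurentSeries K)))
    (β' : E₀' →ₐ[K] E₁')
    (hβ' : ∀ x, (β' x : LaurentSeries K) =
      (haveI : NeZero p := ⟨hp.out.ne_zero⟩; qExpand K p (x : LaurentSeries K)))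
    (x : Pic0 K E₁) :
    pullPic δ (pushPic β x) = pushPic β' (pullPic δ' x) := by
  have hM : M ≠ 0 := by rintro rfl; simp at hMK
  have hN : N ≠ 0 := fun h => hM (Nat.eq_zero_of_zero_dvd (h ▸ hNM))
  have hNK : (N : K) ≠ 0 := by
    obtain ⟨c, rfl⟩ := hNM
    intro h
    exact hMK (by rw [Nat.cast_mul, h, zero_mul])
  haveI : NeZero p := ⟨hp.out.ne_zero⟩
  subst hE₀ hE₁ hE₀' hE₁'
  refine pullPic_pushPic β δ β' δ' ?_ ?_ ?_ x
  · refine AlgHom.ext fun y => Subtype.ext ?_
    show ((β' (δ y) : modularFunctionFieldFullC K (M * p * p)) : LaurentSeries K) =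
      (δ' (β y) : modularFunctionFieldFullC K (M * p * p))
    rw [hδ', hβ', hβ, hδ]
  · intro S h1 h2
    refine gen_beta_sq hMK hpK S ?_ ?_
    · intro y hy h
      have e : (⟨_, h⟩ : modularFunctionFieldFullC K (M * p * p)) = β' ⟨y, hy⟩ :=
        Subtype.ext (hβ' ⟨y, hy⟩).symm
      rw [e]
      exact h1 _
    · intro h
      have hy : vj K 1 ∈ modularFunctionFieldFullC K (N * p * p) := by
        haveI : NeZero (N * p * p) :=
          ⟨mul_ne_zero (mul_ne_zero hN hp.out.ne_zero) hp.out.ne_zero⟩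
        exact vj_mem_full K one_ne_zero (one_dvd _)
      have e : (⟨_, h⟩ : modularFunctionFieldFullC K (M * p * p)) = δ' ⟨_, hy⟩ :=
        Subtype.ext (hδ' ⟨_, hy⟩).symm
      rw [e]
      exact h2 _
  · rw [finrankAlong_beta_sq hMK hpK rfl rfl β' hβ',
      finrankAlong_beta_sq hNK hpK rfl rfl β hβ]

end Square

/-! ### the degeneracy maps of the prelude -/

section Prelude

variable {L : Type*} [Field L] [Algebra ℚ L] [IsAlgClosed L] {N M q : ℕ} [NeZero N] [NeZero M]
  [NeZero q] [NeZero (N * q)] [NeZero (N * q * q)] [NeZero (M * q)] [NeZero (M * q * q)]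

/-- the inclusion of function fields -/
def inclBar (L : Type*) [Field L] [Algebra ℚ L] {N M : ℕ} [NeZero N] [NeZero M] (h : N ∣ M) :
    laurentBaseChange L (modularFunctionFieldFull N) →ₐ[L]
      laurentBaseChange L (modularFunctionFieldFull M) :=
  dg 1 (fun x hx => by
    rw [NewPoint.qExpand_one']
    rw [laurentBaseChange_full] at hx ⊢
    exact full_degeneracyC_le L h hx)

theorem coe_inclBar {N M : ℕ} [NeZero N] [NeZero M] (h : N ∣ M)
    (x : laurentBaseChange L (modularFunctionFieldFull N)) :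
    (inclBar L h x : LaurentSeries L) = x := NewPoint.qExpand_one' _

theorem pullPic_galois_inclBar {N M : ℕ} [NeZero N] [NeZero M] (h : N ∣ M) (σ : L ≃ₐ[ℚ] L)
    (x : Pic0 L (laurentBaseChange L (modularFunctionFieldFull N))) :
    pullPic (inclBar L h) (σ • x) = σ • pullPic (inclBar L h) x :=
  pullPic_galois (d := 1) (inclBar L h)
    (fun x => by rw [NewPoint.qExpand_one']; exact coe_inclBar h x) σ x

theorem pullPic_inclBar_alpha (hq : q.Prime) (hqM : ¬ q ∣ M) (hNM : N ∣ M)
    (x : Pic0 L (laurentBaseChange L (modularFunctionFieldFull (N * q * q)))) :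
    pullPic (inclBar L (Nat.mul_dvd_mul_right hNM q)) (pushPic (heckeAlphaBar L (N * q) q) x) =
      pushPic (heckeAlphaBar L (M * q) q)
        (pullPic (inclBar L (Nat.mul_dvd_mul_right (Nat.mul_dvd_mul_right hNM q) q)) x) := by
  haveI : Fact q.Prime := ⟨hq⟩
  exact pullPic_pushPic_alpha_sq (K := L) hNM (natCast_ne_zero' (NeZero.ne M))
    (natCast_ne_zero' (NeZero.ne q)) hqM
    (laurentBaseChange_full L (N * q)) (laurentBaseChange_full L (N * q * q))
    (laurentBaseChange_full L (M * q)) (laurentBaseChange_full L (M * q * q))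
    _ (coe_inclBar _) _ (coe_inclBar _) (heckeAlphaBar L (N * q) q)
    (coe_heckeAlphaBar (N * q) q) (heckeAlphaBar L (M * q) q) (coe_heckeAlphaBar (M * q) q) x

theorem pullPic_inclBar_beta (hq : q.Prime) (hNM : N ∣ M)
    (x : Pic0 L (laurentBaseChange L (modularFunctionFieldFull (N * q * q)))) :
    pullPic (inclBar L (Nat.mul_dvd_mul_right hNM q)) (pushPic (heckeBetaBar L (N * q) q) x) =
      pushPic (heckeBetaBar L (M * q) q)
        (pullPic (inclBar L (Nat.mul_dvd_mul_right (Nat.mul_dvd_mul_right hNM q) q)) x) := by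
  haveI : Fact q.Prime := ⟨hq⟩
  exact pullPic_pushPic_beta_sq (K := L) hNM (natCast_ne_zero' (NeZero.ne M))
    (natCast_ne_zero' (NeZero.ne q))
    (laurentBaseChange_full L (N * q)) (laurentBaseChange_full L (N * q * q))
    (laurentBaseChange_full L (M * q)) (laurentBaseChange_full L (M * q * q))
    _ (coe_inclBar _) _ (coe_inclBar _) (heckeBetaBar L (N * q) q)
    (coe_heckeBetaBar (N * q) q) (heckeBetaBar L (M * q) q) (coe_heckeBetaBar (M * q) q) x

/-- classes killed after pull-back are killed by the degree -/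
theorem smul_eq_zero_of_pullPic {N M : ℕ} [NeZero N] [NeZero M] (h : N ∣ M) (C : ℕ)
    (x : Pic0 L (laurentBaseChange L (modularFunctionFieldFull N)))
    (hx : C • pullPic (inclBar L h) x = 0) : (finrankAlong L (inclBar L h) * C) • x = 0 := by
  have h3 := pushPic_pullPic (inclBar L h) (C • x)
  rw [map_nsmul (pullPic (inclBar L h)), hx, map_zero] at h3
  rw [mul_smul]
  exact h3.symm

end Prelude

end Fermat.Agent.Car
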