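import Fermat.Agent.BadRed.Newton

/-!
# Newton iteration along a chain of ideals
-/

set_option autoImplicit false

open MvPolynomial

namespace Fermat.Agent.Car

open Fermat.Agent.BadRed

variable {F : Type*} [Field F]

/-- `I' ≤ I` are ideals of the subring `B`, and `I * I ≤ I'` -/
structure Lvl (B : Subring F) (I I' : AddSubgroup F) : Prop where
  le : I' ≤ I
  leB : ∀ x ∈ I, x ∈ B
  mulB : ∀ x ∈ B, ∀ y ∈ I, x * y ∈ I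
  mulB' : ∀ x ∈ B, ∀ y ∈ I', x * y ∈ I'
  sq : ∀ x ∈ I, ∀ y ∈ I, x * y ∈ I'

/-- intersection property -/
def IP (I I' V W Z : AddSubgroup F) : Prop :=
  ∀ x ∈ V, x ∈ I → ∀ y ∈ W, y ∈ I → x - y ∈ I' → ∃ z ∈ Z, z ∈ I ∧ x - z ∈ I'

/-- the intersection property follows from surjectivity -/
theorem ip_of_surj {I I' V W Z : AddSubgroup F} (hI : I' ≤ I) (hZ : V ⊓ W ≤ Z)
    (hsurj : ∀ w ∈ V ⊔ W, w ∈ I' → ∃ w₁ ∈ V, w₁ ∈ I' ∧ ∃ w₂ ∈ W, w₂ ∈ I' ∧ w = w₁ + w₂) :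
    IP I I' V W Z := by
  intro x hxV hxI y hyW hyI hxy
  obtain ⟨w₁, hw₁V, hw₁I, w₂, hw₂W, hw₂I, hsum⟩ := hsurj (x - y)
    (AddSubgroup.sub_mem _ (AddSubgroup.mem_sup_left hxV) (AddSubgroup.mem_sup_right hyW)) hxy
  refine ⟨x - w₁, hZ ⟨V.sub_mem hxV hw₁V, ?_⟩, I.sub_mem hxI (hI hw₁I), by
    rwa [sub_sub_cancel]⟩
  have h2 : x - w₁ = y + w₂ := by linear_combination hsum
  rw [h2]
  exact W.add_mem hyW hw₂W

variable {B : Subring F}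

/-- second order Taylor expansion of `x ↦ x ^ n` inside the subring `B` -/
theorem exists_pow_add' (n : ℕ) {a b : F} (ha : a ∈ B) (hb : b ∈ B) :
    ∃ Q ∈ B, (a + b) ^ n = a ^ n + n * a ^ (n - 1) * b + Q * b ^ 2 := by
  obtain ⟨Q, hQ⟩ := Polynomial.powAddExpansion (⟨a, ha⟩ : B) ⟨b, hb⟩ n
  refine ⟨Q, Q.2, ?_⟩
  have h := congrArg (fun x : B => (x : F)) hQ
  simpa using h

/-- half of the Newton step: improves `u` -/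
theorem newton_half {n : ℕ} (hn0 : n ≠ 0) (hnF : (n : F) ≠ 0) (hn : (n : F)⁻¹ ∈ B)
    {I I' : AddSubgroup F} (hI : Lvl B I I')
    {U U' V1 V1' W1 E1 X1 Y : AddSubgroup F} {f : F} (hf : f ∈ B)
    (hone : (1 : F) ∈ V1) (hone' : (1 : F) ∈ V1')
    (hUn : ∀ x ∈ U, (n : F)⁻¹ * x ∈ U)
    (hUV : ∀ x ∈ U, x ^ n * f ∈ V1) (hUV' : ∀ x ∈ U', x ^ n * f ∈ V1')
    (hUY : U ≤ Y) (hUY' : U' ≤ Y) (hVW : V1' ≤ W1)
    (hYW : ∀ y ∈ Y, ∀ x ∈ U', y * x ^ (n - 1) * f ∈ W1)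
    (hEX : ∀ e ∈ E1, ∀ x ∈ U, e * x ∈ X1) (hEY : ∀ e ∈ E1, ∀ x ∈ U', e * x ∈ Y)
    (ip1 : IP I I' V1 W1 E1) (ip2 : IP I I' X1 Y U)
    {u u' : F} (hu : u ∈ U) (huB : u ∈ B) (hu' : u' ∈ U') (huB' : u' ∈ B)
    (h1 : u ^ n * f - 1 ∈ I) (h1' : u' ^ n * f - 1 ∈ I) (h2 : u - u' ∈ I) :
    ∃ v ∈ U, v ∈ B ∧ u - v ∈ I ∧ v ^ n * f - 1 ∈ I' := by
  obtain ⟨z, hz⟩ : ∃ z, z = u ^ n * f - 1 := ⟨_, rfl⟩
  obtain ⟨z', hz'⟩ : ∃ z', z' = u' ^ n * f - 1 := ⟨_, rfl⟩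
  obtain ⟨w, hw⟩ : ∃ w, w = u - u' := ⟨_, rfl⟩
  rw [← hz] at h1
  rw [← hz'] at h1'
  rw [← hw] at h2
  have hwB := hI.leB _ h2
  have hzV : z ∈ V1 := by rw [hz]; exact V1.sub_mem (hUV u hu) hone
  have hzV' : z' ∈ V1' := by rw [hz']; exact V1'.sub_mem (hUV' u' hu') hone'
  have hwY : w ∈ Y := by rw [hw]; exact Y.sub_mem (hUY hu) (hUY' hu')
  obtain ⟨Q, hQB, hQ⟩ := exists_pow_add' n huB' hwB
  have hueq : u' + w = u := by rw [hw]; ring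
  rw [hueq] at hQ
  obtain ⟨y₁, hy₁⟩ : ∃ y₁, y₁ = z' + n * (w * u' ^ (n - 1) * f) := ⟨_, rfl⟩
  have hy₁W : y₁ ∈ W1 := by
    rw [hy₁]
    refine W1.add_mem (hVW hzV') ?_
    rw [← nsmul_eq_mul]
    exact W1.nsmul_mem (hYW w hwY u' hu') n
  have hy₁I : y₁ ∈ I := by
    rw [hy₁]
    refine I.add_mem h1' ?_
    rw [← nsmul_eq_mul]
    refine I.nsmul_mem ?_ n
    have h3 := hI.mulB (u' ^ (n - 1) * f) (B.mul_mem (B.pow_mem huB' _) hf) w h2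
    have h4 : w * u' ^ (n - 1) * f = u' ^ (n - 1) * f * w := by ring
    rwa [h4]
  have hcmp : z - y₁ ∈ I' := by
    have h3 : z - y₁ = Q * f * (w * w) := by
      rw [hy₁]
      linear_combination hz - hz' + f * hQ
    rw [h3]
    exact hI.mulB' _ (B.mul_mem hQB hf) _ (hI.sq _ h2 _ h2)
  obtain ⟨z₁, hz₁E, hz₁I, hz₁⟩ := ip1 z hzV h1 y₁ hy₁W hy₁I hcmp
  have hz₁B := hI.leB _ hz₁I
  -- lift
  obtain ⟨v₀, hv₀U, hv₀I, hv₀⟩ := ip2 (z₁ * u) (hEX _ hz₁E _ hu)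
    (by rw [mul_comm]; exact hI.mulB _ huB _ hz₁I)
    (z₁ * u') (hEY _ hz₁E _ hu') (by rw [mul_comm]; exact hI.mulB _ huB' _ hz₁I)
    (by
      have h3 : z₁ * u - z₁ * u' = z₁ * w := by rw [hw]; ring
      rw [h3]
      exact hI.sq _ hz₁I _ h2)
  obtain ⟨c, hc⟩ : ∃ c : F, c = (n : F)⁻¹ := ⟨_, rfl⟩
  have hcB : c ∈ B := by rw [hc]; exact hn
  have hcn : c * (n : F) = 1 := by rw [hc]; exact inv_mul_cancel₀ hnF
  have hcv : c * v₀ ∈ I := hI.mulB _ hcB _ hv₀I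
  refine ⟨u - c * v₀, ?_, B.sub_mem huB (hI.leB _ hcv), by rwa [sub_sub_cancel], ?_⟩
  · refine U.sub_mem hu ?_
    rw [hc]
    exact hUn _ hv₀U
  · obtain ⟨Q2, hQ2B, hQ2⟩ := exists_pow_add' n huB (b := -(c * v₀)) (B.neg_mem (hI.leB _ hcv))
    have hpow : u ^ n = u ^ (n - 1) * u := by
      rw [← pow_succ, Nat.sub_add_cancel (Nat.one_le_iff_ne_zero.mpr hn0)]
    have h3 : (u - c * v₀) ^ n * f - 1 = (z - z₁) + -(z₁ * z) +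
        u ^ (n - 1) * f * (z₁ * u - v₀) + Q2 * f * ((c * v₀) * (c * v₀)) := by
      rw [sub_eq_add_neg u]
      linear_combination f * hQ2 - hz + z₁ * hz + z₁ * f * hpow -
        u ^ (n - 1) * v₀ * f * hcn
    rw [h3]
    refine I'.add_mem (I'.add_mem (I'.add_mem hz₁ (I'.neg_mem (hI.sq _ hz₁I _ h1))) ?_) ?_
    · exact hI.mulB' _ (B.mul_mem (B.pow_mem huB _) hf) _ hv₀
    · exact hI.mulB' _ (B.mul_mem hQ2B hf) _ (hI.sq _ hcv _ hcv)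

/-- The full Newton step: improves `u` and `u'` simultaneously. -/
theorem newton_step {n : ℕ} (hn0 : n ≠ 0) (hnF : (n : F) ≠ 0) (hn : (n : F)⁻¹ ∈ B)
    {I I' : AddSubgroup F} (hI : Lvl B I I')
    {U U' V1 V1' W1 W1' E1 E1' X1 X1' Y : AddSubgroup F} {f : F} (hf : f ∈ B)
    (hone : (1 : F) ∈ V1) (hone' : (1 : F) ∈ V1')
    (hUn : ∀ x ∈ U, (n : F)⁻¹ * x ∈ U) (hUn' : ∀ x ∈ U', (n : F)⁻¹ * x ∈ U')
    (hUV : ∀ x ∈ U, x ^ n * f ∈ V1) (hUV' : ∀ x ∈ U', x ^ n * f ∈ V1')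
    (hUY : U ≤ Y) (hUY' : U' ≤ Y) (hVW : V1' ≤ W1) (hVW' : V1 ≤ W1')
    (hYW : ∀ y ∈ Y, ∀ x ∈ U', y * x ^ (n - 1) * f ∈ W1)
    (hYW' : ∀ y ∈ Y, ∀ x ∈ U, y * x ^ (n - 1) * f ∈ W1')
    (hEX : ∀ e ∈ E1, ∀ x ∈ U, e * x ∈ X1) (hEY : ∀ e ∈ E1, ∀ x ∈ U', e * x ∈ Y)
    (hEX' : ∀ e ∈ E1', ∀ x ∈ U', e * x ∈ X1') (hEY' : ∀ e ∈ E1', ∀ x ∈ U, e * x ∈ Y)
    (ip1 : IP I I' V1 W1 E1) (ip2 : IP I I' X1 Y U)
    (ip1' : IP I I' V1' W1' E1') (ip2' : IP I I' X1' Y U')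
    {u u' : F} (hu : u ∈ U) (huB : u ∈ B) (hu' : u' ∈ U') (huB' : u' ∈ B)
    (h1 : u ^ n * f - 1 ∈ I) (h1' : u' ^ n * f - 1 ∈ I) (h2 : u - u' ∈ I) :
    ∃ v ∈ U, v ∈ B ∧ ∃ v' ∈ U', v' ∈ B ∧ v ^ n * f - 1 ∈ I' ∧
      v' ^ n * f - 1 ∈ I' ∧ v - v' ∈ I' := by
  obtain ⟨v, hvU, hvB, hv, hv1⟩ := newton_half hn0 hnF hn hI hf hone hone' hUn hUV hUV' hUY hUY'
    hVW hYW hEX hEY ip1 ip2 hu huB hu' huB' h1 h1' h2
  obtain ⟨v', hvU', hvB', hv', hv1'⟩ := newton_half hn0 hnF hn hI hf hone' hone hUn' hUV' hUV hUY'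
    hUY hVW' hYW' hEX' hEY' ip1' ip2' hu' huB' hu huB h1' h1 (by
      have := I.neg_mem h2; rwa [neg_sub] at this)
  refine ⟨v, hvU, hvB, v', hvU', hvB', hv1, hv1', ?_⟩
  have h3 : v - v' ∈ I := by
    have h := I.add_mem (I.sub_mem h2 hv) hv'
    have heq : u - u' - (u - v) + (u' - v') = v - v' := by ring
    rwa [heq] at h
  obtain ⟨w, hw⟩ : ∃ w, w = v - v' := ⟨_, rfl⟩
  rw [← hw] at h3 ⊢
  have hwB := hI.leB _ h3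
  obtain ⟨Q, hQB, hQ⟩ := exists_pow_add' n hvB' hwB
  have hveq : v' + w = v := by rw [hw]; ring
  rw [hveq] at hQ
  obtain ⟨c, hc⟩ : ∃ c : F, c = (n : F)⁻¹ := ⟨_, rfl⟩
  have hcB : c ∈ B := by rw [hc]; exact hn
  have hcn : c * (n : F) = 1 := by rw [hc]; exact inv_mul_cancel₀ hnF
  have hpow : v' ^ n = v' ^ (n - 1) * v' := by
    rw [← pow_succ, Nat.sub_add_cancel (Nat.one_le_iff_ne_zero.mpr hn0)]
  have h4 : w = c * v' * ((v ^ n * f - 1) - (v' ^ n * f - 1)) + -(c * v' * Q * f * (w * w)) +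
      -(w * (v' ^ n * f - 1)) := by
    linear_combination (-(c * v' * f)) * hQ - (w * f * v' ^ (n - 1) * v') * hcn + w * f * hpow
  rw [h4]
  refine I'.add_mem (I'.add_mem ?_ (I'.neg_mem ?_)) (I'.neg_mem ?_)
  · exact hI.mulB' _ (B.mul_mem hcB hvB') _ (I'.sub_mem hv1 hv1')
  · exact hI.mulB' _ (B.mul_mem (B.mul_mem (B.mul_mem hcB hvB') hQB) hf) _ (hI.sq _ h3 _ h3)
  · exact hI.mulB' _ hwB _ hv1'

section Root

variable {L : Type*} [Field L] [Algebra L F]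

/-- The spaces of the iteration: `U = L(E+D)`, `U' = L(E*+D)`, `V1 = L(nE)`, `V1' = L(nE*)`,
`W1 = L(E+nE*)`, `W1' = L(E*+nE)`, `E1 = L(E)`, `E1' = L(E*)`, `X1 = L(2E+D)`, `X1' = L(2E*+D)`,
`Y = L(E+E*+D)`. -/
structure NSys (L : Type*) {F : Type*} [Field L] [Field F] [Algebra L F] (n : ℕ) (f : F) where
  U : Submodule L F
  U' : Submodule L F
  V1 : Submodule L F
  V1' : Submodule L F
  W1 : Submodule L F
  W1' : Submodule L F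
  E1 : Submodule L F
  E1' : Submodule L F
  X1 : Submodule L F
  X1' : Submodule L F
  Y : Submodule L F
  hone : (1 : F) ∈ V1
  hone' : (1 : F) ∈ V1'
  hUV : ∀ x ∈ U, x ^ n * f ∈ V1
  hUV' : ∀ x ∈ U', x ^ n * f ∈ V1'
  hUY : U ≤ Y
  hUY' : U' ≤ Y
  hVW : V1' ≤ W1
  hVW' : V1 ≤ W1'
  hYW : ∀ y ∈ Y, ∀ x ∈ U', y * x ^ (n - 1) * f ∈ W1
  hYW' : ∀ y ∈ Y, ∀ x ∈ U, y * x ^ (n - 1) * f ∈ W1'
  hEX : ∀ e ∈ E1, ∀ x ∈ U, e * x ∈ X1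
  hEY : ∀ e ∈ E1, ∀ x ∈ U', e * x ∈ Y
  hEX' : ∀ e ∈ E1', ∀ x ∈ U', e * x ∈ X1'
  hEY' : ∀ e ∈ E1', ∀ x ∈ U, e * x ∈ Y

variable {n : ℕ} {f : F} (S : NSys L n f)

/-- the intersection properties needed at a step -/
structure NSys.IPs (I I' : AddSubgroup F) : Prop where
  ip1 : IP I I' S.V1.toAddSubgroup S.W1.toAddSubgroup S.E1.toAddSubgroup
  ip2 : IP I I' S.X1.toAddSubgroup S.Y.toAddSubgroup S.U.toAddSubgroup
  ip1' : IP I I' S.V1'.toAddSubgroup S.W1'.toAddSubgroup S.E1'.toAddSubgroup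
  ip2' : IP I I' S.X1'.toAddSubgroup S.Y.toAddSubgroup S.U'.toAddSubgroup

/-- an approximate solution -/
def NSys.App (B : Subring F) (I : AddSubgroup F) : Prop :=
  ∃ u ∈ S.U, u ∈ B ∧ ∃ u' ∈ S.U', u' ∈ B ∧ u ^ n * f - 1 ∈ I ∧ u' ^ n * f - 1 ∈ I ∧ u - u' ∈ I

variable {S}

theorem NSys.App.step {B : Subring F} {I I' : AddSubgroup F} (h : S.App B I) (hI : Lvl B I I')
    (hip : S.IPs I I') (hf : f ∈ B) (hn0 : n ≠ 0) (hnL : (n : L) ≠ 0) (hn : (n : F)⁻¹ ∈ B) :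
    S.App B I' := by
  obtain ⟨u, hu, huB, u', hu', huB', h1, h1', h2⟩ := h
  have hnF : (n : F) ≠ 0 := by
    rw [← map_natCast (algebraMap L F)]
    exact (map_ne_zero _).mpr hnL
  have hsm : ∀ (V : Submodule L F), ∀ x ∈ V, (n : F)⁻¹ * x ∈ V := by
    intro V x hx
    have h3 : (n : F)⁻¹ * x = ((n : L)⁻¹) • x := by
      rw [Algebra.smul_def, map_inv₀, map_natCast]
    rw [h3]
    exact V.smul_mem _ hx
  exact newton_step hn0 hnF hn hI hf (V1 := S.V1.toAddSubgroup) (V1' := S.V1'.toAddSubgroup)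
    (U := S.U.toAddSubgroup) (U' := S.U'.toAddSubgroup) S.hone S.hone' (hsm S.U) (hsm S.U')
    S.hUV S.hUV' S.hUY S.hUY' S.hVW S.hVW' S.hYW S.hYW' S.hEX S.hEY S.hEX' S.hEY'
    hip.ip1 hip.ip2 hip.ip1' hip.ip2' hu huB hu' huB' h1 h1' h2

/-- **Roots from a chain of ideals.** -/
theorem NSys.App.root [IsAlgClosed L] (A : ValuationSubring L) {B : Subring F}
    {lev : ℕ → AddSubgroup F} (h : S.App B (lev 0)) (hlev : ∀ k, Lvl B (lev k) (lev (k + 1)))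
    (hip : ∀ k, S.IPs (lev k) (lev (k + 1))) (hf : f ∈ B) (hn0 : n ≠ 0) (hnL : (n : L) ≠ 0)
    (hn : (n : F)⁻¹ ∈ B) {ε : L} (hε0 : ε ≠ 0)
    (hdiv : ∀ k, ∃ N, ∀ x ∈ lev N, DivBy B (ε ^ k) x)
    (harch : ∀ a : L, a ≠ 0 → ∃ k : ℕ, a * (ε ^ k)⁻¹ ∉ A)
    {ι κ : Type*} [Fintype ι] [Fintype κ] (e : ι → F) (φ : κ → F →ₗ[L] L) (heU : ∀ i, e i ∈ S.U)
    (hspan : ∀ u ∈ S.U, u ∈ B → ∃ x : ι → L, (∀ i, x i ∈ A) ∧ u = ∑ i, x i • e i)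
    (hφ : ∀ v ∈ S.V1, (∀ j, φ j v = 0) → v = 0)
    (hφA : ∀ v ∈ S.V1, v ∈ B → ∀ j, φ j v ∈ A) : ∃ w ∈ S.U, w ^ n * f = 1 := by
  have hstep : ∀ k, S.App B (lev k) := by
    intro k
    induction k with
    | zero => exact h
    | succ k ih => exact ih.step (hlev k) (hip k) hf hn0 hnL hn
  refine exists_pow_mul_eq_one (B := B) A e φ heU hspan S.hone S.hUV hφ hφA hε0 harch fun k => ?_
  obtain ⟨N, hN⟩ := hdiv k
  obtain ⟨u, hu, huB, -, -, -, h1, -, -⟩ := hstep N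
  exact ⟨u, hu, huB, hN _ h1⟩

end Root

end Fermat.Agent.Car
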