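import Fermat.Agent.NodeCount.Numerics

/-!
# Numerics for `X₀(N q²)`
-/

set_option autoImplicit false

noncomputable section

open ModularCurve

namespace Fermat.Agent.Car

open Fermat.Agent.NodeCount

variable {N q : ℕ}

/-- the number of cusps is multiplicative -/
theorem cuspCount_mul {m n : ℕ} (hm : m ≠ 0) (hn : n ≠ 0) (hc : m.Coprime n) :
    cuspCount (m * n) = cuspCount m * cuspCount n := by
  have h0 : ∑ d ∈ (m * n).divisors, Nat.totient (Nat.gcd d (m * n / d)) =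
      ∑ d ∈ m.divisors, ∑ e ∈ n.divisors, Nat.totient (Nat.gcd (d * e) (m * n / (d * e))) := by
    rw [Nat.divisors_mul, Finset.mul_def, Finset.sum_image hc.mul_injOn_divisors,
      Finset.sum_product]
  rw [cuspCount, h0, cuspCount, cuspCount, Finset.sum_mul]
  refine Finset.sum_congr rfl fun d hd => ?_
  rw [Finset.mul_sum]
  refine Finset.sum_congr rfl fun e he => ?_
  have hd0 : 0 < d := Nat.pos_of_mem_divisors hd
  have he0 : 0 < e := Nat.pos_of_mem_divisors he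
  obtain ⟨a, rfl⟩ := Nat.dvd_of_mem_divisors hd
  obtain ⟨b, rfl⟩ := Nat.dvd_of_mem_divisors he
  have e1 : d * a * (e * b) / (d * e) = a * b := by
    have h : d * a * (e * b) = (d * e) * (a * b) := by ring
    rw [h, Nat.mul_div_cancel_left _ (Nat.mul_pos hd0 he0)]
  have e2 : d * a / d = a := Nat.mul_div_cancel_left _ hd0
  have e3 : e * b / e = b := Nat.mul_div_cancel_left _ he0
  rw [e1, e2, e3]
  have hde : d.Coprime e := hc.coprime_mul_right.coprime_mul_right_right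
  have hdb : d.Coprime b := hc.coprime_mul_right.coprime_mul_left_right
  have hae : a.Coprime e := hc.coprime_mul_left.coprime_mul_right_right
  have hab : a.Coprime b := hc.coprime_mul_left.coprime_mul_left_right
  have h1 : Nat.gcd (d * e) (a * b) = Nat.gcd d a * Nat.gcd e b := by
    rw [Nat.Coprime.gcd_mul (d * e) hab, Nat.Coprime.gcd_mul_right_cancel _ hae.symm,
      Nat.Coprime.gcd_mul_left_cancel _ hdb]
  rw [h1, Nat.totient_mul]
  exact (hde.coprime_dvd_left (Nat.gcd_dvd_left d a)).coprime_dvd_right (Nat.gcd_dvd_left e b)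

theorem cuspCount_sq (hq : q.Prime) : cuspCount (q ^ 2) = q + 1 := by
  rw [cuspCount, Nat.sum_divisors_prime_pow hq, Finset.sum_range_succ, Finset.sum_range_succ,
    Finset.sum_range_one]
  have h1 : q ^ 2 / q ^ 1 = q := by
    rw [Nat.pow_div (by norm_num) hq.pos]; simp
  have h2 : q ^ 2 / q ^ 2 = 1 := Nat.div_self (pow_pos hq.pos 2)
  rw [h1, h2, pow_zero, Nat.gcd_one_left, pow_one, Nat.gcd_self, Nat.gcd_one_right,
    Nat.totient_one, Nat.totient_prime hq]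
  have := hq.one_lt
  omega

theorem cuspCount_mul_sq (hN : N ≠ 0) (hq : q.Prime) (h : ¬ q ∣ N) :
    cuspCount (N * q ^ 2) = (q + 1) * cuspCount N := by
  have hc : N.Coprime (q ^ 2) :=
    Nat.Coprime.pow_right 2 ((Nat.Prime.coprime_iff_not_dvd hq).mpr h).symm
  rw [cuspCount_mul hN (pow_ne_zero 2 hq.ne_zero) hc, cuspCount_sq hq, mul_comm]

theorem psi_mul_sq (hq : q.Prime) (h : ¬ q ∣ N) :
    dedekindPsi (N * q ^ 2) = q * (q + 1) * dedekindPsi N := by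
  have hc : N.Coprime (q ^ 2) :=
    Nat.Coprime.pow_right 2 ((Nat.Prime.coprime_iff_not_dvd hq).mpr h).symm
  have h1 := ModDeg.psi_pow_succ hq 1
  rw [ModDeg.psi_mul_of_coprime hc, h1]
  ring

theorem nuTwo_nine : nuTwo 9 = 0 := by
  rw [nuTwo, Nat.card_eq_fintype_card]; decide +kernel

theorem nuThree_nine : nuThree 9 = 0 := by
  rw [nuThree, Nat.card_eq_fintype_card]; decide +kernel

/-- levels without elliptic points -/
theorem nuTwo_eq_zero (h : 4 ∣ N ∨ 9 ∣ N) : nuTwo N = 0 := by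
  rcases h with h | h
  · exact nuTwo_of_four_dvd h
  · exact nuTwo_eq_zero_of_dvd h nuTwo_nine (by norm_num)

/-- levels without elliptic points -/
theorem nuThree_eq_zero (h : 4 ∣ N ∨ 9 ∣ N) : nuThree N = 0 := by
  rcases h with h | h
  · exact nuThree_even (dvd_trans (by norm_num) h)
  · exact nuThree_eq_zero_of_dvd h nuThree_nine (by norm_num)

theorem ell_mono {M : ℕ} (h : 4 ∣ N ∨ 9 ∣ N) (hM : N ∣ M) : 4 ∣ M ∨ 9 ∣ M :=
  h.imp (fun h => h.trans hM) fun h => h.trans hM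

theorem noEll (h : 4 ∣ N ∨ 9 ∣ N) (r : ℕ) : NoEll N r := by
  have h1 := ell_mono h (dvd_mul_right N r)
  refine ⟨?_, ?_⟩
  · rw [nuTwo_eq_zero h, nuTwo_eq_zero h1]
  · rw [nuThree_eq_zero h, nuThree_eq_zero h1]

/-- the genus formula without elliptic points -/
theorem genusFormula_eq (h : 4 ∣ N ∨ 9 ∣ N) :
    genusFormula N = 1 + (dedekindPsi N : ℚ) / 12 - (cuspCount N : ℚ) / 2 := by
  rw [genusFormula, nuTwo_eq_zero h, nuThree_eq_zero h]
  push_cast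
  ring

/-- `12 (g(N q²) + q - (q + 1) g(N)) = (q + 1) (q - 1) ψ(N)` -/
theorem genusFormula_mul_sq (h4 : 4 ∣ N ∨ 9 ∣ N) (hN : N ≠ 0) (hq : q.Prime) (h : ¬ q ∣ N) :
    12 * (genusFormula (N * q ^ 2) + q - (q + 1) * genusFormula N) =
      ((q : ℚ) + 1) * ((q : ℚ) - 1) * dedekindPsi N := by
  rw [genusFormula_eq h4, genusFormula_eq (ell_mono h4 (dvd_mul_right N (q ^ 2))),
    cuspCount_mul_sq hN hq h, psi_mul_sq hq h]
  push_cast
  ring

/-- `12 |Σ| = (q - 1) ψ(N)` for the number `|Σ| = g(N q) + 1 - 2 g(N)` of supersingular points -/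
theorem twelve_nodes (h4 : 4 ∣ N ∨ 9 ∣ N) (hN : N ≠ 0) (hq : q.Prime) (h : ¬ q ∣ N) :
    12 * (genusFormula (N * q) + 1 - 2 * genusFormula N) = ((q : ℚ) - 1) * dedekindPsi N :=
  genusFormula_of_noEll hN hq h (noEll h4 q)

/-- `g(N q²) = (q + 1) g(N) - q + (q + 1) |Σ|`, `|Σ| = g(N q) + 1 - 2 g(N)` -/
theorem genusFormula_sq (h4 : 4 ∣ N ∨ 9 ∣ N) (hN : N ≠ 0) (hq : q.Prime) (h : ¬ q ∣ N) :
    genusFormula (N * q ^ 2) = (q + 1) * genusFormula N - q +
      (q + 1) * (genusFormula (N * q) + 1 - 2 * genusFormula N) := by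
  have h1 := genusFormula_mul_sq h4 hN hq h
  have h2 := twelve_nodes h4 hN hq h
  linear_combination h1 / 12 - ((q : ℚ) + 1) * h2 / 12

/-- integral version -/
theorem genus_sq (h4 : 4 ∣ N ∨ 9 ∣ N) (hN : N ≠ 0) (hq : q.Prime) (h : ¬ q ∣ N) {g₀ g₁ g₂ : ℤ}
    (hg₀ : (g₀ : ℚ) = genusFormula N) (hg₁ : (g₁ : ℚ) = genusFormula (N * q))
    (hg₂ : (g₂ : ℚ) = genusFormula (N * q ^ 2)) :
    g₂ = (q + 1) * g₀ - q + (q + 1) * (g₁ + 1 - 2 * g₀) := by
  have h1 := genusFormula_sq h4 hN hq h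
  rw [← hg₀, ← hg₁, ← hg₂] at h1
  exact_mod_cast h1

/-- integral version -/
theorem twelve_nodes' (h4 : 4 ∣ N ∨ 9 ∣ N) (hN : N ≠ 0) (hq : q.Prime) (h : ¬ q ∣ N)
    {g₀ g₁ : ℤ} (hg₀ : (g₀ : ℚ) = genusFormula N) (hg₁ : (g₁ : ℚ) = genusFormula (N * q)) :
    12 * (g₁ + 1 - 2 * g₀) = ((q : ℤ) - 1) * dedekindPsi N :=
  twelve_mul_nodes hN hq h (noEll h4 q) hg₁ hg₀

/-- the dimension of the new part `g(N q²) - 3 g(N) - 2 (g(N q) - 2 g(N))`;
`g(N q) - 2 g(N) = |Σ| - 1` -/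
theorem genus_new (h4 : 4 ∣ N ∨ 9 ∣ N) (hN : N ≠ 0) (hq : q.Prime) (h : ¬ q ∣ N)
    {g₀ g₁ g₂ : ℤ} (hg₀ : (g₀ : ℚ) = genusFormula N) (hg₁ : (g₁ : ℚ) = genusFormula (N * q))
    (hg₂ : (g₂ : ℚ) = genusFormula (N * q ^ 2)) :
    g₂ - 3 * g₀ - 2 * (g₁ - 2 * g₀) = (q - 1) * (g₁ - 2 * g₀) + (q - 2) * g₀ + 1 := by
  rw [genus_sq h4 hN hq h hg₀ hg₁ hg₂]
  ring

end Fermat.Agent.Car

end
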