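import Fermat.Agent.Car.Num
import Fermat.Agent.NodeCount.Main

/-!
# Genera of the function fields of `X₀(N)`, `X₀(N q)`, `X₀(N q²)`
-/

set_option autoImplicit false
set_option linter.unusedSectionVars false

noncomputable section

open ModularCurve AlgebraicCurve

namespace Fermat.Agent.Car

open Fermat.Agent.NodeCount

section

variable {L : Type*} [Field L] [Algebra ℚ L] [IsAlgClosed L] (ι : L →+* ℂ) {N q : ℕ} [NeZero N]
  [NeZero (N * q)] [NeZero (N * q ^ 2)]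

/-- the genus of the function field as an integer -/
abbrev gN (L : Type*) [Field L] (N : ℕ) : ℤ := genusFF L (modularFunctionFieldFullC L N)

include ι in
theorem gN_eq (N : ℕ) [NeZero N] : ((gN L N : ℤ) : ℚ) = genusFormula N := by
  rw [← Cusps.genusFF_full L ι N]
  push_cast
  rfl

include ι in
/-- **The genus of `X₀(N q²)`** -/
theorem gN_sq (h4 : 4 ∣ N ∨ 9 ∣ N) (hq : q.Prime) (h : ¬ q ∣ N) :
    gN L (N * q ^ 2) = (q + 1) * gN L N - q + (q + 1) * (gN L (N * q) + 1 - 2 * gN L N) :=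
  genus_sq h4 (NeZero.ne N) hq h (gN_eq ι N) (gN_eq ι (N * q)) (gN_eq ι (N * q ^ 2))

include ι in
/-- the number of supersingular points -/
theorem twelve_nodes_gN (h4 : 4 ∣ N ∨ 9 ∣ N) (hq : q.Prime) (h : ¬ q ∣ N) :
    12 * (gN L (N * q) + 1 - 2 * gN L N) = ((q : ℤ) - 1) * dedekindPsi N :=
  twelve_nodes' h4 (NeZero.ne N) hq h (gN_eq ι N) (gN_eq ι (N * q))

include ι in
theorem rrLarge_sq (h4 : 4 ∣ N ∨ 9 ∣ N) (hq : q.Prime) (h : ¬ q ∣ N) {g₀ g₁ g₂ : ℤ}
    (h₀ : Deuring.RRLarge L (modularFunctionFieldFullC L N) g₀)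
    (h₁ : Deuring.RRLarge L (modularFunctionFieldFullC L (N * q)) g₁)
    (h₂ : Deuring.RRLarge L (modularFunctionFieldFullC L (N * q ^ 2)) g₂) :
    g₂ = (q + 1) * g₀ - q + (q + 1) * (g₁ + 1 - 2 * g₀) := by
  rw [eq_genusFF h₀, eq_genusFF h₁, eq_genusFF h₂]
  exact gN_sq ι h4 hq h

end

end Fermat.Agent.Car

end
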