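import Fermat.Agent.Car.Slope

/-!
# The divisors `aE + bE*`
-/

set_option autoImplicit false
set_option linter.unusedSectionVars false

noncomputable section

open AlgebraicCurve Module

namespace Fermat.Agent.Car

open Fermat.Agent.FunField Fermat.Agent.FunField.PlaceLemmas Fermat.Agent.Deuring
  Fermat.Agent.BadRed

variable {L k F F₁ : Type*} [Field L] [Field k] [Field F] [Field F₁] [Algebra L F] [Algebra k F₁]
variable {S : Sys L k F F₁}

namespace Pen

variable (p : Pen S)

variable [HasPrincipalDivisors L F]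

/-- the divisor of `t` -/
def dt : Divisor L F := dv (K := L) p.t p.t_ne

theorem dt_apply (v : Place L F) : p.dt v = v.ord p.t := dv_apply _ v

/-- zeros of `t` -/
def Es : Divisor L F := p.E + p.dt

theorem Es_apply (v : Place L F) : p.Es v = max 0 (v.ord p.t) := by
  rw [Es, Finsupp.add_apply, p.hE, p.dt_apply]
  omega

theorem Es_nonneg : 0 ≤ p.Es := by
  rw [Finsupp.le_def]
  intro v
  rw [p.Es_apply v]
  exact le_max_left _ _

/-- the divisor `aE + bE*` -/
def G (a b : ℕ) : Divisor L F := a • p.E + b • p.Es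

theorem G_mono {a a' b b' : ℕ} (h : a ≤ a') (h' : b ≤ b') : p.G a b ≤ p.G a' b' :=
  add_le_add (nsmul_le_nsmul_left p.E_nonneg h) (nsmul_le_nsmul_left p.Es_nonneg h')

theorem G_add (a a' b b' : ℕ) : p.G a b + p.G a' b' = p.G (a + a') (b + b') := by
  simp only [G, add_smul]; abel

theorem G_smul (n a b : ℕ) : n • p.G a b = p.G (n * a) (n * b) := by
  simp only [G, smul_add, mul_smul]

theorem G_nonneg (a b : ℕ) : 0 ≤ p.G a b :=
  add_nonneg (nsmul_nonneg p.E_nonneg _) (nsmul_nonneg p.Es_nonneg _)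

theorem G_inf {a b a' b' : ℕ} (ha : a' ≤ a) (hb : b ≤ b') (D : Divisor L F) :
    (p.G a b + D) ⊓ (p.G a' b' + D) = p.G a' b + D := by
  ext v
  simp only [G, Finsupp.inf_apply, Finsupp.add_apply, Finsupp.smul_apply, nsmul_eq_mul,
    p.Es_apply, p.hE]
  rcases le_total 0 (-(v.ord p.t)) with h | h
  · rw [max_eq_right h, max_eq_left (by omega), mul_zero, mul_zero]
    have h1 : (a' : ℤ) * -(v.ord p.t) ≤ (a : ℤ) * -(v.ord p.t) :=
      mul_le_mul_of_nonneg_right (by exact_mod_cast ha) h
    rw [inf_eq_right.mpr (by linarith)]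
  · rw [max_eq_left h, max_eq_right (by omega), mul_zero, mul_zero]
    have h1 : (b : ℤ) * v.ord p.t ≤ (b' : ℤ) * v.ord p.t :=
      mul_le_mul_of_nonneg_right (by exact_mod_cast hb) (by omega)
    rw [inf_eq_left.mpr (by linarith)]

/-- translation to the first chart -/
theorem mem_G_iff (a b : ℕ) (D : Divisor L F) (u : F) :
    u ∈ riemannRochSpace (p.G a b + D) ↔
      p.t ^ b * u ∈ riemannRochSpace ((a + b) • p.E + D) := by
  rw [mul_mem_rr_iff (pow_ne_zero b p.t_ne) (G := b • p.dt) (fun v => by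
    rw [Finsupp.smul_apply, nsmul_eq_mul, p.dt_apply, ord_pow])]
  have : p.G a b + D = (a + b) • p.E + D + b • p.dt := by
    simp only [G, Es, smul_add, add_smul]; abel
  rw [this]

end Pen

end Fermat.Agent.Car
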