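import Fermat.Agent.Car.UnitsX
import Fermat.Agent.Car.Emb2

/-!
# Project CAR: the pencil `t = j(τ) j(qτ)` of `X₀(N q²)` and its Frobenius structure
-/

set_option autoImplicit false
set_option linter.unusedSectionVars false

noncomputable section

open AlgebraicCurve Module IntermediateField ModularCurve HahnSeries

namespace Fermat.Agent.Car

open Fermat.Agent.FunField Fermat.Agent.FunField.PlaceLemmas Fermat.Agent.Deuring
  Fermat.Agent.BadRed Fermat.Agent.HeckeRed Fermat.Agent.ModPoly Fermat.Agent.Igusa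

/-- degree of the pole divisor of a pull-back -/
theorem degree_poleDiv_map {L E E' : Type*} [Field L] [Field E] [Field E'] [Algebra L E]
    [Algebra L E'] [IsFF L E] [IsFF L E'] (θ : E →ₐ[L] E') {x : E} (hx : Transcendental L x) :
    Divisor.degree (poleDiv (θ x) : Divisor L E') =
      (finrankAlong L θ : ℤ) * Divisor.degree (poleDiv x : Divisor L E) := by
  have hθx : Transcendental L (θ x) := by
    intro h
    exact hx ((isAlgebraic_algHom_iff θ θ.injective).mp h)
  have hfin := HeckeRed.finiteAlong_of_isFF θ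
  letI := algebraAlong θ
  haveI := isScalarTower_along θ
  haveI : FiniteDimensional E E' := hfin
  haveI := finiteDimensional_adjoin_of_isFF (K := L) hx
  have h1 := (finite_adjoin_map (K := L) (F := E) (F' := E') x).2
  have h2 : finrankAlong L θ = Module.finrank E E' := rfl
  rw [degree_poleDiv hθx, degree_poleDiv hx, h2]
  have h3 : Module.finrank L⟮θ x⟯ E' = Module.finrank L⟮x⟯ E * Module.finrank E E' := h1
  rw [h3]
  push_cast
  ring

variable {L : Type*} [Field L] [Algebra ℚ L] [IsAlgClosed L] [CharZero L]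
  {N q : ℕ} [hN : NeZero N] [hq : Fact q.Prime] {hqN : ¬ q ∣ N}
  {A : ValuationSubring L}
  {κ : Type*} [Field κ] [IsAlgClosed κ] {π : A →+* κ} [IsLocalHom π]
  (hπ : Function.Surjective π) (harch : ArchA π) [CharP κ q]
  {v : Lˣ} {hv : IsPrimitiveRoot v q}
  {S : Sys L κ (modularFunctionFieldFullC L (N * q * q)) (modularFunctionFieldFullC κ N)}

/-- leading terms of `α f` -/
theorem IsGaussSys.LR_al (hS : IsGaussSys hqN π hv S) {f : modularFunctionFieldFullC L (N * q)}
    (hf : al L N q f ∈ S.FK) {a b : modularFunctionFieldFullC κ N}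
    (h1 : (twoVal A π hπ harch N q hqN).V₁.ER f a)
    (h2 : (twoVal A π hπ harch N q hqN).V₂.ER f b) :
    (S.V 0).LR 0 (al L N q f) a ∧ (S.V 1).LR 0 (al L N q f) a ∧
      (S.V 2).LR 0 (al L N q f) (CP.frFull κ q N b) := by
  rw [er₁_gauss] at h1
  rw [er₂_iff, er₁_gauss] at h2
  obtain ⟨g1, e1⟩ := h1
  obtain ⟨g2, e2⟩ := h2
  refine ⟨hS.LR0 _ _ hf ?_, hS.LR1 _ _ hf ?_, hS.LR2 _ _ hf ?_⟩
  · have h3 : (al L N q f : LaurentSeries L) ∈ gaussRing A π := by rw [coe_al]; exact g1
    exact ⟨h3, (gaussRes_congr (coe_al L N q f)).trans e1⟩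
  · have h3 : psi2 L N hqN v hv (al L N q f) ∈ gaussRing A π := by rw [psi2_al]; exact g1
    exact ⟨h3, (gaussRes_congr (psi2_al hqN hv f)).trans e1⟩
  · obtain ⟨g3, e3⟩ := qExpand_mem_gauss (A := A) (π := π) q g2
    have h4 : (WW L N q hqN (al L N q f) : LaurentSeries L) =
        qExpand L q (ww L N q hqN f : LaurentSeries L) := by
      rw [WW_al, coe_be]
    have h3 : (WW L N q hqN (al L N q f) : LaurentSeries L) ∈ gaussRing A π := by
      rw [h4]; exact g3
    refine ⟨h3, (gaussRes_congr h4).trans (e3.trans ?_)⟩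
    rw [e2, CP.coe_frFull]

/-- leading terms of `β f` -/
theorem IsGaussSys.LR_be (hS : IsGaussSys hqN π hv S) {f : modularFunctionFieldFullC L (N * q)}
    (hf : be L N q f ∈ S.FK) {a b : modularFunctionFieldFullC κ N}
    (h1 : (twoVal A π hπ harch N q hqN).V₁.ER f a)
    (h2 : (twoVal A π hπ harch N q hqN).V₂.ER f b) :
    (S.V 0).LR 0 (be L N q f) (CP.frFull κ q N a) ∧ (S.V 1).LR 0 (be L N q f) b ∧
      (S.V 2).LR 0 (be L N q f) b := by
  rw [er₁_gauss] at h1
  rw [er₂_iff, er₁_gauss] at h2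
  obtain ⟨g1, e1⟩ := h1
  obtain ⟨g2, e2⟩ := h2
  refine ⟨hS.LR0 _ _ hf ?_, hS.LR1 _ _ hf ?_, hS.LR2 _ _ hf ?_⟩
  · obtain ⟨g3, e3⟩ := qExpand_mem_gauss (A := A) (π := π) q g1
    have h3 : (be L N q f : LaurentSeries L) ∈ gaussRing A π := by rw [coe_be]; exact g3
    refine ⟨h3, (gaussRes_congr (coe_be L N q f)).trans (e3.trans ?_)⟩
    rw [e1, CP.coe_frFull]
  · obtain ⟨g3, e3⟩ := gauss_twist_of_pow (A := A) (π := π) (r := q) hv.pow_eq_one g2
    have h3 : psi2 L N hqN v hv (be L N q f) ∈ gaussRing A π := by rw [psi2_be]; exact g3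
    exact ⟨h3, (gaussRes_congr (psi2_be hqN hv f)).trans (e3.trans e2)⟩
  · have h4 : (WW L N q hqN (be L N q f) : LaurentSeries L) =
        (ww L N q hqN f : LaurentSeries L) := by
      rw [WW_be, coe_al]
    have h3 : (WW L N q hqN (be L N q f) : LaurentSeries L) ∈ gaussRing A π := by
      rw [h4]; exact g2
    exact ⟨h3, (gaussRes_congr h4).trans e2⟩

theorem al_mem_fixF_coef {Γ₀ : Set (L ≃+* L)} {f : modularFunctionFieldFullC L (N * q)}
    (hf : f ∈ fixF (coefΓ L (N * q) Γ₀)) : al L N q f ∈ fixF (coefΓ L (N * q * q) Γ₀) := by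
  rw [mem_fixF_coefΓ] at hf ⊢
  intro n
  rw [coe_al]
  exact hf n

theorem be_mem_fixF_coef {Γ₀ : Set (L ≃+* L)} {f : modularFunctionFieldFullC L (N * q)}
    (hf : f ∈ fixF (coefΓ L (N * q) Γ₀)) : be L N q f ∈ fixF (coefΓ L (N * q * q) Γ₀) := by
  rw [mem_fixF_coefΓ] at hf ⊢
  intro n
  rw [coe_be]
  by_cases hn : (q : ℤ) ∣ n
  · obtain ⟨m, rfl⟩ := hn
    rw [qExpand_coeff_mul]
    exact hf m
  · rw [qExpand_coeff_of_not_dvd _ _ hn]
    exact zero_mem _

section Pen

variable (hg : genusFF κ (modularFunctionFieldFullC κ N) =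
    genusFF L (modularFunctionFieldFullC L N))
  (d : CP.DecAut A π) (hd : CP.IsFrob d q)

theorem al_pen_t : al L N q ((CP.pen A π hπ harch N q hqN hg d hd).t :
    modularFunctionFieldFullC L (N * q)) = jF L (N * q * q) * CP.jrF L (N * q) q := by
  rw [CP.pen_t, map_mul]
  rfl

theorem al_pen_t_mem (Γ₀ : Set (L ≃+* L)) :
    al L N q ((CP.pen A π hπ harch N q hqN hg d hd).t : modularFunctionFieldFullC L (N * q)) ∈
      fixF (coefΓ L (N * q * q) Γ₀) := by
  rintro g ⟨σ, hσ, hg⟩
  rw [al_pen_t, smul_mul']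
  congr 1
  · apply Subtype.ext
    rw [hg]
    exact coeffMap_jqModC _
  · apply Subtype.ext
    rw [hg]
    show coeffMap _ (qExpand L q (jqModC L)) = qExpand L q (jqModC L)
    rw [coeffMap_qExpand, coeffMap_jqModC]

theorem pen_ER : (twoVal A π hπ harch N q hqN).V₁.ER
      ((CP.pen A π hπ harch N q hqN hg d hd).t : modularFunctionFieldFullC L (N * q))
      (CP.pen A π hπ harch N q hqN hg d hd).tb ∧
    (twoVal A π hπ harch N q hqN).V₂.ER
      ((CP.pen A π hπ harch N q hqN hg d hd).t : modularFunctionFieldFullC L (N * q))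
      (CP.pen A π hπ harch N q hqN hg d hd).tb := by
  have h1 := (twoVal A π hπ harch N q hqN).ER_of_O (CP.pen A π hπ harch N q hqN hg d hd).t
  rw [(CP.pen A π hπ harch N q hqN hg d hd).res_t] at h1
  exact h1

theorem transcendental_pen_t : Transcendental L
    ((CP.pen A π hπ harch N q hqN hg d hd).t : modularFunctionFieldFullC L (N * q)) := by
  have : NeZero (N * q) := ⟨mul_ne_zero (NeZero.ne N) hq.out.ne_zero⟩
  have H := CP.pen_hyp A π hπ harch N q hqN hg d hd
  intro h
  have h0 : ∀ w : Place L (modularFunctionFieldFullC L (N * q)),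
      w.ord ((CP.pen A π hπ harch N q hqN hg d hd).t : modularFunctionFieldFullC L (N * q)) = 0 :=
    fun w => ord_eq_zero_of_isAlgebraic w h
  have h1 : (CP.pen A π hπ harch N q hqN hg d hd).E = 0 := by
    ext w
    rw [(CP.pen A π hπ harch N q hqN hg d hd).hE, h0]
    rfl
  have h2 := (CP.pen A π hπ harch N q hqN hg d hd).deg_eq
  rw [h1, map_zero] at h2
  have h3 := H.hpos
  omega

/-- **The pencil of `X₀(N q²)`.** -/
def penX (hS : IsGaussSys hqN π hv S) {Γ₀ : Set (L ≃+* L)}
    (hΓ : S.Γ = coefΓ L (N * q * q) Γ₀) : Pen S where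
  t := al L N q ((CP.pen A π hπ harch N q hqN hg d hd).t : modularFunctionFieldFullC L (N * q))
  t_mem := by
    show _ ∈ fixF S.Γ
    rw [hΓ]
    exact al_pen_t_mem hπ harch hg d hd Γ₀
  tb := ![(CP.pen A π hπ harch N q hqN hg d hd).tb, (CP.pen A π hπ harch N q hqN hg d hd).tb,
    (CP.pen A π hπ harch N q hqN hg d hd).tb ^ q]
  LR_t := by
    have ht : al L N q ((CP.pen A π hπ harch N q hqN hg d hd).t :
        modularFunctionFieldFullC L (N * q)) ∈ S.FK := by
      show _ ∈ fixF S.Γ
      rw [hΓ]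
      exact al_pen_t_mem hπ harch hg d hd Γ₀
    obtain ⟨h1, h2⟩ := pen_ER hπ harch hg d hd (hqN := hqN)
    obtain ⟨h3, h4, h5⟩ := hS.LR_al hπ harch ht h1 h2
    have h6 : CP.frFull κ q N (CP.pen A π hπ harch N q hqN hg d hd).tb =
        (CP.pen A π hπ harch N q hqN hg d hd).tb ^ q := by
      rw [CP.pen_tb, map_pow, CP.frFull_jF, ← pow_mul, ← pow_mul, mul_comm]
    rw [h6] at h5
    intro i
    fin_cases i
    · exact h3
    · exact h4
    · exact h5
  tb_ne := by
    have h1 := (CP.pen A π hπ harch N q hqN hg d hd).tb_ne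
    intro i
    fin_cases i
    · exact h1
    · exact h1
    · exact pow_ne_zero q h1
  E := poleDiv (al L N q ((CP.pen A π hπ harch N q hqN hg d hd).t :
    modularFunctionFieldFullC L (N * q)))
  hE w := by rw [poleDiv_apply, max_comm]
  Eb := ![poleDiv (CP.pen A π hπ harch N q hqN hg d hd).tb,
    poleDiv (CP.pen A π hπ harch N q hqN hg d hd).tb,
    poleDiv ((CP.pen A π hπ harch N q hqN hg d hd).tb ^ q)]
  hEb i w := by
    fin_cases i
    · exact (poleDiv_apply _ w).trans (max_comm _ _)
    · exact (poleDiv_apply _ w).trans (max_comm _ _)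
    · exact (poleDiv_apply _ w).trans (max_comm _ _)
  supp := by
    have key : ∀ w : Place κ (modularFunctionFieldFullC κ N),
        (poleDiv ((CP.pen A π hπ harch N q hqN hg d hd).tb ^ q) :
          Divisor κ (modularFunctionFieldFullC κ N)) w = 0 ↔
        (poleDiv ((CP.pen A π hπ harch N q hqN hg d hd).tb) :
          Divisor κ (modularFunctionFieldFullC κ N)) w = 0 := by
      intro w
      rw [poleDiv_apply, poleDiv_apply, ord_pow]
      have h1 : (0 : ℤ) < q := by exact_mod_cast hq.out.pos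
      constructor
      · intro h
        have h2 : 0 ≤ (q : ℤ) * w.ord (CP.pen A π hπ harch N q hqN hg d hd).tb := by
          by_contra hcon
          push Not at hcon
          rw [max_eq_left (by omega)] at h
          omega
        have h3 := nonneg_of_mul_nonneg_right h2 h1
        rw [max_eq_right (by omega)]
      · intro h
        have h2 : 0 ≤ w.ord (CP.pen A π hπ harch N q hqN hg d hd).tb := by
          by_contra hcon
          push Not at hcon
          rw [max_eq_left (by omega)] at h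
          omega
        have h3 := mul_nonneg h1.le h2
        rw [max_eq_right (by omega)]
    intro i j w hi
    fin_cases i <;> fin_cases j
    · exact hi
    · exact hi
    · exact (key w).mpr hi
    · exact hi
    · exact hi
    · exact (key w).mpr hi
    · exact (key w).mp hi
    · exact (key w).mp hi
    · exact hi
  deg_eq := by
    have e0 : S.e 0 = 1 := by rw [hS.e_eq]; rfl
    have e1 : S.e 1 = q - 1 := by rw [hS.e_eq]; rfl
    have e2 : S.e 2 = 1 := by rw [hS.e_eq]; rfl
    have h0 := transcendental_pen_t hπ harch hg d hd (hqN := hqN)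
    have h1 : (CP.pen A π hπ harch N q hqN hg d hd).E =
        poleDiv ((CP.pen A π hπ harch N q hqN hg d hd).t :
          modularFunctionFieldFullC L (N * q)) := by
      ext w
      rw [(CP.pen A π hπ harch N q hqN hg d hd).hE, poleDiv_apply, max_comm]
    have h2 : (CP.pen A π hπ harch N q hqN hg d hd).Eb =
        poleDiv (CP.pen A π hπ harch N q hqN hg d hd).tb := by
      ext w
      rw [(CP.pen A π hπ harch N q hqN hg d hd).hEb, poleDiv_apply, max_comm]
    have h3 := (CP.pen A π hπ harch N q hqN hg d hd).deg_eq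
    rw [h1, h2] at h3
    have h4 : (poleDiv ((CP.pen A π hπ harch N q hqN hg d hd).tb ^ q) :
        Divisor κ (modularFunctionFieldFullC κ N)) =
        q • poleDiv (CP.pen A π hπ harch N q hqN hg d hd).tb := by
      ext w
      rw [poleDiv_apply, Finsupp.smul_apply, poleDiv_apply, ord_pow, nsmul_eq_mul,
        mul_max_of_nonneg _ _ (Int.natCast_nonneg q), mul_zero]
      congr 1
      ring
    have h5 : ((q - 1 : ℕ) : ℤ) = (q : ℤ) - 1 := by
      rw [Nat.cast_sub hq.out.one_lt.le]; simp
    rw [degree_poleDiv_map (al L N q) h0, finrankAlong_al, h3, Fin.sum_univ_three, e0, e1, e2, h5]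
    show _ = ((1 : ℕ) : ℤ) * Divisor.degree (poleDiv (CP.pen A π hπ harch N q hqN hg d hd).tb) +
      ((q : ℤ) - 1) * Divisor.degree (poleDiv (CP.pen A π hπ harch N q hqN hg d hd).tb) +
      ((1 : ℕ) : ℤ) * Divisor.degree (poleDiv ((CP.pen A π hπ harch N q hqN hg d hd).tb ^ q))
    rw [h4, map_nsmul, nsmul_eq_mul]
    push_cast
    ring
  deg_pos := by
    have : NeZero (N * q) := ⟨mul_ne_zero (NeZero.ne N) hq.out.ne_zero⟩
    have h3 := (CP.pen_hyp A π hπ harch N q hqN hg d hd).hpos
    have h2 : (CP.pen A π hπ harch N q hqN hg d hd).Eb =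
        poleDiv (CP.pen A π hπ harch N q hqN hg d hd).tb := by
      ext w
      rw [(CP.pen A π hπ harch N q hqN hg d hd).hEb, poleDiv_apply, max_comm]
    rw [h2] at h3
    have h4 : (poleDiv ((CP.pen A π hπ harch N q hqN hg d hd).tb ^ q) :
        Divisor κ (modularFunctionFieldFullC κ N)) =
        q • poleDiv (CP.pen A π hπ harch N q hqN hg d hd).tb := by
      ext w
      rw [poleDiv_apply, Finsupp.smul_apply, poleDiv_apply, ord_pow, nsmul_eq_mul,
        mul_max_of_nonneg _ _ (Int.natCast_nonneg q), mul_zero]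
      congr 1
      ring
    intro i
    fin_cases i
    · exact h3
    · exact h3
    · show 0 < Divisor.degree (poleDiv ((CP.pen A π hπ harch N q hqN hg d hd).tb ^ q))
      rw [h4, map_nsmul, nsmul_eq_mul]
      have h1 : (0 : ℤ) < q := by exact_mod_cast hq.out.pos
      exact mul_pos h1 h3

end Pen

end Fermat.Agent.Car
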