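import Fermat.Agent.ModDeg.Ext
import Fermat.Agent.AtkinLehner.Basic

/-!
# The embedding `ψ₂ : F_{N p²} → K((q))` (expansion at the middle cusp)

For a `p`-th root of unity `u ≠ 1` there is an embedding of the function field of `X₀(N p²)`
(`p ∤ N`) which is the identity on `F_{Np}` and maps `a(q^{p²})` to `a(u q)` for `a ∈ F_N`.
-/

set_option autoImplicit false

noncomputable section

open ModularCurve Fermat.Agent.ModPoly Polynomial IntermediateField

namespace Fermat.Agent.Car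

open Fermat.Agent.ModDeg Fermat.Agent.AtkinLehner

variable {K : Type*} [Field K]

theorem hs_twist_vj {d : ℕ} (hd : d ≠ 0) (hd' : (0 : ℚ) < d) (u : Kˣ) :
    hs 1 one_pos 1 (twist u (vj K d)) = hs (d : ℚ) hd' (u ^ d) (jqModC K) := by
  have : NeZero d := ⟨hd⟩
  rw [hs_twist, vj_eq, hs_qExpand d (by simpa using hd')]
  exact hs_congr _ (by simp) _ _ (by simp) _

variable [IsAlgClosed K] {N p : ℕ} [hp : Fact p.Prime]

/-- A common root of `Φ_ℓ(j_a(u q), X)` and `Φ_p(j_{aℓp}, X)` is `j_{aℓ}(u q)`. -/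
theorem eq_twist_vj_of_roots (hpK : (p : K) ≠ 0) {a ℓ : ℕ} (ha : a ≠ 0) [hℓ : Fact ℓ.Prime]
    (hℓK : (ℓ : K) ≠ 0) (u : Kˣ) {z : LaurentSeries K}
    (h1 : (phi ℓ (twist u (vj K a))).eval z = 0) (h2 : (phi p (vj K (a * ℓ * p))).eval z = 0) :
    z = twist u (vj K (a * ℓ)) := by
  obtain ⟨w, hw⟩ := exists_primitiveRoot_unit hℓ.out hℓK
  obtain ⟨v, hv⟩ := exists_primitiveRoot_unit hp.out hpK
  have hℓpos : (0 : ℚ) < ℓ := by exact_mod_cast hℓ.out.pos
  have hppos : (0 : ℚ) < p := by exact_mod_cast hp.out.pos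
  have hapos : (0 : ℚ) < a := by exact_mod_cast Nat.pos_of_ne_zero ha
  have hℓ2 : (2 : ℚ) ≤ ℓ := by exact_mod_cast hℓ.out.two_le
  have hp2 : (2 : ℚ) ≤ p := by exact_mod_cast hp.out.two_le
  have haℓ : a * ℓ ≠ 0 := mul_ne_zero ha hℓ.out.ne_zero
  have haℓp : a * ℓ * p ≠ 0 := mul_ne_zero haℓ hp.out.ne_zero
  set y := hs (1 : ℚ) one_pos (1 : Kˣ) z with hy
  have e1 : (phi ℓ (RingHom.id (HahnSeries ℚ K) (hs (a : ℚ) hapos (u ^ a) (jqModC K)))).eval y
      = 0 := by
    rw [RingHom.id_apply, ← hs_twist_vj ha, ← phi_map, Polynomial.eval_map, hy,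
      Polynomial.eval₂_hom, h1, map_zero]
  have e2 : (phi p (RingHom.id (HahnSeries ℚ K) (hs ((a * ℓ * p : ℕ) : ℚ)
      (by exact_mod_cast Nat.pos_of_ne_zero haℓp) 1 (jqModC K)))).eval y = 0 := by
    rw [RingHom.id_apply, ← hs_vj haℓp, ← phi_map, Polynomial.eval_map, hy,
      Polynomial.eval₂_hom, h2, map_zero]
  obtain ⟨η, hη⟩ := exists_pow_eq' ℓ hℓ.out.ne_zero (u ^ a)
  have r1 := eval_phi_hs_eq_zero hw (RingHom.id _) hη e1
  have r2 := eval_phi_hs_eq_zero hv (RingHom.id _) (η := 1) (by rw [one_pow]) e2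
  simp only [RingHom.id_apply] at r1 r2
  apply h1_injective
  rw [hs_twist_vj haℓ (by exact_mod_cast Nat.pos_of_ne_zero haℓ)]
  rcases r1 with r1 | ⟨b, r1⟩
  · rw [← hy, r1]
    exact hs_congr _ (by push_cast; ring) _ _ (by rw [← pow_mul]) _
  · exfalso
    rcases r2 with r2 | ⟨c, r2⟩
    · have h3 := (hs_jq_inj (r1.symm.trans r2)).1
      push_cast at h3
      field_simp at h3
      have h4 : (4 : ℚ) ≤ ℓ ^ 2 := by nlinarith
      have h5 : (4 : ℚ) ≤ p ^ 2 := by nlinarith
      nlinarith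
    · have h3 := (hs_jq_inj (r1.symm.trans r2)).1
      push_cast at h3
      field_simp at h3
      nlinarith

omit [IsAlgClosed K] in
/-- extension from level `N p` to level `N p²` -/
theorem exists_ext₂ {Ω : Type*} [Field Ω] (hm : (N : K) ≠ 0) (hpK : (p : K) ≠ 0) (hpm : ¬ p ∣ N)
    (τ : modularFunctionFieldFullC K (N * p) →+* Ω) {y : Ω}
    (hk1 : vj K p ∈ modularFunctionFieldFullC K (N * p))
    (hk : vj K 1 ∈ modularFunctionFieldFullC K (N * p))
    (hy : (phi p (τ ⟨vj K p, hk1⟩)).eval y = 0) (hyne : y ≠ τ ⟨vj K 1, hk⟩) :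
    ∃ σ : modularFunctionFieldFullC K (N * p * p) →+* Ω,
      (∀ e (he : e ∈ modularFunctionFieldFullC K (N * p))
        (he' : e ∈ modularFunctionFieldFullC K (N * p * p)), σ ⟨e, he'⟩ = τ ⟨e, he⟩) ∧
      ∀ h : vj K (p * p) ∈ modularFunctionFieldFullC K (N * p * p),
        σ ⟨vj K (p * p), h⟩ = y := by
  have key : ∀ M₁ M₂ a b : ℕ, M₁ = p ^ (0 + 1) * N → M₂ = p ^ (0 + 2) * N → a = p ^ (0 + 1) →
      b = p ^ (0 + 2) → ∀ (τ : modularFunctionFieldFullC K M₁ →+* Ω)
      (hk1 : vj K a ∈ modularFunctionFieldFullC K M₁)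
      (hk : vj K (p ^ 0) ∈ modularFunctionFieldFullC K M₁)
      (hy : (phi p (τ ⟨vj K a, hk1⟩)).eval y = 0) (hyne : y ≠ τ ⟨vj K (p ^ 0), hk⟩),
      ∃ σ : modularFunctionFieldFullC K M₂ →+* Ω,
      (∀ e (he : e ∈ modularFunctionFieldFullC K M₁)
        (he' : e ∈ modularFunctionFieldFullC K M₂), σ ⟨e, he'⟩ = τ ⟨e, he⟩) ∧
      ∀ h : vj K b ∈ modularFunctionFieldFullC K M₂, σ ⟨vj K b, h⟩ = y := by
    intro M₁ M₂ a b h1 h2 h3 h4 τ hk1 hk hy hyne
    subst h1; subst h2; subst h3; subst h4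
    exact exists_extend_full_of_dvd hm hpK hpm τ hk1 hk hy hyne
  exact key (N * p) (N * p * p) p (p * p) (by ring) (by ring) (by ring) (by ring) τ hk1
    (by rw [pow_zero]; exact hk) hy (by
      intro h
      apply hyne
      rw [h]
      congr 1)

set_option maxHeartbeats 1600000 in
/-- The embedding `F_{Np²} → K((q))`, identity on `F_{Np}`, sending `j(q^{dp²})` to `j_d(u q)`. -/
theorem exists_psi (hNK : (N : K) ≠ 0) (hpK : (p : K) ≠ 0) (hpN : ¬ p ∣ N) {u : Kˣ}
    (hu : u ^ p = 1) (hu1 : u ≠ 1) :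
    ∃ σ : modularFunctionFieldFullC K (N * p * p) →+* LaurentSeries K,
      (∀ (x : LaurentSeries K) (_ : x ∈ modularFunctionFieldFullC K (N * p))
        (h' : x ∈ modularFunctionFieldFullC K (N * p * p)), σ ⟨x, h'⟩ = x) ∧
      (∀ d : ℕ, d ∣ N → ∀ h : vj K (d * (p * p)) ∈ modularFunctionFieldFullC K (N * p * p),
        σ ⟨vj K (d * (p * p)), h⟩ = twist u (vj K d)) := by
  have hN : N ≠ 0 := by rintro rfl; simp at hNK
  obtain ⟨v, hv⟩ := exists_primitiveRoot_unit hp.out hpK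
  have hNp : N * p ≠ 0 := mul_ne_zero hN hp.out.ne_zero
  have : NeZero N := ⟨hN⟩
  have : NeZero p := ⟨hp.out.ne_zero⟩
  have : NeZero (N * p) := ⟨hNp⟩
  have : NeZero (N * p * p) := ⟨mul_ne_zero hNp hp.out.ne_zero⟩
  have hEE' : modularFunctionFieldFullC K (N * p) ≤ modularFunctionFieldFullC K (N * p * p) :=
    full_degeneracyC_le K (Dvd.intro p rfl)
  have hk1 : vj K p ∈ modularFunctionFieldFullC K (N * p) :=
    vj_mem_full K hp.out.ne_zero (Dvd.intro_left N rfl)
  have hk : vj K 1 ∈ modularFunctionFieldFullC K (N * p) :=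
    vj_mem_full K one_ne_zero (one_dvd _)
  -- `j(u q)` is a root
  have hroot : (phi p (vj K p)).eval (twist u (jqModC K)) = 0 := by
    have h0 := eval_phi_of_hom' hv (twist u)
    have h1 : twist u (qExpand K p (jqModC K)) = vj K p := by
      rw [vj_eq]
      ext n
      rw [twist_coeff]
      by_cases hn : (p : ℤ) ∣ n
      · obtain ⟨m, rfl⟩ := hn
        rw [zpow_mul, zpow_natCast, hu, one_zpow, Units.val_one, one_mul]
      · rw [qExpand_coeff_of_not_dvd p _ hn, mul_zero]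
    rwa [h1] at h0
  have hne : twist u (jqModC K) ≠ vj K 1 := by
    rw [vj_one]
    intro h
    have h1 := congrArg (fun z => z.coeff (-1)) h
    simp only [twist_coeff, coeff_jqModC_neg_one, mul_one] at h1
    apply hu1
    have h2 : ((u ^ (-1 : ℤ) : Kˣ) : K) = ((1 : Kˣ) : K) := by rw [h1, Units.val_one]
    have h3 := Units.ext h2
    rw [zpow_neg_one, inv_eq_one] at h3
    exact h3
  obtain ⟨σ, hσ1, hσ2⟩ := exists_ext₂ (K := K) (Ω := LaurentSeries K) hNK hpK hpN
    ((modularFunctionFieldFullC K (N * p)).val : _ →+* LaurentSeries K) hk1 hk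
    (y := twist u (jqModC K)) hroot hne
  have hσE : ∀ (x : LaurentSeries K) (_ : x ∈ modularFunctionFieldFullC K (N * p))
      (h' : x ∈ modularFunctionFieldFullC K (N * p * p)), σ ⟨x, h'⟩ = x :=
    fun x hx h' => hσ1 x hx h'
  -- transfer of a modular relation
  have htrans : ∀ (ℓ : ℕ) [Fact ℓ.Prime] (x y : LaurentSeries K)
      (hx : x ∈ modularFunctionFieldFullC K (N * p * p))
      (hy : y ∈ modularFunctionFieldFullC K (N * p * p)),
      (phi ℓ x).eval y = 0 → (phi ℓ (σ ⟨x, hx⟩)).eval (σ ⟨y, hy⟩) = 0 := by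
    intro ℓ _ x y hx hy h
    have h1 : (phi ℓ (⟨x, hx⟩ : modularFunctionFieldFullC K (N * p * p))).eval
        (⟨y, hy⟩ : modularFunctionFieldFullC K (N * p * p)) = 0 := by
      apply ((modularFunctionFieldFullC K (N * p * p)).val : _ →+* LaurentSeries K).injective
      rw [map_zero, ← Polynomial.eval₂_hom, ← Polynomial.eval_map, phi_map]
      exact h
    rw [← phi_map, Polynomial.eval_map, Polynomial.eval₂_hom, h1, map_zero]
  refine ⟨σ, hσE, ?_⟩
  intro d
  induction d using induction_on_primes with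
  | zero => intro h; exact absurd (Nat.eq_zero_of_zero_dvd h) hN
  | one =>
    intro _ h
    have e : (⟨vj K (1 * (p * p)), h⟩ : modularFunctionFieldFullC K (N * p * p)) =
        ⟨vj K (p * p), by rw [one_mul] at h; exact h⟩ := by
      apply Subtype.ext
      exact congrArg (vj K) (one_mul (p * p))
    rw [e, hσ2, vj_one]
  | prime_mul ℓ a hℓ ih =>
    intro hd h
    have : Fact ℓ.Prime := ⟨hℓ⟩
    have hℓK : (ℓ : K) ≠ 0 := by
      intro h0
      apply hNK
      obtain ⟨c, rfl⟩ := hd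
      push_cast
      rw [h0, zero_mul, zero_mul]
    obtain ⟨w, hw⟩ := exists_primitiveRoot_unit hℓ hℓK
    have ha : a ∣ N := (Dvd.intro_left ℓ rfl).trans hd
    have ha0 : a ≠ 0 := fun h0 => hN (Nat.eq_zero_of_zero_dvd (h0 ▸ ha))
    have hpp : p * p ≠ 0 := mul_ne_zero hp.out.ne_zero hp.out.ne_zero
    have happ : a * (p * p) ≠ 0 := mul_ne_zero ha0 hpp
    have haE : vj K (a * (p * p)) ∈ modularFunctionFieldFullC K (N * p * p) :=
      vj_mem_full K happ (by rw [mul_assoc]; exact Nat.mul_dvd_mul_right ha _)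
    have hℓa0 : ℓ * a * p ≠ 0 := mul_ne_zero (mul_ne_zero hℓ.ne_zero ha0) hp.out.ne_zero
    have hℓaE : vj K (ℓ * a * p) ∈ modularFunctionFieldFullC K (N * p) :=
      vj_mem_full K hℓa0 (Nat.mul_dvd_mul_right hd p)
    have h1 := htrans ℓ (vj K (a * (p * p))) (vj K (ℓ * a * (p * p))) haE h
      (eval_phi_vj hw happ (by ring))
    rw [ih ha haE] at h1
    have h2 := htrans p (vj K (ℓ * a * p)) (vj K (ℓ * a * (p * p))) (hEE' hℓaE) h
      (eval_phi_vj hv hℓa0 (by ring))
    rw [hσE _ hℓaE] at h2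
    have h3 : vj K (a * ℓ * p) = vj K (ℓ * a * p) := by rw [mul_comm a ℓ]
    rw [← h3] at h2
    have h4 := eq_twist_vj_of_roots hpK ha0 hℓK u h1 h2
    exact h4.trans (by rw [mul_comm])

section Psi

variable (hNK : (N : K) ≠ 0) (hpK : (p : K) ≠ 0) (hpN : ¬ p ∣ N) {u : Kˣ}
    (hu : u ^ p = 1) (hu1 : u ≠ 1)

/-- **The embedding `ψ₂`.** -/
def psi : modularFunctionFieldFullC K (N * p * p) →ₐ[K] LaurentSeries K :=
  { (exists_psi hNK hpK hpN hu hu1).choose with
    commutes' := fun c => (exists_psi hNK hpK hpN hu hu1).choose_spec.1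
      (algebraMap K (LaurentSeries K) c) ((modularFunctionFieldFullC K (N * p)).algebraMap_mem c)
      ((modularFunctionFieldFullC K (N * p * p)).algebraMap_mem c) }

/-- `ψ₂` is the identity on `F_{Np}`. -/
theorem psi_apply_of_mem {x : LaurentSeries K} (hx : x ∈ modularFunctionFieldFullC K (N * p))
    (h' : x ∈ modularFunctionFieldFullC K (N * p * p)) : psi hNK hpK hpN hu hu1 ⟨x, h'⟩ = x :=
  (exists_psi hNK hpK hpN hu hu1).choose_spec.1 x hx h'

theorem psi_vj {d : ℕ} (hd : d ∣ N)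
    (h : vj K (d * (p * p)) ∈ modularFunctionFieldFullC K (N * p * p)) :
    psi hNK hpK hpN hu hu1 ⟨vj K (d * (p * p)), h⟩ = twist u (vj K d) :=
  (exists_psi hNK hpK hpN hu hu1).choose_spec.2 d hd h

include hNK in
omit [IsAlgClosed K] in
theorem qExpand₂_mem {x : LaurentSeries K} (hx : x ∈ modularFunctionFieldFullC K N) :
    (haveI : NeZero p := ⟨hp.out.ne_zero⟩; qExpand K p (qExpand K p x)) ∈
      modularFunctionFieldFullC K (N * p * p) := by
  have hN : N ≠ 0 := by rintro rfl; simp at hNK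
  have hN0 : NeZero N := ⟨hN⟩
  have hp0 : NeZero p := ⟨hp.out.ne_zero⟩
  exact full_degeneracyC_map_le K (N * p) p
    (mem_map_of_mem (full_degeneracyC_map_le K N p (mem_map_of_mem hx)))

/-- the third embedding `F_N → F_{N p²}` -/
def incl₂ : modularFunctionFieldFullC K N →+* modularFunctionFieldFullC K (N * p * p) :=
  haveI : NeZero p := ⟨hp.out.ne_zero⟩
  RingHom.codRestrict (((qExpand K p).comp (qExpand K p)).comp
      ((modularFunctionFieldFullC K N).val : _ →+* LaurentSeries K))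
      (modularFunctionFieldFullC K (N * p * p)) (fun x => qExpand₂_mem hNK x.2)

omit [IsAlgClosed K] in
theorem coe_incl₂ (x : modularFunctionFieldFullC K N) :
    (incl₂ (p := p) hNK x : LaurentSeries K) =
      (haveI : NeZero p := ⟨hp.out.ne_zero⟩; qExpand K p (qExpand K p (x : LaurentSeries K))) := rfl

theorem psi_incl₂ (x : modularFunctionFieldFullC K N) :
    psi hNK hpK hpN hu hu1 (incl₂ hNK x) = twist u (x : LaurentSeries K) := by
  have hN : N ≠ 0 := by rintro rfl; simp at hNK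
  have hN0 : NeZero N := ⟨hN⟩
  have hp0 : NeZero p := ⟨hp.out.ne_zero⟩
  have hfg : ((psi hNK hpK hpN hu hu1).toRingHom.comp (incl₂ hNK) : _ →+* LaurentSeries K) =
      (twist u).comp ((modularFunctionFieldFullC K N).val : _ →+* LaurentSeries K) := by
    refine ringHom_ext _ _ (fun c => ?_) (fun d hd hd0 => ?_)
    · show psi hNK hpK hpN hu hu1 (incl₂ hNK (algebraMap K _ c)) =
        twist u (algebraMap K (LaurentSeries K) c)
      have e : incl₂ hNK (algebraMap K _ c) =
          algebraMap K (modularFunctionFieldFullC K (N * p * p)) c := by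
        apply Subtype.ext
        show qExpand K p (qExpand K p (algebraMap K (LaurentSeries K) c)) =
          algebraMap K (LaurentSeries K) c
        rw [qExpand_algebraMap, qExpand_algebraMap]
      rw [e, AlgHom.commutes, twist_algebraMap]
    · show psi hNK hpK hpN hu hu1 (incl₂ hNK ⟨vj K d, _⟩) = twist u (vj K d)
      have e1 : qExpand K p (qExpand K p (vj K d)) = vj K (d * (p * p)) := by
        rw [qExpand_vj K p d hd0, qExpand_vj K p _ (mul_ne_zero hd0 hp.out.ne_zero), mul_assoc]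
      have e : incl₂ hNK ⟨vj K d, vj_mem_full K hd0 hd⟩ =
          (⟨vj K (d * (p * p)),
          vj_mem_full K (mul_ne_zero hd0 (mul_ne_zero hp.out.ne_zero hp.out.ne_zero))
            (by rw [mul_assoc]; exact Nat.mul_dvd_mul_right hd _)⟩ :
            modularFunctionFieldFullC K (N * p * p)) := by
        apply Subtype.ext
        rw [coe_incl₂]
        exact e1
      rw [e, psi_vj hNK hpK hpN hu hu1 hd]
  exact DFunLike.congr_fun hfg x

end Psi

end Fermat.Agent.Car
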