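import Fermat.Agent.Car.W2
import Fermat.Agent.Car.Nrm
import Fermat.Agent.BadRed.Conc5

/-!
# The embedding `ψ₂`: coefficient automorphisms, tameness, trace
-/

set_option autoImplicit false
set_option linter.unusedSectionVars false
set_option linter.style.haveILetI false

noncomputable section

open ModularCurve AlgebraicCurve Fermat.Agent.ModPoly Polynomial IntermediateField

namespace Fermat.Agent.Car

open Fermat.Agent.ModDeg Fermat.Agent.AtkinLehner Fermat.Agent.BadRed Fermat.Agent.Igusa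

section Twist

variable {K : Type*} [Field K]

theorem tame_twist {u : Kˣ} {p : ℕ} (hp : p ≠ 0) (hu : u ^ p = 1) {x : LaurentSeries K}
    (hx : x ∈ tame K) : twist u x ∈ tame K := by
  obtain ⟨M, hM, hx⟩ := hx
  refine ⟨Submodule.span ℤ (Set.range fun i : Fin p => ((u ^ (i : ℕ) : Kˣ) : K)) * M,
    (Submodule.fg_span (Set.finite_range _)).mul hM, fun n => ?_⟩
  rw [twist_coeff]
  refine Submodule.mul_mem_mul (Submodule.subset_span ?_) (hx n)
  have hp' : (0 : ℤ) < p := by exact_mod_cast Nat.pos_of_ne_zero hp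
  refine ⟨⟨(n % p).toNat, ?_⟩, ?_⟩
  · have h1 := Int.emod_nonneg n hp'.ne'
    have h2 := Int.emod_lt_of_pos n hp'
    omega
  · have h1 := Int.emod_nonneg n hp'.ne'
    have h3 : u ^ n = u ^ (n % p).toNat := by
      conv_lhs => rw [← Int.emod_add_mul_ediv n p, zpow_add, zpow_mul, zpow_natCast, hu, one_zpow,
        mul_one]
      rw [← zpow_natCast, Int.toNat_of_nonneg h1]
    show ((u ^ (n % p).toNat : Kˣ) : K) = _
    rw [← h3]

end Twist

variable {K : Type*} [Field K] [IsAlgClosed K] {N p : ℕ} [hp : Fact p.Prime]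

section Psi

variable (hNK : (N : K) ≠ 0) (hpK : (p : K) ≠ 0) (hpN : ¬ p ∣ N) {u u' : Kˣ}
    (hu : u ^ p = 1) (hu1 : u ≠ 1) (hu' : u' ^ p = 1) (hu1' : u' ≠ 1)

/-- `ψ₂` on the generators -/
theorem psi_vj_cases {d : ℕ} (hd : d ∣ N * p * p)
    (h : vj K d ∈ modularFunctionFieldFullC K (N * p * p)) :
    psi hNK hpK hpN hu hu1 ⟨vj K d, h⟩ = vj K d ∨
      ∃ e, e ∣ N ∧ d = e * (p * p) ∧ psi hNK hpK hpN hu hu1 ⟨vj K d, h⟩ = twist u (vj K e) := by
  have hN : N ≠ 0 := by rintro rfl; simp at hNK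
  have hd0 : ∀ d, d ∣ N → d ≠ 0 := by
    rintro d hd rfl
    exact hN (Nat.eq_zero_of_zero_dvd hd)
  have hp0 := hp.out.ne_zero
  rcases dvd_mul_prime_sq_cases hp.out hd with hd1 | ⟨e, he, rfl⟩ | ⟨e, he, rfl⟩
  · left
    exact psi_apply_of_mem hNK hpK hpN hu hu1 (vj_mem_full K (hd0 d hd1) (hd1.mul_right p)) h
  · left
    exact psi_apply_of_mem hNK hpK hpN hu hu1
      (vj_mem_full K (mul_ne_zero (hd0 e he) hp0) (Nat.mul_dvd_mul_right he p)) h
  · right
    exact ⟨e, he, rfl, psi_vj hNK hpK hpN hu hu1 he h⟩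

/-- `ψ₂` is compatible with automorphisms of the coefficients. -/
theorem psi_coeffEquiv (σ : K ≃+* K) (hσ : σ (u : K) = u')
    (x : modularFunctionFieldFullC K (N * p * p)) :
    psi hNK hpK hpN hu' hu1' (coeffEquiv σ (N * p * p) x) =
      coeffMap (σ : K →+* K) (psi hNK hpK hpN hu hu1 x) := by
  have hN : N ≠ 0 := by rintro rfl; simp at hNK
  have hu'' : Units.map ((σ : K →+* K) : K →* K) u = u' := Units.ext hσ
  have hfg : ((psi hNK hpK hpN hu' hu1').toRingHom.comp
      (coeffEquiv σ (N * p * p) : _ →+* modularFunctionFieldFullC K (N * p * p))) =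
      (coeffMap (σ : K →+* K)).comp (psi hNK hpK hpN hu hu1).toRingHom := by
    have : NeZero (N * p * p) := ⟨mul_ne_zero (mul_ne_zero hN hp.out.ne_zero) hp.out.ne_zero⟩
    refine ringHom_ext _ _ (fun c => ?_) (fun d hd hd0 => ?_)
    · show psi hNK hpK hpN hu' hu1' (coeffEquiv σ (N * p * p) (algebraMap K _ c)) =
        coeffMap (σ : K →+* K) (psi hNK hpK hpN hu hu1 (algebraMap K _ c))
      have e : coeffEquiv σ (N * p * p) (algebraMap K _ c) =
          algebraMap K (modularFunctionFieldFullC K (N * p * p)) (σ c) :=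
        Subtype.ext (coeffMap_algebraMap (σ : K →+* K) c)
      rw [e, AlgHom.commutes, AlgHom.commutes]
      exact (coeffMap_algebraMap (σ : K →+* K) c).symm
    · show psi hNK hpK hpN hu' hu1' (coeffEquiv σ (N * p * p) ⟨vj K d, _⟩) =
        coeffMap (σ : K →+* K) (psi hNK hpK hpN hu hu1 ⟨vj K d, _⟩)
      have e₀ : coeffEquiv σ (N * p * p) ⟨vj K d, vj_mem_full K hd0 hd⟩ =
          ⟨vj K d, vj_mem_full K hd0 hd⟩ := Subtype.ext (coeffMap_vj (σ : K →+* K) d)
      rw [e₀]
      have hd0' : ∀ d, d ∣ N → d ≠ 0 := by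
        rintro d hd rfl
        exact hN (Nat.eq_zero_of_zero_dvd hd)
      have hp0 := hp.out.ne_zero
      rcases dvd_mul_prime_sq_cases hp.out hd with hd1 | ⟨e, he, rfl⟩ | ⟨e, he, rfl⟩
      · have h1 := vj_mem_full K (hd0' d hd1) (hd1.mul_right p)
        rw [psi_apply_of_mem hNK hpK hpN hu' hu1' h1, psi_apply_of_mem hNK hpK hpN hu hu1 h1,
          coeffMap_vj]
      · have h1 := vj_mem_full K (mul_ne_zero (hd0' e he) hp0) (Nat.mul_dvd_mul_right he p)
        rw [psi_apply_of_mem hNK hpK hpN hu' hu1' h1, psi_apply_of_mem hNK hpK hpN hu hu1 h1,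
          coeffMap_vj]
      · rw [psi_vj hNK hpK hpN hu' hu1' he, psi_vj hNK hpK hpN hu hu1 he, coeffMap_twist,
          coeffMap_vj, hu'']
  exact DFunLike.congr_fun hfg x

/-- `ψ₂` is a tame embedding. -/
theorem isTameHom_psi : IsTameHom (psi hNK hpK hpN hu hu1) := by
  have hN : N ≠ 0 := by rintro rfl; simp at hNK
  have : NeZero (N * p * p) := ⟨mul_ne_zero (mul_ne_zero hN hp.out.ne_zero) hp.out.ne_zero⟩
  intro x
  have key : psi hNK hpK hpN hu hu1 x ∈
      (IntermediateField.adjoin K (tame K : Set (LaurentSeries K))).toSubfield := by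
    refine ringHom_mem (psi hNK hpK hpN hu hu1).toRingHom _ (fun c => ?_) (fun d hd hd0 => ?_) x
    · show psi hNK hpK hpN hu hu1 (algebraMap K _ c) ∈ _
      rw [AlgHom.commutes]
      exact (IntermediateField.adjoin K (tame K : Set (LaurentSeries K))).algebraMap_mem c
    · show psi hNK hpK hpN hu hu1 ⟨vj K d, _⟩ ∈ _
      have hv : ∀ e : ℕ, e ≠ 0 → vj K e ∈ tame K := by
        intro e he
        have : NeZero e := ⟨he⟩
        rw [vj_eq]
        exact qExpand_jqModC_mem_tame e
      rcases psi_vj_cases hNK hpK hpN hu hu1 hd (vj_mem_full K hd0 hd) with h | ⟨e, he, -, h⟩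
      · rw [h]
        exact IntermediateField.subset_adjoin _ _ (hv d hd0)
      · rw [h]
        refine IntermediateField.subset_adjoin _ _ (tame_twist hp.out.ne_zero hu (hv e ?_))
        rintro rfl
        exact hN (Nat.eq_zero_of_zero_dvd he)
  exact isTameField_adjoin (S := (tame K : Set (LaurentSeries K))) (fun _ h => h) _ key

end Psi

section Trace

variable [hN : NeZero N] (hNrr : ((N * p * p : ℕ) : K) ≠ 0) {v : Kˣ} (hv : IsPrimitiveRoot v p)
  (ψ : Fin (p - 1) → modularFunctionFieldFullC K (N * p * p) →+* LaurentSeries K)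
  (h1 : ∀ b (x : modularFunctionFieldFullC K (N * p)), ψ b (inclSq K N p x) = x)
  (h2 : ∀ b : Fin (p - 1), ψ b ⟨vj K (p * p), vj_mem_sq⟩ = twist (v ^ (b + 1 : ℕ)) (vj K 1))

include hNrr hv h1 h2 in
/-- **Trace formula**: `f + ∑ ψ_b f` is in `F_{Np}`. -/
theorem exists_trace (f : modularFunctionFieldFullC K (N * p * p)) :
    ∃ T : modularFunctionFieldFullC K (N * p),
      (T : LaurentSeries K) = (f : LaurentSeries K) + ∑ b, ψ b f := by
  have hr2 := hp.out.two_le
  letI := algebraAlong (inclSq K N p)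
  have hfr := finrank_inclSq (K := K) (N := N) (r := p) hNrr
  have h' : Module.finrank (modularFunctionFieldFullC K (N * p))
    (modularFunctionFieldFullC K (N * p * p)) = p := hfr
  haveI : Module.Finite (modularFunctionFieldFullC K (N * p))
      (modularFunctionFieldFullC K (N * p * p)) :=
    Module.finite_of_finrank_pos (by rw [h']; omega)
  refine ⟨Algebra.trace (modularFunctionFieldFullC K (N * p))
    (modularFunctionFieldFullC K (N * p * p)) f, ?_⟩
  have h3 : ((modularFunctionFieldFullC K (N * p)).val :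
      modularFunctionFieldFullC K (N * p) →+* LaurentSeries K)
      (Algebra.trace (modularFunctionFieldFullC K (N * p))
        (modularFunctionFieldFullC K (N * p * p)) f) = ∑ i, midEmb ψ i f := by
    refine trace_eq_sum ((modularFunctionFieldFullC K (N * p)).val :
      modularFunctionFieldFullC K (N * p) →+* LaurentSeries K)
      (midEmb ψ) (fun i x => ?_) (midEmb_injective hv ψ h2) ?_ f
    · rcases i with _ | b
      · exact coe_inclSq x
      · exact h1 b x
    · rw [Fintype.card_option, Fintype.card_fin, h']; omega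
  refine Eq.trans h3 ?_
  rw [Fintype.sum_option]
  rfl

end Trace

section Conj

variable [hN : NeZero N] [CharZero K] (hpN : ¬ p ∣ N) {v : Kˣ} (hv : IsPrimitiveRoot v p)

include hp in
theorem pow_succ_ne_one' (hv : IsPrimitiveRoot v p) (b : Fin (p - 1)) :
    v ^ (b + 1 : ℕ) ≠ 1 := by
  have hr2 := hp.out.two_le
  exact hv.pow_ne_one_of_pos_of_lt (Nat.succ_ne_zero _) (by omega)

include hp in
theorem pow_succ_pow' (hv : IsPrimitiveRoot v p) (b : ℕ) :
    (v ^ b) ^ p = 1 := by
  rw [← pow_mul, mul_comm, pow_mul, hv.pow_eq_one, one_pow]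

/-- the conjugates of `ψ₂` -/
def psiC (b : Fin (p - 1)) : modularFunctionFieldFullC K (N * p * p) →ₐ[K] LaurentSeries K :=
  psi (cast_ne_zero_L K N) (cast_ne_zero_Lr K p) hpN (pow_succ_pow' hv (b + 1))
    (pow_succ_ne_one' hv b)

theorem psiC_of_mem (b : Fin (p - 1)) {x : LaurentSeries K}
    (hx : x ∈ modularFunctionFieldFullC K (N * p))
    (h' : x ∈ modularFunctionFieldFullC K (N * p * p)) : psiC hpN hv b ⟨x, h'⟩ = x :=
  psi_apply_of_mem (cast_ne_zero_L K N) (cast_ne_zero_Lr K p) hpN (pow_succ_pow' hv (b + 1))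
    (pow_succ_ne_one' hv b) hx h'

theorem psiC_inclSq (b : Fin (p - 1)) (x : modularFunctionFieldFullC K (N * p)) :
    psiC hpN hv b (inclSq K N p x) = x := by
  have e : inclSq K N p x = ⟨(x : LaurentSeries K), full_le_sq K N p x.2⟩ :=
    Subtype.ext (coe_inclSq x)
  rw [e]
  exact psiC_of_mem hpN hv b x.2 _

theorem psiC_vj (b : Fin (p - 1)) :
    psiC (N := N) hpN hv b ⟨vj K (p * p), vj_mem_sq⟩ = twist (v ^ (b + 1 : ℕ)) (vj K 1) := by
  have h1 := psi_vj (cast_ne_zero_L K N) (cast_ne_zero_Lr K p) hpN (pow_succ_pow' hv (b + 1))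
    (pow_succ_ne_one' hv b) (one_dvd N) (by rw [one_mul]; exact vj_mem_sq)
  have e : (⟨vj K (p * p), vj_mem_sq⟩ : modularFunctionFieldFullC K (N * p * p)) =
      ⟨vj K (1 * (p * p)), by rw [one_mul]; exact vj_mem_sq⟩ :=
    Subtype.ext (congrArg (vj K) (one_mul (p * p)).symm)
  rw [e]
  exact h1

theorem cast_sq_ne_zero : ((N * p * p : ℕ) : K) ≠ 0 :=
  Nat.cast_ne_zero.mpr (mul_ne_zero (mul_ne_zero hN.out hp.out.ne_zero) hp.out.ne_zero)

include hpN hv in
theorem exists_traceC (f : modularFunctionFieldFullC K (N * p * p)) :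
    ∃ T : modularFunctionFieldFullC K (N * p),
      (T : LaurentSeries K) = (f : LaurentSeries K) + ∑ b, psiC hpN hv b f :=
  exists_trace cast_sq_ne_zero hv (fun b => (psiC hpN hv b).toRingHom)
    (fun b x => psiC_inclSq hpN hv b x) (fun b => psiC_vj hpN hv b) f

theorem nrm_eq_midC (f : modularFunctionFieldFullC K (N * p * p)) :
    ((nrm K N p f : modularFunctionFieldFullC K (N * p)) : LaurentSeries K) =
      (f : LaurentSeries K) * ∏ b, psiC hpN hv b f :=
  nrm_eq_mid cast_sq_ne_zero hv (fun b => (psiC hpN hv b).toRingHom)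
    (fun b x => psiC_inclSq hpN hv b x) (fun b => psiC_vj hpN hv b) f

end Conj

end Fermat.Agent.Car
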