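import Fermat.Agent.Car.Emb
import Fermat.Agent.BadRed.ZnPush

/-!
# Project CAR: norms and push-forwards from level `N q²` to level `N q`
-/

set_option autoImplicit false
set_option linter.unusedSectionVars false
set_option linter.style.haveILetI false

noncomputable section

open AlgebraicCurve Module HahnSeries ModularCurve

namespace Fermat.Agent.Car

open Fermat.Agent.FunField Fermat.Agent.FunField.PlaceLemmas Fermat.Agent.Deuring
  Fermat.Agent.BadRed Fermat.Agent.Degen Fermat.Agent.HeckeRed Fermat.Agent.AtkinLehner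
  Fermat.Agent.ModPoly Fermat.Agent.Igusa

section General

variable {K F F' : Type*} [Field K] [Field F] [Field F'] [Algebra K F] [Algebra K F']

/-- norms are equivariant for semilinear automorphisms -/
theorem normAlong_semi (φ : F →ₐ[K] F') {g : SemilinearAut K F} {g' : SemilinearAut K F'}
    (h : SemilinearAut.IntertwinesAlong φ.toRingHom g g') (y : F') :
    normAlong φ (g' • y) = g • normAlong φ y := by
  let _ := algebraAlong φ
  have h1 := Algebra.norm_eq_of_equiv_equiv (SemilinearAut.toRingAut g : F ≃+* F)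
    (SemilinearAut.toRingAut g' : F' ≃+* F')
    (by ext x; exact (h x).symm) y
  have h2 : (SemilinearAut.toRingAut g : F ≃+* F) (Algebra.norm F y) =
      Algebra.norm F ((SemilinearAut.toRingAut g' : F' ≃+* F') y) := by
    rw [h1]
    exact RingEquiv.apply_symm_apply _ _
  exact h2.symm

/-- norms along conjugate homomorphisms -/
theorem normAlong_conj (α β : F →ₐ[K] F') (e : F ≃ₐ[K] F) (e' : F' ≃ₐ[K] F')
    (h : ∀ x, e' (α x) = β (e x)) (y : F') : normAlong β (e' y) = e (normAlong α y) := by
  have h1 := @Algebra.norm_eq_of_equiv_equiv F F' F F' _ _ _ _ (algebraAlong α) (algebraAlong β)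
    (e.toRingEquiv : F ≃+* F) (e'.toRingEquiv : F' ≃+* F') (by ext x; exact (h x).symm) y
  have h2 : e (normAlong α y) = normAlong β (e' y) := by
    show e (@Algebra.norm F F' _ _ (algebraAlong α) y) = _
    rw [h1]
    exact e.apply_symm_apply _
  exact h2.symm

variable [IsAlgClosed K] [IsFF K F] [IsFF K F']

theorem push_nonneg (φ : F →ₐ[K] F') {D : Divisor K F'} (hD : 0 ≤ D) : 0 ≤ push φ D := by
  rw [push_eq_mapDomain, Finsupp.le_def]
  intro v
  rw [Finsupp.zero_apply, Finsupp.mapDomain, Finsupp.sum_apply]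
  refine Finset.sum_nonneg fun w _ => ?_
  show (0 : ℤ) ≤ (Finsupp.single (res φ w) (D w) : Divisor K F) v
  by_cases hw : res φ w = v
  · rw [hw, Finsupp.single_eq_same]
    exact hD w
  · rw [Finsupp.single_eq_of_ne (Ne.symm hw)]

theorem push_mono (φ : F →ₐ[K] F') {D D' : Divisor K F'} (h : D ≤ D') : push φ D ≤ push φ D' := by
  have h1 := push_nonneg φ (D := D' - D) (sub_nonneg.mpr h)
  rw [map_sub] at h1
  exact sub_nonneg.mp h1

theorem push_ord_one (φ : F →ₐ[K] F') {f : F'} (hf : f ≠ 0) {D : Divisor K F'}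
    (h : ∀ v : Place K F', D v = v.ord f) (v : Place K F) :
    push φ D v = v.ord (normAlong φ f) := by
  have h1 : D = divOf f := by
    ext v
    rw [divOf_apply, ← h v]
  rw [h1, push_divOf φ hf, divOf_apply]

/-- the norm as a monoid homomorphism -/
def normHom (φ : F →ₐ[K] F') : F' →* F :=
  letI := algebraAlong φ
  Algebra.norm F

theorem normHom_apply (φ : F →ₐ[K] F') (x : F') : normHom φ x = normAlong φ x := rfl

end General

section Beta

variable {L : Type*} [Field L] [IsAlgClosed L] [CharZero L] {N q : ℕ} [hq : Fact q.Prime]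
  [hN : NeZero N]

/-- the conjugates of `f` along `f ↦ f(X^q)` -/
def twF (L : Type*) [Field L] (M : ℕ) (u : Lˣ) : modularFunctionFieldFullC L M →+* LaurentSeries L :=
  (twist u).comp ((modularFunctionFieldFullC L M).val : _ →+* LaurentSeries L)

theorem twF_apply (M : ℕ) (u : Lˣ) (f : modularFunctionFieldFullC L M) :
    twF L M u f = twist u (f : LaurentSeries L) := rfl

omit [IsAlgClosed L] [CharZero L] in
theorem finrankAlong_qq {φ : modularFunctionFieldFullC L (N * q) →ₐ[L]
    modularFunctionFieldFullC L (N * q * q)}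
    (h : finrankAlong L φ * dedekindPsi (N * q) = dedekindPsi (N * q * q)) :
    finrankAlong L φ = q := by
  have : NeZero (N * q) := ⟨mul_ne_zero hN.out hq.out.ne_zero⟩
  rw [ModDeg.psi_mul_prime_of_dvd (NeZero.ne (N * q)) hq.out (Dvd.intro_left N rfl)] at h
  exact Nat.eq_of_mul_eq_mul_right (HeckeRed.dedekindPsi_pos (N * q)) h

/-- the degree along `f ↦ f(X^q)` -/
theorem finrankAlong_be' : finrankAlong L (be L N q) = q := by
  have : NeZero (N * q) := ⟨mul_ne_zero hN.out hq.out.ne_zero⟩
  have : NeZero (N * q * q) := ⟨mul_ne_zero (NeZero.ne (N * q)) hq.out.ne_zero⟩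
  exact finrankAlong_qq (HeckeRed.finrankAlong_beta rfl rfl (be L N q) (fun _ => rfl)
    (Nat.cast_ne_zero.mpr (NeZero.ne (N * q * q))))

/-- the degree along the inclusion -/
theorem finrankAlong_al' : finrankAlong L (al L N q) = q := by
  have : NeZero (N * q) := ⟨mul_ne_zero hN.out hq.out.ne_zero⟩
  have : NeZero (N * q * q) := ⟨mul_ne_zero (NeZero.ne (N * q)) hq.out.ne_zero⟩
  exact finrankAlong_qq (HeckeRed.finrankAlong_alpha rfl rfl (al L N q)
    (fun x => coe_al L N q x) (Nat.cast_ne_zero.mpr (NeZero.ne (N * q * q))))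

/-- **the norm along `f ↦ f(X^q)`** -/
theorem norm_be' {v : Lˣ} (hv : IsPrimitiveRoot v q)
    (f : modularFunctionFieldFullC L (N * q * q)) :
    qExpand L q ((normAlong (be L N q) f : modularFunctionFieldFullC L (N * q)) :
      LaurentSeries L) = ∏ b : Fin q, twist (v ^ (b : ℕ)) (f : LaurentSeries L) := by
  letI := algebraAlong (be L N q)
  have hdeg := finrankAlong_be' (L := L) (N := N) (q := q)
  have hfin : Module.Finite (modularFunctionFieldFullC L (N * q))
      (modularFunctionFieldFullC L (N * q * q)) := by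
    have h' : Module.finrank (modularFunctionFieldFullC L (N * q))
      (modularFunctionFieldFullC L (N * q * q)) = q := hdeg
    exact Module.finite_of_finrank_pos (by rw [h']; exact hq.out.pos)
  refine norm_eq_prod ((qExpand L q).comp
    ((modularFunctionFieldFullC L (N * q)).val :
      modularFunctionFieldFullC L (N * q) →+* LaurentSeries L))
    (fun b : Fin q => twF L (N * q * q) (v ^ (b : ℕ)))
    (fun b x => ?_) (fun b c hbc => ?_) ?_ f
  · show twist (v ^ (b : ℕ)) (qExpand L q (x : LaurentSeries L)) = qExpand L q (x : LaurentSeries L)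
    refine twist_qExpand_of_pow_eq_one _ _ ?_ _
    rw [← pow_mul, mul_comm, pow_mul, hv.pow_eq_one, one_pow]
  · have h1 := DFunLike.congr_fun hbc (⟨jqModC L, jqModC_mem_full L (N * q * q)⟩ :
      modularFunctionFieldFullC L (N * q * q))
    have h2 : twist (v ^ (b : ℕ)) (jqModC L) = twist (v ^ (c : ℕ)) (jqModC L) := h1
    have h3 := congrArg (fun z : LaurentSeries L => z.coeff (-1)) h2
    simp only [twist_coeff, coeff_jqModC_neg_one, mul_one] at h3
    have h4 : (v ^ (b : ℕ))⁻¹ = (v ^ (c : ℕ))⁻¹ := by
      rw [← zpow_neg_one, ← zpow_neg_one]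
      exact Units.ext h3
    exact Fin.ext (hv.pow_inj b.2 c.2 (inv_injective h4))
  · rw [Fintype.card_fin]
    exact hdeg.symm

variable (hqN : ¬ q ∣ N)

/-- `w_q (Nm_α f) = Nm_β (w_{q²} f)` -/
theorem ww_norm_al (f : modularFunctionFieldFullC L (N * q * q)) :
    ww L N q hqN (normAlong (al L N q) f) = normAlong (be L N q) (WW L N q hqN f) :=
  (normAlong_conj (al L N q) (be L N q) (ww L N q hqN) (WW L N q hqN)
    (fun x => WW_al L N q hqN x) f).symm

/-- `w_q (Nm_β f) = Nm_α (w_{q²} f)` -/
theorem ww_norm_be (f : modularFunctionFieldFullC L (N * q * q)) :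
    ww L N q hqN (normAlong (be L N q) f) = normAlong (al L N q) (WW L N q hqN f) :=
  (normAlong_conj (be L N q) (al L N q) (ww L N q hqN) (WW L N q hqN)
    (fun x => WW_be L N q hqN x) f).symm

end Beta

section Equivariance

variable {L : Type*} [Field L] {N q : ℕ} [hq : Fact q.Prime] [hN : NeZero N]
  {σ : L ≃+* L} {g : SemilinearAut L (modularFunctionFieldFullC L (N * q))}
  {g' : SemilinearAut L (modularFunctionFieldFullC L (N * q * q))}
  (hg : ∀ x : modularFunctionFieldFullC L (N * q),
    ((g • x : modularFunctionFieldFullC L (N * q)) : LaurentSeries L) =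
      coeffMap (σ : L →+* L) (x : LaurentSeries L))
  (hg' : ∀ x : modularFunctionFieldFullC L (N * q * q),
    ((g' • x : modularFunctionFieldFullC L (N * q * q)) : LaurentSeries L) =
      coeffMap (σ : L →+* L) (x : LaurentSeries L))

include hg hg'

theorem intertwines_al : SemilinearAut.IntertwinesAlong (al L N q).toRingHom g g' := by
  intro x
  apply Subtype.ext
  rw [hg']
  show coeffMap (σ : L →+* L) (al L N q x : LaurentSeries L) =
    (al L N q (g • x) : LaurentSeries L)
  rw [coe_al, coe_al, hg]

theorem intertwines_be : SemilinearAut.IntertwinesAlong (be L N q).toRingHom g g' := by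
  intro x
  apply Subtype.ext
  rw [hg']
  show coeffMap (σ : L →+* L) (be L N q x : LaurentSeries L) =
    (be L N q (g • x) : LaurentSeries L)
  rw [coe_be, coe_be, hg, coeffMap_qExpand]

end Equivariance

end Fermat.Agent.Car
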