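import Fermat.Agent.BadRed.KLConc
import Fermat.Agent.KField.Ram

/-!
# Project CAR: constants over the fixed field of inertia

* inertia acts on the `q`-th roots of unity through all of `(ℤ/q)ˣ`;
* `ζ - 1` is a uniformizer of the field generated by `ζ` over the fixed field of inertia;
* functions of level `N` over `κ` lift to rational functions.
-/

set_option autoImplicit false
set_option linter.unusedSectionVars false

noncomputable section

open AlgebraicCurve Module IntermediateField ModularCurve HahnSeries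

namespace Fermat.Agent.Car

open Fermat.Agent.FunField Fermat.Agent.Igusa Fermat.Agent.BadRed

section Zeta

attribute [-instance] DivisionRing.toRatAlgebra

variable {Ω : Type*} [Field Ω] {A : ValuationSubring Ω} {q : ℕ} [hq : Fact q.Prime]

theorem zeta_mem {ζ : Ω} (hζ : IsPrimitiveRoot ζ q) : ζ ∈ A := by
  rw [← A.valuation_le_one_iff]
  have h1 : A.valuation ζ ^ q = 1 := by rw [← map_pow, hζ.pow_eq_one, map_one]
  exact (pow_le_one_iff hq.out.ne_zero).mp h1.le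

theorem zeta_associated {ζ : Ω} (hζ : IsPrimitiveRoot ζ q) :
    Associated (((⟨ζ, zeta_mem hζ⟩ : A) - 1) ^ (q - 1)) (q : A) := by
  have hζA : IsPrimitiveRoot (⟨ζ, zeta_mem hζ⟩ : A) q :=
    IsPrimitiveRoot.of_map_of_injective (f := A.subtype) hζ Subtype.val_injective
  obtain ⟨n, hn⟩ : ∃ n, q = n + 1 := ⟨q - 1, (Nat.succ_pred_prime hq.out).symm⟩
  have h1 : Associated (((⟨ζ, zeta_mem hζ⟩ : A) - 1) ^ (q - 1))
      (∏ k ∈ Finset.range n, ((⟨ζ, zeta_mem hζ⟩ : A) ^ (k + 1) - 1)) := by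
    have h2 : ((⟨ζ, zeta_mem hζ⟩ : A) - 1) ^ (q - 1) =
        ∏ k ∈ Finset.range n, ((⟨ζ, zeta_mem hζ⟩ : A) - 1) := by
      rw [Finset.prod_const, Finset.card_range]
      congr 1
      omega
    rw [h2]
    refine Associated.prod _ _ _ fun k hk => ?_
    refine hζA.associated_sub_one_pow_sub_one_of_coprime ?_
    rw [Finset.mem_range] at hk
    exact (Nat.coprime_of_lt_prime (by omega) (by omega) hq.out).symm
  refine h1.trans ?_
  have h3 := IsPrimitiveRoot.prod_pow_sub_one_eq_order (R := A) (n := n)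
    (μ := ⟨ζ, zeta_mem hζ⟩) (hn ▸ hζA)
  have h4 : (q : A) = (n : A) + 1 := by rw [hn]; push_cast; rfl
  rw [h4, ← h3]
  exact (associated_unit_mul_left _ _ ((IsUnit.neg isUnit_one).pow n)).symm

theorem val_zeta {ζ : Ω} (hζ : IsPrimitiveRoot ζ q) :
    A.valuation (ζ - 1) ^ (q - 1) = A.valuation (q : Ω) := by
  obtain ⟨u, hu⟩ := zeta_associated (A := A) hζ
  have h1 : (ζ - 1) ^ (q - 1) * ((u : A) : Ω) = (q : Ω) := by
    have := congrArg (fun x : A => (x : Ω)) hu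
    simpa using this
  rw [← h1, map_mul, map_pow, A.valuation_unit, mul_one]

theorem zeta_sub_one_ne {ζ : Ω} (hζ : IsPrimitiveRoot ζ q) : ζ - 1 ≠ 0 :=
  sub_ne_zero.mpr (hζ.ne_one hq.out.one_lt)

variable [Algebra ℚ Ω] [IsGalois ℚ Ω] (hA : A.LiesOverPrime q)

include hA in
theorem val_q_lt : A.valuation (q : Ω) < 1 := by
  have h : (q : Ω) ∈ A.nonunits := hA
  rwa [ValuationSubring.mem_nonunits_iff] at h

include hA in
theorem val_zeta_lt {ζ : Ω} (hζ : IsPrimitiveRoot ζ q) : A.valuation (ζ - 1) < 1 := by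
  by_contra hcon
  push Not at hcon
  have h1 := val_q_lt hA
  rw [← val_zeta (A := A) hζ] at h1
  exact absurd (one_le_pow₀ hcon) (not_le.mpr h1)

/-- the mod `q` cyclotomic character -/
def chiZ {ζ : Ω} (hζ : IsPrimitiveRoot ζ q) : (Ω ≃ₐ[ℚ] Ω) →* (ZMod q)ˣ := hζ.autToPow ℚ

theorem chiZ_spec {ζ : Ω} (hζ : IsPrimitiveRoot ζ q) (σ : Ω ≃ₐ[ℚ] Ω) :
    ζ ^ (chiZ hζ σ : ZMod q).val = σ ζ := hζ.autToPow_spec ℚ σ

theorem apply_zeta_of_ker {ζ : Ω} (hζ : IsPrimitiveRoot ζ q) {σ : Ω ≃ₐ[ℚ] Ω}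
    (h : chiZ hζ σ = 1) : σ ζ = ζ := by
  have h1 := chiZ_spec hζ σ
  have : Fact (1 < q) := ⟨hq.out.one_lt⟩
  rw [h, Units.val_one, ZMod.val_one, pow_one] at h1
  exact h1.symm

include hA in
/-- valuations of the elements fixed by the stabiliser of `ζ` in inertia -/
theorem exists_val_pow {ζ : Ω} (hζ : IsPrimitiveRoot ζ q) {c : Ω} (hc0 : c ≠ 0)
    (hc : ∀ σ ∈ A.inertiaSubgroupIn ℚ, σ ζ = ζ → σ c = c) :
    ∃ n : ℤ, A.valuation c ^ (Nat.card ((A.inertiaSubgroupIn ℚ).map (chiZ hζ))) =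
      A.valuation (q : Ω) ^ n := by
  have hrel : ((chiZ hζ).ker ⊓ A.inertiaSubgroupIn ℚ).relIndex (A.inertiaSubgroupIn ℚ) =
      Nat.card ((A.inertiaSubgroupIn ℚ).map (chiZ hζ)) := by
    rw [Subgroup.inf_relIndex_right, Subgroup.relIndex_ker]
  have hpos : Nat.card ((A.inertiaSubgroupIn ℚ).map (chiZ hζ)) ≠ 0 := Nat.card_pos.ne'
  obtain ⟨n, hn⟩ := KField.val_pow_index hq.out hA
    ((chiZ hζ).ker ⊓ A.inertiaSubgroupIn ℚ) (by rw [hrel]; exact hpos) hc0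
    (fun s hs => hc s hs.2 (apply_zeta_of_ker hζ hs.1))
  rw [hrel] at hn
  exact ⟨n, hn⟩

theorem card_map_dvd {ζ : Ω} (hζ : IsPrimitiveRoot ζ q) (I : Subgroup (Ω ≃ₐ[ℚ] Ω)) :
    Nat.card (I.map (chiZ hζ)) ∣ q - 1 := by
  have h1 := Subgroup.card_subgroup_dvd_card (I.map (chiZ hζ))
  rwa [Nat.card_eq_fintype_card (α := (ZMod q)ˣ), ZMod.card_units q] at h1

include hA in
/-- `ζ - 1` generates the value group -/
theorem exists_val_zeta {ζ : Ω} (hζ : IsPrimitiveRoot ζ q) {c : Ω} (hc0 : c ≠ 0)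
    (hc : ∀ σ ∈ A.inertiaSubgroupIn ℚ, σ ζ = ζ → σ c = c) :
    ∃ n : ℤ, A.valuation c = A.valuation (ζ - 1) ^ n := by
  obtain ⟨n, hn⟩ := exists_val_pow hA hζ hc0 hc
  obtain ⟨d, hd⟩ := card_map_dvd hζ (A.inertiaSubgroupIn ℚ)
  have hq1 : q - 1 ≠ 0 := by have := hq.out.two_le; omega
  refine ⟨n * d, ?_⟩
  have h1 : A.valuation c ^ (q - 1) = (A.valuation (ζ - 1) ^ (n * d)) ^ (q - 1) := by
    have h2 : (A.valuation (ζ - 1) ^ (n * d)) ^ (q - 1) = A.valuation (q : Ω) ^ (n * d) := by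
      rw [← val_zeta (A := A) hζ, ← zpow_natCast, ← zpow_mul, ← zpow_natCast, ← zpow_mul]
      congr 1
      ring
    rw [h2, zpow_mul, ← hn, zpow_natCast, ← pow_mul, ← hd]
  exact (pow_left_inj₀ zero_le zero_le hq1).mp h1

include hA in
theorem map_chiZ {ζ : Ω} (hζ : IsPrimitiveRoot ζ q) :
    (A.inertiaSubgroupIn ℚ).map (chiZ hζ) = ⊤ := by
  have hq1 : 1 ≤ q - 1 := by have := hq.out.two_le; omega
  obtain ⟨n, hn⟩ := exists_val_pow hA hζ (zeta_sub_one_ne hζ)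
    (fun σ _ h => by rw [map_sub, map_one, h])
  set m := Nat.card ((A.inertiaSubgroupIn ℚ).map (chiZ hζ)) with hm
  have hpos : 0 < m := Nat.card_pos
  have hle : m ≤ q - 1 := Nat.le_of_dvd (by omega) (card_map_dvd hζ _)
  have hv0 : A.valuation (ζ - 1) ≠ 0 := (Valuation.ne_zero_iff _).mpr (zeta_sub_one_ne hζ)
  have h1 : A.valuation (ζ - 1) ^ (m : ℤ) = A.valuation (ζ - 1) ^ (((q - 1 : ℕ) : ℤ) * n) := by
    rw [zpow_natCast, hn, ← val_zeta (A := A) hζ, zpow_mul, zpow_natCast]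
  have h2 : (m : ℤ) = ((q - 1 : ℕ) : ℤ) * n :=
    zpow_right_injective₀ (zero_lt_iff.mpr hv0) (val_zeta_lt hA hζ).ne h1
  have h3 : 1 ≤ n := by
    by_contra hcon
    push Not at hcon
    have : ((q - 1 : ℕ) : ℤ) * n ≤ 0 :=
      mul_nonpos_of_nonneg_of_nonpos (by positivity) (by omega)
    omega
  have h4 : ((q - 1 : ℕ) : ℤ) ≤ ((q - 1 : ℕ) : ℤ) * n := le_mul_of_one_le_right (by positivity) h3
  have h5 : m = q - 1 := by omega
  apply Subgroup.eq_top_of_card_eq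
  rw [← hm, h5, Nat.card_eq_fintype_card, ZMod.card_units q]

include hA in
theorem exists_inertia_zeta {ζ : Ω} (hζ : IsPrimitiveRoot ζ q) {b : ℕ} (hb : b.Coprime q) :
    ∃ σ ∈ A.inertiaSubgroupIn ℚ, σ ζ = ζ ^ b := by
  have h1 : ZMod.unitOfCoprime b hb ∈ (A.inertiaSubgroupIn ℚ).map (chiZ hζ) := by
    rw [map_chiZ hA hζ]
    exact Subgroup.mem_top _
  obtain ⟨σ, hσ, h2⟩ := h1
  refine ⟨σ, hσ, ?_⟩
  rw [← chiZ_spec hζ σ, h2, ZMod.coe_unitOfCoprime, ZMod.val_natCast]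
  exact (pow_eq_pow_mod b hζ.pow_eq_one).symm

include hA in
theorem exists_inertΓ_zeta {ζ : Ω} (hζ : IsPrimitiveRoot ζ q) {b : ℕ} (hb : b.Coprime q) :
    ∃ σ ∈ inertΓ A, σ ζ = ζ ^ b := by
  obtain ⟨σ, hσ, h⟩ := exists_inertia_zeta hA hζ hb
  exact ⟨_, ⟨σ, hσ, rfl⟩, h⟩

variable {κ : Type*} [Field κ] (π : A →+* κ) [IsLocalHom π]

include hA in
theorem exists_unif_zeta' {ζ : Ω} (hζ : IsPrimitiveRoot ζ q) (c : Ω)
    (hc : ∀ σ ∈ inertΓ A, σ ζ = ζ → σ c = c) (hc0 : c ≠ 0) :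
    ∃ (n : ℤ) (u : A), π u ≠ 0 ∧ c = (ζ - 1) ^ n * u := by
  obtain ⟨n, hn⟩ := exists_val_zeta hA hζ hc0 (fun σ hσ h => hc _ ⟨σ, hσ, rfl⟩ h)
  have hz0 := zeta_sub_one_ne hζ
  have hv : A.valuation ((ζ - 1) ^ (-n) * c) = 1 := by
    rw [map_mul, map_zpow₀, hn, ← zpow_add₀ ((Valuation.ne_zero_iff _).mpr hz0)]
    simp
  have hmem : (ζ - 1) ^ (-n) * c ∈ A := (A.valuation_le_one_iff _).mp hv.le
  refine ⟨n, ⟨_, hmem⟩, ?_, ?_⟩
  · intro h0
    have := (pi_eq_zero_iff A π _).mp h0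
    exact absurd this (by
      show ¬ A.valuation ((ζ - 1) ^ (-n) * c) < 1
      rw [hv]; exact lt_irrefl _)
  · show c = (ζ - 1) ^ n * ((ζ - 1) ^ (-n) * c)
    rw [← mul_assoc, ← zpow_add₀ hz0]
    simp

end Zeta

section RatLift

variable {L : Type*} [Field L] {A : ValuationSubring L} {κ : Type*} [Field κ] {π : A →+* κ}
  {Γ₀ : Set (L ≃+* L)}

/-- lifting of functions of level `N` over the residue field to rational functions -/
theorem exists_rat_lift' (C : ConstForm π Γ₀) (N : ℕ) (b : modularFunctionFieldFullC κ N) :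
    ∃ g : modularFunctionFieldFullC L N, (∀ n, (g : LaurentSeries L).coeff n ∈ fix₀ Γ₀) ∧
      ∃ h : (g : LaurentSeries L) ∈ gaussRing A π, gaussRes A π ⟨_, h⟩ = (b : LaurentSeries κ) := by
  have hs : Function.Surjective (π.comp (iA A Γ₀)) := by
    intro x
    obtain ⟨a, ha, hx⟩ := C.lift x
    exact ⟨⟨⟨a, ha⟩, a.2⟩, hx⟩
  obtain ⟨y, hy⟩ := full_le_gaussImage (L := fix₀ Γ₀) (A₀ A Γ₀) (π.comp (iA A Γ₀)) hs N b.2
  obtain ⟨h', e'⟩ := gauss_base (y := ((y : modularFunctionFieldFullC (fix₀ Γ₀) N) :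
    LaurentSeries (fix₀ Γ₀))) y.2
  refine ⟨⟨_, ModDeg.coeffMap_mem_full (fix₀ Γ₀).subtype
    (y : modularFunctionFieldFullC (fix₀ Γ₀) N).2⟩, ?_, h', ?_⟩
  · intro n
    exact (((y : modularFunctionFieldFullC (fix₀ Γ₀) N) : LaurentSeries (fix₀ Γ₀)).coeff n).2
  · rw [← hy]
    exact e'

end RatLift

section OverQb

local notation "Qb" => AlgebraicClosure ℚ

variable {A : ValuationSubring Qb}
  {κ : Type*} [Field κ] [IsAlgClosed κ] (π : A →+* κ) [IsLocalHom π]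
  (hπ : Function.Surjective π) {q : ℕ} [hq : Fact q.Prime] [CharP κ q]
  (hA : A.LiesOverPrime q)

include hA in
/-- **inertia acts on the `q`-th roots of unity through all of `(ℤ/q)ˣ`** -/
theorem exists_inert_zeta {ζ : Qb} (hζ : IsPrimitiveRoot ζ q) {b : ℕ} (hb : b.Coprime q) :
    ∃ σ ∈ inertΓ A, σ ζ = ζ ^ b :=
  haveI : IsGalois ℚ Qb := {}
  exists_inertΓ_zeta hA hζ hb

include hA in
/-- **`ζ - 1` is a uniformizer** of the field generated by `ζ` over the fixed field of inertia -/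
theorem exists_unif_zeta {ζ : Qb} (hζ : IsPrimitiveRoot ζ q) (c : Qb)
    (hc : ∀ σ ∈ inertΓ A, σ ζ = ζ → σ c = c) (hc0 : c ≠ 0) :
    ∃ (n : ℤ) (u : A), π u ≠ 0 ∧ c = (ζ - 1) ^ n * u :=
  haveI : IsGalois ℚ Qb := {}
  exists_unif_zeta' hA π hζ c hc hc0

theorem zeta_sub_one_mem {ζ : Qb} (hζ : IsPrimitiveRoot ζ q) : ζ - 1 ∈ A :=
  sub_mem (zeta_mem hζ) (one_mem A)

include hA in
theorem pi_zeta_sub_one {ζ : Qb} (hζ : IsPrimitiveRoot ζ q) :
    π ⟨ζ - 1, zeta_sub_one_mem hζ⟩ = 0 :=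
  haveI : IsGalois ℚ Qb := {}
  (pi_eq_zero_iff A π _).mpr (val_zeta_lt hA hζ)

/-- `(ζ - 1) ^ (q - 1) = q * unit` -/
theorem zeta_sub_one_pow {ζ : Qb} (hζ : IsPrimitiveRoot ζ q) :
    ∃ u : A, π u ≠ 0 ∧ (ζ - 1) ^ (q - 1) = (q : Qb) * u := by
  obtain ⟨u, hu⟩ := zeta_associated (A := A) hζ
  refine ⟨((u⁻¹ : Aˣ) : A), (IsUnit.map π u⁻¹.isUnit).ne_zero, ?_⟩
  have h1 : (ζ - 1) ^ (q - 1) * ((u : A) : Qb) = (q : Qb) := by
    have := congrArg (fun x : A => (x : Qb)) hu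
    simpa using this
  have h2 : ((u : A) : Qb) * (((u⁻¹ : Aˣ) : A) : Qb) = 1 := by
    exact congrArg (fun x : A => (x : Qb)) (u.mul_inv)
  rw [← h1, mul_assoc, h2, mul_one]

include hπ hA in
/-- **rational lifts** -/
theorem exists_rat_lift (N : ℕ) (b : modularFunctionFieldFullC κ N) :
    ∃ g : modularFunctionFieldFullC Qb N,
      (∀ n, (g : LaurentSeries Qb).coeff n ∈ fix₀ (inertΓ A)) ∧
      ∃ h : (g : LaurentSeries Qb) ∈ gaussRing A π,
        gaussRes A π ⟨_, h⟩ = (b : LaurentSeries κ) :=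
  haveI : IsGalois ℚ Qb := {}
  exists_rat_lift' (constForm A π hπ hq.out hA) N b

end OverQb

end Fermat.Agent.Car
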