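import Fermat.Agent.Car.PushW
import Fermat.Agent.Car.PsiT
import Fermat.Agent.Car.ValAux
import Fermat.Agent.BadRed.LocalPkgQb

/-!
# Project CAR: residues of norms
-/

set_option autoImplicit false
set_option linter.unusedSectionVars false

noncomputable section

open AlgebraicCurve Module HahnSeries ModularCurve IntermediateField

namespace Fermat.Agent.Car

open Fermat.Agent.FunField Fermat.Agent.FunField.PlaceLemmas Fermat.Agent.Deuring
  Fermat.Agent.BadRed Fermat.Agent.Degen Fermat.Agent.HeckeRed Fermat.Agent.AtkinLehner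
  Fermat.Agent.ModPoly Fermat.Agent.Igusa

section Gen

variable {L : Type*} [Field L] {A : ValuationSubring L} {κ : Type*} [Field κ] {π : A →+* κ}
  {x y : LaurentSeries L} {a b : LaurentSeries κ} {q : ℕ}

theorem GR.twist_q [Fact q.Prime] [CharP κ q] {v : Lˣ} (hv : v ^ q = 1) (h : GR A π x a) :
    GR A π (twist v x) a := by
  obtain ⟨h1, rfl⟩ := h
  exact gauss_twist_of_pow hv h1

theorem GR.prodF {ι : Type*} [Fintype ι] {x : ι → LaurentSeries L} {a : LaurentSeries κ}
    (h : ∀ i, GR A π (x i) a) : GR A π (∏ i, x i) (a ^ Fintype.card ι) := by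
  classical
  have h1 : ∀ s : Finset ι, GR A π (∏ i ∈ s, x i) (a ^ s.card) := by
    intro s
    induction s using Finset.induction_on with
    | empty => simpa using GR.one
    | insert i s hi ih =>
      rw [Finset.prod_insert hi, Finset.card_insert_of_notMem hi, pow_succ, mul_comm (a ^ s.card)]
      exact (h i).mul ih
  exact h1 Finset.univ

theorem GR.qExp [NeZero q] (h : GR A π x a) : GR A π (qExpand L q x) (qExpand κ q a) := by
  obtain ⟨h1, rfl⟩ := h
  exact qExpand_mem_gauss q h1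

/-- an element of `F_M` whose transform `z(X^q)` is in the Gauss ring is in the Gauss ring -/
theorem gr_of_qExpand [IsLocalHom π] [NeZero q] {M : ℕ} (z : modularFunctionFieldFullC L M)
    (h : GR A π (qExpand L q (z : LaurentSeries L)) b) :
    ∃ a, GR A π (z : LaurentSeries L) a ∧ qExpand κ q a = b := by
  rcases eq_or_ne z 0 with rfl | hz
  · refine ⟨0, GR.zero, ?_⟩
    have h1 : (qExpand L q (((0 : modularFunctionFieldFullC L M)) : LaurentSeries L)) = 0 :=
      map_zero (qExpand L q)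
    rw [h1] at h
    rw [map_zero]
    exact GR.zero.unique h
  obtain ⟨c, hc, hg, hr⟩ := exists_scale_gauss A π (isTameHom_val (isTameField_full (L := L) M)) hz
  have e1 : (modularFunctionFieldFullC L M).val (c • z) =
      algebraMap L (LaurentSeries L) c * (z : LaurentSeries L) := psi_smul _ c z
  have h2 : GR A π (algebraMap L (LaurentSeries L) c * (z : LaurentSeries L))
      (gaussRes A π ⟨_, hg⟩) := GR.congr ⟨hg, rfl⟩ e1 rfl
  by_cases hcA : c⁻¹ ∈ A
  · have h3 : GR A π (z : LaurentSeries L)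
        (algebraMap κ (LaurentSeries κ) (π ⟨c⁻¹, hcA⟩) * gaussRes A π ⟨_, hg⟩) := by
      refine ((GR.cst (A := A) (π := π) ⟨c⁻¹, hcA⟩).mul h2).congr ?_ rfl
      rw [← mul_assoc, ← map_mul, inv_mul_cancel₀ hc, map_one, one_mul]
    exact ⟨_, h3, (h3.qExp (q := q)).unique h⟩
  · exfalso
    have hcA' : c ∈ A := (A.mem_or_inv_mem c).resolve_right hcA
    have hc1 : π ⟨c, hcA'⟩ = 0 := by
      rw [pi_ker]
      intro hu
      apply hcA
      obtain ⟨b', hb'⟩ := hu.exists_right_inv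
      have h4 : c * (b' : L) = 1 := congrArg Subtype.val hb'
      rw [← eq_inv_of_mul_eq_one_right h4]
      exact b'.2
    have h3 := (GR.cst (A := A) (π := π) ⟨c, hcA'⟩).mul h
    have h4 := h2.qExp (q := q)
    have h5 : qExpand L q (algebraMap L (LaurentSeries L) c * (z : LaurentSeries L)) =
        algebraMap L (LaurentSeries L) c * qExpand L q (z : LaurentSeries L) := by
      rw [map_mul]
      congr 1
      exact (qExpandAlgHomC L q).commutes c
    have h6 := (h4.congr h5 rfl).unique h3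
    rw [hc1, map_zero, zero_mul] at h6
    exact hr (qExpand_injective q (h6.trans (map_zero _).symm))

end Gen

section Norm

variable {L : Type*} [Field L] [IsAlgClosed L] [CharZero L] {A : ValuationSubring L}
  {κ : Type*} [Field κ] {π : A →+* κ} [IsLocalHom π]
  {N q : ℕ} [hq : Fact q.Prime] [hN : NeZero N] [CharP κ q] (hqN : ¬ q ∣ N)

theorem exists_prim (L : Type*) [Field L] [IsAlgClosed L] [CharZero L] (q : ℕ)
    [hq : Fact q.Prime] : ∃ v : Lˣ, IsPrimitiveRoot v q :=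
  ModDeg.exists_primitiveRoot_unit hq.out (cast_ne_zero_Lr L q)

/-- **residue of the norm along `f ↦ f(X^q)`** -/
theorem gr_norm_be {c : L} {f : modularFunctionFieldFullC L (N * q * q)}
    {a a' : LaurentSeries κ}
    (h : GR A π (algebraMap L (LaurentSeries L) c * (f : LaurentSeries L)) a)
    (ha' : qExpand κ q a' = a ^ q) :
    GR A π (algebraMap L (LaurentSeries L) (c ^ q) *
      ((normAlong (be L N q) f : modularFunctionFieldFullC L (N * q)) : LaurentSeries L)) a' := by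
  obtain ⟨v, hv⟩ := exists_prim L q
  have h1 : ∀ b : Fin q, GR A π (twist (v ^ (b : ℕ))
      (algebraMap L (LaurentSeries L) c * (f : LaurentSeries L))) a := fun b =>
    h.twist_q (by rw [← pow_mul, mul_comm, pow_mul, hv.pow_eq_one, one_pow])
  have h2 := GR.prodF h1
  rw [Fintype.card_fin] at h2
  have h3 : ∏ b : Fin q, twist (v ^ (b : ℕ))
      (algebraMap L (LaurentSeries L) c * (f : LaurentSeries L)) =
      qExpand L q ((c ^ q • normAlong (be L N q) f : modularFunctionFieldFullC L (N * q)) :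
        LaurentSeries L) := by
    rw [coe_smul_full, map_mul (qExpand L q), norm_be' hv, qExpand_alg,
      Finset.prod_congr rfl fun b _ => map_mul _ _ _, Finset.prod_mul_distrib]
    simp only [twist_algebraMap, Finset.prod_const, Finset.card_univ, Fintype.card_fin, map_pow]
  obtain ⟨b, hb, hb'⟩ := gr_of_qExpand (c ^ q • normAlong (be L N q) f) (h2.congr h3 rfl)
  rw [← ha'] at hb'
  exact hb.congr (coe_smul_full _ _) (qExpand_injective q hb')

/-- the norm along the inclusion -/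
theorem norm_al' {v : Lˣ} (hv : IsPrimitiveRoot v q)
    (f : modularFunctionFieldFullC L (N * q * q)) :
    ((normAlong (al L N q) f : modularFunctionFieldFullC L (N * q)) : LaurentSeries L) =
      (f : LaurentSeries L) * ∏ b, psiC hqN hv b f := by
  have h1 : al L N q = inclSq L N q := by
    apply AlgHom.ext
    intro x
    apply Subtype.ext
    rw [coe_al, coe_inclSq]
  rw [h1]
  exact nrm_eq_midC hqN hv f

/-- **residue of the norm along the inclusion** -/
theorem gr_norm_al {c : L} {f : modularFunctionFieldFullC L (N * q * q)}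
    {a₀ a₁ : LaurentSeries κ}
    (h : GR A π (algebraMap L (LaurentSeries L) c * (f : LaurentSeries L)) a₀)
    (h1 : ∀ (u : Lˣ) (hu : IsPrimitiveRoot u q), GR A π (psi2 L N hqN u hu f) a₁) :
    GR A π (algebraMap L (LaurentSeries L) c *
      ((normAlong (al L N q) f : modularFunctionFieldFullC L (N * q)) : LaurentSeries L)) (a₀ * a₁ ^ (q - 1)) := by
  obtain ⟨v, hv⟩ := exists_prim L q
  have h2 : ∀ b : Fin (q - 1), GR A π (psiC hqN hv b f) a₁ := by
    intro b
    have hu : IsPrimitiveRoot (v ^ (b + 1 : ℕ)) q := by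
      refine hv.pow_of_coprime _ (Nat.Coprime.symm ((Nat.Prime.coprime_iff_not_dvd hq.out).mpr ?_))
      intro hd
      have h4 := Nat.le_of_dvd (Nat.succ_pos _) hd
      have h5 := b.2
      omega
    exact h1 _ hu
  have h3 := GR.prodF h2
  rw [Fintype.card_fin] at h3
  refine (h.mul h3).congr ?_ rfl
  rw [norm_al' hqN hv, mul_assoc]

end Norm

section Fix

variable {L : Type*} [Field L] [IsAlgClosed L] [CharZero L] {N q : ℕ} [hq : Fact q.Prime]
  [hN : NeZero N] {Γ₀ : Set (L ≃+* L)}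

theorem norm_al_mem_fixF {f : modularFunctionFieldFullC L (N * q * q)}
    (hf : f ∈ fixF (coefΓ L (N * q * q) Γ₀)) :
    normAlong (al L N q) f ∈ fixF (coefΓ L (N * q) Γ₀) := by
  rintro g ⟨σ, hσ, hg⟩
  obtain ⟨g', hg'⟩ := exists_coefAut L (N * q * q) σ
  rw [← normAlong_semi (al L N q) (intertwines_al hg hg'), hf g' ⟨σ, hσ, hg'⟩]

theorem norm_be_mem_fixF {f : modularFunctionFieldFullC L (N * q * q)}
    (hf : f ∈ fixF (coefΓ L (N * q * q) Γ₀)) :
    normAlong (be L N q) f ∈ fixF (coefΓ L (N * q) Γ₀) := by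
  rintro g ⟨σ, hσ, hg⟩
  obtain ⟨g', hg'⟩ := exists_coefAut L (N * q * q) σ
  rw [← normAlong_semi (be L N q) (intertwines_be hg hg'), hf g' ⟨σ, hσ, hg'⟩]

variable [IsFF L (modularFunctionFieldFullC L (N * q))]
  [IsFF L (modularFunctionFieldFullC L (N * q * q))]

theorem push_al_mem_fixD {D : Divisor L (modularFunctionFieldFullC L (N * q * q))}
    (hD : D ∈ fixD (coefΓ L (N * q * q) Γ₀)) :
    push (al L N q) D ∈ fixD (coefΓ L (N * q) Γ₀) := by
  rintro g ⟨σ, hσ, hg⟩
  obtain ⟨g', hg'⟩ := exists_coefAut L (N * q * q) σ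
  rw [← push_smul (al L N q) (intertwines_al hg hg'), hD g' ⟨σ, hσ, hg'⟩]

theorem push_be_mem_fixD {D : Divisor L (modularFunctionFieldFullC L (N * q * q))}
    (hD : D ∈ fixD (coefΓ L (N * q * q) Γ₀)) :
    push (be L N q) D ∈ fixD (coefΓ L (N * q) Γ₀) := by
  rintro g ⟨σ, hσ, hg⟩
  obtain ⟨g', hg'⟩ := exists_coefAut L (N * q * q) σ
  rw [← push_smul (be L N q) (intertwines_be hg hg'), hD g' ⟨σ, hσ, hg'⟩]

end Fix

section OverQb

local notation "Qb" => AlgebraicClosure ℚ

variable {A : ValuationSubring Qb}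
  {κ : Type*} [Field κ] [IsAlgClosed κ] {π : A →+* κ} [IsLocalHom π]
  {N q : ℕ} [hq : Fact q.Prime] [hN : NeZero N] [CharP κ q] (hqN : ¬ q ∣ N)

/-- inertia acts trivially on residues of constants -/
theorem inert_resP {σ : Qb ≃+* Qb} (hσ : σ ∈ inertΓ A) :
    ∃ h : ∀ a : Qb, a ∈ A ↔ σ a ∈ A, ∀ a : A, π ⟨σ a, (h a).mp a.2⟩ = π a := by
  obtain ⟨s, hs, rfl⟩ := hσ
  refine ⟨fun a => mem_iff_decomp (decomp_of_inertia hs) a, fun a => ?_⟩
  have h1 := residue_inertia hs a
  rw [← sub_eq_zero, ← map_sub, IsLocalRing.residue_eq_zero_iff] at h1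
  rw [← sub_eq_zero, ← map_sub, pi_ker]
  exact (IsLocalRing.mem_maximalIdeal _).mp h1

/-- inertia acts trivially on Gauss residues -/
theorem GR.inertP {x : LaurentSeries Qb} {a : LaurentSeries κ} (h : GR A π x a) {σ : Qb ≃+* Qb}
    (hσ : σ ∈ inertΓ A) : GR A π (coeffMap (σ : Qb →+* Qb) x) a := by
  obtain ⟨h1, h2⟩ := inert_resP (π := π) hσ
  obtain ⟨h3, rfl⟩ := h
  obtain ⟨h4, h5⟩ := gauss_sigma (A := A) (π := π) (σ := (σ : Qb →+* Qb)) (s := RingHom.id κ)
    (fun a ha => (h1 a).mp ha) (fun a => h2 a) h3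
  refine ⟨h4, h5.trans ?_⟩
  ext n
  rfl

/-- the residues at the conjugates of `ψ₂` agree -/
theorem gr_psi2_conj (hA : A.LiesOverPrime q) {f : modularFunctionFieldFullC Qb (N * q * q)}
    (hf : f ∈ fixF (IΓ A (N * q * q))) {v : Qbˣ} (hv : IsPrimitiveRoot v q)
    {a : LaurentSeries κ} (h : GR A π (psi2 Qb N hqN v hv f) a) (u : Qbˣ)
    (hu : IsPrimitiveRoot u q) : GR A π (psi2 Qb N hqN u hu f) a := by
  have hv' : IsPrimitiveRoot (v : Qb) q := (IsPrimitiveRoot.coe_units_iff).mpr hv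
  have hu' : IsPrimitiveRoot (u : Qb) q := (IsPrimitiveRoot.coe_units_iff).mpr hu
  obtain ⟨b, -, hb, hbu⟩ := (hv'.isPrimitiveRoot_iff).mp hu'
  obtain ⟨σ, hσ, hσv⟩ := exists_inert_zeta hA hv' hb
  have h1 : σ (v : Qb) = u := by
    rw [hσv, ← hbu]
  have h2 := psi_coeffEquiv (cast_ne_zero_L Qb N) (cast_ne_zero_Lr Qb q) hqN hv.pow_eq_one
    (hv.ne_one hq.out.one_lt) hu.pow_eq_one (hu.ne_one hq.out.one_lt) σ h1 f
  have h3 : coeffEquiv σ (N * q * q) f = f := by
    obtain ⟨g, hg⟩ := exists_coefAut Qb (N * q * q) σ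
    apply Subtype.ext
    rw [coe_coeffEquiv, ← hg, hf g ⟨σ, hσ, hg⟩]
  rw [h3] at h2
  exact (h.inertP hσ).congr h2.symm rfl

/-- the residues at the conjugates of `ψ₂` of `W f` -/
theorem gr_psi2_WW {f : modularFunctionFieldFullC Qb (N * q * q)} {a : LaurentSeries κ}
    (h : ∀ (u : Qbˣ) (hu : IsPrimitiveRoot u q), GR A π (psi2 Qb N hqN u hu f) a) (u : Qbˣ)
    (hu : IsPrimitiveRoot u q) : GR A π (psi2 Qb N hqN u hu (WW Qb N q hqN f)) a := by
  rw [psi2_WW]
  exact (h u⁻¹ hu.inv).twist_q hu.pow_eq_one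

variable (hπ : Function.Surjective π) (harch : ArchA π) (hA : A.LiesOverPrime q)
  {f : modularFunctionFieldFullC Qb (N * q * q)} (hf : f ∈ fixF (IΓ A (N * q * q)))
  {n₀ n₂ : ℤ} {a₀ a₁ a₂ : modularFunctionFieldFullC κ N}

include hf in
/-- `(W 0)(Nm_α f)` -/
theorem W0_norm_al
    (h0 : GR A π (algebraMap Qb (LaurentSeries Qb) ((q : Qb) ^ (-n₀)) * (f : LaurentSeries Qb))
      (a₀ : LaurentSeries κ))
    (h1 : ∀ (u : Qbˣ) (hu : IsPrimitiveRoot u q), GR A π (psi2 Qb N hqN u hu f)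
      (a₁ : LaurentSeries κ)) :
    (W0 π hπ harch N q hqN hA).LR n₀ (normAlong (al Qb N q) f) (a₀ * a₁ ^ (q - 1)) := by
  rw [W0_LR]
  exact ⟨norm_al_mem_fixF hf, (gr_norm_al hqN h0 h1).congr rfl rfl⟩

include hf in
/-- `(W 1)(Nm_α f)` -/
theorem W1_norm_al
    (h2 : GR A π (algebraMap Qb (LaurentSeries Qb) ((q : Qb) ^ (-n₂)) *
      (WW Qb N q hqN f : LaurentSeries Qb)) (a₂ : LaurentSeries κ))
    {a₂' : modularFunctionFieldFullC κ N}
    (ha₂ : qExpand κ q (a₂' : LaurentSeries κ) = (a₂ : LaurentSeries κ) ^ q) :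
    (W1 π hπ harch N q hqN hA).LR (q * n₂) (normAlong (al Qb N q) f) a₂' := by
  rw [W1_LR]
  refine ⟨norm_al_mem_fixF hf, ?_⟩
  rw [ww_norm_al]
  refine (gr_norm_be h2 ha₂).congr ?_ rfl
  congr 2
  rw [← zpow_natCast, ← zpow_mul]
  congr 1
  ring

include hf in
/-- `(W 0)(Nm_β f)` -/
theorem W0_norm_be
    (h0 : GR A π (algebraMap Qb (LaurentSeries Qb) ((q : Qb) ^ (-n₀)) * (f : LaurentSeries Qb))
      (a₀ : LaurentSeries κ))
    {a₀' : modularFunctionFieldFullC κ N}
    (ha₀ : qExpand κ q (a₀' : LaurentSeries κ) = (a₀ : LaurentSeries κ) ^ q) :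
    (W0 π hπ harch N q hqN hA).LR (q * n₀) (normAlong (be Qb N q) f) a₀' := by
  rw [W0_LR]
  refine ⟨norm_be_mem_fixF hf, ?_⟩
  refine (gr_norm_be h0 ha₀).congr ?_ rfl
  congr 2
  rw [← zpow_natCast, ← zpow_mul]
  congr 1
  ring

include hf in
/-- `(W 1)(Nm_β f)` -/
theorem W1_norm_be
    (h2 : GR A π (algebraMap Qb (LaurentSeries Qb) ((q : Qb) ^ (-n₂)) *
      (WW Qb N q hqN f : LaurentSeries Qb)) (a₂ : LaurentSeries κ))
    (h1 : ∀ (u : Qbˣ) (hu : IsPrimitiveRoot u q), GR A π (psi2 Qb N hqN u hu f)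
      (a₁ : LaurentSeries κ)) :
    (W1 π hπ harch N q hqN hA).LR n₂ (normAlong (be Qb N q) f) (a₂ * a₁ ^ (q - 1)) := by
  rw [W1_LR]
  refine ⟨norm_be_mem_fixF hf, ?_⟩
  rw [ww_norm_be]
  exact (gr_norm_al hqN h2 (gr_psi2_WW hqN h1)).congr rfl rfl

end OverQb

end Fermat.Agent.Car
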