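import Fermat.Agent.Car.Defs

/-!
# Project CAR: valuations of norms from residues of norms
-/

set_option autoImplicit false
set_option linter.unusedSectionVars false

noncomputable section

open AlgebraicCurve Module

namespace Fermat.Agent.Car

open Fermat.Agent.FunField Fermat.Agent.FunField.PlaceLemmas Fermat.Agent.Deuring
  Fermat.Agent.BadRed

variable {L k F F₁ : Type*} [Field L] [Field k] [Field F] [Field F₁] [Algebra L F] [Algebra k F₁]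

/-- the leading term of `f ^ m * ϖ ^ s` -/
theorem RV.LR.pow_ϖ (S : Sys L k F F₁) {i : Fin 3} {n : ℤ} {f : F} {a : F₁} (h : (S.V i).LR n f a)
    (m : ℕ) (s : ℤ) : (S.V i).LR (m * n + s * S.e i) (f ^ m * algebraMap L F S.ϖ ^ s)
      (a ^ m * S.η i ^ s) :=
  (h.pow m).mul ((S.LR_ϖ i).zpow (S.η_ne i) s)

theorem monoidHom_zpow {G H : Type*} [Field G] [Field H] (Nm : G →* H) {x : G} (hx : x ≠ 0)
    (s : ℤ) : Nm (x ^ s) = Nm x ^ s := by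
  have h1 : ∀ y : G, y ≠ 0 → Nm y⁻¹ = (Nm y)⁻¹ := by
    intro y hy
    apply eq_inv_of_mul_eq_one_left
    rw [← map_mul, inv_mul_cancel₀ hy, map_one]
  obtain ⟨d, rfl | rfl⟩ := s.eq_nat_or_neg
  · rw [zpow_natCast, zpow_natCast, map_pow]
  · rw [zpow_neg, zpow_neg, zpow_natCast, zpow_natCast, h1 _ (pow_ne_zero _ hx), map_pow]

/-- **valuations of norms** -/
theorem val_of_res (S : Sys L k F F₁) {q : ℕ} (hq : 2 ≤ q) (he : S.e = ![1, q - 1, 1])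
    {Fq : Type*} [Field Fq] [Algebra L Fq] {Γq : Set (SemilinearAut L Fq)}
    (W : RV (fixF Γq) F₁) (hϖ : W.LR 1 (algebraMap L Fq S.ϖ) 1) (Nm : F →* Fq)
    (hNm : ∀ f ∈ S.FK, f ≠ 0 → Nm f ∈ fixF Γq ∧ Nm f ≠ 0)
    (hNc : Nm (algebraMap L F S.ϖ) = algebraMap L Fq S.ϖ ^ q)
    (c₀ c₂ : ℤ) (R : ∀ (f : F) (n₀ n₂ : ℤ) (a : Fin 3 → F₁), (∀ i, a i ≠ 0) →
      (S.V 0).LR n₀ f (a 0) → (S.V 1).LR 0 f (a 1) → (S.V 2).LR n₂ f (a 2) →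
      ∃ b, b ≠ 0 ∧ W.LR (c₀ * n₀ + c₂ * n₂) (Nm f) b)
    (f : F) (n : Fin 3 → ℤ) (a : Fin 3 → F₁) (ha : ∀ i, a i ≠ 0)
    (h : ∀ i, (S.V i).LR (n i) f (a i)) :
    ∃ (m : ℤ) (b : F₁), b ≠ 0 ∧ W.LR m (Nm f) b ∧
      ((q : ℤ) - 1) * m - q * n 1 = c₀ * (((q : ℤ) - 1) * n 0 - n 1) +
        c₂ * (((q : ℤ) - 1) * n 2 - n 1) := by
  have hf0 : f ≠ 0 := (h 0).ne_zero (ha 0)
  obtain ⟨h1, h2⟩ := hNm f (h 0).mem_FK hf0
  obtain ⟨m, b, hb, hm⟩ := W.exists_LR h1 h2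
  refine ⟨m, b, hb, hm, ?_⟩
  have hq1 : ((q - 1 : ℕ) : ℤ) = (q : ℤ) - 1 := by
    rw [Nat.cast_sub (by omega), Nat.cast_one]
  have hg : ∀ i, (S.V i).LR (((q : ℤ) - 1) * n i + (-n 1) * S.e i)
      (f ^ (q - 1) * algebraMap L F S.ϖ ^ (-n 1)) (a i ^ (q - 1) * S.η i ^ (-n 1)) := by
    intro i
    have := (h i).pow_ϖ S (q - 1) (-n 1)
    rwa [hq1] at this
  have he0 : (S.e 0 : ℤ) = 1 := by rw [he]; rfl
  have he1 : (S.e 1 : ℤ) = (q : ℤ) - 1 := by rw [he, ← hq1]; rfl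
  have he2 : (S.e 2 : ℤ) = 1 := by rw [he]; rfl
  obtain ⟨b', hb', hm'⟩ := R _ (((q : ℤ) - 1) * n 0 - n 1) (((q : ℤ) - 1) * n 2 - n 1)
    (fun i => a i ^ (q - 1) * S.η i ^ (-n 1))
    (fun i => mul_ne_zero (pow_ne_zero _ (ha i)) (zpow_ne_zero _ (S.η_ne i)))
    ((hg 0).congr' (by rw [he0]; ring) rfl rfl)
    ((hg 1).congr' (by rw [he1]; ring) rfl rfl)
    ((hg 2).congr' (by rw [he2]; ring) rfl rfl)
  have hϖ0 : algebraMap L F S.ϖ ≠ 0 := by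
    rw [Ne, map_eq_zero]; exact S.ϖ_ne
  have hNz : Nm (f ^ (q - 1) * algebraMap L F S.ϖ ^ (-n 1)) =
      Nm f ^ (q - 1) * algebraMap L Fq S.ϖ ^ (q * (-n 1)) := by
    rw [map_mul, map_pow, monoidHom_zpow Nm hϖ0, hNc, ← zpow_natCast (algebraMap L Fq S.ϖ) q,
      ← zpow_mul]
  have h5 : W.LR (((q - 1 : ℕ) : ℤ) * m + (q * (-n 1)) * 1)
      (Nm f ^ (q - 1) * algebraMap L Fq S.ϖ ^ (q * (-n 1))) (b ^ (q - 1) * 1 ^ (q * (-n 1))) :=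
    (hm.pow (q - 1)).mul (hϖ.zpow one_ne_zero _)
  rw [← hNz, one_zpow, mul_one, mul_one, hq1] at h5
  have h6 := (h5.unique' (pow_ne_zero _ hb) hm' hb').1
  linarith

end Fermat.Agent.Car
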