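import Fermat.Agent.Car.RVof
import Fermat.Agent.Car.GR
import Fermat.Agent.Car.PushNorm
import Fermat.Agent.BadRed.KLConc
import Fermat.Agent.BadRed.RatClassX

/-!
# Project CAR: the two discrete valuations of the rational functions of level `N q`
-/

set_option autoImplicit false
set_option linter.unusedSectionVars false

noncomputable section

open AlgebraicCurve Module HahnSeries ModularCurve IntermediateField

namespace Fermat.Agent.Car

open Fermat.Agent.FunField Fermat.Agent.FunField.PlaceLemmas Fermat.Agent.Deuring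
  Fermat.Agent.BadRed Fermat.Agent.Degen Fermat.Agent.HeckeRed Fermat.Agent.AtkinLehner
  Fermat.Agent.ModPoly Fermat.Agent.Igusa

local notation "Qb" => AlgebraicClosure ℚ

variable {A : ValuationSubring Qb}
  {κ : Type*} [Field κ] [IsAlgClosed κ] (π : A →+* κ) [IsLocalHom π]
  (hπ : Function.Surjective π) (harch : ArchA π)
  (N q : ℕ) [hq : Fact q.Prime] [hN : NeZero N] [CharP κ q] (hqN : ¬ q ∣ N)
  (hA : A.LiesOverPrime q)

/-- the rational constants -/
def cfQ : ConstForm π (inertΓ A) :=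
  haveI : IsGalois ℚ Qb := {}
  constForm A π hπ hq.out hA

theorem cfQ_ϖ : (cfQ π hπ q hA).ϖ = (q : A) := rfl

/-- the rational structure at level `N q` -/
def kfQ : KForm (twoVal A π hπ harch N q hqN) (IΓ A (N * q)) :=
  kForm A π hπ harch N q hqN (cfQ π hπ q hA)

theorem kfQ_ϖ : (kfQ π hπ harch N q hqN hA).ϖ = (q : A) := rfl

/-- the first valuation of level `N q` -/
def W0 : RV (fixF (IΓ A (N * q))) (modularFunctionFieldFullC κ N) :=
  rvOf (twoVal A π hπ harch N q hqN).V₁ (kfQ π hπ harch N q hqN hA).ϖ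
    (kfQ π hπ harch N q hqN hA).ne (kfQ π hπ harch N q hqN hA).res
    (kfQ π hπ harch N q hqN hA).mem (kfQ π hπ harch N q hqN hA).scale₁

/-- the second valuation of level `N q` -/
def W1 : RV (fixF (IΓ A (N * q))) (modularFunctionFieldFullC κ N) :=
  rvOf (twoVal A π hπ harch N q hqN).V₂ (kfQ π hπ harch N q hqN hA).ϖ
    (kfQ π hπ harch N q hqN hA).ne (kfQ π hπ harch N q hqN hA).res
    (kfQ π hπ harch N q hqN hA).mem (kfQ π hπ harch N q hqN hA).scale₂

variable {N q hqN}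

theorem W0_LR_ER {n : ℤ} {f : modularFunctionFieldFullC Qb (N * q)}
    {a : modularFunctionFieldFullC κ N} :
    (W0 π hπ harch N q hqN hA).LR n f a ↔ f ∈ fixF (IΓ A (N * q)) ∧
      (twoVal A π hπ harch N q hqN).V₁.ER (((q : Qb) ^ (-n)) • f) a := by
  have h := rvOf_LR (twoVal A π hπ harch N q hqN).V₁ (kfQ π hπ harch N q hqN hA).ϖ
    (kfQ π hπ harch N q hqN hA).ne (kfQ π hπ harch N q hqN hA).res
    (kfQ π hπ harch N q hqN hA).mem (kfQ π hπ harch N q hqN hA).scale₁ (n := n) (f := f) (a := a)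
  have hc : (((kfQ π hπ harch N q hqN hA).ϖ : A) : Qb) = (q : Qb) := by
    rw [kfQ_ϖ]; push_cast; rfl
  rw [hc] at h
  exact h

theorem W1_LR_ER {n : ℤ} {f : modularFunctionFieldFullC Qb (N * q)}
    {a : modularFunctionFieldFullC κ N} :
    (W1 π hπ harch N q hqN hA).LR n f a ↔ f ∈ fixF (IΓ A (N * q)) ∧
      (twoVal A π hπ harch N q hqN).V₂.ER (((q : Qb) ^ (-n)) • f) a := by
  have h := rvOf_LR (twoVal A π hπ harch N q hqN).V₂ (kfQ π hπ harch N q hqN hA).ϖ
    (kfQ π hπ harch N q hqN hA).ne (kfQ π hπ harch N q hqN hA).res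
    (kfQ π hπ harch N q hqN hA).mem (kfQ π hπ harch N q hqN hA).scale₂ (n := n) (f := f) (a := a)
  have hc : (((kfQ π hπ harch N q hqN hA).ϖ : A) : Qb) = (q : Qb) := by
    rw [kfQ_ϖ]; push_cast; rfl
  rw [hc] at h
  exact h

/-- **leading terms at the first valuation** -/
theorem W0_LR {n : ℤ} {f : modularFunctionFieldFullC Qb (N * q)}
    {a : modularFunctionFieldFullC κ N} :
    (W0 π hπ harch N q hqN hA).LR n f a ↔ f ∈ fixF (IΓ A (N * q)) ∧
      GR A π (algebraMap Qb (LaurentSeries Qb) ((q : Qb) ^ (-n)) * (f : LaurentSeries Qb))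
        (a : LaurentSeries κ) := by
  rw [W0_LR_ER, er₁_gauss]
  constructor
  · rintro ⟨h1, h2, h3⟩
    exact ⟨h1, GR.congr ⟨h2, h3⟩ (coe_smul_full _ _) rfl⟩
  · rintro ⟨h1, h2⟩
    exact ⟨h1, h2.congr (coe_smul_full _ _).symm rfl⟩

/-- **leading terms at the second valuation** -/
theorem W1_LR {n : ℤ} {f : modularFunctionFieldFullC Qb (N * q)}
    {a : modularFunctionFieldFullC κ N} :
    (W1 π hπ harch N q hqN hA).LR n f a ↔ f ∈ fixF (IΓ A (N * q)) ∧
      GR A π (algebraMap Qb (LaurentSeries Qb) ((q : Qb) ^ (-n)) *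
        (ww Qb N q hqN f : LaurentSeries Qb)) (a : LaurentSeries κ) := by
  have h0 : ww Qb N q hqN (((q : Qb) ^ (-n)) • f) = ((q : Qb) ^ (-n)) • ww Qb N q hqN f := by
    rw [Algebra.smul_def, map_mul, AlgEquiv.commutes, Algebra.smul_def]
  rw [W1_LR_ER, er₂_iff, er₁_gauss, h0]
  constructor
  · rintro ⟨h1, h2, h3⟩
    exact ⟨h1, GR.congr ⟨h2, h3⟩ (coe_smul_full _ _) rfl⟩
  · rintro ⟨h1, h2⟩
    exact ⟨h1, h2.congr (coe_smul_full _ _).symm rfl⟩

/-- constants -/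
theorem W0_cst (a : A) (ha : (a : Qb) ∈ fix₀ (inertΓ A)) :
    (W0 π hπ harch N q hqN hA).LR 0 (algebraMap Qb _ (a : Qb)) (algebraMap κ _ (π a)) :=
  rvOf_cst _ _ _ _ _ _ a (mem_fixL_coefΓ.mpr ha)

theorem W1_cst (a : A) (ha : (a : Qb) ∈ fix₀ (inertΓ A)) :
    (W1 π hπ harch N q hqN hA).LR 0 (algebraMap Qb _ (a : Qb)) (algebraMap κ _ (π a)) :=
  rvOf_cst _ _ _ _ _ _ a (mem_fixL_coefΓ.mpr ha)

theorem W0_ϖ : (W0 π hπ harch N q hqN hA).LR 1 (algebraMap Qb _ (q : Qb)) 1 :=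
  rvOf_ϖ _ _ _ _ _ _

theorem W1_ϖ : (W1 π hπ harch N q hqN hA).LR 1 (algebraMap Qb _ (q : Qb)) 1 :=
  rvOf_ϖ _ _ _ _ _ _

end Fermat.Agent.Car
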