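import Fermat.Agent.Car.PushRes
import Fermat.Agent.Car.PushVal

/-!
# Project CAR, block C9: the push-forward data
-/

set_option autoImplicit false
set_option linter.unusedSectionVars false
set_option linter.style.haveILetI false

noncomputable section

open AlgebraicCurve Module HahnSeries ModularCurve IntermediateField

namespace Fermat.Agent.Car

open Fermat.Agent.FunField Fermat.Agent.FunField.PlaceLemmas Fermat.Agent.Deuring
  Fermat.Agent.BadRed Fermat.Agent.Degen Fermat.Agent.HeckeRed Fermat.Agent.AtkinLehner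
  Fermat.Agent.ModPoly Fermat.Agent.Igusa

local notation "Qb" => AlgebraicClosure ℚ

variable {A : ValuationSubring Qb}
  {κ : Type*} [Field κ] [IsAlgClosed κ] (π : A →+* κ) [IsLocalHom π]
  (hπ : Function.Surjective π) (harch : ArchA π)
  {N q : ℕ} [hq : Fact q.Prime] [hN : NeZero N] [CharP κ q] (hqN : ¬ q ∣ N)
  (hA : A.LiesOverPrime q)

/-- rational principal divisors are divisors of rational functions -/
theorem rat_level (M : ℕ) [NeZero M] {Γ₀ : Set (Qb ≃+* Qb)}
    {D : Divisor Qb (modularFunctionFieldFullC Qb M)} (hD : D ∈ fixD (coefΓ Qb M Γ₀))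
    (h : ∃ f : modularFunctionFieldFullC Qb M, f ≠ 0 ∧
      ∀ v : Place Qb (modularFunctionFieldFullC Qb M), D v = v.ord f) :
    ∃ f : modularFunctionFieldFullC Qb M, f ≠ 0 ∧ f ∈ fixF (coefΓ Qb M Γ₀) ∧
      ∀ v : Place Qb (modularFunctionFieldFullC Qb M), D v = v.ord f := by
  obtain ⟨f, hf, hfD⟩ := h
  exact exists_mem_fixF (lcL (L := Qb) (M := M))
    (fun f hf => lcL_ne_zero hf) lcL_smul (fun g hg f => by
      obtain ⟨σ, -, hσ⟩ := hg
      exact lcL_coef hσ f) hD hf hfD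

/-- the valuations of `S` in terms of Gauss residues -/
structure GaussLR (S : Sys Qb κ (modularFunctionFieldFullC Qb (N * q * q))
    (modularFunctionFieldFullC κ N)) (v : Qbˣ) (hv : IsPrimitiveRoot v q) : Prop where
  Γ_eq : S.Γ = IΓ A (N * q * q)
  ϖ_eq : S.ϖ = (q : Qb)
  e_eq : S.e = ![1, q - 1, 1]
  LR0 : ∀ {n : ℤ} {f a}, (S.V 0).LR n f a → GR A π (algebraMap Qb (LaurentSeries Qb)
    ((q : Qb) ^ (-n)) * (f : LaurentSeries Qb)) (a : LaurentSeries κ)
  LR1 : ∀ {f a}, (S.V 1).LR 0 f a → GR A π (psi2 Qb N hqN v hv f) (a : LaurentSeries κ)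
  LR2 : ∀ {n : ℤ} {f a}, (S.V 2).LR n f a → GR A π (algebraMap Qb (LaurentSeries Qb)
    ((q : Qb) ^ (-n)) * (WW Qb N q hqN f : LaurentSeries Qb)) (a : LaurentSeries κ)
  cst : ∀ a : S.A, (a : Qb) ∈ fixL S.Γ → ∃ b : A, (b : Qb) = a ∧ π b = S.π a

theorem normAlong_algebraMap {K F F' : Type*} [Field K] [Field F] [Field F'] [Algebra K F]
    [Algebra K F'] (φ : F →ₐ[K] F') (c : K) :
    normAlong φ (algebraMap K F' c) = algebraMap K F c ^ finrankAlong K φ := by
  letI := algebraAlong φ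
  have h1 : algebraMap K F' c = algebraMap F F' (algebraMap K F c) := (φ.commutes c).symm
  rw [h1]
  exact Algebra.norm_algebraMap _

theorem phi_ne {κ : Type*} [Field κ] {N q : ℕ} [hq : Fact q.Prime]
    {φ : modularFunctionFieldFullC κ N → modularFunctionFieldFullC κ N}
    (hφ : ∀ x : modularFunctionFieldFullC κ N,
      qExpand κ q (φ x : LaurentSeries κ) = (x : LaurentSeries κ) ^ q)
    {x : modularFunctionFieldFullC κ N} (hx : x ≠ 0) : φ x ≠ 0 := by
  intro h
  have h1 := hφ x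
  rw [h] at h1
  have h2 : (x : LaurentSeries κ) ^ q = 0 := by
    rw [← h1]
    exact map_zero (qExpand κ q)
  exact hx (Subtype.ext (pow_eq_zero_iff hq.out.ne_zero |>.mp h2))

section

variable {π hqN}
variable {S : Sys Qb κ (modularFunctionFieldFullC Qb (N * q * q)) (modularFunctionFieldFullC κ N)}
  {v : Qbˣ} {hv : IsPrimitiveRoot v q} (G : GaussLR π hqN S v hv)

include G

theorem GaussLR.mem_fix {f : modularFunctionFieldFullC Qb (N * q * q)} (hf : f ∈ S.FK) :
    f ∈ fixF (IΓ A (N * q * q)) := by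
  rw [← G.Γ_eq]
  exact hf

include hA in
theorem GaussLR.psi_all {f : modularFunctionFieldFullC Qb (N * q * q)}
    {a : modularFunctionFieldFullC κ N} (h : (S.V 1).LR 0 f a) (u : Qbˣ)
    (hu : IsPrimitiveRoot u q) : GR A π (psi2 Qb N hqN u hu f) (a : LaurentSeries κ) :=
  gr_psi2_conj hqN hA (G.mem_fix h.mem_FK) hv (G.LR1 h) u hu

/-- **residues of norms** -/
theorem GaussLR.res4 {φ : modularFunctionFieldFullC κ N → modularFunctionFieldFullC κ N}
    (hφ : ∀ x : modularFunctionFieldFullC κ N,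
      qExpand κ q (φ x : LaurentSeries κ) = (x : LaurentSeries κ) ^ q)
    {f : modularFunctionFieldFullC Qb (N * q * q)} {n₀ n₂ : ℤ}
    {a : Fin 3 → modularFunctionFieldFullC κ N} (h0 : (S.V 0).LR n₀ f (a 0))
    (h1 : (S.V 1).LR 0 f (a 1)) (h2 : (S.V 2).LR n₂ f (a 2)) :
    (W0 π hπ harch N q hqN hA).LR n₀ (normAlong (al Qb N q) f) (a 0 * a 1 ^ (q - 1)) ∧
    (W1 π hπ harch N q hqN hA).LR (q * n₂) (normAlong (al Qb N q) f) (φ (a 2)) ∧
    (W0 π hπ harch N q hqN hA).LR (q * n₀) (normAlong (be Qb N q) f) (φ (a 0)) ∧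
    (W1 π hπ harch N q hqN hA).LR n₂ (normAlong (be Qb N q) f) (a 2 * a 1 ^ (q - 1)) := by
  have hf := G.mem_fix h0.mem_FK
  have g0 := G.LR0 h0
  have g1 := G.psi_all hA h1
  have g2 := G.LR2 h2
  exact ⟨W0_norm_al hqN hπ harch hA hf g0 g1, W1_norm_al hqN hπ harch hA hf g2 (hφ _),
    W0_norm_be hqN hπ harch hA hf g0 (hφ _), W1_norm_be hqN hπ harch hA hf g2 g1⟩

/-- **valuations of norms** -/
theorem GaussLR.val4 {φ : modularFunctionFieldFullC κ N → modularFunctionFieldFullC κ N}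
    (hφ : ∀ x : modularFunctionFieldFullC κ N,
      qExpand κ q (φ x : LaurentSeries κ) = (x : LaurentSeries κ) ^ q)
    (f : modularFunctionFieldFullC Qb (N * q * q)) (n : Fin 3 → ℤ)
    (a : Fin 3 → modularFunctionFieldFullC κ N) (ha : ∀ i, a i ≠ 0)
    (h : ∀ i, (S.V i).LR (n i) f (a i)) :
    (∃ b, b ≠ 0 ∧ (W0 π hπ harch N q hqN hA).LR (n 0 + n 1) (normAlong (al Qb N q) f) b) ∧
    (∃ b, b ≠ 0 ∧ (W1 π hπ harch N q hqN hA).LR (q * n 2) (normAlong (al Qb N q) f) b) ∧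
    (∃ b, b ≠ 0 ∧ (W0 π hπ harch N q hqN hA).LR (q * n 0) (normAlong (be Qb N q) f) b) ∧
    (∃ b, b ≠ 0 ∧ (W1 π hπ harch N q hqN hA).LR (n 2 + n 1) (normAlong (be Qb N q) f) b) := by
  have hq2 := hq.out.two_le
  have hfa : FiniteAlong Qb (al Qb N q) := finiteAlong_of_isFF _
  have hfb : FiniteAlong Qb (be Qb N q) := finiteAlong_of_isFF _
  have ea : normHom (al Qb N q) (algebraMap Qb _ S.ϖ) = algebraMap Qb _ S.ϖ ^ q := by
    rw [normHom_apply, normAlong_algebraMap, finrankAlong_al']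
  have eb : normHom (be Qb N q) (algebraMap Qb _ S.ϖ) = algebraMap Qb _ S.ϖ ^ q := by
    rw [normHom_apply, normAlong_algebraMap, finrankAlong_be']
  have w0 : (W0 π hπ harch N q hqN hA).LR 1 (algebraMap Qb _ S.ϖ) 1 := by
    rw [G.ϖ_eq]; exact W0_ϖ π hπ harch hA
  have w1 : (W1 π hπ harch N q hqN hA).LR 1 (algebraMap Qb _ S.ϖ) 1 := by
    rw [G.ϖ_eq]; exact W1_ϖ π hπ harch hA
  have na : ∀ f ∈ S.FK, f ≠ 0 → normHom (al Qb N q) f ∈ fixF (IΓ A (N * q)) ∧
      normHom (al Qb N q) f ≠ 0 := fun f hf hf0 =>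
    ⟨norm_al_mem_fixF (G.mem_fix hf), normAlong_ne_zero _ hfa hf0⟩
  have nb : ∀ f ∈ S.FK, f ≠ 0 → normHom (be Qb N q) f ∈ fixF (IΓ A (N * q)) ∧
      normHom (be Qb N q) f ≠ 0 := fun f hf hf0 =>
    ⟨norm_be_mem_fixF (G.mem_fix hf), normAlong_ne_zero _ hfb hf0⟩
  have hq1 : (q : ℤ) - 1 ≠ 0 := by
    have : (2 : ℤ) ≤ q := by exact_mod_cast hq2
    omega
  refine ⟨?_, ?_, ?_, ?_⟩
  · obtain ⟨m, b, hb, hm, e⟩ := val_of_res S hq2 G.e_eq (W0 π hπ harch N q hqN hA) w0
      (normHom (al Qb N q)) na ea 1 0 (fun f n₀ n₂ a ha h0 h1 h2 =>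
        ⟨_, mul_ne_zero (ha 0) (pow_ne_zero _ (ha 1)),
          ((G.res4 hπ harch hA hφ h0 h1 h2).1).congr' (by ring) rfl rfl⟩) f n a ha h
    refine ⟨b, hb, hm.congr' ?_ rfl rfl⟩
    apply mul_left_cancel₀ hq1
    linear_combination e
  · obtain ⟨m, b, hb, hm, e⟩ := val_of_res S hq2 G.e_eq (W1 π hπ harch N q hqN hA) w1
      (normHom (al Qb N q)) na ea 0 q (fun f n₀ n₂ a ha h0 h1 h2 =>
        ⟨_, phi_ne hφ (ha 2),
          ((G.res4 hπ harch hA hφ h0 h1 h2).2.1).congr' (by ring) rfl rfl⟩) f n a ha h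
    refine ⟨b, hb, hm.congr' ?_ rfl rfl⟩
    apply mul_left_cancel₀ hq1
    linear_combination e
  · obtain ⟨m, b, hb, hm, e⟩ := val_of_res S hq2 G.e_eq (W0 π hπ harch N q hqN hA) w0
      (normHom (be Qb N q)) nb eb q 0 (fun f n₀ n₂ a ha h0 h1 h2 =>
        ⟨_, phi_ne hφ (ha 0),
          ((G.res4 hπ harch hA hφ h0 h1 h2).2.2.1).congr' (by ring) rfl rfl⟩) f n a ha h
    refine ⟨b, hb, hm.congr' ?_ rfl rfl⟩
    apply mul_left_cancel₀ hq1
    linear_combination e
  · obtain ⟨m, b, hb, hm, e⟩ := val_of_res S hq2 G.e_eq (W1 π hπ harch N q hqN hA) w1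
      (normHom (be Qb N q)) nb eb 0 1 (fun f n₀ n₂ a ha h0 h1 h2 =>
        ⟨_, mul_ne_zero (ha 2) (pow_ne_zero _ (ha 1)),
          ((G.res4 hπ harch hA hφ h0 h1 h2).2.2.2).congr' (by ring) rfl rfl⟩) f n a ha h
    refine ⟨b, hb, hm.congr' ?_ rfl rfl⟩
    apply mul_left_cancel₀ hq1
    linear_combination e

/-- **The push-forward data.** -/
def mkPush {p : Pen S} (U : Units p q) (Fb : Frob p q)
    (hFr : ∀ x : modularFunctionFieldFullC κ N, (Fb.Fr x : LaurentSeries κ) = qExpand κ q x)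
    (hglue : ∀ (i : Fin 2) (m : ℕ) (f : modularFunctionFieldFullC Qb (N * q))
      (a b : modularFunctionFieldFullC κ N),
      f ∈ riemannRochSpace ((![push (al Qb N q), push (be Qb N q)] : Fin 2 →
        (Divisor Qb (modularFunctionFieldFullC Qb (N * q * q)) →+
          Divisor Qb (modularFunctionFieldFullC Qb (N * q)))) i (m • p.E)) →
      (twoVal A π hπ harch N q hqN).V₁.ER f a → (twoVal A π hπ harch N q hqN).V₂.ER f b →
      ∀ z : Place κ (modularFunctionFieldFullC κ N), 0 < U.o z →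
        0 ≤ z.ord a ∧ 0 ≤ z.ord b ∧ (b = Fb.Fr a ∨ 0 < z.ord (b - Fb.Fr a))) :
    Push U Fb (modularFunctionFieldFullC Qb (N * q)) :=
  have hφ : ∀ x : modularFunctionFieldFullC κ N,
      qExpand κ q (Fb.φ x : LaurentSeries κ) = (x : LaurentSeries κ) ^ q := fun x => by
    rw [← hFr, Fb.hFr]
    rfl
  { Γq := IΓ A (N * q)
    W := ![W0 π hπ harch N q hqN hA, W1 π hπ harch N q hqN hA]
    cstW := fun i a ha => by
      obtain ⟨b, hb, hba⟩ := G.cst a ha
      have ha' : (b : Qb) ∈ fix₀ (inertΓ A) := by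
        rw [hb]
        rw [G.Γ_eq] at ha
        exact mem_fixL_coefΓ.mp ha
      rw [← hb, ← hba]
      fin_cases i
      · exact W0_cst π hπ harch hA b ha'
      · exact W1_cst π hπ harch hA b ha'
    ϖW := fun i => by
      rw [G.ϖ_eq]
      fin_cases i
      · exact W0_ϖ π hπ harch hA
      · exact W1_ϖ π hπ harch hA
    fixLq := fun a ha => by
      rw [G.Γ_eq]
      exact mem_fixL_coefΓ.mpr (mem_fixL_coefΓ.mp ha)
    Nm := ![normHom (al Qb N q), normHom (be Qb N q)]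
    Nm_ne := fun i f hf => by
      fin_cases i
      · exact normAlong_ne_zero _ (finiteAlong_of_isFF _) hf
      · exact normAlong_ne_zero _ (finiteAlong_of_isFF _) hf
    pD := ![push (al Qb N q), push (be Qb N q)]
    pD_mono := fun i D D' h => by
      fin_cases i
      · exact push_mono _ h
      · exact push_mono _ h
    pD_fix := fun i D hD => by
      rw [G.Γ_eq] at hD
      fin_cases i
      · exact push_al_mem_fixD hD
      · exact push_be_mem_fixD hD
    ord_Nm := fun i f hf D hD v => by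
      fin_cases i
      · exact push_ord_one _ hf hD v
      · exact push_ord_one _ hf hD v
    rat := fun D hD h => rat_level (N * q) hD h
    val := fun f n a ha h => G.val4 hπ harch hA hφ f n a ha h
    res := fun f a ha h => by
      obtain ⟨h1, h2, h3, h4⟩ := G.res4 hπ harch hA hφ (h 0) (h 1) (h 2)
      exact ⟨h1, h2.congr' (mul_zero _) rfl rfl, h3.congr' (mul_zero _) rfl rfl, h4⟩
    glue := fun i m f a b hf ha hb z hz => by
      have ha' := ((W0_LR_ER π hπ harch hA).mp ha).2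
      have hb' := ((W1_LR_ER π hπ harch hA).mp hb).2
      rw [neg_zero, zpow_zero, one_smul] at ha' hb'
      exact hglue i m f a b hf ha' hb' z hz }

end

end Fermat.Agent.Car
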