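import Fermat.Agent.Car.Defs
import Fermat.Agent.BadRed.KLat7

/-!
# Project CAR: discrete valuations of the field of rational functions from residue valuations
-/

set_option autoImplicit false
set_option linter.unusedSectionVars false

noncomputable section

open AlgebraicCurve Module

namespace Fermat.Agent.Car

open Fermat.Agent.FunField Fermat.Agent.FunField.PlaceLemmas Fermat.Agent.Deuring
  Fermat.Agent.BadRed

variable {L k F F₁ : Type*} [Field L] [Field k] [Field F] [Field F₁] [Algebra L F] [Algebra k F₁]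
  {A : ValuationSubring L} {π : A →+* k} (V : ResVal A π F F₁) {Γ : Set (SemilinearAut L F)}
  (ϖ : A) (hne : (ϖ : L) ≠ 0) (hres : π ϖ = 0) (hfix : (ϖ : L) ∈ fixL Γ)
  (hscale : ∀ f ∈ fixF Γ, f ≠ 0 → ∃ (n : ℤ) (a : F₁), a ≠ 0 ∧ V.ER (((ϖ : L) ^ n) • f) a)

/-- the discrete valuation of the field of `Γ`-rational functions given by a residue valuation -/
def rvOf : RV (fixF Γ) F₁ where
  O := V.O.toSubring ⊓ (fixF Γ).toSubring
  r := V.r.comp (Subring.inclusion inf_le_left)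
  ε := algebraMap L F (ϖ : L)
  le_FK _ hf := hf.2
  ε_mem := ⟨(V.mem_iff _).mpr ϖ.2, algebraMap_mem_fixF hfix⟩
  ε_ne := by rwa [Ne, map_eq_zero]
  res_ε := (V.r_algebraMap ϖ).trans (by rw [hres, map_zero])
  unif f hf hf0 := by
    obtain ⟨n, a, ha, hO, hr⟩ := hscale f hf hf0
    have h1 : (algebraMap L F (ϖ : L)) ^ (-(-n)) * f = ((ϖ : L) ^ n) • f := by
      rw [neg_neg, Algebra.smul_def, map_zpow₀]
    have h2 : (algebraMap L F (ϖ : L)) ^ (-(-n)) * f ∈ V.O := by rw [h1]; exact hO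
    have h3 : (algebraMap L F (ϖ : L)) ^ (-(-n)) * f ∈ fixF Γ :=
      (fixF Γ).mul_mem (zpow_mem (algebraMap_mem_fixF hfix) _) hf
    refine ⟨-n, ⟨h2, h3⟩, ?_⟩
    intro h0
    apply ha
    rw [← hr, ← h0]
    show V.r ⟨_, hO⟩ = V.r ⟨_, h2⟩
    congr 1
    exact Subtype.ext h1.symm
  inv f h hr := by
    have h1 : V.r ⟨f, h.1⟩ ≠ 0 := hr
    exact ⟨(V.inv_mem h1).1, (fixF Γ).inv_mem h.2⟩

/-- description of the leading terms -/
theorem rvOf_LR {n : ℤ} {f : F} {a : F₁} :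
    (rvOf V ϖ hne hres hfix hscale).LR n f a ↔ f ∈ fixF Γ ∧ V.ER (((ϖ : L) ^ (-n)) • f) a := by
  have h1 : (algebraMap L F (ϖ : L)) ^ (-n) * f = ((ϖ : L) ^ (-n)) • f := by
    rw [Algebra.smul_def, map_zpow₀]
  constructor
  · intro h
    refine ⟨h.mem_FK, ?_⟩
    obtain ⟨h2, h3⟩ := h
    have h4 : ((ϖ : L) ^ (-n)) • f ∈ V.O := by rw [← h1]; exact h2.1
    refine ⟨h4, ?_⟩
    rw [← h3]
    show V.r ⟨_, h4⟩ = V.r ⟨_, h2.1⟩
    congr 1
    exact Subtype.ext h1.symm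
  · rintro ⟨hf, h4, h5⟩
    have h2 : (algebraMap L F (ϖ : L)) ^ (-n) * f ∈ V.O := by rw [h1]; exact h4
    have h3 : (algebraMap L F (ϖ : L)) ^ (-n) * f ∈ fixF Γ :=
      (fixF Γ).mul_mem (zpow_mem (algebraMap_mem_fixF hfix) _) hf
    refine ⟨⟨h2, h3⟩, ?_⟩
    rw [← h5]
    show V.r ⟨_, h2⟩ = V.r ⟨_, h4⟩
    congr 1
    exact Subtype.ext h1

theorem rvOf_LR_zero {f : F} {a : F₁} :
    (rvOf V ϖ hne hres hfix hscale).LR 0 f a ↔ f ∈ fixF Γ ∧ V.ER f a := by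
  rw [rvOf_LR, neg_zero, zpow_zero, one_smul]

theorem rvOf_Ge {n : ℤ} {f : F} :
    (rvOf V ϖ hne hres hfix hscale).Ge n f ↔ f ∈ fixF Γ ∧ ((ϖ : L) ^ (-n)) • f ∈ V.O := by
  rw [RV.ge_iff]
  constructor
  · rintro ⟨a, ha⟩
    rw [rvOf_LR] at ha
    exact ⟨ha.1, ha.2.1⟩
  · rintro ⟨h1, h2⟩
    exact ⟨_, (rvOf_LR V ϖ hne hres hfix hscale).mpr ⟨h1, h2, rfl⟩⟩

/-- constants -/
theorem rvOf_cst (a : A) (ha : (a : L) ∈ fixL Γ) :
    (rvOf V ϖ hne hres hfix hscale).LR 0 (algebraMap L F (a : L)) (algebraMap k F₁ (π a)) :=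
  (rvOf_LR_zero V ϖ hne hres hfix hscale).mpr ⟨algebraMap_mem_fixF ha, ResVal.ER.cst a⟩

/-- the uniformizer -/
theorem rvOf_ϖ : (rvOf V ϖ hne hres hfix hscale).LR 1 (algebraMap L F (ϖ : L)) 1 := by
  rw [rvOf_LR]
  refine ⟨algebraMap_mem_fixF hfix, ?_⟩
  rw [zpow_neg_one, Algebra.smul_def, ← map_mul, inv_mul_cancel₀ hne, map_one]
  exact ResVal.ER.one

end Fermat.Agent.Car
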