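import Fermat.Agent.Car.ValOneA

/-!
# The valuation of the middle component

Residues of rational functions at the components `0` and `1`; scaling at the component `1`.
-/

set_option autoImplicit false
set_option linter.unusedSectionVars false

noncomputable section

open AlgebraicCurve Module IntermediateField ModularCurve HahnSeries

namespace Fermat.Agent.Car

open Fermat.Agent.FunField Fermat.Agent.Igusa Fermat.Agent.BadRed Fermat.Agent.ModDeg
  Fermat.Agent.ModPoly Fermat.Agent.AtkinLehner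

section Tw

variable {L : Type*} [Field L] {A : ValuationSubring L} {κ : Type*} [Field κ] {π : A →+* κ}

/-- twisting by a unit with residue `1` -/
theorem GR.twist {v : Lˣ} {w : Aˣ} (hw : ((w : A) : L) = v) (hw1 : π w = 1)
    {x : LaurentSeries L} {b : LaurentSeries κ} (h : GR A π x b) :
    GR A π (ModPoly.twist v x) b := by
  obtain ⟨hx, rfl⟩ := h
  obtain ⟨P, Q, hQ, hPQ⟩ := mem_gaussRing_iff.mp hx
  have hv : Units.map (A.subtype : A →* L) w = v := Units.ext hw
  have hv1 : Units.map (π : A →* κ) w = 1 := Units.ext hw1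
  have e1 : ∀ P : LaurentSeries A, ModPoly.twist v (coeffMap A.subtype P) =
      coeffMap A.subtype (ModPoly.twist w P) := by
    intro P
    rw [ModPoly.coeffMap_twist]
    congr 2
    exact hv.symm
  have e2 : ∀ P : LaurentSeries A, coeffMap π (ModPoly.twist w P) = coeffMap π P := by
    intro P
    rw [ModPoly.coeffMap_twist]
    have : Units.map (π : A →* κ) w = 1 := hv1
    rw [this, ModPoly.twist_one]
  have hQ' : coeffMap π (ModPoly.twist w Q) ≠ 0 := by rwa [e2]
  have h1 : ModPoly.twist v x * coeffMap A.subtype (ModPoly.twist w Q) =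
      coeffMap A.subtype (ModPoly.twist w P) := by
    rw [← e1, ← e1, ← hPQ, map_mul]
  have h2 : ModPoly.twist v x ∈ gaussRing A π := mem_gaussRing_iff.mpr ⟨_, _, hQ', h1⟩
  refine ⟨h2, ?_⟩
  rw [gaussRes_eq (⟨_, h2⟩ : gaussRing A π) hQ' h1, gaussRes_eq (⟨x, hx⟩ : gaussRing A π) hQ hPQ,
    e2, e2]

end Tw

section Elts

variable (L : Type*) [Field L] (N q : ℕ) [hq : Fact q.Prime] [hN : NeZero N]

/-- the uniformizer `j(q^{q²}) - j` of the middle component -/
def epsX : modularFunctionFieldFullC L (N * q * q) :=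
  be L N q (jrE L N q) - al L N q (jE L N q)

/-- the Kronecker element `j(q^{q²}) - j(q^q)^q` -/
def hKX : modularFunctionFieldFullC L (N * q * q) :=
  be L N q (jrE L N q) - (al L N q (jrE L N q)) ^ q

variable {L N q} {A : ValuationSubring L} {κ : Type*} [Field κ] {π : A →+* κ} [CharP κ q]

theorem GR_al {x : modularFunctionFieldFullC L (N * q)} {b : LaurentSeries κ}
    (h : GR A π (x : LaurentSeries L) b) : GR A π (al L N q x : LaurentSeries L) b := by
  rw [coe_al]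
  exact h

theorem GR_be {x : modularFunctionFieldFullC L (N * q)} {b : LaurentSeries κ}
    (h : GR A π (x : LaurentSeries L) b) :
    GR A π (be L N q x : LaurentSeries L) (qExpand κ q b) := by
  rw [coe_be]
  obtain ⟨h1, rfl⟩ := h
  exact qExpand_mem_gauss q h1

theorem GR_jE : GR A π (jE L N q : LaurentSeries L) (jqModC κ) := jE_res₁ A π N q

theorem GR_jrE : GR A π (jrE L N q : LaurentSeries L) (jqModC κ ^ q) := jrE_res₁ A π N q

theorem GR_epsX : GR A π (epsX L N q : LaurentSeries L) (-delta κ q) := by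
  have h1 := GR_be (N := N) (GR_jrE (L := L) (N := N) (q := q) (A := A) (π := π))
  have h2 := GR_al (N := N) (GR_jE (L := L) (N := N) (q := q) (A := A) (π := π))
  refine (h1.sub h2).congr rfl ?_
  rw [map_pow, ← BadRed.jq_pow, delta]
  ring

theorem GR_hKX : GR A π (hKX L N q : LaurentSeries L) 0 := by
  have h1 := GR_be (N := N) (GR_jrE (L := L) (N := N) (q := q) (A := A) (π := π))
  have h2 := GR_al (N := N) (GR_jrE (L := L) (N := N) (q := q) (A := A) (π := π))
  refine (h1.sub (h2.pow q)).congr ?_ ?_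
  · rw [hKX]
    push_cast
    rfl
  · rw [map_pow, ← BadRed.jq_pow]
    ring

end Elts

section OQ

local notation "Qb" => AlgebraicClosure ℚ

variable {A : ValuationSubring Qb}
  {κ : Type*} [Field κ] [IsAlgClosed κ] (π : A →+* κ) [IsLocalHom π]
  (hπ : Function.Surjective π) (harch : ArchA π)
  (N q : ℕ) [hq : Fact q.Prime] [hN : NeZero N] [CharP κ q] (hqN : ¬ q ∣ N)
  (hA : A.LiesOverPrime q) {v : Qbˣ} (hv : IsPrimitiveRoot v q)

include hv in
omit [IsAlgClosed κ] in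
/-- roots of unity reduce to `1` -/
theorem exists_unit_zeta : ∃ w : Aˣ, ((w : A) : Qb) = v ∧ π w = 1 := by
  have hv' : IsPrimitiveRoot (v : Qb) q := IsPrimitiveRoot.coe_units_iff.mpr hv
  have hm : (v : Qb) ∈ A := zeta_mem hv'
  have hm' : ((v⁻¹ : Qbˣ) : Qb) ∈ A := zeta_mem (IsPrimitiveRoot.coe_units_iff.mpr hv.inv)
  refine ⟨⟨⟨v, hm⟩, ⟨_, hm'⟩, Subtype.ext v.mul_inv, Subtype.ext v.inv_mul⟩, rfl, ?_⟩
  have h1 : (π ⟨v, hm⟩ - 1) ^ q = 0 := by
    rw [sub_pow_char, one_pow, ← map_pow]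
    have : (⟨v, hm⟩ : A) ^ q = 1 := Subtype.ext hv'.pow_eq_one
    rw [this, map_one, sub_self]
  exact sub_eq_zero.mp (pow_eq_zero_iff hq.out.ne_zero |>.mp h1)

include hv in
omit [IsAlgClosed κ] in
theorem GR.twistZ {x : LaurentSeries Qb} {b : LaurentSeries κ} (h : GR A π x b) :
    GR A π (ModPoly.twist v x) b := by
  obtain ⟨w, hw, hw1⟩ := exists_unit_zeta π q hv
  exact h.twist hw hw1

variable {N q}

omit [IsAlgClosed κ] in
theorem GR_psi2_al {x : modularFunctionFieldFullC Qb (N * q)} {b : LaurentSeries κ}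
    (h : GR A π (x : LaurentSeries Qb) b) : GR A π (psi2 Qb N hqN v hv (al Qb N q x)) b := by
  rw [psi2_al]
  exact h

omit [IsAlgClosed κ] in
theorem GR_psi2_be {x : modularFunctionFieldFullC Qb (N * q)} {b : LaurentSeries κ}
    (h : GR A π (ww Qb N q hqN x : LaurentSeries Qb) b) :
    GR A π (psi2 Qb N hqN v hv (be Qb N q x)) b := by
  rw [psi2_be]
  exact h.twistZ π q hv

omit [IsAlgClosed κ] in
theorem GR_psi2_jrr : GR A π (psi2 Qb N hqN v hv (be Qb N q (jrE Qb N q))) (jqModC κ) := by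
  apply GR_psi2_be
  rw [ww_jrE]
  exact GR_jE

omit [IsAlgClosed κ] in
theorem GR_psi2_epsX : GR A π (psi2 Qb N hqN v hv (epsX Qb N q)) 0 := by
  have h1 := GR_psi2_jrr (N := N) π hqN hv
  have h2 := GR_psi2_al (N := N) π hqN hv (GR_jE (A := A) (π := π))
  refine (h1.sub h2).congr ?_ (sub_self _)
  rw [epsX, map_sub]

omit [IsAlgClosed κ] in
theorem GR_psi2_hKX : GR A π (psi2 Qb N hqN v hv (hKX Qb N q)) (delta κ q) := by
  have h1 := GR_psi2_jrr (N := N) π hqN hv
  have h2 := GR_psi2_al (N := N) π hqN hv (GR_jrE (A := A) (π := π))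
  refine (h1.sub (h2.pow q)).congr ?_ rfl
  rw [hKX, map_sub, map_pow]

omit [IsAlgClosed κ] in
/-- membership in the field of rational functions -/
theorem mem_fixF_IΓ {M : ℕ} {f : modularFunctionFieldFullC Qb M} :
    f ∈ fixF (IΓ A M) ↔ ∀ σ ∈ inertΓ A, coeffEquiv σ M f = f := by
  rw [mem_fixF_coefΓ]
  constructor
  · intro h σ hσ
    apply Subtype.ext
    ext n
    rw [coe_coeffEquiv, coeffMap_coeff]
    exact h n σ hσ
  · intro h n σ hσ
    have h1 := congrArg (fun z : modularFunctionFieldFullC Qb M => (z : LaurentSeries Qb).coeff n)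
      (h σ hσ)
    simp only [coe_coeffEquiv, coeffMap_coeff] at h1
    exact h1

theorem al_mem_fixF {x : modularFunctionFieldFullC Qb (N * q)}
    (hx : ∀ n, (x : LaurentSeries Qb).coeff n ∈ fix₀ (inertΓ A)) :
    al Qb N q x ∈ fixF (IΓ A (N * q * q)) := by
  rw [mem_fixF_coefΓ, coe_al]
  exact hx

theorem be_mem_fixF {x : modularFunctionFieldFullC Qb (N * q)}
    (hx : ∀ n, (x : LaurentSeries Qb).coeff n ∈ fix₀ (inertΓ A)) :
    be Qb N q x ∈ fixF (IΓ A (N * q * q)) := by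
  rw [mem_fixF_coefΓ, coe_be]
  intro n
  by_cases hn : (q : ℤ) ∣ n
  · obtain ⟨m, rfl⟩ := hn
    rw [qExpand_coeff_mul]
    exact hx m
  · rw [qExpand_coeff_of_not_dvd q _ hn]
    exact (fix₀ (inertΓ A)).zero_mem

theorem jE_coeff_mem (n : ℤ) : (jE Qb N q : LaurentSeries Qb).coeff n ∈ fix₀ (inertΓ A) := by
  intro σ _
  have h1 := congrArg (fun z : LaurentSeries Qb => z.coeff n) (coeffMap_jqModC (σ : Qb →+* Qb))
  simp only [coeffMap_coeff] at h1
  exact h1

theorem jrE_coeff_mem (n : ℤ) : (jrE Qb N q : LaurentSeries Qb).coeff n ∈ fix₀ (inertΓ A) := by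
  show (qExpand Qb q (jqModC Qb)).coeff n ∈ fix₀ (inertΓ A)
  by_cases hn : (q : ℤ) ∣ n
  · obtain ⟨m, rfl⟩ := hn
    rw [qExpand_coeff_mul]
    exact jE_coeff_mem (N := N) (q := q) m
  · rw [qExpand_coeff_of_not_dvd q _ hn]
    exact (fix₀ (inertΓ A)).zero_mem

theorem epsX_mem_fixF : epsX Qb N q ∈ fixF (IΓ A (N * q * q)) :=
  (fixF _).sub_mem (be_mem_fixF jrE_coeff_mem) (al_mem_fixF jE_coeff_mem)

theorem hKX_mem_fixF : hKX Qb N q ∈ fixF (IΓ A (N * q * q)) :=
  (fixF _).sub_mem (be_mem_fixF jrE_coeff_mem) ((fixF _).pow_mem (al_mem_fixF jrE_coeff_mem) q)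

include hA in
omit [IsAlgClosed κ] in
/-- the conjugates `ψ₂^{(b)} f` of a rational function have the same residue -/
theorem GR_psiC {f : modularFunctionFieldFullC Qb (N * q * q)}
    (hf : f ∈ fixF (IΓ A (N * q * q))) {b : LaurentSeries κ}
    (h : GR A π (psi2 Qb N hqN v hv f) b) (i : Fin (q - 1)) :
    GR A π (psiC hqN hv i f) b := by
  have hv' : IsPrimitiveRoot (v : Qb) q := IsPrimitiveRoot.coe_units_iff.mpr hv
  have hcop : ((i : ℕ) + 1).Coprime q := by
    apply Nat.Coprime.symm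
    rw [hq.out.coprime_iff_not_dvd]
    intro hd
    have := Nat.le_of_dvd (Nat.succ_pos _) hd
    omega
  obtain ⟨σ, hσ, hσv⟩ := exists_inert_zeta hA hv' hcop
  have h1 := psi_coeffEquiv (N := N) (cast_ne_zero_L Qb N) (cast_ne_zero_Lr Qb q) hqN
    hv.pow_eq_one (hv.ne_one hq.out.one_lt) (pow_succ_pow' hv (i + 1)) (pow_succ_ne_one' hv i)
    σ (by rw [hσv, Units.val_pow_eq_pow_val]) f
  rw [mem_fixF_IΓ.mp hf σ hσ] at h1
  exact (h.inertA hσ).congr h1.symm rfl

include hπ harch hA hv in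
/-- **The trace trick**: the difference of the residues of a rational function is in `F_N(κ)`. -/
theorem sub_mem_full {f : modularFunctionFieldFullC Qb (N * q * q)}
    (hf : f ∈ fixF (IΓ A (N * q * q))) {a b : LaurentSeries κ}
    (h0 : GR A π (f : LaurentSeries Qb) a) (h1 : GR A π (psi2 Qb N hqN v hv f) b) :
    a - b ∈ modularFunctionFieldFullC κ N := by
  obtain ⟨T, hT⟩ := exists_traceC (N := N) hqN hv f
  have h2 : GR A π (T : LaurentSeries Qb) (a - b) := by
    rw [hT]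
    refine (h0.add (GR.sum Finset.univ fun i _ => GR_psiC π hqN hA hv hf h1 i)).congr rfl ?_
    rw [Finset.sum_const, Finset.card_univ, Fintype.card_fin, sub_eq_add_neg]
    congr 1
    have h3 : ((q - 1 : ℕ) : LaurentSeries κ) = -1 := by
      rw [Nat.cast_sub hq.out.one_lt.le, Nat.cast_one]
      have h4 : (q : LaurentSeries κ) = 0 := by
        have h5 : (q : LaurentSeries κ) = algebraMap κ (LaurentSeries κ) (q : κ) :=
          (map_natCast _ _).symm
        rw [h5, CharP.cast_eq_zero, map_zero]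
      rw [h4, zero_sub]
    rw [nsmul_eq_mul, h3, neg_one_mul]
  obtain ⟨h3, h4⟩ := h2
  rw [← h4]
  exact res₁_mem A π hπ N q hqN harch ⟨T, h3⟩

theorem delta_ne' : delta κ q ≠ 0 := delta_ne κ q

include hπ harch hA in
/-- **Residues at the middle component** -/
theorem vOne_mem {f : modularFunctionFieldFullC Qb (N * q * q)}
    (hf : f ∈ fixF (IΓ A (N * q * q))) {b : LaurentSeries κ}
    (h : GR A π (psi2 Qb N hqN v hv f) b) : b ∈ modularFunctionFieldFullC κ N := by
  have hψ : IsTameHom (modularFunctionFieldFullC Qb (N * q * q)).val :=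
    isTameHom_val (isTameField_full (N * q * q))
  have hh : GR A π (hKX Qb N q : LaurentSeries Qb) 0 := GR_hKX
  obtain ⟨M, hM, eM⟩ := ResVal.exists_pow_mul harch
    (mkResVal A π hψ (⊤ : IntermediateField κ (LaurentSeries κ)) (fun _ => trivial))
    (x := f) (y := hKX Qb N q) hh.1 (Subtype.ext hh.2)
  have h0 : GR A π ((hKX Qb N q ^ M * f : modularFunctionFieldFullC Qb (N * q * q)) :
      LaurentSeries Qb) 0 := ⟨hM, congrArg Subtype.val eM⟩
  have h1 : GR A π (psi2 Qb N hqN v hv (hKX Qb N q ^ M * f)) (delta κ q ^ M * b) := by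
    rw [map_mul, map_pow]
    exact ((GR_psi2_hKX π hqN hv).pow M).mul h
  have h2 := sub_mem_full π hπ harch hqN hA hv
    ((fixF _).mul_mem ((fixF _).pow_mem hKX_mem_fixF M) hf) h0 h1
  rw [zero_sub] at h2
  have h3 : b = -(-(delta κ q ^ M * b)) / delta κ q ^ M := by
    rw [neg_neg, mul_div_cancel_left₀ _ (pow_ne_zero _ (delta_ne κ q))]
  rw [h3]
  exact div_mem (neg_mem h2) (pow_mem (delta_mem N q) M)

include hπ harch hA hqN in
/-- **Residues of rational functions at the component `0`** -/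
theorem res_mem₀ {f : modularFunctionFieldFullC Qb (N * q * q)}
    (hf : f ∈ fixF (IΓ A (N * q * q))) {a : LaurentSeries κ}
    (h : GR A π (f : LaurentSeries Qb) a) : a ∈ modularFunctionFieldFullC κ N := by
  obtain ⟨v, hv⟩ := exists_primitiveRoot_unit (K := Qb) hq.out (cast_ne_zero_Lr Qb q)
  have hψ : IsTameHom (psi2 Qb N hqN v hv) := isTameHom_psi _ _ _ _ _
  have hh := GR_psi2_epsX (N := N) π hqN hv
  obtain ⟨M, hM, eM⟩ := ResVal.exists_pow_mul harch
    (mkResVal A π hψ (⊤ : IntermediateField κ (LaurentSeries κ)) (fun _ => trivial))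
    (x := f) (y := epsX Qb N q) hh.1 (Subtype.ext hh.2)
  have h0 : GR A π (psi2 Qb N hqN v hv (epsX Qb N q ^ M * f)) 0 :=
    ⟨hM, congrArg Subtype.val eM⟩
  have h1 : GR A π ((epsX Qb N q ^ M * f : modularFunctionFieldFullC Qb (N * q * q)) :
      LaurentSeries Qb) ((-delta κ q) ^ M * a) := by
    push_cast
    exact (GR_epsX.pow M).mul h
  have h2 := sub_mem_full π hπ harch hqN hA hv
    ((fixF _).mul_mem ((fixF _).pow_mem epsX_mem_fixF M) hf) h1 h0
  rw [sub_zero] at h2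
  have h3 : a = (-delta κ q) ^ M * a / (-delta κ q) ^ M := by
    rw [mul_div_cancel_left₀ _ (pow_ne_zero _ (neg_ne_zero.mpr (delta_ne κ q)))]
  rw [h3]
  exact div_mem h2 (pow_mem (neg_mem (delta_mem N q)) M)

include hv in
omit [IsAlgClosed κ] in
theorem zpow_sub_one_div_mem (n : ℤ) : (((v ^ n : Qbˣ) : Qb) - 1) / ((v : Qb) - 1) ∈ A := by
  have hv' : IsPrimitiveRoot (v : Qb) q := IsPrimitiveRoot.coe_units_iff.mpr hv
  have hm : (v : Qb) ∈ A := zeta_mem hv'
  have hne : (v : Qb) - 1 ≠ 0 := zeta_sub_one_ne hv'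
  have hq' : (0 : ℤ) < q := by exact_mod_cast hq.out.pos
  have h1 := Int.emod_nonneg n hq'.ne'
  have h3 : v ^ n = v ^ (n % q).toNat := by
    conv_lhs => rw [← Int.emod_add_mul_ediv n q, zpow_add, zpow_mul, zpow_natCast, hv.pow_eq_one,
      one_zpow, mul_one]
    rw [← zpow_natCast, Int.toNat_of_nonneg h1]
  rw [h3, Units.val_pow_eq_pow_val, ← mul_geom_sum, mul_div_cancel_left₀ _ hne]
  exact sum_mem fun i _ => pow_mem hm i

omit [IsAlgClosed κ] in
/-- the expansion of the uniformizer at the middle component -/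
theorem exists_GR_epsX : ∃ t : LaurentSeries κ, t ≠ 0 ∧
    GR A π (algebraMap Qb (LaurentSeries Qb) ((v : Qb) - 1)⁻¹ *
      psi2 Qb N hqN v hv (epsX Qb N q)) t := by
  have hv' : IsPrimitiveRoot (v : Qb) q := IsPrimitiveRoot.coe_units_iff.mpr hv
  have hne : (v : Qb) - 1 ≠ 0 := zeta_sub_one_ne hv'
  have e1 : psi2 Qb N hqN v hv (epsX Qb N q) = ModPoly.twist v (jqModC Qb) - jqModC Qb := by
    rw [epsX, map_sub, psi2_be, psi2_al, ww_jrE]
    rfl
  have hc : ∀ n : ℤ, ((jqModC Qb).coeff n : Qb) = ((jqModC A).coeff n : A) := by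
    intro n
    have h1 := congrArg (fun z : LaurentSeries Qb => z.coeff n) (coeffMap_jqModC A.subtype)
    simp only [coeffMap_coeff] at h1
    exact h1.symm
  have hcoef : ∀ n : ℤ, (algebraMap Qb (LaurentSeries Qb) ((v : Qb) - 1)⁻¹ *
      psi2 Qb N hqN v hv (epsX Qb N q)).coeff n =
      ((((v ^ n : Qbˣ) : Qb) - 1) / ((v : Qb) - 1)) * (((jqModC A).coeff n : A) : Qb) := by
    intro n
    rw [Igusa.coeff_algebraMap_mul, e1, HahnSeries.coeff_sub, ModPoly.twist_coeff, hc n]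
    field_simp
  obtain ⟨P, hP⟩ := exists_lift_of_coeff_mem A
    (x := algebraMap Qb (LaurentSeries Qb) ((v : Qb) - 1)⁻¹ *
      psi2 Qb N hqN v hv (epsX Qb N q)) (fun n => by
        rw [hcoef]
        exact mul_mem (zpow_sub_one_div_mem hv n) ((jqModC A).coeff n).2)
  refine ⟨coeffMap π P, ?_, (GR.emb P).congr hP rfl⟩
  intro h0
  obtain ⟨w, hw, hw1⟩ := exists_unit_zeta π q hv
  have h1 := congrArg (fun z : LaurentSeries κ => z.coeff (-1)) h0
  simp only [coeffMap_coeff, HahnSeries.coeff_zero] at h1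
  have h2 : P.coeff (-1) = -((w⁻¹ : Aˣ) : A) := by
    apply Subtype.ext
    have h3 := congrArg (fun z : LaurentSeries Qb => z.coeff (-1)) hP
    simp only [coeffMap_coeff] at h3
    have h4 : ((P.coeff (-1) : A) : Qb) = _ := h3
    rw [h4, hcoef, coeff_jqModC_neg_one]
    have h5 : (((w⁻¹ : Aˣ) : A) : Qb) = (v : Qb)⁻¹ := by
      apply eq_inv_of_mul_eq_one_left
      rw [← hw]
      exact congrArg Subtype.val w.inv_mul
    push_cast
    rw [h5, zpow_neg_one]
    have hv0 : (v : Qb) ≠ 0 := v.ne_zero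
    field_simp
    ring
  rw [h2, map_neg, neg_eq_zero] at h1
  exact (IsUnit.map π w⁻¹.isUnit).ne_zero h1

include hA in
/-- **Scaling at the middle component** -/
theorem vOne_scale {f : modularFunctionFieldFullC Qb (N * q * q)}
    (hf : f ∈ fixF (IΓ A (N * q * q))) (hf0 : f ≠ 0) :
    ∃ (n : ℤ) (b : LaurentSeries κ), b ≠ 0 ∧
      GR A π (psi2 Qb N hqN v hv (epsX Qb N q ^ (-n) * f)) b := by
  have hv' : IsPrimitiveRoot (v : Qb) q := IsPrimitiveRoot.coe_units_iff.mpr hv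
  have hne : (v : Qb) - 1 ≠ 0 := zeta_sub_one_ne hv'
  set Γ' : Set (Qb ≃+* Qb) := {σ | σ ∈ inertΓ A ∧ σ (v : Qb) = v} with hΓ'
  have h1 : psi2 Qb N hqN v hv f ∈ tfSub Qb Γ' :=
    psi2_mem_tf hqN hv (Γ₀ := inertΓ A) (fun σ hσ => hσ.1) (fun σ hσ => hσ.2)
      (mem_fixF_coefΓ.mp hf)
  have h2 : psi2 Qb N hqN v hv f ≠ 0 := by rwa [Ne, map_eq_zero]
  obtain ⟨c, hc, hc0, b, hb, h3⟩ := exists_scale_tf (A := A) (π := π) h1 h2
  obtain ⟨n, u, hu, hcu⟩ := exists_unif_zeta π hA hv' c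
    (fun σ hσ hσv => hc σ ⟨hσ, hσv⟩) hc0
  obtain ⟨t, ht, h4⟩ := exists_GR_epsX (N := N) π hqN hv
  have hu0 : (u : Qb) ≠ 0 := by
    intro h0
    apply hu
    rw [show u = 0 from Subtype.ext h0, map_zero]
  have hu' : algebraMap κ (LaurentSeries κ) (π u) ≠ 0 := by rwa [Ne, map_eq_zero]
  refine ⟨-n, t ^ n * ((algebraMap κ (LaurentSeries κ) (π u))⁻¹ * b),
    mul_ne_zero (zpow_ne_zero _ ht) (mul_ne_zero (inv_ne_zero hu') hb), ?_⟩
  refine ((h4.zpow ht n).mul (((GR.cst (π := π) u).inv hu').mul h3)).congr ?_ rfl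
  rw [neg_neg, map_mul, map_zpow₀, hcu, mul_zpow, ← map_zpow₀, ← map_inv₀]
  have h5 : algebraMap Qb (LaurentSeries Qb) (((v : Qb) - 1)⁻¹ ^ n) *
      (algebraMap Qb (LaurentSeries Qb) (u : Qb)⁻¹ *
        algebraMap Qb (LaurentSeries Qb) (((v : Qb) - 1) ^ n * u)) = 1 := by
    rw [← map_mul, ← map_mul, ← map_one (algebraMap Qb (LaurentSeries Qb))]
    congr 1
    rw [inv_zpow]
    have := zpow_ne_zero n hne
    field_simp
  calc _ = (algebraMap Qb (LaurentSeries Qb) (((v : Qb) - 1)⁻¹ ^ n) *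
      (algebraMap Qb (LaurentSeries Qb) (u : Qb)⁻¹ *
        algebraMap Qb (LaurentSeries Qb) (((v : Qb) - 1) ^ n * u))) *
      (psi2 Qb N hqN v hv (epsX Qb N q) ^ n * psi2 Qb N hqN v hv f) := by ring
    _ = _ := by rw [h5, one_mul]

/-- `q` has valuation `q - 1` at the middle component -/
theorem vOne_q : ∃ b : LaurentSeries κ, b ≠ 0 ∧
    GR A π (psi2 Qb N hqN v hv (epsX Qb N q ^ (-((q - 1 : ℕ) : ℤ)) *
      algebraMap Qb (modularFunctionFieldFullC Qb (N * q * q)) (q : Qb))) b := by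
  have hv' : IsPrimitiveRoot (v : Qb) q := IsPrimitiveRoot.coe_units_iff.mpr hv
  have hne : (v : Qb) - 1 ≠ 0 := zeta_sub_one_ne hv'
  obtain ⟨u, hu, hvu⟩ := zeta_sub_one_pow (q := q) π hv'
  obtain ⟨t, ht, h4⟩ := exists_GR_epsX (N := N) π hqN hv
  have hu0 : (u : Qb) ≠ 0 := by
    intro h0
    apply hu
    rw [show u = 0 from Subtype.ext h0, map_zero]
  have hu' : algebraMap κ (LaurentSeries κ) (π u) ≠ 0 := by rwa [Ne, map_eq_zero]
  refine ⟨t ^ (-((q - 1 : ℕ) : ℤ)) * (algebraMap κ (LaurentSeries κ) (π u))⁻¹,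
    mul_ne_zero (zpow_ne_zero _ ht) (inv_ne_zero hu'), ?_⟩
  refine ((h4.zpow ht _).mul ((GR.cst (π := π) u).inv hu')).congr ?_ rfl
  have h5 : algebraMap Qb (LaurentSeries Qb) (q : Qb) =
      algebraMap Qb (LaurentSeries Qb) ((v : Qb) - 1) ^ (q - 1) *
        (algebraMap Qb (LaurentSeries Qb) (u : Qb))⁻¹ := by
    rw [← map_pow, hvu, map_mul, mul_assoc, mul_inv_cancel₀, mul_one]
    rwa [Ne, map_eq_zero]
  rw [map_mul, map_zpow₀, AlgHom.commutes, h5, mul_zpow, map_inv₀, inv_zpow, zpow_neg,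
    zpow_natCast, inv_inv]
  ring

include hv in
omit [IsAlgClosed κ] in
theorem epsX_ne_zero : epsX Qb N q ≠ 0 := by
  intro h0
  have e1 : (epsX Qb N q : LaurentSeries Qb) =
      qExpand Qb q (qExpand Qb q (jqModC Qb)) - jqModC Qb := by
    rw [epsX]
    push_cast
    rw [coe_be, coe_al]
    rfl
  rw [h0] at e1
  have h1 := congrArg (fun z : LaurentSeries Qb => z.coeff (-1)) e1
  have hq2 := hq.out.two_le
  have h2 : (qExpand Qb q (qExpand Qb q (jqModC Qb))).coeff (-1) = 0 := by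
    apply qExpand_coeff_of_not_dvd
    intro hd
    have h3 : (q : ℤ) ∣ 1 := by simpa using hd
    have := Int.le_of_dvd one_pos h3
    omega
  simp only [HahnSeries.coeff_sub, h2, coeff_jqModC_neg_one] at h1
  have h4 : ((0 : modularFunctionFieldFullC Qb (N * q * q)) : LaurentSeries Qb).coeff (-1) = 0 := rfl
  rw [h4] at h1
  exact one_ne_zero (α := Qb) (by linear_combination h1)

/-- **The discrete valuation of the middle component.** -/
def rvOne : RV (fixF (IΓ A (N * q * q))) (modularFunctionFieldFullC κ N) :=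
  rvPsi (psi2 Qb N hqN v hv) (modularFunctionFieldFullC κ N) (epsX Qb N q) epsX_mem_fixF
    (epsX_ne_zero hv) (GR_psi2_epsX π hqN hv)
    (fun _ hf h => vOne_mem π hπ harch hqN hA hv hf ⟨h, rfl⟩)
    (fun _ hf hf0 => vOne_scale π hqN hA hv hf hf0)

theorem rvOne_ε : (rvOne π hπ harch hqN hA hv).ε = epsX Qb N q := rfl

theorem rvOne_LR {n : ℤ} {f : modularFunctionFieldFullC Qb (N * q * q)}
    {a : modularFunctionFieldFullC κ N} :
    (rvOne π hπ harch hqN hA hv).LR n f a ↔ f ∈ fixF (IΓ A (N * q * q)) ∧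
      GR A π (psi2 Qb N hqN v hv (epsX Qb N q ^ (-n) * f)) (a : LaurentSeries κ) :=
  rvPsi_LR _ _ _ _ _ _ _ _

theorem rvOne_LR_zero {f : modularFunctionFieldFullC Qb (N * q * q)}
    {a : modularFunctionFieldFullC κ N} :
    (rvOne π hπ harch hqN hA hv).LR 0 f a ↔ f ∈ fixF (IΓ A (N * q * q)) ∧
      GR A π (psi2 Qb N hqN v hv f) (a : LaurentSeries κ) :=
  rvPsi_LR_zero _ _ _ _ _ _ _ _

/-- `q` has valuation `q - 1` -/
theorem rvOne_q : ∃ η : modularFunctionFieldFullC κ N, η ≠ 0 ∧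
    (rvOne π hπ harch hqN hA hv).LR ((q - 1 : ℕ) : ℤ)
      (algebraMap Qb (modularFunctionFieldFullC Qb (N * q * q)) (q : Qb)) η := by
  obtain ⟨b, hb, h⟩ := vOne_q (N := N) π hqN hv
  have hq0 : (q : Qb) ∈ fix₀ (inertΓ A) := fun σ _ => map_natCast σ q
  have hqF : algebraMap Qb (modularFunctionFieldFullC Qb (N * q * q)) (q : Qb) ∈
      fixF (IΓ A (N * q * q)) := algebraMap_mem_fixF (mem_fixL_coefΓ.mpr hq0)
  have h1 := vOne_mem π hπ harch hqN hA hv
    ((fixF _).mul_mem (zpow_mem epsX_mem_fixF (-((q - 1 : ℕ) : ℤ))) hqF) h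
  refine ⟨⟨b, h1⟩, fun h0 => hb (congrArg Subtype.val h0), ?_⟩
  rw [rvOne_LR]
  exact ⟨hqF, h⟩

end OQ

end Fermat.Agent.Car

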