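import Fermat.Agent.Car.Val
import Fermat.Agent.Car.ValOne
import Fermat.Agent.Car.PushX

/-!
# Project CAR, block C7: the system of valuations of `X₀(N q²)`
-/

set_option autoImplicit false
set_option linter.unusedSectionVars false

noncomputable section

open AlgebraicCurve Module ModularCurve HahnSeries IntermediateField

namespace Fermat.Agent.Car

open Fermat.Agent.Igusa Fermat.Agent.BadRed Fermat.Agent.ModPoly Fermat.Agent.HeckeRed
  Fermat.Agent.FunField

local notation "Qb" => AlgebraicClosure ℚ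

variable {A : ValuationSubring Qb}
  {κ : Type*} [Field κ] [IsAlgClosed κ] (π : A →+* κ) [IsLocalHom π]
  (hπ : Function.Surjective π) (harch : ArchA π)
  (N q : ℕ) [hq : Fact q.Prime] [hN : NeZero N] [CharP κ q] (hqN : ¬ q ∣ N)
  (hA : A.LiesOverPrime q) (v : Qbˣ) (hv : IsPrimitiveRoot v q)

include hπ harch hA in
variable {N q v} in
/-- the inputs about residues and scaling -/
theorem vIn : VIn (N := N) π hqN hv where
  mem0 := fun _ hf h => res_mem₀ π hπ harch hqN hA hf ⟨h, rfl⟩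
  mem1 := fun _ hf h => vOne_mem π hπ harch hqN hA hv hf ⟨h, rfl⟩
  eps := by
    obtain ⟨t, ht, h⟩ := exists_GR_epsX (N := N) π hqN hv
    exact ⟨t, ht, h.congr (by rw [map_inv₀, mul_comm]; rfl) rfl⟩
  scale1 := fun _ hf hf0 => vOne_scale π hqN hA hv hf hf0

section

variable {π hπ harch N q hqN hA v hv}
variable {n : ℤ} {f : modularFunctionFieldFullC Qb (N * q * q)} {a : modularFunctionFieldFullC κ N}
  {I : VIn π hqN hv}

omit [IsLocalHom π] in
theorem psi_qF (ψ : modularFunctionFieldFullC Qb (N * q * q) →ₐ[Qb] LaurentSeries Qb)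
    (n : ℤ) (f : modularFunctionFieldFullC Qb (N * q * q)) :
    ψ (qF N q ^ n * f) = algebraMap Qb (LaurentSeries Qb) ((q : Qb) ^ n) * ψ f := by
  rw [map_mul, map_zpow₀, map_zpow₀, qF, AlgHom.commutes]

omit [IsAlgClosed κ] [IsLocalHom π] in
theorem gr_cst_psi (ψ : modularFunctionFieldFullC Qb (N * q * q) →ₐ[Qb] LaurentSeries Qb) (a : A) :
    GR A π (ψ (algebraMap Qb _ (a : Qb))) ((algebraMap κ (modularFunctionFieldFullC κ N) (π a) :
      modularFunctionFieldFullC κ N) : LaurentSeries κ) := by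
  rw [AlgHom.commutes]
  exact GR.cst a

omit [IsLocalHom π] [IsAlgClosed κ] in
theorem gr_qF_one (ψ : modularFunctionFieldFullC Qb (N * q * q) →ₐ[Qb] LaurentSeries Qb) :
    GR A π (ψ (qF N q ^ (-1 : ℤ) * qF N q)) ((1 : modularFunctionFieldFullC κ N) :
      LaurentSeries κ) := by
  have h : qF N q ^ (-1 : ℤ) * qF N q = 1 := by
    rw [zpow_neg_one, inv_mul_cancel₀ qF_ne]
  rw [h, map_one]
  exact GR.one

end

/-- **The system of valuations of `X₀(N q²)`.** -/
def sysX : Sys Qb κ (modularFunctionFieldFullC Qb (N * q * q)) (modularFunctionFieldFullC κ N) :=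
  have hg : IsGalois ℚ Qb := {}
  { A := A
    π := π
    Γ := IΓ A (N * q * q)
    π_surj := hπ
    π_ker := BadRed.pi_ker A π
    ϖ := (q : Qb)
    ϖ_mem := by
      have h := (q : A).2
      push_cast at h
      exact h
    ϖ_ne := Nat.cast_ne_zero.mpr hq.out.ne_zero
    ϖ_res := by
      have h2 : π (q : A) = 0 := by rw [map_natCast, CharP.cast_eq_zero]
      rw [← h2]
      congr 1
    ϖ_fix := mem_fixL_coefΓ.mpr (natCast_mem_fix₀ q)
    unif := fun c hc hc0 => by
      obtain ⟨n, u, hu, h⟩ := (constForm A π hπ hq.out hA).unif c (mem_fixL_coefΓ.mp hc) hc0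
      refine ⟨n, u, hu, ?_⟩
      have h1 : (((constForm A π hπ hq.out hA).ϖ : A) : Qb) = (q : Qb) := by
        show (((q : A)) : Qb) = _
        push_cast
        rfl
      rw [h1] at h
      exact h
    lift := fun x => by
      obtain ⟨a, ha, h⟩ := (constForm A π hπ hq.out hA).lift x
      exact ⟨a, mem_fixL_coefΓ.mpr ha, h⟩
    arch := fun a ha => arch_q π harch q a ha
    V := rvs π hπ hqN hA hv (vIn π hπ harch hqN hA hv)
    e := ![1, q - 1, 1]
    e_pos := fun i => by
      have h2 := hq.out.two_le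
      fin_cases i
      · exact one_pos
      · show 0 < q - 1
        omega
      · exact one_pos
    cst := fun i a ha => by
      have h1 : algebraMap Qb (modularFunctionFieldFullC Qb (N * q * q)) (a : Qb) ∈
          fixF (IΓ A (N * q * q)) := algebraMap_mem_fixF ha
      fin_cases i
      · exact (rv0_LR_zero (hπ := hπ) (hA := hA) (vIn π hπ harch hqN hA hv)).mpr ⟨h1, gr_cst_psi (emb0 Qb N q) a⟩
      · exact (rv1_LR_zero (vIn π hπ harch hqN hA hv)).mpr ⟨h1, gr_cst_psi _ a⟩
      · exact (rv2_LR_zero (hπ := hπ) (hA := hA) (vIn π hπ harch hqN hA hv)).mpr ⟨h1, gr_cst_psi (emb2 hqN) a⟩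
    η := ![1, (exists_eta π hqN hv (vIn π hπ harch hqN hA hv)).choose, 1]
    η_ne := fun i => by
      fin_cases i
      · exact one_ne_zero
      · exact (exists_eta π hqN hv (vIn π hπ harch hqN hA hv)).choose_spec.1
      · exact one_ne_zero
    LR_ϖ := fun i => by
      fin_cases i
      · exact (rv0_LR (hπ := hπ) (hA := hA) (vIn π hπ harch hqN hA hv)).mpr ⟨qF_mem, gr_qF_one (emb0 Qb N q)⟩
      · exact (exists_eta π hqN hv (vIn π hπ harch hqN hA hv)).choose_spec.2
      · exact (rv2_LR (hπ := hπ) (hA := hA) (vIn π hπ harch hqN hA hv)).mpr ⟨qF_mem, gr_qF_one (emb2 hqN)⟩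
    surj := surj_rvs π hπ hqN hA hv (vIn π hπ harch hqN hA hv)
    bdd := fun W hW l => by
      obtain ⟨c, hc, h⟩ := bdd_gauss π (N * q * q) W hW l
      refine ⟨c, hc, fun f hf hf' => h f hf ?_⟩
      obtain ⟨a, ha⟩ := RV.Ge.exists_LR hf'
      exact ((rv0_LR_zero (hπ := hπ) (hA := hA) (vIn π hπ harch hqN hA hv)).mp ha).2.mem
    rat := fun W hW hst => rat_span (N * q * q) A W hW hst }

section Interface

variable {π hπ harch N q hqN hA v hv}

theorem sysX_Γ : (sysX π hπ harch N q hqN hA v hv).Γ = IΓ A (N * q * q) := rfl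

theorem sysX_ϖ : (sysX π hπ harch N q hqN hA v hv).ϖ = (q : Qb) := rfl

theorem sysX_e : (sysX π hπ harch N q hqN hA v hv).e = ![1, q - 1, 1] := rfl

theorem sysX_A : (sysX π hπ harch N q hqN hA v hv).A = A := rfl

theorem sysX_π : (sysX π hπ harch N q hqN hA v hv).π = π := rfl

/-- comparison with the Gauss valuations -/
theorem isGaussSys_sysX : IsGaussSys hqN π hv (sysX π hπ harch N q hqN hA v hv) where
  e_eq := rfl
  η0 := rfl
  η2 := rfl
  ϖ_eq := rfl
  LR0 := fun _ _ hf h => (rv0_LR_zero (hπ := hπ) (hA := hA) (vIn π hπ harch hqN hA hv)).mpr ⟨hf, h⟩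
  LR1 := fun _ _ hf h => (rv1_LR_zero (vIn π hπ harch hqN hA hv)).mpr ⟨hf, h⟩
  LR2 := fun _ _ hf h => (rv2_LR_zero (hπ := hπ) (hA := hA) (vIn π hπ harch hqN hA hv)).mpr ⟨hf, h⟩

/-- comparison with the Gauss valuations -/
theorem gaussLR_sysX : GaussLR π hqN (sysX π hπ harch N q hqN hA v hv) v hv where
  Γ_eq := rfl
  ϖ_eq := rfl
  e_eq := rfl
  LR0 := fun {n f a} h => by
    have h1 := ((rv0_LR (hπ := hπ) (hA := hA) (vIn π hπ harch hqN hA hv)).mp h).2
    rw [psi_qF] at h1
    exact h1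
  LR1 := fun {f a} h => ((rv1_LR_zero (vIn π hπ harch hqN hA hv)).mp h).2
  LR2 := fun {n f a} h => by
    have h1 := ((rv2_LR (hπ := hπ) (hA := hA) (vIn π hπ harch hqN hA hv)).mp h).2
    rw [psi_qF] at h1
    exact h1
  cst := fun a _ => ⟨a, rfl, rfl⟩

end Interface

end Fermat.Agent.Car
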