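import Fermat.Agent.Car.PenG
import Fermat.Agent.Car.Newton

/-!
# Torsion classes with a trivialisation modulo the radical are principal
-/

set_option autoImplicit false
set_option linter.unusedSectionVars false

noncomputable section

open AlgebraicCurve Module

namespace Fermat.Agent.Car

open Fermat.Agent.FunField Fermat.Agent.FunField.PlaceLemmas Fermat.Agent.Deuring
  Fermat.Agent.BadRed

variable {L k F F₁ : Type*} [Field L] [Field k] [Field F] [Field F₁] [Algebra L F] [Algebra k F₁]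
variable (S : Sys L k F F₁)

/-- the elements of valuation `≥ s` -/
def Sys.lvl (s : Fin 3 → ℤ) : AddSubgroup F where
  carrier := {f | S.Ge s f}
  zero_mem' := Sys.Ge.zero S s
  add_mem' := fun h h' => h.add h'
  neg_mem' := fun h => h.neg

theorem Sys.mem_lvl {s : Fin 3 → ℤ} {f : F} : f ∈ S.lvl s ↔ S.Ge s f := Iff.rfl

/-- the integral elements -/
def Sys.B : Subring F where
  carrier := {f | S.Ge 0 f}
  zero_mem' := Sys.Ge.zero S 0
  one_mem' := fun i => (RV.LR.one (S.V i)).ge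
  add_mem' := fun h h' => h.add h'
  neg_mem' := fun h => h.neg
  mul_mem' := fun h h' => by
    have := Sys.Ge.mul h h'
    rwa [add_zero] at this

theorem Sys.mem_B {f : F} : f ∈ S.B ↔ S.Ge 0 f := Iff.rfl

theorem Sys.lvl_spec {s s' : Fin 3 → ℤ} (h0 : 0 ≤ s) (h : s ≤ s') (h' : s' ≤ s + s) :
    Lvl S.B (S.lvl s) (S.lvl s') where
  le _ hx := Sys.Ge.lower hx h
  leB _ hx := Sys.Ge.lower hx h0
  mulB x hx y hy := by
    have := Sys.Ge.mul hx hy
    rwa [zero_add] at this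
  mulB' x hx y hy := by
    have := Sys.Ge.mul hx hy
    rwa [zero_add] at this
  sq x hx y hy := (Sys.Ge.mul hx hy).lower h'

variable {S}

/-- divisibility by a power of the uniformizer -/
theorem Sys.divBy {s : Fin 3 → ℤ} {m : ℕ} (h : ∀ j, (m : ℤ) * S.e j ≤ s j) {x : F}
    (hx : S.Ge s x) : DivBy S.B (S.ϖ ^ m) x := by
  refine ⟨(S.ϖ ^ (-(m : ℤ)) : L) • x, ?_, ?_⟩
  · intro j
    have h1 := S.ϖ_smul_ge (hx j) (-(m : ℤ))
    refine h1.lower ?_
    have := h j
    rw [Pi.zero_apply]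
    linarith
  · rw [Algebra.smul_def, ← mul_assoc, ← map_mul, zpow_neg, zpow_natCast,
      mul_inv_cancel₀ (pow_ne_zero m S.ϖ_ne), map_one, one_mul]

/-- coordinates with values in `A` -/
theorem Sys.exists_coord (W : Submodule L F) [FiniteDimensional L W] :
    ∃ (b : Fin (finrank L W) → F) (l : Fin (finrank L W) → F →ₗ[L] L), (∀ i, b i ∈ W) ∧
      (∀ f ∈ W, f = ∑ i, l i f • b i) ∧ ∀ f ∈ W, (S.V 0).Ge 0 f → ∀ i, l i f ∈ S.A := by
  classical
  let b := finBasis L W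
  have hl : ∀ i, ∃ l : F →ₗ[L] L, ∀ w : W, l (w : F) = b.coord i w := by
    intro i
    obtain ⟨l, hl⟩ := (b.coord i).exists_extend
    exact ⟨l, fun w => LinearMap.congr_fun hl w⟩
  choose l hl using hl
  have hc := fun i => S.bdd W inferInstance (l i)
  choose c hc0 hc using hc
  refine ⟨fun i => (c i)⁻¹ • (b i : F), fun i => c i • l i, fun i => W.smul_mem _ (b i).2, ?_, ?_⟩
  · intro f hf
    have h1 := b.sum_repr ⟨f, hf⟩
    have h2 := congrArg (fun w : W => (w : F)) h1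
    simp only [Submodule.coe_sum, Submodule.coe_smul] at h2
    refine h2.symm.trans (Finset.sum_congr rfl fun i _ => ?_)
    rw [LinearMap.smul_apply, smul_eq_mul, smul_smul, mul_right_comm, mul_inv_cancel₀ (hc0 i),
      one_mul, hl i ⟨f, hf⟩, Basis.coord_apply]
  · intro f hf hf0 i
    exact hc i f hf hf0

/-- units of `A` -/
theorem Sys.inv_natCast {n : ℕ} (hnk : (n : k) ≠ 0) :
    (n : L) ≠ 0 ∧ (n : F)⁻¹ ∈ S.B := by
  have hnA : (n : L) ∈ S.A := natCast_mem S.A n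
  have hnu : IsUnit (⟨(n : L), hnA⟩ : S.A) := by
    by_contra h
    have h1 := (S.π_ker _).mpr h
    have h2 : (⟨(n : L), hnA⟩ : S.A) = (n : S.A) := Subtype.ext (by simp)
    rw [h2, map_natCast] at h1
    exact hnk h1
  obtain ⟨n', hn'⟩ := hnu.exists_right_inv
  have hn'' : (n : L) * (n' : L) = 1 := congrArg Subtype.val hn'
  have hnL : (n : L) ≠ 0 := left_ne_zero_of_mul_eq_one hn''
  have h1 : (n' : L) = (n : L)⁻¹ := by field_simp; linear_combination hn''
  have hfix : (n' : L) ∈ fixL S.Γ := by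
    rw [h1]
    exact (fixL S.Γ).inv_mem (natCast_mem _ n)
  refine ⟨hnL, fun i => ?_⟩
  have h2 := (S.cst i n' hfix).ge
  rw [h1, map_inv₀, map_natCast] at h2
  exact h2

variable (p : Pen S) [HasPrincipalDivisors L F]

/-- the spaces of the Newton iteration -/
def NTors.sys {n : ℕ} (hn : n ≠ 0) (τ : NTors S n) (M : ℕ) : NSys L n τ.f :=
  have hn1 : 1 ≤ n := Nat.one_le_iff_ne_zero.mpr hn
  have hf0 : τ.f ≠ 0 := (τ.LR_f 0).ne_zero one_ne_zero
  have hpm : ∀ (a b' : ℕ) (x : F), x ∈ riemannRochSpace (p.G a b' + τ.D) →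
      x ^ n * (τ.f : F) ∈ riemannRochSpace (p.G (n * a) (n * b') + 0) := by
    intro a b' x hx
    have h1 := pow_mem_rr hx n
    have h3 : (τ.f : F) ∈ riemannRochSpace (-(n • τ.D)) := by
      rw [mem_rr_of_ne hf0]
      intro v
      rw [← τ.hD v, Finsupp.neg_apply, neg_neg, Finsupp.smul_apply, nsmul_eq_mul]
    have h4 := mul_mem_rr h1 h3
    have h5 : n • (p.G a b' + τ.D) + -(n • τ.D) = p.G (n * a) (n * b') + 0 := by
      rw [smul_add, p.G_smul]
      abel
    rwa [h5] at h4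
  have hpy : ∀ (a b' a' b'' : ℕ) (y x : F), y ∈ riemannRochSpace (p.G a b' + τ.D) →
      x ∈ riemannRochSpace (p.G a' b'' + τ.D) →
      y * x ^ (n - 1) * (τ.f : F) ∈ riemannRochSpace
        (p.G (a + (n - 1) * a') (b' + (n - 1) * b'') + 0) := by
    intro a b' a' b'' y x hy hx
    have h1 := pow_mem_rr hx (n - 1)
    have h2 := mul_mem_rr hy h1
    have h3 : (τ.f : F) ∈ riemannRochSpace (-(n • τ.D)) := by
      rw [mem_rr_of_ne hf0]
      intro v
      rw [← τ.hD v, Finsupp.neg_apply, neg_neg, Finsupp.smul_apply, nsmul_eq_mul]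
    have h4 := mul_mem_rr h2 h3
    have h5 : p.G a b' + τ.D + (n - 1) • (p.G a' b'' + τ.D) + -(n • τ.D)
        = p.G (a + (n - 1) * a') (b' + (n - 1) * b'') + 0 := by
      have h6 : n • τ.D = (n - 1) • τ.D + τ.D := by rw [← succ_nsmul, Nat.sub_add_cancel hn1]
      rw [← p.G_add, ← p.G_smul, smul_add, h6]
      abel
    rwa [h5] at h4
  have hpe : ∀ (a b' a' b'' : ℕ) (y x : F),
      y ∈ riemannRochSpace (p.G a b' + 0) →
      x ∈ riemannRochSpace (p.G a' b'' + τ.D) →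
      y * x ∈ riemannRochSpace (p.G (a + a') (b' + b'') + τ.D) := by
    intro a b' a' b'' y x hy hx
    rw [add_zero] at hy
    have h1 := mul_mem_rr hy hx
    rwa [← add_assoc, p.G_add] at h1
  have hmono : ∀ {a b' a' b'' : ℕ} (D : Divisor L F), a ≤ a' → b' ≤ b'' →
      riemannRochSpace (p.G a b' + D) ≤ riemannRochSpace (p.G a' b'' + D) := fun D h h' =>
    rr_mono (add_le_add_left (p.G_mono h h') _)
  have hle1 : M + (n - 1) * M ≤ n * M := by
    obtain ⟨l, hl⟩ : ∃ l, n = l + 1 := ⟨n - 1, by omega⟩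
    rw [hl, Nat.add_sub_cancel]; nlinarith
  { U := riemannRochSpace (p.G M 0 + τ.D)
    U' := riemannRochSpace (p.G 0 M + τ.D)
    V1 := riemannRochSpace (p.G (n * M) 0 + 0)
    V1' := riemannRochSpace (p.G 0 (n * M) + 0)
    W1 := riemannRochSpace (p.G M (n * M) + 0)
    W1' := riemannRochSpace (p.G (n * M) M + 0)
    E1 := riemannRochSpace (p.G M 0 + 0)
    E1' := riemannRochSpace (p.G 0 M + 0)
    X1 := riemannRochSpace (p.G (2 * M) 0 + τ.D)
    X1' := riemannRochSpace (p.G 0 (2 * M) + τ.D)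
    Y := riemannRochSpace (p.G M M + τ.D)
    hone := by rw [add_zero]; exact one_mem_rr (p.G_nonneg _ _)
    hone' := by rw [add_zero]; exact one_mem_rr (p.G_nonneg _ _)
    hUV := fun x hx => hpm M 0 x hx
    hUV' := fun x hx => hpm 0 M x hx
    hUY := hmono _ le_rfl (Nat.zero_le _)
    hUY' := hmono _ (Nat.zero_le _) le_rfl
    hVW := hmono _ (Nat.zero_le _) le_rfl
    hVW' := hmono _ le_rfl (Nat.zero_le _)
    hYW := fun y hy x hx => hmono _ (by simp) hle1 (hpy M M 0 M y x hy hx)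
    hYW' := fun y hy x hx => hmono _ hle1 (by simp) (hpy M M M 0 y x hy hx)
    hEX := fun y hy x hx => hmono _ (by omega) (by omega) (hpe M 0 M 0 y x hy hx)
    hEY := fun y hy x hx => hmono _ (by omega) (by omega) (hpe M 0 0 M y x hy hx)
    hEX' := fun y hy x hx => hmono _ (by omega) (by omega) (hpe 0 M 0 M y x hy hx)
    hEY' := fun y hy x hx => hmono _ (by omega) (by omega) (hpe 0 M M 0 y x hy hx) }

variable [IsFF L F] {g : ℤ}

/-- **Torsion classes with a trivialisation are principal.** -/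
theorem principal_of_approx [IsAlgClosed L] (hRR : RRLarge L F g) {n : ℕ} (hn : n ≠ 0)
    (hnk : (n : k) ≠ 0) (τ : NTors S n) {M : ℕ} (lev : ℕ → Fin 3 → ℤ) (h0 : lev 0 = 1)
    (hmono : ∀ r, lev r ≤ lev (r + 1)) (hdbl : ∀ r, lev (r + 1) ≤ lev r + lev r)
    (hcof : ∀ m : ℕ, ∃ r, ∀ j, (m : ℤ) * S.e j ≤ lev r j)
    (ip : ∀ D ∈ ({τ.D, 0} : Set (Divisor L F)), ∀ r, ∀ a b a' b' : ℕ, b ≤ b' → a' ≤ a →
      M ≤ a' + b → ∀ x ∈ riemannRochSpace (p.G a b + D) ⊔ riemannRochSpace (p.G a' b' + D),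
      S.Ge (lev (r + 1)) x → ∃ y ∈ riemannRochSpace (p.G a b + D), S.Ge (lev (r + 1)) y ∧
        ∃ z ∈ riemannRochSpace (p.G a' b' + D), S.Ge (lev (r + 1)) z ∧ x = y + z)
    {u u' : F} (hu : u ∈ riemannRochSpace (p.G M 0 + τ.D)) (hu1 : ∀ i, (S.V i).LR 0 u 1)
    (hu' : u' ∈ riemannRochSpace (p.G 0 M + τ.D)) (hu1' : ∀ i, (S.V i).LR 0 u' 1) :
    ∃ w : F, w ≠ 0 ∧ ∀ v : Place L F, τ.D v = v.ord w := by
  classical
  have hn1 : 1 ≤ n := Nat.one_le_iff_ne_zero.mpr hn
  have hMn : M ≤ n * M := Nat.le_mul_of_pos_left M hn1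
  obtain ⟨hnL, hnB⟩ := Sys.inv_natCast (S := S) hnk
  have hτD : τ.D ∈ ({τ.D, 0} : Set (Divisor L F)) := Set.mem_insert _ _
  have h0D : (0 : Divisor L F) ∈ ({τ.D, 0} : Set (Divisor L F)) :=
    Set.mem_insert_of_mem _ rfl
  have hone : (0 : Fin 3 → ℤ) ≤ 1 := by intro i; simp
  have hlev0 : ∀ r, (1 : Fin 3 → ℤ) ≤ lev r := by
    intro r
    induction r with
    | zero => exact h0.ge
    | succ r ih => exact ih.trans (hmono r)
  have hlev : ∀ r, Lvl S.B (S.lvl (lev r)) (S.lvl (lev (r + 1))) := fun r =>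
    S.lvl_spec (hone.trans (hlev0 r)) (hmono r) (hdbl r)
  -- intersection properties
  have key : ∀ D ∈ ({τ.D, 0} : Set (Divisor L F)), ∀ r, ∀ a b a' b' : ℕ, b ≤ b' → a' ≤ a →
      M ≤ a' + b →
      IP (S.lvl (lev r)) (S.lvl (lev (r + 1))) (riemannRochSpace (p.G a b + D)).toAddSubgroup
        (riemannRochSpace (p.G a' b' + D)).toAddSubgroup
        (riemannRochSpace (p.G a' b + D)).toAddSubgroup := by
    intro D hD r a b a' b' hb ha hM
    refine ip_of_surj (hlev r).le ?_ ?_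
    · rintro x ⟨hx, hx'⟩
      have h1 : x ∈ riemannRochSpace ((p.G a b + D) ⊓ (p.G a' b' + D)) := inf_mem_rr hx hx'
      rwa [p.G_inf ha hb] at h1
    · intro w hw hwI
      have hw' : w ∈ riemannRochSpace (p.G a b + D) ⊔ riemannRochSpace (p.G a' b' + D) := by
        obtain ⟨y, hy, z, hz, rfl⟩ := AddSubgroup.mem_sup.mp hw
        exact Submodule.add_mem _ (Submodule.mem_sup_left hy) (Submodule.mem_sup_right hz)
      obtain ⟨y, hy, hyI, z, hz, hzI, hsum⟩ := ip D hD r a b a' b' hb ha hM w hw' hwI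
      exact ⟨y, hy, hyI, z, hz, hzI, hsum⟩
  have key' : ∀ D ∈ ({τ.D, 0} : Set (Divisor L F)), ∀ r, ∀ a b a' b' : ℕ, b ≤ b' → a' ≤ a →
      M ≤ a' + b →
      IP (S.lvl (lev r)) (S.lvl (lev (r + 1))) (riemannRochSpace (p.G a' b' + D)).toAddSubgroup
        (riemannRochSpace (p.G a b + D)).toAddSubgroup
        (riemannRochSpace (p.G a' b + D)).toAddSubgroup := by
    intro D hD r a b a' b' hb ha hM
    refine ip_of_surj (hlev r).le ?_ ?_
    · rintro x ⟨hx, hx'⟩
      have h1 : x ∈ riemannRochSpace ((p.G a b + D) ⊓ (p.G a' b' + D)) := inf_mem_rr hx' hx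
      rwa [p.G_inf ha hb] at h1
    · intro w hw hwI
      have hw' : w ∈ riemannRochSpace (p.G a b + D) ⊔ riemannRochSpace (p.G a' b' + D) := by
        obtain ⟨y, hy, z, hz, rfl⟩ := AddSubgroup.mem_sup.mp hw
        exact Submodule.add_mem _ (Submodule.mem_sup_right hy) (Submodule.mem_sup_left hz)
      obtain ⟨y, hy, hyI, z, hz, hzI, hsum⟩ := ip D hD r a b a' b' hb ha hM w hw' hwI
      exact ⟨z, hz, hzI, y, hy, hyI, by rw [hsum, add_comm]⟩
  have hip : ∀ r, (τ.sys p hn M).IPs (S.lvl (lev r)) (S.lvl (lev (r + 1))) := fun r =>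
    { ip1 := key 0 h0D r (n * M) 0 M (n * M) (Nat.zero_le _) hMn (by omega)
      ip2 := key τ.D hτD r (2 * M) 0 M M (Nat.zero_le _) (by omega) (by omega)
      ip1' := key' 0 h0D r (n * M) M 0 (n * M) hMn (Nat.zero_le _) (by omega)
      ip2' := key' τ.D hτD r M M 0 (2 * M) (by omega) (Nat.zero_le _) (by omega) }
  -- the initial approximation
  have hraise : ∀ x : F, (∀ i, (S.V i).LR 0 x 0) → x ∈ S.lvl (lev 0) := by
    intro x hx i
    rw [h0]
    exact (hx i).raise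
  have hfB : τ.f ∈ S.B := fun i => (τ.LR_f i).ge
  have happ : (τ.sys p hn M).App S.B (S.lvl (lev 0)) := by
    refine ⟨u, hu, fun i => (hu1 i).ge, u', hu', fun i => (hu1' i).ge, ?_, ?_, ?_⟩
    · refine hraise _ fun i => ?_
      have h1 := (((hu1 i).pow n).mul (τ.LR_f i)).sub ((RV.LR.one (S.V i)).congr' (m := n * 0 + 0)
        (by simp) rfl rfl)
      exact h1.congr' (by simp) rfl (by simp)
    · refine hraise _ fun i => ?_
      have h1 := (((hu1' i).pow n).mul (τ.LR_f i)).sub ((RV.LR.one (S.V i)).congr' (m := n * 0 + 0)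
        (by simp) rfl rfl)
      exact h1.congr' (by simp) rfl (by simp)
    · refine hraise _ fun i => ?_
      exact ((hu1 i).sub (hu1' i)).congr' rfl rfl (sub_self _)
  -- coordinates
  have hfdU := finiteDimensional_rr hRR (p.G M 0 + τ.D)
  have hfdV := finiteDimensional_rr hRR (p.G (n * M) 0 + 0)
  obtain ⟨b, l, hb, hbl, hbA⟩ := Sys.exists_coord (S := S) (riemannRochSpace (p.G M 0 + τ.D))
  obtain ⟨b', l', hb', hbl', hbA'⟩ :=
    Sys.exists_coord (S := S) (riemannRochSpace (p.G (n * M) 0 + 0))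
  obtain ⟨w, -, hw⟩ := happ.root S.A hlev hip hfB hn hnL hnB S.ϖ_ne
    (fun m => by
      obtain ⟨r, hr⟩ := hcof m
      exact ⟨r, fun x hx => Sys.divBy hr hx⟩) S.arch b l' hb
    (fun x hx hxB => ⟨fun i => l i x, fun i => hbA x hx (hxB 0) i, hbl x hx⟩)
    (fun x hx hx0 => by
      rw [hbl' x hx]
      exact Finset.sum_eq_zero fun i _ => by rw [hx0 i, zero_smul])
    (fun x hx hxB i => hbA' x hx (hxB 0) i)
  have hw0 : w ≠ 0 := by
    rintro rfl
    rw [zero_pow hn, zero_mul] at hw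
    exact zero_ne_one hw
  have hf0 : τ.f ≠ 0 := (τ.LR_f 0).ne_zero one_ne_zero
  refine ⟨w⁻¹, inv_ne_zero hw0, fun v => ?_⟩
  have h1 := congrArg v.ord hw
  rw [v.ord_mul (pow_ne_zero n hw0) hf0, ord_pow, v.ord_one, ← τ.hD v] at h1
  have h3 := congrArg v.ord (mul_inv_cancel₀ hw0)
  rw [v.ord_mul hw0 (inv_ne_zero hw0), v.ord_one] at h3
  have hn' : (n : ℤ) ≠ 0 := by exact_mod_cast hn
  have h2 : (n : ℤ) * (v.ord w + τ.D v) = 0 := by linarith
  have h4 := (mul_eq_zero.mp h2).resolve_left hn'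
  omega

end Fermat.Agent.Car
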