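import Fermat.Agent.Car.Defs
import Fermat.Agent.Car.Num2
import Fermat.Agent.BadRed.KLConc

/-!
# Project CAR: the modular units `α u₀`, `β u₀` at level `N q²`
-/

set_option autoImplicit false
set_option linter.unusedSectionVars false

noncomputable section

open AlgebraicCurve Module IntermediateField ModularCurve HahnSeries

namespace Fermat.Agent.Car

open Fermat.Agent.FunField Fermat.Agent.FunField.PlaceLemmas Fermat.Agent.Deuring
  Fermat.Agent.BadRed Fermat.Agent.HeckeRed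

/-! ### the abstract constructor -/

section Abstract

variable {L k F F₁ : Type*} [Field L] [Field k] [Field F] [Field F₁] [Algebra L F] [Algebra k F₁]
  {S : Sys L k F F₁} {p : Pen S} {q : ℕ}

/-- leading terms of `a = α u₀`, `b = β u₀` -/
structure UnitLT (S : Sys L k F F₁) (q : ℕ) (a b : F) (ub : F₁) : Prop where
  two_le : 2 ≤ q
  e_eq : S.e = ![1, q - 1, 1]
  η0 : S.η 0 = 1
  η2 : S.η 2 = 1
  ub_ne : ub ≠ 0
  a0 : (S.V 0).LR 0 a ub
  a1 : (S.V 1).LR 0 a ub
  a2 : (S.V 2).LR 12 a (ub ^ q)⁻¹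
  b0 : (S.V 0).LR 0 b (ub ^ q)
  b1 : (S.V 1).LR (12 * (S.e 1 : ℤ)) b (ub⁻¹ * S.η 1 ^ 12)
  b2 : (S.V 2).LR 12 b ub⁻¹

/-- the three units -/
def UU (S : Sys L k F F₁) (a b : F) : Fin 3 → F := ![algebraMap L F S.ϖ ^ 12 / b, b / a, a]

/-- the leading coefficients -/
def rUU (S : Sys L k F F₁) (q : ℕ) (ub : F₁) : Fin 3 → Fin 3 → F₁ :=
  ![![(ub ^ q)⁻¹, ub, ub], ![ub ^ (q - 1), (ub ^ 2)⁻¹ * S.η 1 ^ 12, ub ^ (q - 1)],
    ![ub, ub, (ub ^ q)⁻¹]]

variable {a b : F} {ub : F₁}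

namespace UnitLT

theorem rUU_ne (h : UnitLT S q a b ub) (i j : Fin 3) : rUU S q ub i j ≠ 0 := by
  have h1 := h.ub_ne
  have h2 := S.η_ne 1
  fin_cases i <;> fin_cases j <;> simp [rUU, h1, h2]

theorem LR_UU (h : UnitLT S q a b ub) (i j : Fin 3) :
    (S.V j).LR (if i = j then 12 * (S.e i : ℤ) else 0) (UU S a b i) (rUU S q ub i j) := by
  have hu := h.ub_ne
  have hη := S.η_ne 1
  have e0 : S.e 0 = 1 := by rw [h.e_eq]; rfl
  have e1 : S.e 1 = q - 1 := by rw [h.e_eq]; rfl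
  have e2 : S.e 2 = 1 := by rw [h.e_eq]; rfl
  have hq : q - 1 + 1 = q := by have := h.two_le; omega
  have huq : ub ^ q = ub ^ (q - 1) * ub := by rw [← pow_succ, hq]
  have hϖ : ∀ j, (S.V j).LR (12 * (S.e j : ℤ)) (algebraMap L F S.ϖ ^ 12) (S.η j ^ 12) := by
    intro j
    exact ((S.LR_ϖ j).pow 12).congr' (by push_cast; ring) rfl rfl
  have c0 := hϖ 0
  have c1 := hϖ 1
  have c2 := hϖ 2
  rw [e0, h.η0, one_pow] at c0
  rw [e2, h.η2, one_pow] at c2
  fin_cases i <;> fin_cases j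
  · -- 0 0
    have := c0.div h.b0 (pow_ne_zero q hu)
    refine this.congr' ?_ rfl ?_
    · simp [e0]
    · show 1 / ub ^ q = (ub ^ q)⁻¹
      rw [one_div]
  · -- 0 1
    have := c1.div h.b1 (mul_ne_zero (inv_ne_zero hu) (pow_ne_zero _ hη))
    refine this.congr' ?_ rfl ?_
    · simp
    · show S.η 1 ^ 12 / (ub⁻¹ * S.η 1 ^ 12) = ub
      field_simp
  · -- 0 2
    have := c2.div h.b2 (inv_ne_zero hu)
    refine this.congr' ?_ rfl ?_
    · simp
    · show 1 / ub⁻¹ = ub
      rw [one_div, inv_inv]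
  · -- 1 0
    have := h.b0.div h.a0 hu
    refine this.congr' ?_ rfl ?_
    · simp
    · show ub ^ q / ub = ub ^ (q - 1)
      rw [huq, mul_div_assoc, div_self hu, mul_one]
  · -- 1 1
    have := h.b1.div h.a1 hu
    refine this.congr' ?_ rfl ?_
    · simp
    · show ub⁻¹ * S.η 1 ^ 12 / ub = (ub ^ 2)⁻¹ * S.η 1 ^ 12
      field_simp
  · -- 1 2
    have := h.b2.div h.a2 (inv_ne_zero (pow_ne_zero q hu))
    refine this.congr' ?_ rfl ?_
    · simp
    · show ub⁻¹ / (ub ^ q)⁻¹ = ub ^ (q - 1)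
      rw [huq]
      field_simp
  · -- 2 0
    refine h.a0.congr' ?_ rfl rfl
    simp
  · -- 2 1
    refine h.a1.congr' ?_ rfl rfl
    simp
  · -- 2 2
    refine h.a2.congr' ?_ rfl rfl
    simp [e2]

end UnitLT

/-- **The units from their leading terms.** -/
def mkUnits (h : UnitLT S q a b ub) (c : ℕ)
    (hU : ∀ i, UU S a b i ∈ riemannRochSpace (c • p.E))
    (hU' : ∀ i, (UU S a b i)⁻¹ ∈ riemannRochSpace (c • p.E))
    (o : Divisor k F₁) (ho : 0 ≤ o) (hcusp : ∀ v, p.Eb 0 v ≠ 0 → o v = 0)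
    (hoff : ∀ v, p.Eb 0 v = 0 → v.ord ub = o v) : Units p q where
  two_le := h.two_le
  e_eq := h.e_eq
  η0 := h.η0
  η2 := h.η2
  U := UU S a b
  c := c
  U_mem := hU
  U_inv_mem := hU'
  rU := rUU S q ub
  rU_ne := h.rUU_ne
  LR_U := h.LR_UU
  o := o
  o_nonneg := ho
  o_cusp := hcusp
  ord_off i j v hv hij := by
    have e0 : S.e 0 = 1 := by rw [h.e_eq]; rfl
    have e1 : S.e 1 = q - 1 := by rw [h.e_eq]; rfl
    have e2 : S.e 2 = 1 := by rw [h.e_eq]; rfl
    have h1 := hoff v hv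
    fin_cases i <;> fin_cases j <;> first | exact absurd rfl hij | skip
    · show v.ord ub = (S.e 0 : ℤ) * o v
      rw [h1, e0]; simp
    · show v.ord ub = (S.e 0 : ℤ) * o v
      rw [h1, e0]; simp
    · show v.ord (ub ^ (q - 1)) = (S.e 1 : ℤ) * o v
      rw [ord_pow, h1, e1]
    · show v.ord (ub ^ (q - 1)) = (S.e 1 : ℤ) * o v
      rw [ord_pow, h1, e1]
    · show v.ord ub = (S.e 2 : ℤ) * o v
      rw [h1, e2]; simp
    · show v.ord ub = (S.e 2 : ℤ) * o v
      rw [h1, e2]; simp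
  ord_0 v hv := by
    show v.ord (ub ^ q)⁻¹ = _
    rw [v.ord_inv, ord_pow, hoff v hv]
  ord_1 v hv := by
    show v.ord ((ub ^ 2)⁻¹ * S.η 1 ^ 12) = _
    rw [v.ord_mul (inv_ne_zero (pow_ne_zero 2 h.ub_ne)) (pow_ne_zero 12 (S.η_ne 1)), v.ord_inv,
      ord_pow, ord_pow, hoff v hv]
    push_cast
    ring
  ord_2 v hv := by
    show v.ord (ub ^ q)⁻¹ = _
    rw [v.ord_inv, ord_pow, hoff v hv]

theorem mkUnits_o (h : UnitLT S q a b ub) (c : ℕ) hU hU' (o : Divisor k F₁) ho hcusp hoff :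
    (mkUnits (p := p) h c hU hU' o ho hcusp hoff).o = o := rfl

end Abstract

/-! ### places of characteristic zero -/

section Char0

variable {L : Type*} [Field L] [Algebra ℚ L] [IsAlgClosed L] (ι : L →+* ℂ)

/-- transport of units along a finite morphism -/
theorem ord_map_eq_zero {E E' : Type*} [Field E] [Field E'] [Algebra L E] [Algebra L E']
    [IsFF L E] [IsFF L E'] (θ : E →ₐ[L] E') (hθ : θ.toRingHom.IsIntegral) {u j : E}
    (h : ∀ v : Place L E, 0 ≤ v.ord j → v.ord u = 0)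
    (v : Place L E') (hv : 0 ≤ v.ord (θ j)) : v.ord (θ u) = 0 := by
  have h1 := Place.ord_restrictAlong θ hθ v u
  have h2 := Place.ord_restrictAlong θ hθ v j
  have he : 0 < (Place.ramificationIndexAlong θ v : ℤ) := by
    let _ := algebraAlong θ
    have _ := isScalarTower_along θ
    have _ := isIntegral_along θ hθ
    exact_mod_cast v.ramificationIndex_pos (F := E)
  have h3 : 0 ≤ (v.restrictAlong θ hθ).ord j := by
    by_contra hcon
    push Not at hcon
    rw [h2] at hv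
    exact absurd (mul_neg_of_pos_of_neg he hcon) (not_lt.mpr hv)
  rw [h1, h _ h3, mul_zero]

theorem ord_neg_iff_along {E E' : Type*} [Field E] [Field E'] [Algebra L E] [Algebra L E']
    [IsFF L E] [IsFF L E'] (θ : E →ₐ[L] E') (hθ : θ.toRingHom.IsIntegral) (x : E)
    (v : Place L E') : v.ord (θ x) < 0 ↔ (v.restrictAlong θ hθ).ord x < 0 := by
  have h2 := Place.ord_restrictAlong θ hθ v x
  have he : 0 < (Place.ramificationIndexAlong θ v : ℤ) := by
    let _ := algebraAlong θ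
    have _ := isScalarTower_along θ
    have _ := isIntegral_along θ hθ
    exact_mod_cast v.ramificationIndex_pos (F := E)
  rw [h2]
  constructor
  · intro h
    by_contra hcon
    push Not at hcon
    exact absurd (mul_nonneg he.le hcon) (not_le.mpr h)
  · intro h
    exact mul_neg_of_pos_of_neg he h

variable (N q : ℕ) [hN : NeZero N] [hq : Fact q.Prime] (hqN : ¬ q ∣ N)

instance neZero_Nq_unitsA : NeZero (N * q) := ⟨mul_ne_zero (NeZero.ne N) hq.out.ne_zero⟩

instance neZero_Nqq_unitsA : NeZero (N * q * q) :=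
  ⟨mul_ne_zero (mul_ne_zero (NeZero.ne N) hq.out.ne_zero) hq.out.ne_zero⟩

include hqN in
/-- the poles of `j(τ)` and `j(qτ)` on `X₀(N q)` are the same -/
theorem jrF_pole_iff (v : Place L (modularFunctionFieldFullC L (N * q))) :
    v.ord (CP.jrF L N q) < 0 ↔ v.ord (jF L (N * q)) < 0 := by
  have : CharZero L := algebraRat.charZero L
  have hwj : ww L N q hqN (jF L (N * q)) = CP.jrF L N q := CP.w_jF
  have h1 := CP.pole_iff_of_involution (ww L N q hqN) (fun f => ww_ww L N q hqN f)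
    (jF L (N * q)) (fun v hv => by
      rw [hwj]
      exact CP.jF_pole_reg v hv) v
  rw [hwj] at h1
  exact h1.symm

include hqN in
/-- the poles of `t = j(τ) j(qτ)` on `X₀(N q²)` -/
theorem ord_of_t {t : modularFunctionFieldFullC L (N * q * q)}
    (ht : t = jF L (N * q * q) * CP.jrF L (N * q) q)
    (v : Place L (modularFunctionFieldFullC L (N * q * q))) (hv : 0 ≤ v.ord t) :
    0 ≤ v.ord (jF L (N * q * q)) ∧ 0 ≤ v.ord (CP.jrF L (N * q) q) := by
  have : CharZero L := algebraRat.charZero L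
  have e1 : alpha1 L (N * q) q (jF L (N * q)) = jF L (N * q * q) :=
    Subtype.ext (coe_alpha1 L (N * q) q _)
  have e2 : alpha1 L (N * q) q (CP.jrF L N q) = CP.jrF L (N * q) q :=
    Subtype.ext (coe_alpha1 L (N * q) q _)
  have h1 := ord_neg_iff_along (alpha1 L (N * q) q) (HeckeRed.isIntegral_of_isFF _)
    (jF L (N * q)) v
  have h2 := ord_neg_iff_along (alpha1 L (N * q) q) (HeckeRed.isIntegral_of_isFF _)
    (CP.jrF L N q) v
  rw [e1] at h1
  rw [e2, jrF_pole_iff N q hqN, ← h1] at h2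
  have h3 : ¬ v.ord (jF L (N * q * q)) < 0 := by
    intro hcon
    have hcon2 := h2.mpr hcon
    have hj0 : jF L (N * q * q) ≠ 0 := by
      intro h; rw [h] at hcon; simp at hcon
    have hj1 : CP.jrF L (N * q) q ≠ 0 := by
      intro h; rw [h] at hcon2; simp at hcon2
    rw [ht, v.ord_mul hj0 hj1] at hv
    omega
  exact ⟨not_lt.mp h3, not_lt.mp fun h => h3 (h2.mp h)⟩

include hqN in
/-- `α u₀` is a unit outside the cusps -/
theorem ord_alpha_u0 {t a : modularFunctionFieldFullC L (N * q * q)}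
    (ht : t = jF L (N * q * q) * CP.jrF L (N * q) q)
    (ha : (a : LaurentSeries L) = (LLu.u0 ι N q : LaurentSeries L))
    (v : Place L (modularFunctionFieldFullC L (N * q * q))) (hv : 0 ≤ v.ord t) :
    v.ord a = 0 := by
  have e1 : alpha1 L (N * q) q (jF L (N * q)) = jF L (N * q * q) :=
    Subtype.ext (coe_alpha1 L (N * q) q _)
  have e2 : alpha1 L (N * q) q (LLu.u0 ι N q) = a :=
    Subtype.ext ((coe_alpha1 L (N * q) q _).trans ha.symm)
  rw [← e2]
  refine ord_map_eq_zero (alpha1 L (N * q) q) (HeckeRed.isIntegral_of_isFF _)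
    (j := jF L (N * q)) (fun w hw => ?_) v ?_
  · exact LLu.ord_u0 ι N q rfl _ (jF L (N * q)) (LLu.coe_u0 ι N q) rfl w hw
  · rw [e1]
    exact (ord_of_t N q hqN ht v hv).1

include hqN in
/-- `β u₀` is a unit outside the cusps -/
theorem ord_beta_u0 {t b : modularFunctionFieldFullC L (N * q * q)}
    (ht : t = jF L (N * q * q) * CP.jrF L (N * q) q)
    (hb : (b : LaurentSeries L) = qExpand L q (LLu.u0 ι N q : LaurentSeries L))
    (v : Place L (modularFunctionFieldFullC L (N * q * q))) (hv : 0 ≤ v.ord t) :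
    v.ord b = 0 := by
  have e1 : beta1 L (N * q) q (jF L (N * q)) = CP.jrF L (N * q) q :=
    Subtype.ext (coe_beta1 L (N * q) q _)
  have e2 : beta1 L (N * q) q (LLu.u0 ι N q) = b :=
    Subtype.ext ((coe_beta1 L (N * q) q _).trans hb.symm)
  rw [← e2]
  refine ord_map_eq_zero (beta1 L (N * q) q) (HeckeRed.isIntegral_of_isFF _)
    (j := jF L (N * q)) (fun w hw => ?_) v ?_
  · exact LLu.ord_u0 ι N q rfl _ (jF L (N * q)) (LLu.coe_u0 ι N q) rfl w hw
  · rw [e1]
    exact (ord_of_t N q hqN ht v hv).2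

/-- finitely many units outside the poles of `t` lie in some `L(cE)` -/
theorem exists_rr_units {E : Type*} [Field E] [Algebra L E] [IsFF L E] {n : ℕ} (U : Fin n → E)
    (hU : ∀ i, U i ≠ 0) {t : E} (h : ∀ (i) (v : Place L E), 0 ≤ v.ord t → v.ord (U i) = 0)
    {D : Divisor L E} (hD : ∀ v, D v = max 0 (-(v.ord t))) :
    ∃ c : ℕ, (∀ i, U i ∈ riemannRochSpace (c • D)) ∧
      ∀ i, (U i)⁻¹ ∈ riemannRochSpace (c • D) := by
  have hE : D = poleDiv t := by
    ext v
    rw [hD, poleDiv_apply, max_comm]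
  have h1 : ∀ i, ∃ c : ℕ, ∀ m : ℕ, c ≤ m → U i ∈ riemannRochSpace (m • (poleDiv t : Divisor L E)) ∧
      (U i)⁻¹ ∈ riemannRochSpace (m • (poleDiv t : Divisor L E)) := by
    intro i
    obtain ⟨c₁, h₁⟩ := LLu.exists_mem_rr_poleDiv (K := L) (t := t) (hU i)
      (fun v hv => (h i v hv).ge)
    obtain ⟨c₂, h₂⟩ := LLu.exists_mem_rr_poleDiv (K := L) (t := t) (inv_ne_zero (hU i))
      (fun v hv => by rw [v.ord_inv, h i v hv, neg_zero])
    exact ⟨max c₁ c₂, fun m hm => ⟨h₁ m ((le_max_left _ _).trans hm),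
      h₂ m ((le_max_right _ _).trans hm)⟩⟩
  choose c hc using h1
  refine ⟨∑ i, c i, fun i => hE ▸ (hc i _ ?_).1, fun i => hE ▸ (hc i _ ?_).2⟩
  · exact Finset.single_le_sum (f := c) (fun _ _ => Nat.zero_le _) (Finset.mem_univ i)
  · exact Finset.single_le_sum (f := c) (fun _ _ => Nat.zero_le _) (Finset.mem_univ i)

end Char0

/-! ### the divisor of zeros of the Hasse unit -/

section Charp

variable (κ : Type*) [Field κ] [IsAlgClosed κ] (N q : ℕ) [hN : NeZero N] [hq : Fact q.Prime]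
  [CharP κ q] (ub : modularFunctionFieldFullC κ N)

/-- the divisor of zeros of `Δ(τ)/Δ(qτ)` in characteristic `q`, away from the cusps -/
def oDiv : Divisor κ (modularFunctionFieldFullC κ N) :=
  divOf ub + (q - 1) • poleDiv (jF κ N)

variable {κ N q} {ub} (hub : (ub : LaurentSeries κ) = MzCusp.uL κ q)

include hub

theorem oDiv_cusp (v : Place κ (modularFunctionFieldFullC κ N)) (hv : v.ord (jF κ N) < 0) :
    oDiv κ N q ub v = 0 := by
  have h1 := (NodeCount.ord_uL hub v).1 hv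
  have h2 : ((q - 1 : ℕ) : ℤ) = (q : ℤ) - 1 := by
    rw [Nat.cast_sub hq.out.one_lt.le]; simp
  rw [oDiv, Finsupp.add_apply, Finsupp.smul_apply, divOf_apply, poleDiv_apply, h1,
    max_eq_left (by omega), nsmul_eq_mul, h2]
  ring

theorem oDiv_off (v : Place κ (modularFunctionFieldFullC κ N)) (hv : 0 ≤ v.ord (jF κ N)) :
    oDiv κ N q ub v = v.ord ub := by
  rw [oDiv, Finsupp.add_apply, Finsupp.smul_apply, divOf_apply, poleDiv_apply,
    max_eq_right (by omega), smul_zero, add_zero]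

theorem oDiv_nonneg : 0 ≤ oDiv κ N q ub := by
  rw [Finsupp.le_def]
  intro v
  rcases lt_or_ge (v.ord (jF κ N)) 0 with h | h
  · rw [oDiv_cusp hub v h]; rfl
  · rw [oDiv_off hub v h]
    exact (NodeCount.ord_uL hub v).2 h

theorem degree_oDiv (hqN : ¬ q ∣ N) :
    Divisor.degree (oDiv κ N q ub) = ((q : ℤ) - 1) * dedekindPsi N := by
  have hNκ : (N : κ) ≠ 0 := by
    rw [Ne, CharP.cast_eq_zero_iff κ q]
    exact hqN
  have h2 : ((q - 1 : ℕ) : ℤ) = (q : ℤ) - 1 := by
    rw [Nat.cast_sub hq.out.one_lt.le]; simp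
  rw [oDiv, map_add, degree_divOf, zero_add, map_nsmul, nsmul_eq_mul, h2]
  congr 1
  exact NodeCount.degree_poleDiv_jF hNκ fun v => by rw [poleDiv_apply, max_comm]

/-- **the genus relation** -/
theorem hgen_of {L : Type*} [Field L] [Algebra ℚ L] [IsAlgClosed L] (ι : L →+* ℂ)
    (h4 : 4 ∣ N ∨ 9 ∣ N) (hqN : ¬ q ∣ N)
    (hg : genusFF κ (modularFunctionFieldFullC κ N) = genusFF L (modularFunctionFieldFullC L N)) :
    12 * (1 - (genusFF L (modularFunctionFieldFullC L (N * q * q)) : ℤ)) =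
      (q + 1) * (12 * (1 - (genusFF κ (modularFunctionFieldFullC κ N) : ℤ)) -
        Divisor.degree (oDiv κ N q ub)) := by
  have h0 : N * q ^ 2 = N * q * q := by ring
  have : NeZero (N * q ^ 2) := ⟨by rw [h0]; exact NeZero.ne _⟩
  have h1 := gN_sq (L := L) ι h4 hq.out hqN
  have h2 := twelve_nodes_gN (L := L) ι h4 hq.out hqN
  rw [h0] at h1
  rw [degree_oDiv hub hqN, hg]
  unfold gN at h1 h2
  linear_combination (-12 : ℤ) * h1 - (q + 1 : ℤ) * h2

end Charp

end Fermat.Agent.Car
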