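import Fermat.Agent.Car.UnitsA
import Fermat.Agent.Car.Emb

/-!
# Project CAR: leading terms of the modular units `α u₀`, `β u₀`
-/

set_option autoImplicit false
set_option linter.unusedSectionVars false

noncomputable section

open AlgebraicCurve Module IntermediateField ModularCurve HahnSeries

namespace Fermat.Agent.Car

open Fermat.Agent.FunField Fermat.Agent.FunField.PlaceLemmas Fermat.Agent.Deuring
  Fermat.Agent.BadRed Fermat.Agent.HeckeRed Fermat.Agent.ModPoly Fermat.Agent.Igusa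

section Abstract

variable {L k F F₁ : Type*} [Field L] [Field k] [Field F] [Field F₁] [Algebra L F] [Algebra k F₁]
  {S : Sys L k F F₁} {q : ℕ} {a b : F} {ub : F₁}

/-- leading terms from leading terms of level zero -/
theorem UnitLT.of_zero (hq : 2 ≤ q) (he : S.e = ![1, q - 1, 1]) (h0 : S.η 0 = 1) (h2 : S.η 2 = 1)
    (hub : ub ≠ 0) (a0 : (S.V 0).LR 0 a ub) (b0 : (S.V 0).LR 0 b (ub ^ q))
    (a1 : (S.V 1).LR 0 a ub) (b1 : (S.V 1).LR 0 (algebraMap L F S.ϖ ^ 12 / b) ub)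
    (a2 : (S.V 2).LR 0 (algebraMap L F S.ϖ ^ 12 / a) (ub ^ q))
    (b2 : (S.V 2).LR 0 (algebraMap L F S.ϖ ^ 12 / b) ub) : UnitLT S q a b ub := by
  have e2 : S.e 2 = 1 := by rw [he]; rfl
  have hϖ : ∀ j, (S.V j).LR (12 * (S.e j : ℤ)) (algebraMap L F S.ϖ ^ 12) (S.η j ^ 12) := by
    intro j
    exact ((S.LR_ϖ j).pow 12).congr' (by push_cast; ring) rfl rfl
  have hϖ0 : algebraMap L F S.ϖ ^ 12 ≠ 0 :=
    pow_ne_zero _ (by rw [Ne, map_eq_zero]; exact S.ϖ_ne)
  have hinv : ∀ x : F, algebraMap L F S.ϖ ^ 12 / (algebraMap L F S.ϖ ^ 12 / x) = x := by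
    intro x
    rw [div_div_eq_mul_div, mul_comm, mul_div_assoc, div_self hϖ0, mul_one]
  have c2 := hϖ 2
  rw [e2, h2, one_pow] at c2
  refine ⟨hq, he, h0, h2, hub, a0, a1, ?_, b0, ?_, ?_⟩
  · refine (c2.div a2 (pow_ne_zero q hub)).congr' (by norm_num) (hinv a) ?_
    rw [one_div]
  · refine ((hϖ 1).div b1 hub).congr' (by ring) (hinv b) ?_
    rw [div_eq_mul_inv, mul_comm]
  · refine (c2.div b2 hub).congr' (by norm_num) (hinv b) ?_
    rw [one_div]

end Abstract

section Conc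

variable {L : Type*} [Field L] [Algebra ℚ L] [IsAlgClosed L] (ι : L →+* ℂ)
  (N q : ℕ) [hN : NeZero N] [hq : Fact q.Prime]

/-- `α u₀` -/
def au : modularFunctionFieldFullC L (N * q * q) := al L N q (LLu.u0 ι N q)

/-- `β u₀` -/
def bu : modularFunctionFieldFullC L (N * q * q) := be L N q (LLu.u0 ι N q)

theorem coe_au : (au ι N q : LaurentSeries L) = MzCusp.uL L q := by
  rw [au, coe_al, LLu.coe_u0]

theorem coe_bu : (bu ι N q : LaurentSeries L) = qExpand L q (MzCusp.uL L q) := by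
  rw [bu, coe_be, LLu.coe_u0]

theorem au_ne : au ι N q ≠ 0 := by
  rw [au, Ne, map_eq_zero]
  exact uL_ne_zero' ι N q

theorem bu_ne : bu ι N q ≠ 0 := by
  rw [bu, Ne, map_eq_zero]
  exact uL_ne_zero' ι N q

theorem coe_au' : (au ι N q : LaurentSeries L) = (LLu.u0 ι N q : LaurentSeries L) := by
  rw [au, coe_al]

theorem coe_bu' : (bu ι N q : LaurentSeries L) =
    qExpand L q (LLu.u0 ι N q : LaurentSeries L) := by
  rw [bu, coe_be]

/-- coefficientwise automorphisms fix `α u₀` -/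
theorem au_mem_fixF (Γ₀ : Set (L ≃+* L)) : au ι N q ∈ fixF (coefΓ L (N * q * q) Γ₀) := by
  rintro g ⟨σ, hσ, hg⟩
  apply Subtype.ext
  rw [hg, coe_au, MzCusp.coeffMap_uL]

/-- coefficientwise automorphisms fix `β u₀` -/
theorem bu_mem_fixF (Γ₀ : Set (L ≃+* L)) : bu ι N q ∈ fixF (coefΓ L (N * q * q) Γ₀) := by
  rintro g ⟨σ, hσ, hg⟩
  apply Subtype.ext
  rw [hg, coe_bu, coeffMap_qExpand, MzCusp.coeffMap_uL]

variable (hqN : ¬ q ∣ N)

theorem ww_u0 [CharZero L] : ww L N q hqN (LLu.u0 ι N q) =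
    algebraMap L (modularFunctionFieldFullC L (N * q)) (q : L) ^ 12 / LLu.u0 ι N q := by
  have h3 : ww L N q hqN (LLu.u0 ι N q) * LLu.u0 ι N q =
      algebraMap L (modularFunctionFieldFullC L (N * q)) ((q : L) ^ 12) :=
    LLu.w_u0 ι N q (cast_ne_zero_L L N) (cast_ne_zero_Lr L q) hqN
  rw [eq_div_iff (uL_ne_zero' ι N q), h3, map_pow]

/-- `W (q¹² / β u₀) = α u₀` -/
theorem WW_q_div_bu [CharZero L] : WW L N q hqN
    (algebraMap L (modularFunctionFieldFullC L (N * q * q)) (q : L) ^ 12 / bu ι N q) =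
      au ι N q := by
  have hq0 : algebraMap L (modularFunctionFieldFullC L (N * q * q)) (q : L) ≠ 0 := by
    rw [Ne, map_eq_zero]; exact cast_ne_zero_Lr L q
  have e1 : WW L N q hqN (bu ι N q) =
      algebraMap L (modularFunctionFieldFullC L (N * q * q)) (q : L) ^ 12 / au ι N q := by
    rw [bu, WW_be, ww_u0, map_div₀, map_pow, AlgHom.commutes, au]
  rw [map_div₀, map_pow, AlgEquiv.commutes, e1]
  have := au_ne ι N q
  field_simp

/-- `W (q¹² / α u₀) = β u₀` -/
theorem WW_q_div_au [CharZero L] : WW L N q hqN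
    (algebraMap L (modularFunctionFieldFullC L (N * q * q)) (q : L) ^ 12 / au ι N q) =
      bu ι N q := by
  have hq0 : algebraMap L (modularFunctionFieldFullC L (N * q * q)) (q : L) ≠ 0 := by
    rw [Ne, map_eq_zero]; exact cast_ne_zero_Lr L q
  have e1 : WW L N q hqN (au ι N q) =
      algebraMap L (modularFunctionFieldFullC L (N * q * q)) (q : L) ^ 12 / bu ι N q := by
    rw [au, WW_al, ww_u0, map_div₀, map_pow, AlgHom.commutes, bu]
  rw [map_div₀, map_pow, AlgEquiv.commutes, e1]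
  have := bu_ne ι N q
  field_simp

/-- `ψ₂ (α u₀) = u₀` -/
theorem psi2_au [CharZero L] {v : Lˣ} (hv : IsPrimitiveRoot v q) :
    psi2 L N hqN v hv (au ι N q) = MzCusp.uL L q := by
  rw [au, psi2_al, LLu.coe_u0]

/-- `ψ₂ (q¹² / β u₀) = u₀(ζ X)` -/
theorem psi2_q_div_bu [CharZero L] {v : Lˣ} (hv : IsPrimitiveRoot v q) :
    psi2 L N hqN v hv
      (algebraMap L (modularFunctionFieldFullC L (N * q * q)) (q : L) ^ 12 / bu ι N q) =
      twist v (MzCusp.uL L q) := by
  have hq0 : algebraMap L (LaurentSeries L) (q : L) ≠ 0 := by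
    rw [Ne, map_eq_zero]; exact cast_ne_zero_Lr L q
  have h0 : twist v (MzCusp.uL L q) ≠ 0 := by
    rw [Ne, map_eq_zero]
    exact MzCusp.uL_ne_zero q L
  have e0 : ((algebraMap L (modularFunctionFieldFullC L (N * q)) (q : L) ^ 12 / LLu.u0 ι N q :
      modularFunctionFieldFullC L (N * q)) : LaurentSeries L) =
      algebraMap L (LaurentSeries L) (q : L) ^ 12 / MzCusp.uL L q := by
    rw [← LLu.coe_u0 (L := L) ι N q]
    rfl
  have e1 : psi2 L N hqN v hv (bu ι N q) =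
      algebraMap L (LaurentSeries L) (q : L) ^ 12 / twist v (MzCusp.uL L q) := by
    rw [bu, psi2_be, ww_u0, e0, map_div₀, map_pow, twist_algebraMap]
  rw [map_div₀, map_pow, AlgHom.commutes, e1]
  field_simp

variable (A : ValuationSubring L)
  {κ : Type*} [Field κ] [IsAlgClosed κ] (π : A →+* κ) [IsLocalHom π]
  (hπ : Function.Surjective π) (harch : ArchA π) [CharP κ q]

theorem coe_ubr : (ubr ι A π hπ harch N q hqN : LaurentSeries κ) = MzCusp.uL κ q := rfl

theorem ubr_ne : ubr ι A π hπ harch N q hqN ≠ 0 := by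
  intro h
  exact MzCusp.uL_ne_zero q κ (congrArg Subtype.val h)

/-- residue of `α u₀` at the first component -/
theorem gauss_au : ∃ h : (au ι N q : LaurentSeries L) ∈ gaussRing A π,
    gaussRes A π ⟨_, h⟩ = MzCusp.uL κ q := by
  have h1 : (au ι N q : LaurentSeries L) ∈ gaussRing A π := by
    rw [coe_au]
    exact LLu.uL_mem_gauss A π q
  refine ⟨h1, ?_⟩
  rw [← LLu.gaussRes_uL A π q (LLu.uL_mem_gauss A π q)]
  exact gaussRes_congr (coe_au ι N q)

/-- residue of `β u₀` at the first component -/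
theorem gauss_bu : ∃ h : (bu ι N q : LaurentSeries L) ∈ gaussRing A π,
    gaussRes A π ⟨_, h⟩ = MzCusp.uL κ q ^ q := by
  obtain ⟨h1, h2⟩ := qExpand_mem_gauss (A := A) (π := π) q (LLu.uL_mem_gauss A π q)
  have h3 : (bu ι N q : LaurentSeries L) ∈ gaussRing A π := by
    rw [coe_bu]
    exact h1
  refine ⟨h3, ?_⟩
  have h4 : qExpand κ q (MzCusp.uL κ q) = MzCusp.uL κ q ^ q :=
    qExpand_eq_pow κ q (MzCusp.uL ℤ q) (MzCusp.coeffMap_uL q _).symm
  rw [← h4]
  have h5 : gaussRes A π ⟨_, h3⟩ = gaussRes A π ⟨_, h1⟩ := gaussRes_congr (coe_bu ι N q)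
  rw [h5, h2, LLu.gaussRes_uL]

/-- residue of `α u₀` at the middle component -/
theorem gauss_psi2_au [CharZero L] {v : Lˣ} (hv : IsPrimitiveRoot v q) :
    ∃ h : psi2 L N hqN v hv (au ι N q) ∈ gaussRing A π,
      gaussRes A π ⟨_, h⟩ = MzCusp.uL κ q := by
  have h1 : psi2 L N hqN v hv (au ι N q) ∈ gaussRing A π := by
    rw [psi2_au]
    exact LLu.uL_mem_gauss A π q
  refine ⟨h1, ?_⟩
  rw [← LLu.gaussRes_uL A π q (LLu.uL_mem_gauss A π q)]
  exact gaussRes_congr (psi2_au ι N q hqN hv)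

/-- residue of `q¹² / β u₀` at the middle component -/
theorem gauss_psi2_q_div_bu [CharZero L] {v : Lˣ} (hv : IsPrimitiveRoot v q) :
    ∃ h : psi2 L N hqN v hv
      (algebraMap L (modularFunctionFieldFullC L (N * q * q)) (q : L) ^ 12 / bu ι N q) ∈
        gaussRing A π, gaussRes A π ⟨_, h⟩ = MzCusp.uL κ q := by
  obtain ⟨h1, h2⟩ := gauss_twist_of_pow (A := A) (π := π) (r := q) hv.pow_eq_one
    (LLu.uL_mem_gauss A π q)
  have h3 : psi2 L N hqN v hv
      (algebraMap L (modularFunctionFieldFullC L (N * q * q)) (q : L) ^ 12 / bu ι N q) ∈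
        gaussRing A π := by
    rw [psi2_q_div_bu]
    exact h1
  refine ⟨h3, ?_⟩
  have h5 : gaussRes A π ⟨_, h3⟩ = gaussRes A π ⟨_, h1⟩ :=
    gaussRes_congr (psi2_q_div_bu ι N q hqN hv)
  rw [h5, h2, LLu.gaussRes_uL]

end Conc

end Fermat.Agent.Car
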