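import Fermat.Agent.Car.UnitsB

/-!
# Project CAR: the units for a system of valuations of `X₀(N q²)`
-/

set_option autoImplicit false
set_option linter.unusedSectionVars false

noncomputable section

open AlgebraicCurve Module IntermediateField ModularCurve HahnSeries

namespace Fermat.Agent.Car

open Fermat.Agent.FunField Fermat.Agent.FunField.PlaceLemmas Fermat.Agent.Deuring
  Fermat.Agent.BadRed Fermat.Agent.HeckeRed Fermat.Agent.ModPoly Fermat.Agent.Igusa

variable {L : Type*} [Field L] [Algebra ℚ L] [IsAlgClosed L] [CharZero L] (ι : L →+* ℂ)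
  {N q : ℕ} [hN : NeZero N] [hq : Fact q.Prime] (hqN : ¬ q ∣ N)
  {A : ValuationSubring L}
  {κ : Type*} [Field κ] [IsAlgClosed κ] (π : A →+* κ) [IsLocalHom π]
  (hπ : Function.Surjective π) (harch : ArchA π) [CharP κ q]
  {v : Lˣ} (hv : IsPrimitiveRoot v q)
  {S : Sys L κ (modularFunctionFieldFullC L (N * q * q)) (modularFunctionFieldFullC κ N)}

/-- Relation of `S` with the Gauss valuations. -/
structure IsGaussSys (S : Sys L κ (modularFunctionFieldFullC L (N * q * q))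
    (modularFunctionFieldFullC κ N)) : Prop where
  e_eq : S.e = ![1, q - 1, 1]
  η0 : S.η 0 = 1
  η2 : S.η 2 = 1
  ϖ_eq : S.ϖ = (q : L)
  LR0 : ∀ (f : modularFunctionFieldFullC L (N * q * q)) (a : modularFunctionFieldFullC κ N),
    f ∈ S.FK → (∃ h : (f : LaurentSeries L) ∈ gaussRing A π, gaussRes A π ⟨_, h⟩ = a) →
      (S.V 0).LR 0 f a
  LR1 : ∀ (f : modularFunctionFieldFullC L (N * q * q)) (a : modularFunctionFieldFullC κ N),
    f ∈ S.FK → (∃ h : psi2 L N hqN v hv f ∈ gaussRing A π, gaussRes A π ⟨_, h⟩ = a) →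
      (S.V 1).LR 0 f a
  LR2 : ∀ (f : modularFunctionFieldFullC L (N * q * q)) (a : modularFunctionFieldFullC κ N),
    f ∈ S.FK → (∃ h : (WW L N q hqN f : LaurentSeries L) ∈ gaussRing A π,
      gaussRes A π ⟨_, h⟩ = a) → (S.V 2).LR 0 f a

variable {hqN} {π} {hv} in
theorem IsGaussSys.unitLT (hS : IsGaussSys hqN π hv S) (ha : au ι N q ∈ S.FK)
    (hb : bu ι N q ∈ S.FK) :
    UnitLT S q (au ι N q) (bu ι N q) (ubr ι A π hπ harch N q hqN) := by
  have hϖ : algebraMap L (modularFunctionFieldFullC L (N * q * q)) S.ϖ ∈ S.FK :=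
    algebraMap_mem_fixF S.ϖ_fix
  have h1 := S.FK.div_mem (pow_mem hϖ 12) ha
  have h2 := S.FK.div_mem (pow_mem hϖ 12) hb
  refine UnitLT.of_zero hq.out.two_le hS.e_eq hS.η0 hS.η2 (ubr_ne ι N q hqN A π hπ harch)
    (hS.LR0 _ _ ha ?_) (hS.LR0 _ _ hb ?_) (hS.LR1 _ _ ha ?_) (hS.LR1 _ _ h2 ?_)
    (hS.LR2 _ _ h1 ?_) (hS.LR2 _ _ h2 ?_)
  · exact gauss_au ι N q A π
  · obtain ⟨h3, h4⟩ := gauss_bu ι N q A π
    exact ⟨h3, h4⟩
  · exact gauss_psi2_au ι N q hqN A π hv
  · rw [hS.ϖ_eq]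
    exact gauss_psi2_q_div_bu ι N q hqN A π hv
  · rw [hS.ϖ_eq, WW_q_div_au]
    exact gauss_bu ι N q A π
  · rw [hS.ϖ_eq, WW_q_div_bu]
    exact gauss_au ι N q A π

/-- the concrete requirements on the pencil -/
structure IsJPen (p : Pen S) : Prop where
  t_eq : p.t = jF L (N * q * q) * CP.jrF L (N * q) q
  Eb0 : ∀ v, p.Eb 0 v ≠ 0 ↔ v.ord (jF κ N) < 0

variable {p : Pen S}

include hqN in
theorem exists_c (hp : IsJPen p) : ∃ c : ℕ,
    (∀ i, UU S (au ι N q) (bu ι N q) i ∈ riemannRochSpace (c • p.E)) ∧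
      ∀ i, (UU S (au ι N q) (bu ι N q) i)⁻¹ ∈ riemannRochSpace (c • p.E) := by
  have ha := au_ne ι N q
  have hb := bu_ne ι N q
  have hϖ : algebraMap L (modularFunctionFieldFullC L (N * q * q)) S.ϖ ≠ 0 := by
    rw [Ne, map_eq_zero]; exact S.ϖ_ne
  have oa : ∀ v : Place L (modularFunctionFieldFullC L (N * q * q)), 0 ≤ v.ord p.t →
      v.ord (au ι N q) = 0 := fun v hv =>
    ord_alpha_u0 ι N q hqN hp.t_eq (coe_au' ι N q) v hv
  have ob : ∀ v : Place L (modularFunctionFieldFullC L (N * q * q)), 0 ≤ v.ord p.t →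
      v.ord (bu ι N q) = 0 := fun v hv =>
    ord_beta_u0 ι N q hqN hp.t_eq (coe_bu' ι N q) v hv
  have oϖ : ∀ v : Place L (modularFunctionFieldFullC L (N * q * q)),
      v.ord (algebraMap L (modularFunctionFieldFullC L (N * q * q)) S.ϖ ^ 12) = 0 := by
    intro v
    rw [ord_pow, PlaceLemmas.ord_algebraMap, mul_zero]
  refine exists_rr_units (t := p.t) _ (fun i => ?_) (fun i v hv => ?_) p.hE
  · fin_cases i
    · exact div_ne_zero (pow_ne_zero _ hϖ) hb
    · exact div_ne_zero hb ha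
    · exact ha
  · fin_cases i
    · show v.ord (_ / _) = 0
      rw [div_eq_mul_inv, v.ord_mul (pow_ne_zero _ hϖ) (inv_ne_zero hb), v.ord_inv, oϖ, ob v hv]
      rfl
    · show v.ord (_ / _) = 0
      rw [div_eq_mul_inv, v.ord_mul hb (inv_ne_zero ha), v.ord_inv, oa v hv, ob v hv]
      rfl
    · exact oa v hv

/-- **The units of `X₀(N q²)`.** -/
def unitsOf (hS : IsGaussSys hqN π hv S) (hp : IsJPen p) (ha : au ι N q ∈ S.FK)
    (hb : bu ι N q ∈ S.FK) : Units p q :=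
  mkUnits (hS.unitLT ι hπ harch ha hb) (exists_c ι hqN hp).choose
    (exists_c ι hqN hp).choose_spec.1 (exists_c ι hqN hp).choose_spec.2
    (oDiv κ N q (ubr ι A π hπ harch N q hqN)) (oDiv_nonneg rfl)
    (fun v hv' => oDiv_cusp rfl v ((hp.Eb0 v).mp hv'))
    (fun v hv' => (oDiv_off rfl v (not_lt.mp fun h => (hp.Eb0 v).mpr h hv')).symm)

theorem unitsOf_o (hS : IsGaussSys hqN π hv S) (hp : IsJPen p) (ha : au ι N q ∈ S.FK)
    (hb : bu ι N q ∈ S.FK) : (unitsOf ι hqN π hπ harch hv hS hp ha hb).o =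
      oDiv κ N q (ubr ι A π hπ harch N q hqN) := rfl

/-- **The genus relation.** -/
theorem unitsOf_hgen (hS : IsGaussSys hqN π hv S) (hp : IsJPen p) (ha : au ι N q ∈ S.FK)
    (hb : bu ι N q ∈ S.FK) (h4 : 4 ∣ N ∨ 9 ∣ N)
    (hg : genusFF κ (modularFunctionFieldFullC κ N) = genusFF L (modularFunctionFieldFullC L N)) :
    12 * (1 - (genusFF L (modularFunctionFieldFullC L (N * q * q)) : ℤ)) =
      (q + 1) * (12 * (1 - (genusFF κ (modularFunctionFieldFullC κ N) : ℤ)) -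
        Divisor.degree (unitsOf ι hqN π hπ harch hv hS hp ha hb).o) :=
  hgen_of (ub := ubr ι A π hπ harch N q hqN) rfl ι h4 hqN hg

end Fermat.Agent.Car
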