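import Fermat.Agent.Car.ValH
import Fermat.Agent.Car.ValAux
import Fermat.Agent.Car.UnitsX

/-!
# Project CAR, block C7: the three valuations of the field of rational functions of level `N q²`
-/

set_option autoImplicit false
set_option linter.unusedSectionVars false

noncomputable section

open AlgebraicCurve Module ModularCurve HahnSeries IntermediateField

namespace Fermat.Agent.Car

open Fermat.Agent.Igusa Fermat.Agent.BadRed Fermat.Agent.ModPoly Fermat.Agent.HeckeRed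
  Fermat.Agent.FunField

local notation "Qb" => AlgebraicClosure ℚ

theorem pow_ne_pow_of_tr {k E : Type*} [Field k] [Field E] [Algebra k E] {x : E}
    (hx : Transcendental k x) {a b : ℕ} (hab : a ≠ b) : x ^ a ≠ x ^ b := by
  intro h
  apply hx
  refine ⟨Polynomial.X ^ a - Polynomial.X ^ b, ?_, by simp [h]⟩
  intro h0
  have h1 := congrArg (fun P => P.coeff a) h0
  simp only [Polynomial.coeff_sub, Polynomial.coeff_X_pow, Polynomial.coeff_zero] at h1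
  rw [if_pos trivial, if_neg hab, sub_zero] at h1
  exact one_ne_zero h1

theorem RV.LR.pow0 {F F₁ : Type*} [Field F] [Field F₁] {FK : Subfield F} {V : RV FK F₁} {f : F}
    {a : F₁} (h : V.LR 0 f a) (k : ℕ) : V.LR 0 (f ^ k) (a ^ k) :=
  (h.pow k).congr' (mul_zero _) rfl rfl

theorem RV.LR.mul0 {F F₁ : Type*} [Field F] [Field F₁] {FK : Subfield F} {V : RV FK F₁} {f g : F}
    {a b : F₁} (h : V.LR 0 f a) (h' : V.LR 0 g b) : V.LR 0 (f * g) (a * b) :=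
  (h.mul h').congr' (add_zero _) rfl rfl

section Scale

variable {L : Type*} [Field L] {A : ValuationSubring L} {κ : Type*} [Field κ] {π : A →+* κ}
  {Γ₀ : Set (L ≃+* L)}

theorem gr_scale (C : ConstForm π Γ₀) (M : ℕ) {f : modularFunctionFieldFullC L M}
    (hf : ∀ n, (f : LaurentSeries L).coeff n ∈ fix₀ Γ₀) (hf0 : f ≠ 0) :
    ∃ (n : ℤ) (b : LaurentSeries κ), b ≠ 0 ∧
      GR A π ((algebraMap L (LaurentSeries L) (C.ϖ : L)) ^ (-n) * (f : LaurentSeries L)) b := by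
  obtain ⟨c, hc, hc0, h, hr⟩ := exists_scale_rat (A := A) (π := π) M f.2
    (fun h0 => hf0 (Subtype.ext h0)) hf
  obtain ⟨n, u, hu, rfl⟩ := C.unif c hc hc0
  have h1 : GR A π (algebraMap L (LaurentSeries L) ((C.ϖ : L) ^ n * u) * (f : LaurentSeries L))
    _ := ⟨h, rfl⟩
  have hu' : algebraMap κ (LaurentSeries κ) (π u) ≠ 0 := by rwa [Ne, map_eq_zero]
  refine ⟨-n, _, mul_ne_zero (inv_ne_zero hu') hr, (((GR.cst u).inv hu').mul h1).congr ?_ rfl⟩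
  have hu0 : algebraMap L (LaurentSeries L) (u : L) ≠ 0 := (GR.cst u).ne_zero hu'
  rw [map_mul, map_zpow₀, neg_neg]
  field_simp

end Scale

variable {A : ValuationSubring Qb}
  {κ : Type*} [Field κ] [IsAlgClosed κ] (π : A →+* κ) [IsLocalHom π]
  (hπ : Function.Surjective π) (harch : ArchA π)
  {N q : ℕ} [hq : Fact q.Prime] [hN : NeZero N] [CharP κ q] (hqN : ¬ q ∣ N)
  (hA : A.LiesOverPrime q) {v : Qbˣ} (hv : IsPrimitiveRoot v q)

variable (N q) in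
/-- the uniformizer of the middle valuation -/
def eps1 : modularFunctionFieldFullC Qb (N * q * q) := j2 Qb N q - j0 Qb N q

/-- the inputs about residues -/
structure VIn : Prop where
  mem0 : ∀ f ∈ fixF (IΓ A (N * q * q)), ∀ h : emb0 Qb N q f ∈ gaussRing A π,
    gaussRes A π ⟨emb0 Qb N q f, h⟩ ∈ modularFunctionFieldFullC κ N
  mem1 : ∀ f ∈ fixF (IΓ A (N * q * q)), ∀ h : psi2 Qb N hqN v hv f ∈ gaussRing A π,
    gaussRes A π ⟨psi2 Qb N hqN v hv f, h⟩ ∈ modularFunctionFieldFullC κ N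
  eps : ∃ θ : LaurentSeries κ, θ ≠ 0 ∧ GR A π (psi2 Qb N hqN v hv (eps1 N q) *
    (algebraMap Qb (LaurentSeries Qb) ((v : Qb) - 1))⁻¹) θ
  scale1 : ∀ f ∈ fixF (IΓ A (N * q * q)), f ≠ 0 → ∃ (n : ℤ) (b : LaurentSeries κ), b ≠ 0 ∧
    GR A π (psi2 Qb N hqN v hv (eps1 N q ^ (-n) * f)) b

/-- the constant `q` -/
def qF (N q : ℕ) : modularFunctionFieldFullC Qb (N * q * q) := algebraMap Qb _ (q : Qb)

theorem const_mem_fix {c : Qb} (hc : c ∈ fix₀ (inertΓ A)) :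
    algebraMap Qb (modularFunctionFieldFullC Qb (N * q * q)) c ∈ fixF (IΓ A (N * q * q)) :=
  algebraMap_mem_fixF (mem_fixL_coefΓ.mpr hc)

theorem natCast_mem_fix₀ (n : ℕ) : (n : Qb) ∈ fix₀ (inertΓ A) := by
  rintro σ -
  exact map_natCast σ n

theorem qF_mem : qF N q ∈ fixF (IΓ A (N * q * q)) := const_mem_fix (natCast_mem_fix₀ q)

theorem qF_ne : qF N q ≠ 0 := by
  rw [qF, Ne, map_eq_zero]
  exact Nat.cast_ne_zero.mpr hq.out.ne_zero

theorem gr_q (ψ : modularFunctionFieldFullC Qb (N * q * q) →ₐ[Qb] LaurentSeries Qb) :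
    GR A π (ψ (qF N q)) 0 := by
  have h1 := GR.cst (A := A) (π := π) (q : A)
  have h2 : π (q : A) = 0 := by rw [map_natCast, CharP.cast_eq_zero]
  rw [h2, map_zero] at h1
  rw [qF, AlgHom.commutes]
  exact h1.congr (by push_cast; rfl) rfl

theorem mem_fix_of_coeffMap {f : modularFunctionFieldFullC Qb (N * q * q)}
    (h : ∀ σ : Qb ≃+* Qb, coeffMap (σ : Qb →+* Qb) (f : LaurentSeries Qb) = f) :
    f ∈ fixF (IΓ A (N * q * q)) := by
  rw [mem_fixF_coefΓ]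
  intro n σ _
  have h2 := congrArg (fun z : LaurentSeries Qb => z.coeff n) (h σ)
  simp only [coeffMap_coeff] at h2
  exact h2

theorem j0_mem : j0 Qb N q ∈ fixF (IΓ A (N * q * q)) :=
  mem_fix_of_coeffMap fun σ => by
    rw [j0, coe_al]
    exact coeffMap_jqModC _

theorem j1_mem : j1 Qb N q ∈ fixF (IΓ A (N * q * q)) :=
  mem_fix_of_coeffMap fun σ => by
    have h : coeffMap (σ : Qb →+* Qb) (jqModC Qb) = jqModC Qb := coeffMap_jqModC _
    rw [j1, coe_al]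
    show coeffMap (σ : Qb →+* Qb) (ModularCurve.qExpand Qb q (jqModC Qb)) = _
    rw [coeffMap_qExpand, h]
    rfl

theorem j2_mem : j2 Qb N q ∈ fixF (IΓ A (N * q * q)) :=
  mem_fix_of_coeffMap fun σ => by
    have h : coeffMap (σ : Qb →+* Qb) (jqModC Qb) = jqModC Qb := coeffMap_jqModC _
    rw [j2, coe_be]
    show coeffMap (σ : Qb →+* Qb) (ModularCurve.qExpand Qb q
      (ModularCurve.qExpand Qb q (jqModC Qb))) = _
    rw [coeffMap_qExpand, coeffMap_qExpand, h]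
    rfl

theorem eps1_mem : eps1 N q ∈ fixF (IΓ A (N * q * q)) :=
  (fixF (IΓ A (N * q * q))).sub_mem j2_mem j0_mem

theorem eps1_gr : GR A π (psi2 Qb N hqN v hv (eps1 N q)) 0 := by
  rw [eps1, map_sub]
  exact ((gr_psi_j2 A π hqN hv).sub (gr_psi_j0 A π hqN hv)).congr rfl (sub_self _)

theorem jq_tr : Transcendental κ (jqModC κ) := by
  intro h
  exact HeckeRed.transcendental_jF κ 1 ((isAlgebraic_algHom_iff
    (modularFunctionFieldFullC κ 1).val (Subtype.val_injective)).mp h)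

include κ π in
theorem eps1_ne : eps1 N q ≠ 0 := by
  intro h0
  have h1 : GR A π (emb0 Qb N q (eps1 N q)) (jqModC κ ^ (q * q) - jqModC κ) := by
    rw [eps1, map_sub]
    exact (gr_j2 (N := N) (q := q) A π).sub (gr_j0 (N := N) (q := q) A π)
  rw [h0, map_zero] at h1
  have h2 := h1.unique GR.zero
  rw [sub_eq_zero] at h2
  have h3 : jqModC κ ^ (q * q) ≠ jqModC κ ^ 1 := pow_ne_pow_of_tr jq_tr (by
    have := hq.out.two_le
    nlinarith)
  rw [pow_one] at h3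
  exact h3 h2

variable (I : VIn π hqN hv)

include hπ hA in
theorem scale0 : ∀ f ∈ fixF (IΓ A (N * q * q)), f ≠ 0 → ∃ (n : ℤ) (b : LaurentSeries κ), b ≠ 0 ∧
    GR A π (emb0 Qb N q (qF N q ^ (-n) * f)) b := by
  intro f hf hf0
  have : IsGalois ℚ Qb := {}
  obtain ⟨n, b, hb, h⟩ := gr_scale (constForm A π hπ hq.out hA) (N * q * q)
    (mem_fixF_coefΓ.mp hf) hf0
  refine ⟨n, b, hb, ?_⟩
  have h1 : (((constForm A π hπ hq.out hA).ϖ : A) : Qb) = (q : Qb) := by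
    show (((q : A)) : Qb) = _
    push_cast
    rfl
  rw [h1] at h
  rw [map_mul, map_zpow₀, qF, AlgHom.commutes]
  exact h

include hπ hA in
theorem scale2 : ∀ f ∈ fixF (IΓ A (N * q * q)), f ≠ 0 → ∃ (n : ℤ) (b : LaurentSeries κ), b ≠ 0 ∧
    GR A π (emb2 hqN (qF N q ^ (-n) * f)) b := by
  intro f hf hf0
  obtain ⟨n, b, hb, h⟩ := scale0 π hπ hA (WW Qb N q hqN f) (WW_mem_fix (Γ₀ := inertΓ A) hf)
    (by rwa [Ne, map_eq_zero])
  refine ⟨n, b, hb, ?_⟩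
  rw [map_mul, map_zpow₀, qF, AlgHom.commutes] at h ⊢
  exact h

/-- `V 0` -/
def rv0 : RV (fixF (IΓ A (N * q * q))) (modularFunctionFieldFullC κ N) :=
  rvPsi (emb0 Qb N q) (modularFunctionFieldFullC κ N) (qF N q) qF_mem qF_ne (gr_q π _)
    I.mem0 (scale0 π hπ hA)

/-- `V 1` -/
def rv1 : RV (fixF (IΓ A (N * q * q))) (modularFunctionFieldFullC κ N) :=
  rvPsi (psi2 Qb N hqN v hv) (modularFunctionFieldFullC κ N) (eps1 N q) eps1_mem
    (eps1_ne π) (eps1_gr π hqN hv) I.mem1 I.scale1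

/-- `V 2` -/
def rv2 : RV (fixF (IΓ A (N * q * q))) (modularFunctionFieldFullC κ N) :=
  rvPsi (emb2 hqN) (modularFunctionFieldFullC κ N) (qF N q) qF_mem qF_ne (gr_q π _)
    (fun f hf h => I.mem0 _ (WW_mem_fix (Γ₀ := inertΓ A) hf) h) (scale2 π hπ hqN hA)

section LRlem

variable {π hπ hqN hA hv}
variable {n : ℤ} {f : modularFunctionFieldFullC Qb (N * q * q)} {a : modularFunctionFieldFullC κ N}

theorem rv0_LR : (rv0 π hπ hqN hA hv I).LR n f a ↔ f ∈ fixF (IΓ A (N * q * q)) ∧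
    GR A π (emb0 Qb N q (qF N q ^ (-n) * f)) (a : LaurentSeries κ) :=
  rvPsi_LR _ _ _ _ _ _ _ _

theorem rv0_LR_zero : (rv0 π hπ hqN hA hv I).LR 0 f a ↔ f ∈ fixF (IΓ A (N * q * q)) ∧
    GR A π (f : LaurentSeries Qb) (a : LaurentSeries κ) :=
  rvPsi_LR_zero _ _ _ _ _ _ _ _

theorem rv1_LR : (rv1 π hqN hv I).LR n f a ↔ f ∈ fixF (IΓ A (N * q * q)) ∧
    GR A π (psi2 Qb N hqN v hv (eps1 N q ^ (-n) * f)) (a : LaurentSeries κ) :=
  rvPsi_LR _ _ _ _ _ _ _ _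

theorem rv1_LR_zero : (rv1 π hqN hv I).LR 0 f a ↔ f ∈ fixF (IΓ A (N * q * q)) ∧
    GR A π (psi2 Qb N hqN v hv f) (a : LaurentSeries κ) :=
  rvPsi_LR_zero _ _ _ _ _ _ _ _

theorem rv2_LR : (rv2 π hπ hqN hA hv I).LR n f a ↔ f ∈ fixF (IΓ A (N * q * q)) ∧
    GR A π (emb2 hqN (qF N q ^ (-n) * f)) (a : LaurentSeries κ) :=
  rvPsi_LR _ _ _ _ _ _ _ _

theorem rv2_LR_zero : (rv2 π hπ hqN hA hv I).LR 0 f a ↔ f ∈ fixF (IΓ A (N * q * q)) ∧
    GR A π (WW Qb N q hqN f : LaurentSeries Qb) (a : LaurentSeries κ) :=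
  rvPsi_LR_zero _ _ _ _ _ _ _ _

end LRlem

/-- the three valuations -/
def rvs : Fin 3 → RV (fixF (IΓ A (N * q * q))) (modularFunctionFieldFullC κ N) :=
  ![rv0 π hπ hqN hA hv I, rv1 π hqN hv I, rv2 π hπ hqN hA hv I]

/-- `q` at the middle valuation -/
theorem exists_eta : ∃ η : modularFunctionFieldFullC κ N, η ≠ 0 ∧
    (rv1 π hqN hv I).LR ((q - 1 : ℕ) : ℤ) (qF N q) η := by
  obtain ⟨θ, hθ, h1⟩ := I.eps
  have hvQ : IsPrimitiveRoot (v : Qb) q := IsPrimitiveRoot.coe_units_iff.mpr hv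
  obtain ⟨u, hu, h2⟩ := zeta_sub_one_pow (A := A) π hvQ
  have hu' : algebraMap κ (LaurentSeries κ) (π u) ≠ 0 := by rwa [Ne, map_eq_zero]
  have h3 := ((GR.cst u).inv hu').mul (h1.zpow hθ (-((q - 1 : ℕ) : ℤ)))
  have h4 : psi2 Qb N hqN v hv (eps1 N q ^ (-((q - 1 : ℕ) : ℤ)) * qF N q) =
      (algebraMap Qb (LaurentSeries Qb) (u : Qb))⁻¹ *
        (psi2 Qb N hqN v hv (eps1 N q) *
          (algebraMap Qb (LaurentSeries Qb) ((v : Qb) - 1))⁻¹) ^ (-((q - 1 : ℕ) : ℤ)) := by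
    have h5 : algebraMap Qb (LaurentSeries Qb) ((v : Qb) - 1) ^ (q - 1) =
        algebraMap Qb (LaurentSeries Qb) (q : Qb) * algebraMap Qb (LaurentSeries Qb) (u : Qb) := by
      rw [← map_pow, h2, map_mul]
    have hu0 : algebraMap Qb (LaurentSeries Qb) (u : Qb) ≠ 0 := (GR.cst u).ne_zero hu'
    rw [map_mul, map_zpow₀, qF, AlgHom.commutes, mul_zpow, zpow_neg, zpow_neg, zpow_natCast,
      zpow_natCast, inv_pow, inv_inv, h5]
    field_simp
  rw [← h4] at h3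
  have hb : (algebraMap κ (LaurentSeries κ) (π u))⁻¹ * θ ^ (-((q - 1 : ℕ) : ℤ)) ≠ 0 :=
    mul_ne_zero (inv_ne_zero hu') (zpow_ne_zero _ hθ)
  have hmem := I.mem1 _ ((fixF (IΓ A (N * q * q))).mul_mem (zpow_mem eps1_mem _) qF_mem) h3.mem
  have h6 : GR A π (psi2 Qb N hqN v hv (eps1 N q ^ (-((q - 1 : ℕ) : ℤ)) * qF N q))
      ((⟨_, hmem⟩ : modularFunctionFieldFullC κ N) : LaurentSeries κ) := ⟨h3.mem, rfl⟩
  refine ⟨⟨_, hmem⟩, ?_, ?_⟩
  · intro h0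
    apply hb
    exact (h3.unique h6).trans (congrArg Subtype.val h0)
  · rw [rv1_LR]
    exact ⟨qF_mem, h6⟩

/-- the residues `jb` -/
abbrev jb (κ : Type*) [Field κ] (N : ℕ) : modularFunctionFieldFullC κ N := jF κ N

theorem coe_jb : (jb κ N : LaurentSeries κ) = jqModC κ := rfl

theorem jb_pow_ne {a b : ℕ} (hab : a ≠ b) : jb κ N ^ a - jb κ N ^ b ≠ 0 :=
  sub_ne_zero.mpr (pow_ne_pow_of_tr (HeckeRed.transcendental_jF κ N) hab)

section Table

variable {π hπ hqN hA hv}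

theorem lr0_j0 : (rv0 π hπ hqN hA hv I).LR 0 (j0 Qb N q) (jb κ N) :=
  (rv0_LR_zero I).mpr ⟨j0_mem, gr_j0 A π⟩

theorem lr0_j1 : (rv0 π hπ hqN hA hv I).LR 0 (j1 Qb N q) (jb κ N ^ q) :=
  (rv0_LR_zero I).mpr ⟨j1_mem, gr_j1 A π⟩

theorem lr0_j2 : (rv0 π hπ hqN hA hv I).LR 0 (j2 Qb N q) (jb κ N ^ (q * q)) :=
  (rv0_LR_zero I).mpr ⟨j2_mem, gr_j2 A π⟩

theorem lr1_j0 : (rv1 π hqN hv I).LR 0 (j0 Qb N q) (jb κ N) :=
  (rv1_LR_zero I).mpr ⟨j0_mem, gr_psi_j0 A π hqN hv⟩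

theorem lr1_j1 : (rv1 π hqN hv I).LR 0 (j1 Qb N q) (jb κ N ^ q) :=
  (rv1_LR_zero I).mpr ⟨j1_mem, gr_psi_j1 A π hqN hv⟩

theorem lr1_j2 : (rv1 π hqN hv I).LR 0 (j2 Qb N q) (jb κ N) :=
  (rv1_LR_zero I).mpr ⟨j2_mem, gr_psi_j2 A π hqN hv⟩

theorem lr2_j0 : (rv2 π hπ hqN hA hv I).LR 0 (j0 Qb N q) (jb κ N ^ (q * q)) :=
  (rv2_LR_zero I).mpr ⟨j0_mem, by rw [WW_j0]; exact gr_j2 A π⟩

theorem lr2_j1 : (rv2 π hπ hqN hA hv I).LR 0 (j1 Qb N q) (jb κ N ^ q) :=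
  (rv2_LR_zero I).mpr ⟨j1_mem, by rw [WW_j1]; exact gr_j1 A π⟩

theorem lr2_j2 : (rv2 π hπ hqN hA hv I).LR 0 (j2 Qb N q) (jb κ N) :=
  (rv2_LR_zero I).mpr ⟨j2_mem, by rw [WW_j2]; exact gr_j0 A π⟩

end Table

/-- functions separating the valuations -/
def hsep (N q : ℕ) [Fact q.Prime] [NeZero N] : Fin 3 → modularFunctionFieldFullC Qb (N * q * q) :=
  ![j1 Qb N q - j2 Qb N q ^ q, (j2 Qb N q - j1 Qb N q ^ q) * (j0 Qb N q - j1 Qb N q ^ q),
    j1 Qb N q - j0 Qb N q ^ q]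

/-- their residues -/
def hsepb (κ : Type*) [Field κ] (N q : ℕ) : Fin 3 → modularFunctionFieldFullC κ N :=
  ![jb κ N ^ q - (jb κ N ^ (q * q)) ^ q, (jb κ N - (jb κ N ^ q) ^ q) * (jb κ N - (jb κ N ^ q) ^ q),
    jb κ N ^ q - (jb κ N ^ (q * q)) ^ q]

include hπ hA in
theorem exists_lift0 (b : modularFunctionFieldFullC κ N) :
    ∃ x : modularFunctionFieldFullC Qb (N * q), x ∈ fixF (IΓ A (N * q)) ∧
      GR A π (x : LaurentSeries Qb) (b : LaurentSeries κ) := by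
  obtain ⟨g, hg, h⟩ := exists_rat_lift π hπ hA N b
  refine ⟨⟨(g : LaurentSeries Qb), full_degeneracyC_le Qb (Dvd.intro q rfl) g.2⟩, ?_, h⟩
  rw [mem_fixF_coefΓ]
  exact hg

theorem surj_rvs : ∀ (n : Fin 3 → ℤ) (a : Fin 3 → modularFunctionFieldFullC κ N),
    ∃ f : modularFunctionFieldFullC Qb (N * q * q),
      ∀ i, (rvs π hπ hqN hA hv I i).LR (n i) f (a i) := by
  have hq2 := hq.out.two_le
  refine surj_of (rvs π hπ hqN hA hv I) (hsep N q) (hsepb κ N q) ?_ ?_ ?_ ?_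
  · intro i
    fin_cases i
    · show jb κ N ^ q - (jb κ N ^ (q * q)) ^ q ≠ 0
      rw [← pow_mul]
      exact jb_pow_ne (by nlinarith)
    · show (jb κ N - (jb κ N ^ q) ^ q) * (jb κ N - (jb κ N ^ q) ^ q) ≠ 0
      have h : jb κ N - (jb κ N ^ q) ^ q ≠ 0 := by
        rw [← pow_mul]
        nth_rewrite 1 [← pow_one (jb κ N)]
        exact jb_pow_ne (by nlinarith)
      exact mul_ne_zero h h
    · show jb κ N ^ q - (jb κ N ^ (q * q)) ^ q ≠ 0
      rw [← pow_mul]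
      exact jb_pow_ne (by nlinarith)
  · intro i
    fin_cases i
    · exact (lr0_j1 (hπ := hπ) (hA := hA) I).sub ((lr0_j2 (hπ := hπ) (hA := hA) I).pow0 q)
    · exact ((lr1_j2 I).sub ((lr1_j1 I).pow0 q)).mul0 ((lr1_j0 I).sub ((lr1_j1 I).pow0 q))
    · exact (lr2_j1 (hπ := hπ) (hA := hA) I).sub ((lr2_j0 (hπ := hπ) (hA := hA) I).pow0 q)
  · have key : ∀ (V : RV (fixF (IΓ A (N * q * q))) (modularFunctionFieldFullC κ N))
        (f : modularFunctionFieldFullC Qb (N * q * q)), V.LR 0 f 0 → V.Ge 1 f := by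
      intro V f h
      have := h.raise
      rwa [zero_add] at this
    have e1 : (jb κ N ^ q) ^ q = jb κ N ^ (q * q) := by rw [← pow_mul]
    intro i j hij
    apply key
    fin_cases i <;> fin_cases j <;> first | exact absurd rfl hij | skip
    · exact ((lr1_j1 I).sub ((lr1_j2 I).pow0 q)).congr rfl (sub_self _)
    · exact ((lr2_j1 (hπ := hπ) (hA := hA) I).sub
        ((lr2_j2 (hπ := hπ) (hA := hA) I).pow0 q)).congr rfl (sub_self _)
    · refine (((lr0_j2 (hπ := hπ) (hA := hA) I).sub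
        ((lr0_j1 (hπ := hπ) (hA := hA) I).pow0 q)).mul0
        ((lr0_j0 (hπ := hπ) (hA := hA) I).sub
        ((lr0_j1 (hπ := hπ) (hA := hA) I).pow0 q))).congr rfl ?_
      rw [e1, sub_self, zero_mul]
    · refine (((lr2_j2 (hπ := hπ) (hA := hA) I).sub
        ((lr2_j1 (hπ := hπ) (hA := hA) I).pow0 q)).mul0
        ((lr2_j0 (hπ := hπ) (hA := hA) I).sub
        ((lr2_j1 (hπ := hπ) (hA := hA) I).pow0 q))).congr rfl ?_
      rw [e1, sub_self, mul_zero]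
    · exact ((lr0_j1 (hπ := hπ) (hA := hA) I).sub
        ((lr0_j0 (hπ := hπ) (hA := hA) I).pow0 q)).congr rfl (sub_self _)
    · exact ((lr1_j1 I).sub ((lr1_j0 I).pow0 q)).congr rfl (sub_self _)
  · intro i a
    obtain ⟨x, hx, h⟩ := exists_lift0 π hπ hA (q := q) a
    have h1 : al Qb N q x ∈ fixF (IΓ A (N * q * q)) := al_mem_fix (Γ₀ := inertΓ A) hx
    fin_cases i
    · exact ⟨al Qb N q x, h1, (rv0_LR_zero (hπ := hπ) (hA := hA) I).mpr ⟨h1, h⟩⟩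
    · exact ⟨al Qb N q x, h1, (rv1_LR_zero I).mpr ⟨h1, by rw [psi2_al]; exact h⟩⟩
    · exact ⟨WW Qb N q hqN (al Qb N q x), WW_mem_fix (Γ₀ := inertΓ A) h1,
        (rv2_LR_zero (hπ := hπ) (hA := hA) I).mpr
          ⟨WW_mem_fix (Γ₀ := inertΓ A) h1, by rw [WW_WW]; exact h⟩⟩

end Fermat.Agent.Car
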