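import Fermat.Agent.BadRed.KLConc

set_option autoImplicit false
set_option linter.unusedSectionVars false

/-!
# Boundedness of linear forms, rational spans
-/

noncomputable section

open AlgebraicCurve Module IntermediateField ModularCurve HahnSeries

namespace Fermat.Agent.Car

open Fermat.Agent.FunField Fermat.Agent.FunField.PlaceLemmas Fermat.Agent.Igusa
  Fermat.Agent.Deuring Fermat.Agent.AtkinLehner Fermat.Agent.HeckeRed Fermat.Agent.Degen
  Fermat.Agent.BadRed

attribute [local instance 2000] lsModule lsSMul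

section Gen

variable {L : Type*} [Field L] {A : ValuationSubring L} {κ : Type*} [Field κ] (π : A →+* κ)
  [IsLocalHom π] {F : Type*} [Field F] [Algebra L F]

/-- scaling of a nonzero vector of constants. -/
theorem exists_scale_vec (A : ValuationSubring L) {ι : Type*} [Finite ι] (c : ι → L)
    (hc : c ≠ 0) : ∃ j, c j ≠ 0 ∧ ∀ i, c i / c j ∈ A := by
  classical
  obtain ⟨i₀, hi₀⟩ : ∃ i, c i ≠ 0 := by
    by_contra h
    push Not at h
    exact hc (funext h)
  have := Fintype.ofFinite ι
  obtain ⟨j, -, hj⟩ := Finset.exists_max_image Finset.univ (fun i => A.valuation (c i))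
    ⟨i₀, Finset.mem_univ _⟩
  have hj0 : c j ≠ 0 := by
    intro h0
    have h1 := hj i₀ (Finset.mem_univ _)
    rw [h0, map_zero, le_zero_iff, map_eq_zero] at h1
    exact hi₀ h1
  refine ⟨j, hj0, fun i => ?_⟩
  rw [← A.valuation_le_one_iff, map_div₀]
  exact div_le_one_of_le₀ (hj i (Finset.mem_univ _)) zero_le

/-- orthonormality for one Gauss valuation -/
theorem coeff_mem_gauss {ι : Type*} [Fintype ι] (ψ : F →ₐ[L] LaurentSeries L) (b : ι → F)
    (hb : ∀ j, ψ (b j) ∈ gaussRing A π)
    (hli : LinearIndependent κ (fun j => gaussRes A π ⟨ψ (b j), hb j⟩)) (c : ι → L)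
    (h : ψ (∑ j, c j • b j) ∈ gaussRing A π) : ∀ j, c j ∈ A := by
  classical
  by_contra hcon
  push Not at hcon
  obtain ⟨i₀, hi₀⟩ := hcon
  have hc : c ≠ 0 := by
    rintro rfl
    exact hi₀ (by simp)
  obtain ⟨j, hj0, hj⟩ := exists_scale_vec A c hc
  have hjA : c j ∉ A := by
    intro hmem
    apply hi₀
    have : c i₀ = c i₀ / c j * c j := by field_simp
    rw [this]
    exact mul_mem (hj i₀) hmem
  have hinv : (c j)⁻¹ ∈ A := (A.mem_or_inv_mem (c j)).resolve_left hjA
  let cst : A → gaussRing A π := fun a => ⟨_, algebraMap_mem_gaussRing A π a⟩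
  have hcst : ∀ a, gaussRes A π (cst a) = algebraMap κ (LaurentSeries κ) (π a) := fun a =>
    gaussRes_algebraMap A π a rfl
  let d : ι → A := fun i => ⟨c i / c j, hj i⟩
  let e : A := ⟨(c j)⁻¹, hinv⟩
  have hrel : ∑ i, cst (d i) * ⟨_, hb i⟩ = cst e * ⟨_, h⟩ := by
    apply Subtype.ext
    push_cast
    rw [map_sum, Finset.mul_sum]
    refine Finset.sum_congr rfl fun i _ => ?_
    rw [psi_smul]
    show algebraMap L (LaurentSeries L) (c i / c j) * _ =
      algebraMap L (LaurentSeries L) (c j)⁻¹ * (algebraMap L (LaurentSeries L) (c i) * _)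
    rw [← mul_assoc, ← map_mul]
    congr 2
    field_simp
  have he : π e = 0 := by
    rw [pi_ker]
    intro hu
    apply hjA
    obtain ⟨b', hb'⟩ := hu.exists_right_inv
    have h1 : (c j)⁻¹ * (b' : L) = 1 := congrArg Subtype.val hb'
    have h2 : c j = b' := by
      field_simp at h1
      exact h1.symm
    rw [h2]
    exact b'.2
  have hres := congrArg (gaussRes A π) hrel
  rw [map_sum, map_mul, hcst, he, map_zero, zero_mul] at hres
  have hres' : ∑ i, π (d i) • gaussRes A π ⟨ψ (b i), hb i⟩ = 0 := by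
    rw [← hres]
    refine Finset.sum_congr rfl fun i _ => ?_
    rw [map_mul, hcst, Algebra.smul_def]
  have := Fintype.linearIndependent_iff.mp hli _ hres' j
  have h1 : d j = 1 := Subtype.ext (div_self hj0)
  rw [h1, map_one] at this
  exact one_ne_zero this

/-- orthonormal vectors are linearly independent -/
theorem linearIndependent_of_gauss {ι : Type*} [Fintype ι] (ψ : F →ₐ[L] LaurentSeries L) (b : ι → F)
    (hb : ∀ j, ψ (b j) ∈ gaussRing A π)
    (hli : LinearIndependent κ (fun j => gaussRes A π ⟨ψ (b j), hb j⟩)) :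
    LinearIndependent L b := by
  classical
  rw [Fintype.linearIndependent_iff]
  intro c hc0
  by_contra hne
  push Not at hne
  obtain ⟨i₀, hi₀⟩ := hne
  obtain ⟨j, hj0, hj⟩ := exists_scale_vec A c (fun h => hi₀ (congrFun h i₀))
  -- the vector scaled arbitrarily has coefficients in `A`
  by_cases hA : ∀ x : L, x ∈ A
  · -- trivial valuation
    have hinj : Function.Injective π := by
      rw [injective_iff_map_eq_zero]
      intro a ha
      by_contra ha0
      have h1 : (a : L) ≠ 0 := fun h => ha0 (Subtype.ext h)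
      have h2 : IsUnit a := IsUnit.of_mul_eq_one ⟨(a : L)⁻¹, hA _⟩
        (Subtype.ext (mul_inv_cancel₀ h1))
      exact (pi_ker A π a).mp ha h2
    let cst : A → gaussRing A π := fun a => ⟨_, algebraMap_mem_gaussRing A π a⟩
    have hcst : ∀ a, gaussRes A π (cst a) = algebraMap κ (LaurentSeries κ) (π a) := fun a =>
      gaussRes_algebraMap A π a rfl
    have hrel : ∑ i, cst ⟨c i, hA _⟩ * ⟨_, hb i⟩ = (0 : gaussRing A π) := by
      apply Subtype.ext
      push_cast
      have h3 := congrArg ψ hc0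
      rw [map_sum, map_zero] at h3
      rw [← h3]
      refine Finset.sum_congr rfl fun i _ => ?_
      rw [psi_smul]
    have hres := congrArg (gaussRes A π) hrel
    rw [map_sum, map_zero] at hres
    have hres' : ∑ i, π ⟨c i, hA _⟩ • gaussRes A π ⟨ψ (b i), hb i⟩ = 0 := by
      rw [← hres]
      refine Finset.sum_congr rfl fun i _ => ?_
      rw [map_mul, hcst, Algebra.smul_def]
    have := Fintype.linearIndependent_iff.mp hli _ hres' i₀
    rw [map_eq_zero_iff π hinj] at this
    exact hi₀ (congrArg Subtype.val this)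
  · push Not at hA
    obtain ⟨x, hx⟩ := hA
    have h1 := coeff_mem_gauss π ψ b hb hli (fun i => (x / c i₀) * c i) (by
      have : ∑ i, ((x / c i₀) * c i) • b i = (x / c i₀) • ∑ i, c i • b i := by
        rw [Finset.smul_sum]
        exact Finset.sum_congr rfl fun i _ => by rw [smul_smul]
      rw [this, hc0, smul_zero, map_zero]
      exact (gaussRing A π).zero_mem) i₀
    rw [div_mul_cancel₀ _ hi₀] at h1
    exact hx h1

/-- **Linear forms are bounded on the unit ball of a finite dimensional space.** -/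
theorem bdd_gauss_gen (ψ : F →ₐ[L] LaurentSeries L) (hψ : IsTameHom ψ) (W : Submodule L F)
    (hW : FiniteDimensional L W) (l : F →ₗ[L] L) :
    ∃ c : L, c ≠ 0 ∧ ∀ f ∈ W, ψ f ∈ gaussRing A π → c * l f ∈ A := by
  classical
  obtain ⟨b, hb, hbW, hli⟩ := exists_joint_orthonormal A π (fun _ : Unit => ψ) (fun _ => hψ) W
  have hli' : LinearIndependent κ (fun j => gaussRes A π ⟨ψ (b j), hb j ()⟩) := by
    rw [Fintype.linearIndependent_iff] at hli ⊢
    intro g hg
    apply hli g
    funext u
    rw [Finset.sum_apply]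
    exact hg
  have hLI := linearIndependent_of_gauss π ψ b (fun j => hb j ()) hli'
  have hspan : Submodule.span L (Set.range b) = W := by
    apply Submodule.eq_of_le_of_finrank_le
    · rw [Submodule.span_le]
      rintro _ ⟨i, rfl⟩
      exact hbW i
    · rw [finrank_span_eq_card hLI, Fintype.card_fin]
  have hcj : ∀ j, ∃ c : L, c ≠ 0 ∧ c ∈ A ∧ c * l (b j) ∈ A := by
    intro j
    rcases A.mem_or_inv_mem (l (b j)) with h | h
    · exact ⟨1, one_ne_zero, one_mem _, by rw [one_mul]; exact h⟩
    · by_cases h0 : l (b j) = 0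
      · exact ⟨1, one_ne_zero, one_mem _, by rw [h0, mul_zero]; exact zero_mem _⟩
      · exact ⟨_, inv_ne_zero h0, h, by rw [inv_mul_cancel₀ h0]; exact one_mem _⟩
  choose c hc0 hcA hcl using hcj
  refine ⟨∏ j, c j, Finset.prod_ne_zero_iff.mpr fun j _ => hc0 j, fun f hf hfg => ?_⟩
  rw [← hspan] at hf
  obtain ⟨a, rfl⟩ := (Submodule.mem_span_range_iff_exists_fun L).mp hf
  have haA := coeff_mem_gauss π ψ b (fun j => hb j ()) hli' a hfg
  rw [map_sum, Finset.mul_sum]
  refine sum_mem fun j _ => ?_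
  rw [map_smul, smul_eq_mul, ← Finset.mul_prod_erase Finset.univ c (Finset.mem_univ j)]
  have : c j * (∏ x ∈ Finset.univ.erase j, c x) * (a j * l (b j)) =
      (∏ x ∈ Finset.univ.erase j, c x) * a j * (c j * l (b j)) := by ring
  rw [this]
  exact mul_mem (mul_mem (prod_mem fun i _ => hcA i) (haA j)) (hcl j)

end Gen

section OverQb

local notation "Qb" => AlgebraicClosure ℚ

variable {A : ValuationSubring Qb}
  {κ : Type*} [Field κ] [IsAlgClosed κ] (π : A →+* κ) [IsLocalHom π]
  (M : ℕ) [NeZero M]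

/-- linear forms are bounded on the unit ball -/
theorem bdd_gauss (W : Submodule Qb (modularFunctionFieldFullC Qb M))
    (hW : FiniteDimensional Qb W) (l : modularFunctionFieldFullC Qb M →ₗ[Qb] Qb) :
    ∃ c : Qb, c ≠ 0 ∧ ∀ f ∈ W, (f : LaurentSeries Qb) ∈ gaussRing A π → c * l f ∈ A :=
  bdd_gauss_gen π (modularFunctionFieldFullC Qb M).val
    (isTameHom_val (isTameField_full (L := Qb) M)) W hW l

/-- a stable subspace is spanned by its rational elements -/
theorem rat_span_gen {L : Type*} [Field L] [IsAlgClosed L] [CharZero L] (Γ₀ : Set (L ≃+* L))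
    (M : ℕ) (W : Submodule L (modularFunctionFieldFullC L M)) (hW : FiniteDimensional L W)
    (hst : ∀ g ∈ coefΓ L M Γ₀, ∀ f ∈ W, g • f ∈ W) :
    W ≤ Submodule.span L ((W : Set _) ∩ (fixF (coefΓ L M Γ₀) : Set _)) := by
  classical
  obtain ⟨a, f, hfV, hdual, hrep⟩ := exists_coords W (cfM L M) (fun f hf => Subtype.ext (by
    ext n
    exact hf n))
  have hcf : ∀ g ∈ coefΓ L M Γ₀, ∀ n f, cfM L M n (g • f) =
      SemilinearAut.baseAut g (cfM L M n f) := by
    rintro g ⟨σ, hσ, hg⟩ n f
    rw [cfM_apply, hg, coeffMap_coeff, baseAut_of_coef hg, cfM_apply]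
    rfl
  have hfK : ∀ i, f i ∈ fixF (coefΓ L M Γ₀) := by
    intro i g hg
    have h1 : ∀ j, cfM L M (a j) (g • f i) = if i = j then 1 else 0 := by
      intro j
      rw [hcf g hg, hdual]
      split_ifs
      · exact map_one _
      · exact map_zero _
    rw [hrep _ (hst g hg _ (hfV i))]
    rw [Finset.sum_eq_single i]
    · rw [h1, if_pos rfl, one_smul]
    · intro j _ hj
      rw [h1, if_neg (Ne.symm hj), zero_smul]
    · intro h; exact absurd (Finset.mem_univ i) h
  intro h hh
  rw [hrep h hh]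
  exact Submodule.sum_mem _ fun i _ => Submodule.smul_mem _ _
    (Submodule.subset_span ⟨hfV i, hfK i⟩)

/-- a stable subspace is spanned by its rational elements -/
theorem rat_span (A : ValuationSubring Qb) (W : Submodule Qb (modularFunctionFieldFullC Qb M))
    (hW : FiniteDimensional Qb W) (hst : ∀ g ∈ IΓ A M, ∀ f ∈ W, g • f ∈ W) :
    W ≤ Submodule.span Qb ((W : Set _) ∩ (fixF (IΓ A M) : Set _)) :=
  rat_span_gen (inertΓ A) M W hW hst

omit [IsAlgClosed κ] [NeZero M] in
/-- the valuation has rank one -/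
theorem arch_q (harch : ArchA π) (q : ℕ) [hq : Fact q.Prime] [CharP κ q] (a : Qb) (ha : a ≠ 0) :
    ∃ m : ℕ, a * ((q : Qb) ^ m)⁻¹ ∉ A := by
  have h1 : (((q : A) : Qb)) ≠ 0 := by
    push_cast
    exact Nat.cast_ne_zero.mpr hq.out.ne_zero
  have h2 : π (q : A) = 0 := by rw [map_natCast, CharP.cast_eq_zero]
  obtain ⟨m, hm⟩ := harch (q : A) h1 h2 a ha
  refine ⟨m, ?_⟩
  push_cast at hm
  exact hm

end OverQb

end Fermat.Agent.Car
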