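import Fermat.Agent.Car.ValRes

/-!
# Project CAR, block C7: functions separating the three valuations
-/

set_option autoImplicit false
set_option linter.unusedSectionVars false

noncomputable section

open AlgebraicCurve Module ModularCurve HahnSeries IntermediateField

namespace Fermat.Agent.Car

open Fermat.Agent.Igusa Fermat.Agent.BadRed Fermat.Agent.ModPoly Fermat.Agent.HeckeRed
  Fermat.Agent.FunField

variable {L : Type*} [Field L] [IsAlgClosed L] [CharZero L] {A : ValuationSubring L}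
  {κ : Type*} [Field κ] {π : A →+* κ} {N q : ℕ} [hq : Fact q.Prime] [hN : NeZero N]
  [CharP κ q] (hqN : ¬ q ∣ N)

theorem gr_jq : GR A π (jqModC L) (jqModC κ) :=
  (GR.emb (jqModC A)).congr (coeffMap_jqModC A.subtype) (coeffMap_jqModC π)

variable (L N q) in
/-- `j(X)` -/
def j0 : modularFunctionFieldFullC L (N * q * q) := al L N q (jF L (N * q))

variable (L N q) in
/-- `j(X^q)` -/
def j1 : modularFunctionFieldFullC L (N * q * q) := al L N q (CP.jrF L N q)

variable (L N q) in
/-- `j(X^{q²})` -/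
def j2 : modularFunctionFieldFullC L (N * q * q) := be L N q (CP.jrF L N q)

theorem j1_eq_be : j1 L N q = be L N q (jF L (N * q)) := by
  apply Subtype.ext
  rw [j1, coe_al, coe_be]
  rfl

theorem WW_j0 : WW L N q hqN (j0 L N q) = j2 L N q := by
  rw [j0, WW_al, j2]
  congr 1
  exact CP.w_jF

theorem WW_j2 : WW L N q hqN (j2 L N q) = j0 L N q := by
  rw [← WW_j0 hqN, WW_WW]

theorem WW_j1 : WW L N q hqN (j1 L N q) = j1 L N q := by
  have h : ww L N q hqN (CP.jrF L N q) = jF L (N * q) := by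
    have h1 : ww L N q hqN (jF L (N * q)) = CP.jrF L N q := CP.w_jF
    rw [← h1, ww_ww]
  rw [j1, WW_al, h, ← j1_eq_be, j1]

theorem qExpand_jq : ModularCurve.qExpand κ q (jqModC κ) = (jqModC κ) ^ q :=
  (jq_pow κ q).symm

variable (A π) in
theorem gr_j0 : GR A π (j0 L N q : LaurentSeries L) (jqModC κ) := by
  rw [j0, coe_al]
  exact gr_jq

variable (A π) in
theorem gr_j1 : GR A π (j1 L N q : LaurentSeries L) (jqModC κ ^ q) := by
  rw [j1, coe_al, ← qExpand_jq]
  exact gr_jq.qExpand q

variable (A π) in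
theorem gr_j2 : GR A π (j2 L N q : LaurentSeries L) (jqModC κ ^ (q * q)) := by
  rw [j2, coe_be, pow_mul, ← qExpand_jq, ← map_pow, ← qExpand_jq]
  exact (gr_jq.qExpand q).qExpand q

section Psi

variable {v : Lˣ} (hv : IsPrimitiveRoot v q)

variable (A π) in
theorem gr_psi_j0 : GR A π (psi2 L N hqN v hv (j0 L N q)) (jqModC κ) := by
  rw [j0, psi2_al]
  exact gr_jq

variable (A π) in
theorem gr_psi_j1 : GR A π (psi2 L N hqN v hv (j1 L N q)) (jqModC κ ^ q) := by
  rw [j1, psi2_al, ← qExpand_jq]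
  exact gr_jq.qExpand q

theorem psi2_j2 : psi2 L N hqN v hv (j2 L N q) = ModPoly.twist v (jqModC L) := by
  have h : ww L N q hqN (CP.jrF L N q) = jF L (N * q) := by
    have h1 : ww L N q hqN (jF L (N * q)) = CP.jrF L N q := CP.w_jF
    rw [← h1, ww_ww]
  rw [j2, psi2_be, h]
  rfl

variable (A π) in
theorem gr_psi_j2 : GR A π (psi2 L N hqN v hv (j2 L N q)) (jqModC κ) := by
  rw [psi2_j2]
  exact gr_jq.twistP hv.pow_eq_one

end Psi

end Fermat.Agent.Car
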