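import Fermat.Agent.Car.PsiT
import Fermat.Agent.Car.Emb
import Fermat.Agent.Car.GR
import Fermat.Agent.Car.ValAux

/-!
# Rational functions and the expansion `ψ₂`: descent of constants, action of inertia
-/

set_option autoImplicit false
set_option linter.unusedSectionVars false

noncomputable section

open AlgebraicCurve Module IntermediateField ModularCurve HahnSeries

namespace Fermat.Agent.Car

open Fermat.Agent.FunField Fermat.Agent.Igusa Fermat.Agent.BadRed Fermat.Agent.ModDeg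
  Fermat.Agent.ModPoly Fermat.Agent.AtkinLehner

section Desc

variable {L : Type*} [Field L]

/-- fractions of tame series with coefficients in the fixed field of `Γ'` -/
def tfSub (L : Type*) [Field L] (Γ' : Set (L ≃+* L)) : Subfield (LaurentSeries L) :=
  ((IntermediateField.adjoin (fix₀ Γ')
    (tame (fix₀ Γ') : Set (LaurentSeries (fix₀ Γ')))).toSubfield).map
      (coeffMap (fix₀ Γ').subtype)

variable {Γ₀ Γ' : Set (L ≃+* L)}

theorem algebraMap_mem_tfSub {c : L} (hc : c ∈ fix₀ Γ') :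
    algebraMap L (LaurentSeries L) c ∈ tfSub L Γ' :=
  ⟨algebraMap (fix₀ Γ') (LaurentSeries (fix₀ Γ')) ⟨c, hc⟩,
    (IntermediateField.adjoin (fix₀ Γ') _).algebraMap_mem _,
    coeffMap_algebraMap' (fix₀ Γ').subtype ⟨c, hc⟩⟩

theorem coeffMap_mem_tfSub {x : LaurentSeries (fix₀ Γ')} (hx : x ∈ tame (fix₀ Γ')) :
    coeffMap (fix₀ Γ').subtype x ∈ tfSub L Γ' :=
  ⟨x, IntermediateField.subset_adjoin _ _ hx, rfl⟩

variable {A : ValuationSubring L} {κ : Type*} [Field κ] {π : A →+* κ}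

/-- scaling of the elements of a tame field -/
theorem exists_scale_val {K : Type*} [Field K] (A₁ : ValuationSubring K) {κ : Type*} [Field κ]
    (π₁ : A₁ →+* κ) {E : IntermediateField K (LaurentSeries K)} (hE : IsTameField E)
    {y : LaurentSeries K} (hy : y ∈ E) (hy0 : y ≠ 0) :
    ∃ c : K, c ≠ 0 ∧ ∃ h : algebraMap K (LaurentSeries K) c * y ∈ gaussRing A₁ π₁,
      gaussRes A₁ π₁ ⟨_, h⟩ ≠ 0 := by
  have hy0' : (⟨y, hy⟩ : E) ≠ 0 := fun h0 => hy0 (congrArg Subtype.val h0)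
  obtain ⟨c, hc, hg, hr⟩ := exists_scale_gauss A₁ π₁ (isTameHom_val hE) hy0'
  have h2 : E.val (c • (⟨y, hy⟩ : E)) = algebraMap K (LaurentSeries K) c * y :=
    psi_smul E.val c ⟨y, hy⟩
  refine ⟨c, hc, by rw [← h2]; exact hg, ?_⟩
  intro h0
  apply hr
  rw [← h0]
  exact gaussRes_congr h2

/-- scaling of fractions of tame series with coefficients in a fixed field -/
theorem exists_scale_tf {x : LaurentSeries L} (hx : x ∈ tfSub L Γ') (hx0 : x ≠ 0) :
    ∃ c ∈ fix₀ Γ', c ≠ 0 ∧ ∃ b : LaurentSeries κ, b ≠ 0 ∧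
      GR A π (algebraMap L (LaurentSeries L) c * x) b := by
  obtain ⟨y, hy, rfl⟩ := hx
  have hy0 : y ≠ 0 := by
    rintro rfl
    exact hx0 (map_zero _)
  obtain ⟨c, hc, hg, hr⟩ := exists_scale_val (A₀ A Γ') (π.comp (iA A Γ'))
    (isTameField_adjoin (S := (tame (fix₀ Γ') : Set (LaurentSeries (fix₀ Γ'))))
      (fun _ h => h)) hy hy0
  obtain ⟨h', e'⟩ := gauss_base hg
  have h1 : coeffMap (fix₀ Γ').subtype (algebraMap (fix₀ Γ') (LaurentSeries (fix₀ Γ')) c * y) =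
      algebraMap L (LaurentSeries L) (c : L) * coeffMap (fix₀ Γ').subtype y := by
    rw [map_mul, coeffMap_algebraMap']
    rfl
  refine ⟨c, c.2, fun h0 => hc (Subtype.ext h0), _, hr, ?_⟩
  exact GR.congr ⟨h', rfl⟩ h1 e'

/-- base change of function fields -/
def bcF (Γ₀ : Set (L ≃+* L)) (M : ℕ) :
    modularFunctionFieldFullC (fix₀ Γ₀) M →+* modularFunctionFieldFullC L M where
  toFun y := ⟨coeffMap (fix₀ Γ₀).subtype y, coeffMap_mem_full _ y.2⟩
  map_one' := Subtype.ext (map_one _)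
  map_mul' _ _ := Subtype.ext (map_mul _ _ _)
  map_zero' := Subtype.ext (map_zero _)
  map_add' _ _ := Subtype.ext (map_add _ _ _)

theorem coe_bcF (M : ℕ) (y : modularFunctionFieldFullC (fix₀ Γ₀) M) :
    (bcF Γ₀ M y : LaurentSeries L) = coeffMap (fix₀ Γ₀).subtype (y : LaurentSeries (fix₀ Γ₀)) :=
  rfl

theorem exists_bcF {M : ℕ} {f : modularFunctionFieldFullC L M}
    (hf : ∀ n, (f : LaurentSeries L).coeff n ∈ fix₀ Γ₀) :
    ∃ y : modularFunctionFieldFullC (fix₀ Γ₀) M, bcF Γ₀ M y = f := by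
  obtain ⟨y, hy⟩ := exists_descend_coeff hf
  have h1 : y ∈ modularFunctionFieldFullC (fix₀ Γ₀) M := by
    apply MzCusp.mem_full_of_coeffMap (fix₀ Γ₀).subtype M
    rw [hy]
    exact f.2
  exact ⟨⟨y, h1⟩, Subtype.ext hy⟩

variable {N q : ℕ} [hq : Fact q.Prime] [hN : NeZero N] [IsAlgClosed L] [CharZero L]
  (hqN : ¬ q ∣ N) {v : Lˣ} (hv : IsPrimitiveRoot v q)

theorem psi2_cases {d : ℕ} (hd : d ∣ N * q * q)
    (h : vj L d ∈ modularFunctionFieldFullC L (N * q * q)) :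
    psi2 L N hqN v hv ⟨vj L d, h⟩ = vj L d ∨
      ∃ e, e ∣ N ∧ psi2 L N hqN v hv ⟨vj L d, h⟩ = twist v (vj L e) := by
  rcases psi_vj_cases (cast_ne_zero_L L N) (cast_ne_zero_Lr L q) hqN hv.pow_eq_one
    (hv.ne_one hq.out.one_lt) hd h with h1 | ⟨e, he, -, h1⟩
  · exact Or.inl h1
  · exact Or.inr ⟨e, he, h1⟩

/-- the expansions `ψ₂ f` of rational functions `f` -/
theorem psi2_mem_tf (hΓ : Γ' ⊆ Γ₀) (hv' : (v : L) ∈ fix₀ Γ')
    {f : modularFunctionFieldFullC L (N * q * q)}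
    (hf : ∀ n, (f : LaurentSeries L).coeff n ∈ fix₀ Γ₀) : psi2 L N hqN v hv f ∈ tfSub L Γ' := by
  obtain ⟨y, rfl⟩ := exists_bcF hf
  have hle : ∀ c, c ∈ fix₀ Γ₀ → c ∈ fix₀ Γ' := fun c hc σ hσ => hc σ (hΓ hσ)
  have ht : ∀ e : ℕ, vj (fix₀ Γ') e ∈ tame (fix₀ Γ') := by
    intro e
    rcases eq_or_ne e 0 with rfl | he
    · rw [vj, dif_pos rfl]
      exact zero_mem _
    · have : NeZero e := ⟨he⟩
      rw [vj_eq]
      exact qExpand_jqModC_mem_tame e
  refine ringHom_mem ((psi2 L N hqN v hv).toRingHom.comp (bcF Γ₀ (N * q * q))) (tfSub L Γ')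
    (fun c => ?_) (fun d hd hd0 => ?_) y
  · show psi2 L N hqN v hv (bcF Γ₀ (N * q * q) (algebraMap _ _ c)) ∈ tfSub L Γ'
    have e : bcF Γ₀ (N * q * q) (algebraMap _ _ c) = algebraMap L _ (c : L) :=
      Subtype.ext (coeffMap_algebraMap' (fix₀ Γ₀).subtype c)
    rw [e, AlgHom.commutes]
    exact algebraMap_mem_tfSub (hle _ c.2)
  · show psi2 L N hqN v hv (bcF Γ₀ (N * q * q) ⟨vj (fix₀ Γ₀) d, _⟩) ∈ tfSub L Γ'
    have e : bcF Γ₀ (N * q * q) ⟨vj (fix₀ Γ₀) d, vj_mem_full _ hd0 hd⟩ =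
        ⟨vj L d, vj_mem_full L hd0 hd⟩ := Subtype.ext (coeffMap_vj (fix₀ Γ₀).subtype d)
    rw [e]
    rcases psi2_cases hqN hv hd (vj_mem_full L hd0 hd) with h | ⟨e, -, h⟩
    · rw [h, ← coeffMap_vj (fix₀ Γ').subtype d]
      exact coeffMap_mem_tfSub (ht d)
    · let v' : (fix₀ Γ')ˣ :=
        { val := ⟨(v : L), hv'⟩
          inv := ⟨((v⁻¹ : Lˣ) : L), by
            rw [Units.val_inv_eq_inv_val]
            exact (fix₀ Γ').inv_mem hv'⟩
          val_inv := Subtype.ext v.mul_inv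
          inv_val := Subtype.ext v.inv_mul }
      have hv1 : Units.map ((fix₀ Γ').subtype : fix₀ Γ' →* L) v' = v := Units.ext rfl
      have hv2 : v' ^ q = 1 := Units.ext (Subtype.ext (by
        have h5 := congrArg (fun z : Lˣ => (z : L)) hv.pow_eq_one
        simpa using h5))
      rw [h, ← coeffMap_vj (fix₀ Γ').subtype e, ← hv1, ← ModPoly.coeffMap_twist]
      exact coeffMap_mem_tfSub (tame_twist hq.out.ne_zero hv2 (ht e))

end Desc

section Inert

local notation "Qb" => AlgebraicClosure ℚ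

variable {A : ValuationSubring Qb} {κ : Type*} [Field κ] {π : A →+* κ} [IsLocalHom π]

theorem inert_memA {σ : Qb ≃+* Qb} (hσ : σ ∈ inertΓ A) {a : Qb} (ha : a ∈ A) : σ a ∈ A := by
  obtain ⟨s, hs, rfl⟩ := hσ
  exact (mem_iff_decomp (decomp_of_inertia hs) a).mp ha

theorem inert_resA {σ : Qb ≃+* Qb} (hσ : σ ∈ inertΓ A) (a : A) :
    π ⟨σ a, inert_memA hσ a.2⟩ = π a := by
  rw [← sub_eq_zero, ← map_sub, pi_eq_zero_iff]
  obtain ⟨s, hs, rfl⟩ := hσ
  exact (EC.trivMod_of_mem_inertia A hs).int a ((A.valuation_le_one_iff _).mpr a.2)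

/-- inertia acts trivially on Gauss residues -/
theorem GR.inertA {σ : Qb ≃+* Qb} (hσ : σ ∈ inertΓ A) {x : LaurentSeries Qb} {b : LaurentSeries κ}
    (h : GR A π x b) : GR A π (coeffMap (σ : Qb →+* Qb) x) b := by
  obtain ⟨h1, rfl⟩ := h
  obtain ⟨h2, e2⟩ := gauss_sigma (A := A) (π := π) (σ := (σ : Qb →+* Qb)) (s := RingHom.id κ)
    (fun a ha => inert_memA hσ ha) (fun a => inert_resA hσ a) h1
  refine ⟨h2, e2.trans ?_⟩
  ext n
  rfl

end Inert

end Fermat.Agent.Car
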