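import Fermat.Agent.Car.Defs

/-!
Approximation for three discrete valuations.
-/

set_option autoImplicit false

noncomputable section

namespace Fermat.Agent.Car

variable {F F₁ : Type*} [Field F] [Field F₁] {FK : Subfield F}

/-- an element with a lower bound for the valuation -/
theorem RV.exists_ge (V : RV FK F₁) {f : F} (hf : f ∈ FK) : ∃ n : ℤ, V.Ge n f := by
  rcases eq_or_ne f 0 with rfl | hf0
  · exact ⟨0, RV.Ge.zero V 0⟩
  · obtain ⟨n, a, -, h⟩ := V.exists_LR hf hf0
    exact ⟨n, h.ge⟩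

theorem surj_of (V : Fin 3 → RV FK F₁) (h : Fin 3 → F) (hb : Fin 3 → F₁) (hb0 : ∀ i, hb i ≠ 0)
    (hh : ∀ i, (V i).LR 0 (h i) (hb i)) (hh' : ∀ i j, i ≠ j → (V j).Ge 1 (h i))
    (lift : ∀ i (a : F₁), ∃ x ∈ FK, (V i).LR 0 x a) :
    ∀ (n : Fin 3 → ℤ) (a : Fin 3 → F₁), ∃ f : F, ∀ i, (V i).LR (n i) f (a i) := by
  intro n a
  -- the sum of the `h i`
  have hs : ∀ j, (V j).LR 0 (∑ i, h i) (hb j) := by
    intro j
    have h1 : (V j).LR 0 (∑ i, h i) (∑ i, if i = j then hb j else 0) := by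
      refine RV.LR.sum _ fun i _ => ?_
      split_ifs with hij
      · subst hij
        exact hh i
      · exact (hh' i j hij).lr_zero one_pos
    rwa [Finset.sum_ite_eq' Finset.univ j, if_pos (Finset.mem_univ j)] at h1
  let s : F := ∑ i, h i
  let w : Fin 3 → F := fun i => h i / s
  have hw : ∀ i, (V i).LR 0 (w i) 1 := by
    intro i
    have h1 := (hh i).div (hs i) (hb0 i)
    rw [div_self (hb0 i), sub_zero] at h1
    exact h1
  have hw' : ∀ i j, i ≠ j → (V j).Ge 1 (w i) := by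
    intro i j hij
    have h1 := (hh' i j hij).mul ((hs j).inv (hb0 j)).ge
    rw [neg_zero, add_zero, ← div_eq_mul_inv] at h1
    exact h1
  choose x hxK hx using lift
  let y : Fin 3 → F := fun i => (V i).ε ^ n i * x i (a i)
  have hy : ∀ i, (V i).LR (n i) (y i) (a i) := by
    intro i
    have h1 := (RV.LR.zpow_eps (V i) (n i)).mul (hx i (a i))
    rwa [add_zero, one_mul] at h1
  have hyK : ∀ i, y i ∈ FK := fun i =>
    FK.mul_mem (zpow_mem (V i).ε_mem_FK _) (hxK i (a i))
  have hbound : ∀ i j, ∃ B : ℕ, ∀ m : ℕ, B ≤ m → i ≠ j → (V j).LR (n j) (w i ^ m * y i) 0 := by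
    intro i j
    by_cases hij : i = j
    · exact ⟨0, fun m _ h => absurd hij h⟩
    obtain ⟨c, hc⟩ := (V j).exists_ge (hyK i)
    refine ⟨(n j + 1 - c).toNat, fun m hm _ => ?_⟩
    obtain ⟨b, hb⟩ := (hw' i j hij).exists_LR
    have h1 := (hb.pow m).ge.mul hc
    refine h1.lr_zero ?_
    have h2 : n j + 1 - c ≤ ((n j + 1 - c).toNat : ℤ) := Int.self_le_toNat _
    have h3 : ((n j + 1 - c).toNat : ℤ) ≤ m := by exact_mod_cast hm
    linarith
  choose B hB using hbound
  let m : ℕ := ∑ i, ∑ j, B i j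
  have hm : ∀ i j, B i j ≤ m := fun i j =>
    (Finset.single_le_sum (f := fun j => B i j) (fun _ _ => Nat.zero_le _) (Finset.mem_univ j)).trans
      (Finset.single_le_sum (f := fun i => ∑ j, B i j) (fun _ _ => Nat.zero_le _)
        (Finset.mem_univ i))
  refine ⟨∑ i, w i ^ m * y i, fun j => ?_⟩
  have h1 : (V j).LR (n j) (∑ i, w i ^ m * y i) (∑ i, if i = j then a j else 0) := by
    refine RV.LR.sum _ fun i _ => ?_
    split_ifs with hij
    · subst hij
      have h2 := ((hw i).pow m).mul (hy i)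
      rw [mul_zero, zero_add, one_pow, one_mul] at h2
      exact h2
    · exact hB i j m (hm i j) hij
  rwa [Finset.sum_ite_eq' Finset.univ j, if_pos (Finset.mem_univ j)] at h1

end Fermat.Agent.Car
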