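import Fermat.Agent.Car.GR
import Fermat.Agent.Car.Emb
import Fermat.Agent.Car.ValSurj
import Fermat.Agent.Car.ValBdd
import Fermat.Agent.BadRed.KLConc

/-!
# Project CAR, block C7: residues of functions of level `N q` along the three embeddings
-/

set_option autoImplicit false
set_option linter.unusedSectionVars false

noncomputable section

open AlgebraicCurve Module ModularCurve HahnSeries IntermediateField

namespace Fermat.Agent.Car

open Fermat.Agent.Igusa Fermat.Agent.BadRed Fermat.Agent.ModPoly Fermat.Agent.HeckeRed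
  Fermat.Agent.FunField

section GRmore

variable {L : Type*} [Field L] {A : ValuationSubring L} {κ : Type*} [Field κ] {π : A →+* κ}
  {y : LaurentSeries L} {b : LaurentSeries κ}

theorem GR.qExpand (d : ℕ) [NeZero d] (h : GR A π y b) :
    GR A π (ModularCurve.qExpand L d y) (ModularCurve.qExpand κ d b) := by
  obtain ⟨h1, rfl⟩ := h
  obtain ⟨h2, h3⟩ := qExpand_mem_gauss (A := A) (π := π) d h1
  exact ⟨h2, h3⟩

theorem GR.twistP {r : ℕ} [Fact r.Prime] [CharP κ r] {v : Lˣ} (hv : v ^ r = 1)
    (h : GR A π y b) : GR A π (ModPoly.twist v y) b := by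
  obtain ⟨h1, rfl⟩ := h
  obtain ⟨h2, h3⟩ := gauss_twist_of_pow (A := A) (π := π) hv h1
  exact ⟨h2, h3⟩

theorem GR.smul_cst (h : GR A π y b) (a : A) : GR A π (algebraMap L (LaurentSeries L) (a : L) * y)
    (algebraMap κ (LaurentSeries κ) (π a) * b) := (GR.cst a).mul h

end GRmore

section Emb

variable {L : Type*} [Field L] [IsAlgClosed L] [CharZero L] {A : ValuationSubring L}
  {κ : Type*} [Field κ] {π : A →+* κ} {N q : ℕ} [hq : Fact q.Prime] [hN : NeZero N]
  (hqN : ¬ q ∣ N)

/-- the first embedding -/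
def emb0 (L : Type*) [Field L] (N q : ℕ) :
    modularFunctionFieldFullC L (N * q * q) →ₐ[L] LaurentSeries L :=
  (modularFunctionFieldFullC L (N * q * q)).val

theorem emb0_apply (f : modularFunctionFieldFullC L (N * q * q)) :
    emb0 L N q f = (f : LaurentSeries L) := rfl

/-- the third embedding -/
def emb2 : modularFunctionFieldFullC L (N * q * q) →ₐ[L] LaurentSeries L :=
  (emb0 L N q).comp (WW L N q hqN).toAlgHom

theorem emb2_apply (f : modularFunctionFieldFullC L (N * q * q)) :
    emb2 hqN f = (WW L N q hqN f : LaurentSeries L) := rfl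

theorem emb2_al (x : modularFunctionFieldFullC L (N * q)) :
    emb2 hqN (al L N q x) = ModularCurve.qExpand L q (ww L N q hqN x : LaurentSeries L) := by
  rw [emb2_apply, WW_al, coe_be]

theorem emb2_be (x : modularFunctionFieldFullC L (N * q)) :
    emb2 hqN (be L N q x) = (ww L N q hqN x : LaurentSeries L) := by
  rw [emb2_apply, WW_be, coe_al]

end Emb

section Res

variable {L : Type*} [Field L] [IsAlgClosed L] [CharZero L] {A : ValuationSubring L}
  {κ : Type*} [Field κ] {π : A →+* κ} [IsLocalHom π] {hπ : Function.Surjective π}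
  {harch : ArchA π}
  {N r : ℕ} [hr : Fact r.Prime] [hN : NeZero N] [CharP κ r] {hrN : ¬ r ∣ N}
  {x : modularFunctionFieldFullC L (N * r)} {a b : modularFunctionFieldFullC κ N}

theorem gr_of_er₁ (h : (twoVal A π hπ harch N r hrN).V₁.ER x a) :
    GR A π (x : LaurentSeries L) (a : LaurentSeries κ) := er₁_gauss A π hπ harch N r hrN |>.mp h

theorem er₁_iff_gr : (twoVal A π hπ harch N r hrN).V₁.ER x a ↔
    GR A π (x : LaurentSeries L) (a : LaurentSeries κ) := er₁_gauss A π hπ harch N r hrN

theorem er₂_iff_gr : (twoVal A π hπ harch N r hrN).V₂.ER x a ↔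
    GR A π (ww L N r hrN x : LaurentSeries L) (a : LaurentSeries κ) := by
  rw [er₂_iff, er₁_iff_gr]

end Res

section Fix

variable {L : Type*} [Field L] [IsAlgClosed L] [CharZero L]
  {N r : ℕ} [hr : Fact r.Prime] [hN : NeZero N] {hrN : ¬ r ∣ N} {Γ₀ : Set (L ≃+* L)}

theorem al_mem_fix {x : modularFunctionFieldFullC L (N * r)}
    (hx : x ∈ fixF (coefΓ L (N * r) Γ₀)) : al L N r x ∈ fixF (coefΓ L (N * r * r) Γ₀) := by
  rw [mem_fixF_coefΓ] at hx ⊢
  intro n
  rw [coe_al]
  exact hx n

theorem be_mem_fix {x : modularFunctionFieldFullC L (N * r)}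
    (hx : x ∈ fixF (coefΓ L (N * r) Γ₀)) : be L N r x ∈ fixF (coefΓ L (N * r * r) Γ₀) := by
  rw [mem_fixF_coefΓ] at hx ⊢
  intro n
  rw [coe_be]
  by_cases hn : (r : ℤ) ∣ n
  · obtain ⟨m, rfl⟩ := hn
    rw [qExpand_coeff_mul]
    exact hx m
  · rw [qExpand_coeff_of_not_dvd r _ hn]
    exact (fix₀ Γ₀).zero_mem

/-- the Atkin-Lehner involution preserves the rational functions -/
theorem WW_mem_fix {f : modularFunctionFieldFullC L (N * r * r)}
    (hf : f ∈ fixF (coefΓ L (N * r * r) Γ₀)) :
    WW L N r hrN f ∈ fixF (coefΓ L (N * r * r) Γ₀) := by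
  rintro g ⟨σ, hσ, hg⟩
  have hgc : ∀ a : L, g • (algebraMap L (modularFunctionFieldFullC L (N * r * r)) a) =
      algebraMap L _ (σ a) := fun a => by
    rw [SemilinearAut.smul_algebraMap, baseAut_of_coef hg]
  obtain ⟨g₁, hg₁⟩ := exists_coefAut L (N * r) σ
  have hal : ∀ x, g • (al L N r x) = al L N r (g₁ • x) := by
    intro x
    apply Subtype.ext
    rw [hg, coe_al, coe_al, hg₁]
  have hbe : ∀ x, g • (be L N r x) = be L N r (g₁ • x) := by
    intro x
    apply Subtype.ext
    rw [hg, coe_be, coe_be, hg₁, coeffMap_qExpand]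
  have hww : ∀ x, ww L N r hrN (g₁ • x) = g₁ • (ww L N r hrN x) := fun x =>
    ww_smul N r hrN hg₁ x
  let u : modularFunctionFieldFullC L (N * r * r) →+* modularFunctionFieldFullC L (N * r * r) :=
    (SemilinearAut.toRingAut g : _ →+* _).comp ((WW L N r hrN).toAlgHom.toRingHom)
  let u' : modularFunctionFieldFullC L (N * r * r) →+* modularFunctionFieldFullC L (N * r * r) :=
    ((WW L N r hrN).toAlgHom.toRingHom).comp (SemilinearAut.toRingAut g : _ →+* _)
  have h1 : ∀ z, u z = g • WW L N r hrN z := fun z => rfl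
  have h2 : ∀ z, u' z = WW L N r hrN (g • z) := fun z => rfl
  have h3 : u = u' := by
    apply ringHom_ext_ab
    · intro x
      rw [h1, h2, WW_al, hbe, hal, WW_al, hww]
    · intro x
      rw [h1, h2, WW_be, hal, hbe, WW_be, hww]
  have h4 := DFunLike.congr_fun h3 f
  rw [h1, h2, hf g ⟨σ, hσ, hg⟩] at h4
  exact h4

end Fix

end Fermat.Agent.Car
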