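import Fermat.Agent.Car.Psi2

/-!
# The Atkin–Lehner automorphism `w_{p²}` of the function field of `X₀(N p²)`, `p ∤ N`
-/

set_option autoImplicit false

noncomputable section

open ModularCurve Fermat.Agent.ModPoly Polynomial IntermediateField

namespace Fermat.Agent.Car

open Fermat.Agent.ModDeg Fermat.Agent.AtkinLehner

variable {K : Type*} [Field K] [IsAlgClosed K] {N p : ℕ} [hp : Fact p.Prime]

theorem dvd_mul_prime_sq_cases {d N p : ℕ} (hp : p.Prime) (hd : d ∣ N * p * p) :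
    d ∣ N ∨ (∃ e, e ∣ N ∧ d = e * p) ∨ ∃ e, e ∣ N ∧ d = e * (p * p) := by
  rw [mul_assoc] at hd
  obtain ⟨y, z, hy, hz, rfl⟩ := Nat.dvd_mul.mp hd
  obtain ⟨a, b, ha, hb, rfl⟩ := Nat.dvd_mul.mp hz
  rcases (Nat.dvd_prime hp).mp ha with rfl | rfl <;> rcases (Nat.dvd_prime hp).mp hb with rfl | rfl
  · left; simpa using hy
  · right; left; exact ⟨y, hy, by rw [one_mul]⟩
  · right; left; exact ⟨y, hy, by rw [mul_one]⟩
  · right; right; exact ⟨y, hy, rfl⟩

set_option maxHeartbeats 1600000 in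
/-- The embedding `F_{Np²} → K((t))` over `h ↦ (w_p h)(t^p)` sending `j(q^{dp²})` to `j(t^d)`. -/
theorem exists_tau₂ (hNK : (N : K) ≠ 0) (hpK : (p : K) ≠ 0) (hpN : ¬ p ∣ N) :
    ∃ σ : modularFunctionFieldFullC K (N * p * p) →+* LaurentSeries K,
      (∀ (x : LaurentSeries K) (hx : x ∈ modularFunctionFieldFullC K (N * p))
        (h' : x ∈ modularFunctionFieldFullC K (N * p * p)), σ ⟨x, h'⟩ =
          (haveI : NeZero p := ⟨hp.out.ne_zero⟩;
            qExpand K p (w hNK hpK hpN ⟨x, hx⟩ : LaurentSeries K))) ∧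
      (∀ d : ℕ, d ∣ N → ∀ h : vj K (d * (p * p)) ∈ modularFunctionFieldFullC K (N * p * p),
        σ ⟨vj K (d * (p * p)), h⟩ = vj K d) := by
  have hN : N ≠ 0 := by rintro rfl; simp at hNK
  obtain ⟨v, hv⟩ := exists_primitiveRoot_unit hp.out hpK
  have hNp : N * p ≠ 0 := mul_ne_zero hN hp.out.ne_zero
  have : NeZero N := ⟨hN⟩
  have : NeZero p := ⟨hp.out.ne_zero⟩
  have : NeZero (N * p) := ⟨hNp⟩
  have : NeZero (N * p * p) := ⟨mul_ne_zero hNp hp.out.ne_zero⟩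
  have hEE' : modularFunctionFieldFullC K (N * p) ≤ modularFunctionFieldFullC K (N * p * p) :=
    full_degeneracyC_le K (Dvd.intro p rfl)
  have hk1 : vj K p ∈ modularFunctionFieldFullC K (N * p) :=
    vj_mem_full K hp.out.ne_zero (Dvd.intro_left N rfl)
  have hk : vj K 1 ∈ modularFunctionFieldFullC K (N * p) :=
    vj_mem_full K one_ne_zero (one_dvd _)
  let τ : modularFunctionFieldFullC K (N * p) →+* LaurentSeries K :=
    (qExpand K p).comp (((modularFunctionFieldFullC K (N * p)).val : _ →+* LaurentSeries K).comp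
      (w hNK hpK hpN : _ ≃ₐ[K] _).toAlgHom.toRingHom)
  have hτ : ∀ x, τ x = qExpand K p (w hNK hpK hpN x : LaurentSeries K) := fun x => rfl
  have hτd : ∀ d, d ∣ N → ∀ h : vj K (d * p) ∈ modularFunctionFieldFullC K (N * p),
      τ ⟨vj K (d * p), h⟩ = vj K (d * p) := by
    intro d hd h
    have hd0 : d ≠ 0 := by rintro rfl; exact hN (Nat.eq_zero_of_zero_dvd hd)
    rw [hτ, w_vj_mul hNK hpK hpN hd, qExpand_vj K p d hd0]
  have hτ0 : ∀ d, d ∣ N → ∀ h : vj K d ∈ modularFunctionFieldFullC K (N * p),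
      τ ⟨vj K d, h⟩ = vj K (d * p * p) := by
    intro d hd h
    have hd0 : d ≠ 0 := by rintro rfl; exact hN (Nat.eq_zero_of_zero_dvd hd)
    rw [hτ, w_vj hNK hpK hpN hd, qExpand_vj K p _ (mul_ne_zero hd0 hp.out.ne_zero)]
  have hτp : τ ⟨vj K p, hk1⟩ = vj K p := by
    have h1 := hτd 1 (one_dvd _) (by rw [one_mul]; exact hk1)
    have e : (⟨vj K (1 * p), by rw [one_mul]; exact hk1⟩ : modularFunctionFieldFullC K (N * p)) =
        ⟨vj K p, hk1⟩ := Subtype.ext (congrArg (vj K) (one_mul p))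
    rw [e, one_mul] at h1
    exact h1
  have hτ1 : τ ⟨vj K 1, hk⟩ = vj K (p * p) := by
    rw [hτ0 1 (one_dvd _), one_mul]
  have hroot : (phi p (τ ⟨vj K p, hk1⟩)).eval (jqModC K) = 0 := by
    rw [hτp, vj_eq]
    exact eval_phi_qExpand_jq hv
  have hne : jqModC K ≠ τ ⟨vj K 1, hk⟩ := by
    rw [hτ1, vj_eq]
    have hpp : NeZero (p * p) := ⟨mul_ne_zero hp.out.ne_zero hp.out.ne_zero⟩
    intro h
    have h1 := congrArg HahnSeries.order h
    rw [order_qExpand, order_jqModC] at h1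
    have h2 : (2 : ℤ) ≤ p := by exact_mod_cast hp.out.two_le
    push_cast at h1
    nlinarith
  obtain ⟨σ, hσ1, hσ2⟩ := exists_ext₂ (K := K) (Ω := LaurentSeries K) hNK hpK hpN τ hk1 hk
    (y := jqModC K) hroot hne
  -- transfer of a modular relation
  have htrans : ∀ (ℓ : ℕ) [Fact ℓ.Prime] (x y : LaurentSeries K)
      (hx : x ∈ modularFunctionFieldFullC K (N * p * p))
      (hy : y ∈ modularFunctionFieldFullC K (N * p * p)),
      (phi ℓ x).eval y = 0 → (phi ℓ (σ ⟨x, hx⟩)).eval (σ ⟨y, hy⟩) = 0 := by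
    intro ℓ _ x y hx hy h
    have h1 : (phi ℓ (⟨x, hx⟩ : modularFunctionFieldFullC K (N * p * p))).eval
        (⟨y, hy⟩ : modularFunctionFieldFullC K (N * p * p)) = 0 := by
      apply ((modularFunctionFieldFullC K (N * p * p)).val : _ →+* LaurentSeries K).injective
      rw [map_zero, ← Polynomial.eval₂_hom, ← Polynomial.eval_map, phi_map]
      exact h
    rw [← phi_map, Polynomial.eval_map, Polynomial.eval₂_hom, h1, map_zero]
  refine ⟨σ, fun x hx h' => hσ1 x hx h', ?_⟩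
  intro d
  induction d using induction_on_primes with
  | zero => intro h; exact absurd (Nat.eq_zero_of_zero_dvd h) hN
  | one =>
    intro _ h
    have e : (⟨vj K (1 * (p * p)), h⟩ : modularFunctionFieldFullC K (N * p * p)) =
        ⟨vj K (p * p), by rw [one_mul] at h; exact h⟩ := by
      apply Subtype.ext
      exact congrArg (vj K) (one_mul (p * p))
    rw [e, hσ2, vj_one]
  | prime_mul ℓ a hℓ ih =>
    intro hd h
    have : Fact ℓ.Prime := ⟨hℓ⟩
    have hℓK : (ℓ : K) ≠ 0 := by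
      intro h0
      apply hNK
      obtain ⟨c, rfl⟩ := hd
      push_cast
      rw [h0, zero_mul, zero_mul]
    obtain ⟨w', hw⟩ := exists_primitiveRoot_unit hℓ hℓK
    have ha : a ∣ N := (Dvd.intro_left ℓ rfl).trans hd
    have ha0 : a ≠ 0 := fun h0 => hN (Nat.eq_zero_of_zero_dvd (h0 ▸ ha))
    have hpp : p * p ≠ 0 := mul_ne_zero hp.out.ne_zero hp.out.ne_zero
    have happ : a * (p * p) ≠ 0 := mul_ne_zero ha0 hpp
    have haE : vj K (a * (p * p)) ∈ modularFunctionFieldFullC K (N * p * p) :=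
      vj_mem_full K happ (by rw [mul_assoc]; exact Nat.mul_dvd_mul_right ha _)
    have hℓa0 : ℓ * a * p ≠ 0 := mul_ne_zero (mul_ne_zero hℓ.ne_zero ha0) hp.out.ne_zero
    have hℓaE : vj K (ℓ * a * p) ∈ modularFunctionFieldFullC K (N * p) :=
      vj_mem_full K hℓa0 (Nat.mul_dvd_mul_right hd p)
    have h1 := htrans ℓ (vj K (a * (p * p))) (vj K (ℓ * a * (p * p))) haE h
      (eval_phi_vj hw happ (by ring))
    rw [ih ha haE] at h1
    have h2 := htrans p (vj K (ℓ * a * p)) (vj K (ℓ * a * (p * p))) (hEE' hℓaE) h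
      (eval_phi_vj hv hℓa0 (by ring))
    rw [hσ1 _ hℓaE, hτd _ hd] at h2
    have h3 : vj K (a * ℓ * p) = vj K (ℓ * a * p) := by rw [mul_comm a ℓ]
    rw [← h3] at h2
    have h4 := eq_vj_of_roots hpK ha0 hℓK h1 h2
    exact h4.trans (by rw [mul_comm])

set_option maxHeartbeats 1600000 in
/-- **The Atkin–Lehner involution `w_{p²}`**, existence. -/
theorem exists_w₂ (hNK : (N : K) ≠ 0) (hpK : (p : K) ≠ 0) (hpN : ¬ p ∣ N) :
    ∃ W : modularFunctionFieldFullC K (N * p * p) ≃ₐ[K] modularFunctionFieldFullC K (N * p * p),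
      (∀ (x : LaurentSeries K) (hx : x ∈ modularFunctionFieldFullC K (N * p))
        (h' : x ∈ modularFunctionFieldFullC K (N * p * p)), (W ⟨x, h'⟩ : LaurentSeries K) =
          (haveI : NeZero p := ⟨hp.out.ne_zero⟩;
            qExpand K p (w hNK hpK hpN ⟨x, hx⟩ : LaurentSeries K))) ∧
      (∀ d : ℕ, d ∣ N → ∀ h : vj K (d * (p * p)) ∈ modularFunctionFieldFullC K (N * p * p),
        (W ⟨vj K (d * (p * p)), h⟩ : LaurentSeries K) = vj K d) ∧
      (∀ x, W (W x) = x) := by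
  have hN : N ≠ 0 := by rintro rfl; simp at hNK
  have : NeZero p := ⟨hp.out.ne_zero⟩
  have : NeZero (N * p) := ⟨mul_ne_zero hN hp.out.ne_zero⟩
  have : NeZero (N * p * p) := ⟨mul_ne_zero (mul_ne_zero hN hp.out.ne_zero) hp.out.ne_zero⟩
  have hEE' : modularFunctionFieldFullC K (N * p) ≤ modularFunctionFieldFullC K (N * p * p) :=
    full_degeneracyC_le K (Dvd.intro p rfl)
  have hd0 : ∀ d, d ∣ N → d ≠ 0 := by
    rintro d hd rfl
    exact hN (Nat.eq_zero_of_zero_dvd hd)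
  have hp0 := hp.out.ne_zero
  have hτ := exists_tau₂ (K := K) hNK hpK hpN
  set E' := modularFunctionFieldFullC K (N * p * p) with hE'
  obtain ⟨τ, h1, h2⟩ := hτ
  have hmemE : ∀ d, d ∣ N * p → d ≠ 0 → vj K d ∈ modularFunctionFieldFullC K (N * p) :=
    fun d hd h0 => vj_mem_full K h0 hd
  have t0 : ∀ d : ℕ, d ∣ N → ∀ h : vj K d ∈ E', τ ⟨vj K d, h⟩ = vj K (d * (p * p)) := by
    intro d hd h
    rw [h1 _ (hmemE d (hd.mul_right p) (hd0 d hd)) h, w_vj hNK hpK hpN hd,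
      qExpand_vj K p _ (mul_ne_zero (hd0 d hd) hp0), mul_assoc]
  have t1 : ∀ d : ℕ, d ∣ N → ∀ h : vj K (d * p) ∈ E', τ ⟨vj K (d * p), h⟩ = vj K (d * p) := by
    intro d hd h
    rw [h1 _ (hmemE (d * p) (Nat.mul_dvd_mul_right hd p) (mul_ne_zero (hd0 d hd) hp0)) h,
      w_vj_mul hNK hpK hpN hd, qExpand_vj K p _ (hd0 d hd)]
  have hτK : ∀ c : K, τ (algebraMap K E' c) = algebraMap K (LaurentSeries K) c := by
    intro c
    have h3 := h1 (algebraMap K (LaurentSeries K) c)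
      ((modularFunctionFieldFullC K (N * p)).algebraMap_mem c) (E'.algebraMap_mem c)
    have h4 : (⟨algebraMap K (LaurentSeries K) c,
        (modularFunctionFieldFullC K (N * p)).algebraMap_mem c⟩ :
        modularFunctionFieldFullC K (N * p)) = algebraMap K _ c := rfl
    rw [h4, AlgEquiv.commutes] at h3
    exact h3.trans (qExpand_algebraMap c)
  have m0 : ∀ d : ℕ, d ∣ N → vj K d ∈ E' := fun d hd => vj_mem_full K (hd0 d hd)
    ((hd.mul_right p).mul_right p)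
  have m1 : ∀ d : ℕ, d ∣ N → vj K (d * p) ∈ E' := fun d hd =>
    vj_mem_full K (mul_ne_zero (hd0 d hd) hp0) ((Nat.mul_dvd_mul_right hd p).mul_right p)
  have m2 : ∀ d : ℕ, d ∣ N → vj K (d * (p * p)) ∈ E' := fun d hd =>
    vj_mem_full K (mul_ne_zero (hd0 d hd) (mul_ne_zero hp0 hp0))
      (by rw [mul_assoc]; exact Nat.mul_dvd_mul_right hd _)
  have hmem : ∀ x, τ x ∈ E'.toSubfield := by
    refine ringHom_mem τ E'.toSubfield (fun c => ?_) (fun d hd hd' => ?_)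
    · rw [hτK]
      exact E'.algebraMap_mem c
    · rcases dvd_mul_prime_sq_cases hp.out hd with hd1 | ⟨e, he, rfl⟩ | ⟨e, he, rfl⟩
      · rw [t0 d hd1]; exact m2 d hd1
      · rw [t1 e he]; exact m1 e he
      · rw [h2 e he]; exact m0 e he
  let w₀ : E' →+* E' := τ.codRestrict E' hmem
  have hw₀ : ∀ x, (w₀ x : LaurentSeries K) = τ x := fun x => rfl
  let w₁ : E' →ₐ[K] E' := { w₀ with
    commutes' := fun c => Subtype.ext (hτK c) }
  have hw₁ : ∀ x, (w₁ x : LaurentSeries K) = τ x := fun x => rfl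
  have a0 : ∀ d : ℕ, ∀ hd : d ∣ N, ∀ (h : vj K d ∈ E'), w₁ ⟨vj K d, h⟩ = ⟨_, m2 d hd⟩ := by
    intro d hd h
    apply Subtype.ext
    rw [hw₁, t0 d hd h]
  have a1 : ∀ d : ℕ, ∀ hd : d ∣ N, ∀ (h : vj K (d * p) ∈ E'),
      w₁ ⟨vj K (d * p), h⟩ = ⟨_, m1 d hd⟩ := by
    intro d hd h
    apply Subtype.ext
    rw [hw₁, t1 d hd h]
  have a2 : ∀ d : ℕ, ∀ hd : d ∣ N, ∀ (h : vj K (d * (p * p)) ∈ E'),
      w₁ ⟨vj K (d * (p * p)), h⟩ = ⟨_, m0 d hd⟩ := by
    intro d hd h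
    apply Subtype.ext
    rw [hw₁, h2 d hd h]
  have hww : (w₁.comp w₁ : E' →+* E') = RingHom.id E' := by
    refine ringHom_ext (M := E') _ _ (fun c => ?_) (fun d hd hd' => ?_)
    · show w₁ (w₁ (algebraMap K E' c)) = _
      rw [AlgHom.commutes, AlgHom.commutes]
      rfl
    · show w₁ (w₁ _) = _
      rcases dvd_mul_prime_sq_cases hp.out hd with hd1 | ⟨e, he, rfl⟩ | ⟨e, he, rfl⟩
      · rw [a0 d hd1, a2 d hd1]
        rfl
      · rw [a1 e he, a1 e he]
        rfl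
      · rw [a2 e he, a0 e he]
        rfl
  have hww' : w₁.comp w₁ = AlgHom.id K E' :=
    AlgHom.ext fun x => DFunLike.congr_fun hww x
  refine ⟨AlgEquiv.ofAlgHom w₁ w₁ hww' hww', ?_, ?_, ?_⟩
  · intro x hx h'
    exact h1 x hx h'
  · intro d hd h
    exact h2 d hd h
  · intro x
    exact DFunLike.congr_fun hww' x

section W

variable (hNK : (N : K) ≠ 0) (hpK : (p : K) ≠ 0) (hpN : ¬ p ∣ N)

/-- **The Atkin–Lehner involution** `w_{p²}` on the function field of `X₀(Np²)`. -/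
def w₂ : modularFunctionFieldFullC K (N * p * p) ≃ₐ[K] modularFunctionFieldFullC K (N * p * p) :=
  (exists_w₂ hNK hpK hpN).choose

/-- `w_{p²} h = (w_p h)(q^p)` for `h ∈ F_{Np}` -/
theorem w₂_apply_of_mem {x : LaurentSeries K} (hx : x ∈ modularFunctionFieldFullC K (N * p))
    (h' : x ∈ modularFunctionFieldFullC K (N * p * p)) :
    (w₂ hNK hpK hpN ⟨x, h'⟩ : LaurentSeries K) =
      (haveI : NeZero p := ⟨hp.out.ne_zero⟩;
        qExpand K p (w hNK hpK hpN ⟨x, hx⟩ : LaurentSeries K)) :=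
  (exists_w₂ hNK hpK hpN).choose_spec.1 x hx h'

theorem w₂_vj {d : ℕ} (hd : d ∣ N)
    (h : vj K (d * (p * p)) ∈ modularFunctionFieldFullC K (N * p * p)) :
    (w₂ hNK hpK hpN ⟨vj K (d * (p * p)), h⟩ : LaurentSeries K) = vj K d :=
  (exists_w₂ hNK hpK hpN).choose_spec.2.1 d hd h

theorem w₂_w₂ (x : modularFunctionFieldFullC K (N * p * p)) :
    w₂ hNK hpK hpN (w₂ hNK hpK hpN x) = x :=
  (exists_w₂ hNK hpK hpN).choose_spec.2.2 x

theorem w₂_symm : (w₂ hNK hpK hpN).symm = w₂ hNK hpK hpN := by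
  refine AlgEquiv.ext fun x => ?_
  rw [AlgEquiv.symm_apply_eq, w₂_w₂]

/-- `w_{p²} a = a(q^{p²})` for `a ∈ F_N` -/
theorem w₂_apply_of_mem' {x : LaurentSeries K} (hx : x ∈ modularFunctionFieldFullC K N)
    (h' : x ∈ modularFunctionFieldFullC K (N * p * p)) :
    (w₂ hNK hpK hpN ⟨x, h'⟩ : LaurentSeries K) =
      (haveI : NeZero p := ⟨hp.out.ne_zero⟩; qExpand K p (qExpand K p x)) := by
  have hN : N ≠ 0 := by rintro rfl; simp at hNK
  have : NeZero N := ⟨hN⟩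
  have : NeZero p := ⟨hp.out.ne_zero⟩
  have : NeZero (N * p) := ⟨mul_ne_zero hN hp.out.ne_zero⟩
  have hx' : x ∈ modularFunctionFieldFullC K (N * p) := full_degeneracyC_le K (Dvd.intro p rfl) hx
  rw [w₂_apply_of_mem hNK hpK hpN hx', w_apply_of_mem hNK hpK hpN hx]

/-- `w_{p²} (a(q^{p²})) = a` for `a ∈ F_N` -/
theorem w₂_incl₂ (x : modularFunctionFieldFullC K N) :
    (w₂ hNK hpK hpN (incl₂ hNK x) : LaurentSeries K) = (x : LaurentSeries K) := by
  have hN : N ≠ 0 := by rintro rfl; simp at hNK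
  have : NeZero N := ⟨hN⟩
  have : NeZero p := ⟨hp.out.ne_zero⟩
  have : NeZero (N * p * p) := ⟨mul_ne_zero (mul_ne_zero hN hp.out.ne_zero) hp.out.ne_zero⟩
  have hx' : (x : LaurentSeries K) ∈ modularFunctionFieldFullC K (N * p * p) :=
    full_degeneracyC_le K (by rw [mul_assoc]; exact Dvd.intro (p * p) rfl) x.2
  have e1 : incl₂ hNK x = w₂ hNK hpK hpN ⟨x, hx'⟩ :=
    Subtype.ext (w₂_apply_of_mem' hNK hpK hpN x.2 hx').symm
  rw [e1, w₂_w₂]

/-- `w_{p²} (h(q^p)) = w_p h` for `h ∈ F_{Np}` -/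
theorem w₂_qExpand {x : LaurentSeries K} (hx : x ∈ modularFunctionFieldFullC K (N * p))
    (h' : (haveI : NeZero p := ⟨hp.out.ne_zero⟩; qExpand K p x) ∈
      modularFunctionFieldFullC K (N * p * p)) :
    (w₂ hNK hpK hpN ⟨_, h'⟩ : LaurentSeries K) = (w hNK hpK hpN ⟨x, hx⟩ : LaurentSeries K) := by
  have hN : N ≠ 0 := by rintro rfl; simp at hNK
  have : NeZero p := ⟨hp.out.ne_zero⟩
  have : NeZero (N * p) := ⟨mul_ne_zero hN hp.out.ne_zero⟩
  have : NeZero (N * p * p) := ⟨mul_ne_zero (mul_ne_zero hN hp.out.ne_zero) hp.out.ne_zero⟩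
  have hle : modularFunctionFieldFullC K (N * p) ≤ modularFunctionFieldFullC K (N * p * p) :=
    full_degeneracyC_le K (Dvd.intro p rfl)
  have e1 : (⟨_, h'⟩ : modularFunctionFieldFullC K (N * p * p)) =
      w₂ hNK hpK hpN ⟨_, hle (w hNK hpK hpN ⟨x, hx⟩).2⟩ := by
    apply Subtype.ext
    rw [w₂_apply_of_mem hNK hpK hpN (w hNK hpK hpN ⟨x, hx⟩).2]
    have : (⟨(w hNK hpK hpN ⟨x, hx⟩ : LaurentSeries K), (w hNK hpK hpN ⟨x, hx⟩).2⟩ :
        modularFunctionFieldFullC K (N * p)) = w hNK hpK hpN ⟨x, hx⟩ := rfl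
    rw [this, w_w]
  rw [e1, w₂_w₂]

end W

end Fermat.Agent.Car
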